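/-
PROGRAM DS (S48, Deligne–Serre), part G1 — THE CONTRACT (captain helper210).

G1 = "Eichler–Shimura matrix data for `Γ₁(M)` with diamond operators" + the residual engine.
This file fixes the two interfaces between G1 and the rest of DS; it contains NO proof.

* `ES1Data M p T Dm` : the `Γ₁(M)`-twin of `S30.ESData`.  A free `ℤ`-lattice of rank `r` with
  commuting integer matrices `t ℓ` (Hecke) and `d u` (`u ∈ (ℤ/M)ˣ`, diamonds), a continuous
  `p`-adic Galois action `ρ` commuting with them, unramified outside `M p`, with the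
  Eichler–Shimura relation WITH DIAMOND
      `ρ(σ)² - t_ℓ ρ(σ) + ℓ • d_ℓ = 0`        (`σ` a Frobenius over `ℓ ∤ M p`),
  and an injective map `Φ : V → ℂ^r` intertwining the operators `T ℓ`, `Dm u` of a complex vector
  space `V` with `t ℓ`, `d u`.  `V`, `T`, `Dm` are PARAMETERS: DS instantiates
  `V := CuspForm (Gamma1 M) 2`, `T := Hecke1.heckeT1`, `Dm := Hecke1.diamond` (brick B,
  helper170), so this file does not wait for those definitions.

  CONVENTIONS (truth-critical, fixed here):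
  - analytic picture `Γ₁(M) \ ℍ` with the standard cusp `∞`; the function field is the field of
    `Γ₁(M)`-invariant functions with `q`-expansion at `∞` in `ℚ̄((q))`, `G_ℚ` acts coefficientwise
    (i.e. the `ℚ`-model in which the standard cusp `∞` is rational);
  - `⟨u⟩ f := f ∘ γ_u`, `γ_u ∈ Γ₀(M)` with lower right entry `≡ u mod M`; `T_ℓ` by the standard
    cosets `[[1,i],[0,ℓ]]` (`i < ℓ`) and `γ_ℓ [[ℓ,0],[0,1]]`, so that on `q`-expansions
    `(T_ℓ f)(q) = (⟨ℓ⟩f)(q^ℓ) · ∏_i f(ζ^i q^{1/ℓ})` (functions), resp.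
    `a_n(T_ℓ g) = a_{nℓ}(g) + ℓ a_{n/ℓ}(⟨ℓ⟩ g)` (weight-2 forms);
  - then `T_ℓ f ≡ (σ⁻¹⟨ℓ⟩f)^ℓ · σ f` modulo a prime over `ℓ` (`σ` the arithmetic Frobenius acting
    on coefficients), which on Kummer classes reads `σ² - T_ℓ σ + ℓ ⟨ℓ⟩ = 0`: the diamond sits
    on the constant term and NOT on the `t_ℓ` term;
  - `d (-1) = 1` (`-1 ∈ Γ₀(M)` acts trivially), so the determinant character
    `cyclo_p · (e ∘ cyclo_M)` takes the value `-1` at complex conjugation.

* `ResidualExit` : what the residual engine proves from `ES1Data` (the analogue of S29):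
  for a joint eigenvector `v ≠ 0` of the `T ℓ` (`ℓ ∤ M p`) and `Dm u` with eigenvalues
  `a ℓ`, `e u` in `𝔸 = integralClosure ℤ ℂ`, and a ring hom `φ : 𝔸 → k`, `char k = p ≠ 2`, a
  representation `ρbar : G_ℚ → GL₂(k)` of finite level, unramified outside `M p`, with
  `charpoly ρbar(Frob_ℓ) = X² - φ(a ℓ) X + ℓ · φ(e ℓ)`.
  (For S48: `M = N p`, `v` = a characteristic-0 lift of the eigensystem of `f · E_p`,
  `a ℓ ↦ a_ℓ(f)`, `e ℓ ↦ ε(ℓ) ω⁻¹(ℓ)`, so the polynomial is `X² - a_ℓ X + ε(ℓ)` in `k`.)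

* `ProducerExit T Dm` : what the producer proves: `Nonempty (ES1Data M p (T M) (Dm M))` for all
  `M`, `p`.

Layers of G1 (rows `DS.G1.*` of the `tasks` table):
  L0  this file.
  L1  abstract limit: `G1/Limit.lean`, `G1/Pairing.lean` (helper13, landed): a Kummer pairing over
      an abstract field with a `G_ℚ`-action and endomorphisms of a f.g. abelian group `A` gives
      `ρ`, `t`, `d`, the commutations, `cont`, `unr`, `es`; an injective period map gives `occ`.
  L2  objects: the function field `F1 M ⊆ ℚ̄((q))` with `galF1`, `heckeF1`, `diaF1`; the Betti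
      group `A1 M = Γ₁(M)^ab / ⟨parabolic, elliptic⟩` with transfers `tau1 ℓ`, `dia1 u`; the
      Kummer relation `KRel1` (holomorphic `m`-th root on `ℍ` with multiplier `c`).
  L3  bricks: Root, ParEll, Inj, Surj, HeckeRoot, DiaRoot, Closed, HeckeGal, DiaGal, K1 (`unr`),
      ES (congruence + injectivity of reduction), Period/Occ.
  L4  modular inputs of the Model theorem for `L = F1(M)·E` over `E(j)` (degree, GaussUnram,
      HorizUnram, LocPow), auxiliary levels for residue characteristic 2 and 3.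
  LE  the residual engine `ResidualExit` (needs only L0).
-/
import Mathlib
import Fermat.Prelude.Def_GaloisRep_Residual
import Fermat.Prelude.Def_EllipticCurve_FrobeniusTrace
import Fermat.Prelude.Def_FLTPrelim_Ramification

set_option autoImplicit false

open Polynomial

namespace Fermat.Agent.S48.G1

/-- The absolute Galois group of `ℚ` (as in the frozen statements). -/
abbrev GQ1 : Type := AlgebraicClosure ℚ ≃ₐ[ℚ] AlgebraicClosure ℚ

/-- The ring of all algebraic integers (inside `ℂ`). -/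
abbrev AlgInt : Subalgebra ℤ ℂ := integralClosure ℤ ℂ

/-- **Eichler–Shimura matrix data with diamonds** for level `Γ₁(M)` and the prime `p`, relative
to a complex vector space `V` with operators `T ℓ` (Hecke) and `Dm u` (diamonds). -/
structure ES1Data (M p : ℕ) [NeZero M] [Fact p.Prime] {V : Type} [AddCommGroup V] [Module ℂ V]
    (T : ℕ → Module.End ℂ V) (Dm : (ZMod M)ˣ → Module.End ℂ V) where
  /-- rank of the lattice -/
  r : ℕ
  /-- integer Hecke matrices (only the values at primes `ℓ ∤ M p` matter) -/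
  t : ℕ → Matrix (Fin r) (Fin r) ℤ
  /-- integer diamond matrices -/
  d : (ZMod M)ˣ →* Matrix (Fin r) (Fin r) ℤ
  /-- the `p`-adic Galois action -/
  ρ : GQ1 →* Matrix (Fin r) (Fin r) ℤ_[p]
  t_comm : ∀ ℓ ℓ' : ℕ, Commute (t ℓ) (t ℓ')
  td_comm : ∀ (ℓ : ℕ) (u : (ZMod M)ˣ), Commute (t ℓ) (d u)
  /-- `⟨-1⟩ = 1` -/
  d_neg_one : d (-1) = 1
  ρ_comm_t : ∀ (σ : GQ1) (ℓ : ℕ), Commute (ρ σ) ((t ℓ).map (Int.castRingHom ℤ_[p]))
  ρ_comm_d : ∀ (σ : GQ1) (u : (ZMod M)ˣ), Commute (ρ σ) ((d u).map (Int.castRingHom ℤ_[p]))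
  /-- continuity: modulo `p ^ n` the action factors through a finite quotient -/
  cont : ∀ n : ℕ, ∃ L : IntermediateField ℚ (AlgebraicClosure ℚ), FiniteDimensional ℚ L ∧
    ∀ σ : GQ1, (∀ x ∈ L, σ x = x) →
      ∀ i j, (ρ σ - 1) i j ∈ Ideal.span {(p : ℤ_[p]) ^ n}
  /-- unramified outside `M p` -/
  unr : ∀ q : ℕ, q.Prime → ¬ q ∣ M → q ≠ p →
    ∀ P : ValuationSubring (AlgebraicClosure ℚ), P.LiesOverPrime q →
      ∀ σ ∈ P.inertiaSubgroupIn ℚ, ρ σ = 1
  /-- the Eichler–Shimura relation with diamond at Frobenius elements -/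
  es : ∀ ℓ : ℕ, ℓ.Prime → ¬ ℓ ∣ M → ℓ ≠ p →
    ∀ u : (ZMod M)ˣ, (u : ZMod M) = (ℓ : ZMod M) →
      ∀ A : ValuationSubring (AlgebraicClosure ℚ), A.LiesOverPrime ℓ →
        ∀ σ : GQ1, A.IsFrobeniusAt σ ℓ →
          ρ σ * ρ σ - (t ℓ).map (Int.castRingHom ℤ_[p]) * ρ σ
            + (ℓ : ℤ_[p]) • (d u).map (Int.castRingHom ℤ_[p]) = 0
  /-- the space `V` occurs: an injective map into `ℂ^r` intertwining the operators -/
  occ : ∃ Φ : V →ₗ[ℂ] (Fin r → ℂ), Function.Injective Φ ∧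
    (∀ ℓ : ℕ, ℓ.Prime → ¬ ℓ ∣ M → ℓ ≠ p → ∀ f : V,
        Φ (T ℓ f) = ((t ℓ).map (Int.castRingHom ℂ)).mulVec (Φ f)) ∧
    (∀ (u : (ZMod M)ˣ) (f : V),
        Φ (Dm u f) = ((d u).map (Int.castRingHom ℂ)).mulVec (Φ f))

/-- **Exit of the residual engine** (the analogue of S29 for `Γ₁(M)` with nebentypus). -/
def ResidualExit : Prop :=
  ∀ (M p : ℕ) [NeZero M] [Fact p.Prime], p ≠ 2 →
    ∀ {V : Type} [AddCommGroup V] [Module ℂ V] (T : ℕ → Module.End ℂ V)
      (Dm : (ZMod M)ˣ → Module.End ℂ V), Nonempty (ES1Data M p T Dm) →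
    ∀ (v : V), v ≠ 0 → ∀ (a : ℕ → AlgInt) (e : (ZMod M)ˣ → AlgInt),
      (∀ ℓ : ℕ, ℓ.Prime → ¬ ℓ ∣ M → ℓ ≠ p → T ℓ v = ((a ℓ : AlgInt) : ℂ) • v) →
      (∀ u : (ZMod M)ˣ, Dm u v = ((e u : AlgInt) : ℂ) • v) →
    ∀ {k : Type} [Field k] [CharP k p] (φ : AlgInt →+* k),
      ∃ ρbar : GQ1 →* GL (Fin 2) k, GaloisFactorsThroughFiniteLevel ρbar ∧
        ∀ ℓ : ℕ, ℓ.Prime → ¬ ℓ ∣ M → ℓ ≠ p →
          ∀ u : (ZMod M)ˣ, (u : ZMod M) = (ℓ : ZMod M) →
            ∀ P : ValuationSubring (AlgebraicClosure ℚ), P.LiesOverPrime ℓ →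
              (∀ σ ∈ P.inertiaSubgroupIn ℚ, ρbar σ = 1) ∧
              ∀ σ : GQ1, P.IsFrobeniusAt σ ℓ →
                ((ρbar σ : GL (Fin 2) k) : Matrix (Fin 2) (Fin 2) k).charpoly
                  = X ^ 2 - C (φ (a ℓ)) * X + C ((ℓ : k) * φ (e u))

/-- **Exit of the producer**: Eichler–Shimura data with diamonds exist at every level `M ≥ 1`
and every prime `p`, for the operator families `T M`, `Dm M` on the spaces `V M`. -/
def ProducerExit (V : ℕ → Type) [∀ M, AddCommGroup (V M)] [∀ M, Module ℂ (V M)]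
    (T : ∀ M : ℕ, ℕ → Module.End ℂ (V M))
    (Dm : ∀ M : ℕ, (ZMod M)ˣ → Module.End ℂ (V M)) : Prop :=
  ∀ (M p : ℕ) [NeZero M] [Fact p.Prime], Nonempty (ES1Data M p (T M) (Dm M))

end Fermat.Agent.S48.G1
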