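/-
PROGRAM DS (S48) / G1 — SEAM FILE (helper52, truth-reviewer): the TOTAL operator families that
instantiate the parameters `V`, `T`, `Dm` of `G1/Contract.lean` with brick B (`S48/Hecke1`).

`G1.ES1Data M p T Dm` and `G1.ProducerExit V T Dm` take `T : ℕ → Module.End ℂ V` total in `ℓ`
and `T, Dm` total in the level `M : ℕ` (no `NeZero`), whereas `Hecke1.heckeT1 M k hp hpM` takes
the proofs `hp : p.Prime`, `hpM : ¬ p ∣ M` and both operators need `[NeZero M]`.  This file fixes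
ONE wrapper for each, so that the producer (`occ`) and the consumer (brick E / J1) are typed
against the SAME constants:

* `Ops.Top M ℓ`  : `Hecke1.heckeT1 M 2 _ _` if `M ≠ 0`, `ℓ` prime, `ℓ ∤ M`;  `0` otherwise;
* `Ops.Dop M u`  : `Hecke1.diamond M 2 u` if `M ≠ 0`;  `1` otherwise;
* `Ops.ProducerExitDS` : the literal statement the G1 producer proves;
* `Ops.residual_of_exits` : `ResidualExit` + `ProducerExitDS` in the vocabulary of brick B
  (no `dite` left): an eigenvector `v ≠ 0` of all `heckeT1 M 2` (`ℓ ∤ M p`) and `diamond M 2 u`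
  with eigenvalues in `𝔸` gives the residual representation.
-/
import Fermat.Agent.S48.G1.Contract
import Fermat.Agent.S48.Hecke1.Bundle

set_option autoImplicit false

namespace Fermat.Agent.S48.G1.Ops

open CongruenceSubgroup Polynomial
open scoped MatrixGroups

/-- The total Hecke family on `S₂(Γ₁(M))`: `T_ℓ` for primes `ℓ ∤ M` (and `M ≠ 0`), else `0`. -/
noncomputable def Top (M : ℕ) (ℓ : ℕ) : Module.End ℂ (CuspForm (Gamma1 M) 2) :=
  if h : M ≠ 0 ∧ ℓ.Prime ∧ ¬ ℓ ∣ M then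
    haveI : NeZero M := ⟨h.1⟩
    Hecke1.heckeT1 M 2 h.2.1 h.2.2
  else 0

/-- The total diamond family on `S₂(Γ₁(M))`: `⟨u⟩` if `M ≠ 0`, else `1`. -/
noncomputable def Dop (M : ℕ) (u : (ZMod M)ˣ) : Module.End ℂ (CuspForm (Gamma1 M) 2) :=
  if h : M ≠ 0 then
    haveI : NeZero M := ⟨h⟩
    Hecke1.diamond M 2 u
  else 1

theorem Top_eq (M : ℕ) [NeZero M] {ℓ : ℕ} (hℓ : ℓ.Prime) (hM : ¬ ℓ ∣ M) :
    Top M ℓ = Hecke1.heckeT1 M 2 hℓ hM :=
  dif_pos ⟨NeZero.ne M, hℓ, hM⟩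

theorem Top_apply (M : ℕ) [NeZero M] {ℓ : ℕ} (hℓ : ℓ.Prime) (hM : ¬ ℓ ∣ M)
    (f : CuspForm (Gamma1 M) 2) : Top M ℓ f = Hecke1.heckeT1 M 2 hℓ hM f := by
  rw [Top_eq M hℓ hM]

theorem Dop_eq (M : ℕ) [NeZero M] (u : (ZMod M)ˣ) : Dop M u = Hecke1.diamond M 2 u :=
  dif_pos (NeZero.ne M)

theorem Dop_apply (M : ℕ) [NeZero M] (u : (ZMod M)ˣ) (f : CuspForm (Gamma1 M) 2) :
    Dop M u f = Hecke1.diamond M 2 u f := by
  rw [Dop_eq]

/-- **The literal producer statement of G1**: Eichler–Shimura data with diamonds for the spaces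
`S₂(Γ₁(M))` with the operators of brick B. -/
def ProducerExitDS : Prop :=
  ProducerExit (fun M : ℕ => CuspForm (Gamma1 M) 2) Top Dop

/-- `ResidualExit` + `ProducerExitDS`, stated with the operators of brick B. -/
theorem residual_of_exits (hR : ResidualExit) (hP : ProducerExitDS)
    (M p : ℕ) [NeZero M] [Fact p.Prime] (hp2 : p ≠ 2)
    (v : CuspForm (Gamma1 M) 2) (hv : v ≠ 0) (a : ℕ → AlgInt) (e : (ZMod M)ˣ → AlgInt)
    (ha : ∀ (ℓ : ℕ) (hℓ : ℓ.Prime) (hM : ¬ ℓ ∣ M), ℓ ≠ p →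
      Hecke1.heckeT1 M 2 hℓ hM v = ((a ℓ : AlgInt) : ℂ) • v)
    (he : ∀ u : (ZMod M)ˣ, Hecke1.diamond M 2 u v = ((e u : AlgInt) : ℂ) • v)
    {k : Type} [Field k] [CharP k p] (φ : AlgInt →+* k) :
    ∃ ρbar : GQ1 →* GL (Fin 2) k, GaloisFactorsThroughFiniteLevel ρbar ∧
      ∀ ℓ : ℕ, ℓ.Prime → ¬ ℓ ∣ M → ℓ ≠ p →
        ∀ u : (ZMod M)ˣ, (u : ZMod M) = (ℓ : ZMod M) →
          ∀ P : ValuationSubring (AlgebraicClosure ℚ), P.LiesOverPrime ℓ →
            (∀ σ ∈ P.inertiaSubgroupIn ℚ, ρbar σ = 1) ∧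
            ∀ σ : GQ1, P.IsFrobeniusAt σ ℓ →
              ((ρbar σ : GL (Fin 2) k) : Matrix (Fin 2) (Fin 2) k).charpoly
                = X ^ 2 - C (φ (a ℓ)) * X + C ((ℓ : k) * φ (e u)) :=
  hR M p hp2 (Top M) (Dop M) (hP M p) v hv a e
    (fun ℓ hℓ hM hne => by rw [Top_apply M hℓ hM]; exact ha ℓ hℓ hM hne)
    (fun u => by rw [Dop_apply]; exact he u) φ

end Fermat.Agent.S48.G1.Ops
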