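/-
PROGRAM DS (S48) / G1, residual engine (helper186): REDUCTION OF AN EIGENSYSTEM, field level.

A commutative ring `R` of integer matrices and a ring homomorphism `ψ : R →+* k` to a field:
there is a nonzero common eigenvector in `k^r` on which every `x ∈ R` acts through `ψ x`.
No lattice, no valuation ring, no lift to characteristic zero: `ℤ^r` (transposed action) is a
finite faithful `R`-module, so the prime `ker ψ` is in its support, so
`κ(ker ψ) ⊗_R ℤ^r ≠ 0`; a nonzero functional on it is the eigenvector.

Corollary (`exists_eigenvector_mod`): a complex joint eigenvector of commuting integer matrices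
with eigenvalues `a i` in the ring of algebraic integers reduces, along any ring hom
`φ : 𝔸 → k`, to a nonzero joint eigenvector over `k` with eigenvalues `φ (a i)`.

Mathlib only.
-/
import Mathlib

set_option autoImplicit false

open TensorProduct

namespace Fermat.Agent.S48.G1.EigenRed

section Core

variable {R : Type} [CommRing R] {r : ℕ}

/-- The transposed action of a commutative ring of integer matrices on `ℤ^r`, as a ring hom
into the endomorphism ring. -/
noncomputable def actHom (ι : R →+* Matrix (Fin r) (Fin r) ℤ) :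
    R →+* Module.End ℤ (Fin r → ℤ) where
  toFun x := Matrix.toLin' (ι x).transpose
  map_one' := by
    rw [map_one, Matrix.transpose_one, Matrix.toLin'_one]; rfl
  map_mul' x y := by
    rw [mul_comm x y, map_mul, Matrix.transpose_mul, Matrix.toLin'_mul]; rfl
  map_zero' := by
    rw [map_zero, Matrix.transpose_zero, map_zero]
  map_add' x y := by
    rw [map_add, Matrix.transpose_add, map_add]

theorem actHom_apply (ι : R →+* Matrix (Fin r) (Fin r) ℤ) (x : R) (m : Fin r → ℤ) :
    actHom ι x m = (ι x).transpose.mulVec m := by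
  simp [actHom, Matrix.toLin'_apply]

/-- **Core.**  A ring hom from a commutative ring of integer matrices to a field has a nonzero
common eigenvector over that field. -/
theorem exists_eigenvector_of_ringHom (ι : R →+* Matrix (Fin r) (Fin r) ℤ)
    (hι : Function.Injective ι) {k : Type} [Field k] (ψ : R →+* k) :
    ∃ w : Fin r → k, w ≠ 0 ∧
      ∀ x : R, ((ι x).map (Int.castRingHom k)).mulVec w = ψ x • w := by
  classical
  let modR : Module R (Fin r → ℤ) := Module.compHom (Fin r → ℤ) (actHom ι)
  have hsmul : ∀ (x : R) (m : Fin r → ℤ), x • m = (ι x).transpose.mulVec m := fun x m =>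
    actHom_apply ι x m
  have : IsScalarTower ℤ R (Fin r → ℤ) := ⟨fun n x m => by
    rw [hsmul, hsmul, map_zsmul, Matrix.transpose_smul, Matrix.smul_mulVec]⟩
  have : Module.Finite R (Fin r → ℤ) := Module.Finite.of_restrictScalars_finite ℤ R _
  -- the module is faithful
  have hann : Module.annihilator R (Fin r → ℤ) = ⊥ := by
    rw [eq_bot_iff]
    intro x hx
    rw [Module.mem_annihilator] at hx
    rw [Ideal.mem_bot]
    apply hι
    rw [map_zero]
    have h0 : (ι x).transpose = 0 := by
      ext i j
      have := congrFun (hx (Pi.single j 1)) i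
      rw [hsmul] at this
      simpa [Matrix.mulVec_single] using this
    have := congrArg Matrix.transpose h0
    simpa using this
  -- the prime `ker ψ` is in the support
  obtain ⟨p, hpker⟩ : ∃ p : PrimeSpectrum R, p.asIdeal = RingHom.ker ψ :=
    ⟨⟨RingHom.ker ψ, RingHom.ker_isPrime ψ⟩, rfl⟩
  have hp : p ∈ Module.support R (Fin r → ℤ) := by
    rw [Module.mem_support_iff_of_finite, hann]
    exact bot_le
  have hnt : Nontrivial (p.asIdeal.ResidueField ⊗[R] (Fin r → ℤ)) :=
    (Module.mem_support_iff_nontrivial_residueField_tensorProduct p).mp hp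
  -- the residue field maps to `k`
  let g : p.asIdeal.ResidueField →+* k :=
    Ideal.ResidueField.lift p.asIdeal ψ (le_of_eq hpker) (by
      intro x hx
      have hx' : ψ x ≠ 0 := fun h => hx (by rw [hpker]; exact RingHom.mem_ker.mpr h)
      exact isUnit_iff_ne_zero.mpr hx')
  have hg : ∀ x : R, g (algebraMap R p.asIdeal.ResidueField x) = ψ x := fun x =>
    Ideal.ResidueField.lift_algebraMap _ _ _ _ x
  -- a nonzero functional on the fibre
  obtain ⟨t, ht⟩ := exists_ne (0 : p.asIdeal.ResidueField ⊗[R] (Fin r → ℤ))
  obtain ⟨F, hF⟩ : ∃ F : Module.Dual p.asIdeal.ResidueField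
      (p.asIdeal.ResidueField ⊗[R] (Fin r → ℤ)), F t ≠ 0 := by
    by_contra hcon
    push Not at hcon
    exact ht ((Module.forall_dual_apply_eq_zero_iff p.asIdeal.ResidueField t).mp hcon)
  -- the semilinear functional on `ℤ^r`
  let lam : (Fin r → ℤ) →+ k :=
    { toFun := fun m => g (F ((1 : p.asIdeal.ResidueField) ⊗ₜ[R] m))
      map_zero' := by rw [TensorProduct.tmul_zero, map_zero, map_zero]
      map_add' := fun m m' => by rw [TensorProduct.tmul_add, map_add, map_add] }
  have hlam : ∀ m, lam m = g (F ((1 : p.asIdeal.ResidueField) ⊗ₜ[R] m)) := fun m => rfl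
  have hlam_smul : ∀ (x : R) (m : Fin r → ℤ), lam (x • m) = ψ x * lam m := by
    intro x m
    rw [hlam, hlam, ← hg x, ← map_mul, ← smul_eq_mul (a := algebraMap R _ x), ← map_smul,
      TensorProduct.smul_tmul', ← TensorProduct.smul_tmul, smul_eq_mul, mul_one,
      Algebra.smul_def, mul_one]
  have hlam_ne : ∃ m, lam m ≠ 0 := by
    by_contra hcon
    push Not at hcon
    apply hF
    have hF0 : ∀ m : Fin r → ℤ, F ((1 : p.asIdeal.ResidueField) ⊗ₜ[R] m) = 0 := by
      intro m
      have := hcon m
      rw [hlam] at this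
      exact (map_eq_zero g).mp this
    have hFall : ∀ t' : p.asIdeal.ResidueField ⊗[R] (Fin r → ℤ), F t' = 0 := by
      intro t'
      induction t' using TensorProduct.induction_on with
      | zero => exact map_zero F
      | tmul c m =>
        have : c ⊗ₜ[R] m = c • ((1 : p.asIdeal.ResidueField) ⊗ₜ[R] m) := by
          rw [TensorProduct.smul_tmul', smul_eq_mul, mul_one]
        rw [this, map_smul, hF0, smul_zero]
      | add a b ha hb => rw [map_add, ha, hb, add_zero]
    exact hFall t
  -- coordinates of the functional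
  let w : Fin r → k := fun j => lam (Pi.single j 1)
  have hexp : ∀ m : Fin r → ℤ, lam m = ∑ j, (m j : k) * w j := by
    intro m
    have hm : m = ∑ j, m j • (Pi.single j (1 : ℤ) : Fin r → ℤ) := by
      ext i
      simp [Finset.sum_apply, Pi.single_apply]
    conv_lhs => rw [hm]
    rw [map_sum]
    refine Finset.sum_congr rfl fun j _ => ?_
    rw [map_zsmul, zsmul_eq_mul]
  refine ⟨w, ?_, ?_⟩
  · intro hw
    obtain ⟨m, hm⟩ := hlam_ne
    apply hm
    rw [hexp]
    simp [hw]
  · intro x
    funext j
    have h1 : lam (x • (Pi.single j (1 : ℤ) : Fin r → ℤ)) = ψ x * w j := hlam_smul x _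
    rw [hexp] at h1
    rw [Pi.smul_apply, smul_eq_mul, ← h1, Matrix.mulVec, dotProduct]
    refine Finset.sum_congr rfl fun i _ => ?_
    rw [hsmul, Matrix.mulVec_single, Matrix.map_apply]
    simp

end Core

section Subalgebra

variable {r : ℕ}

/-- **Subalgebra form.**  A commutative subalgebra of integer matrices and a ring hom from it to
a field: there is a nonzero common eigenvector over that field. -/
theorem exists_common_eigenvector (S : Subalgebra ℤ (Matrix (Fin r) (Fin r) ℤ))
    (hS : ∀ x ∈ S, ∀ y ∈ S, x * y = y * x) {k : Type} [Field k] (ψ : S →+* k) :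
    ∃ w : Fin r → k, w ≠ 0 ∧
      ∀ x : S, ((x : Matrix (Fin r) (Fin r) ℤ).map (Int.castRingHom k)).mulVec w = ψ x • w := by
  let _ : CommRing S :=
    { (inferInstance : Ring S) with
      mul_comm := fun x y => Subtype.ext (hS x x.2 y y.2) }
  exact exists_eigenvector_of_ringHom (R := S) S.val.toRingHom Subtype.val_injective ψ

/-- **Reduction of a complex eigenvector.**  Commuting integer matrices `t i` with a joint
complex eigenvector `z ≠ 0` whose eigenvalues `a i` are algebraic integers: for every ring hom
`φ` from the ring of algebraic integers to a field `k` there is a nonzero joint eigenvector over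
`k` with eigenvalues `φ (a i)`. -/
theorem exists_eigenvector_mod {ι : Type*} (t : ι → Matrix (Fin r) (Fin r) ℤ)
    (hcomm : ∀ i j, t i * t j = t j * t i)
    (z : Fin r → ℂ) (hz : z ≠ 0) (a : ι → integralClosure ℤ ℂ)
    (hza : ∀ i, ((t i).map (Int.castRingHom ℂ)).mulVec z
      = ((a i : integralClosure ℤ ℂ) : ℂ) • z)
    {k : Type} [Field k] (φ : integralClosure ℤ ℂ →+* k) :
    ∃ w : Fin r → k, w ≠ 0 ∧
      ∀ i, ((t i).map (Int.castRingHom k)).mulVec w = φ (a i) • w := by
  classical
  let S : Subalgebra ℤ (Matrix (Fin r) (Fin r) ℤ) := Algebra.adjoin ℤ (Set.range t)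
  have hmc : IsMulCommutative S := Algebra.isMulCommutative_adjoin ℤ (by
    rintro _ ⟨i, rfl⟩ _ ⟨j, rfl⟩
    exact hcomm i j)
  have hS : ∀ x ∈ S, ∀ y ∈ S, x * y = y * x := fun x hx y hy =>
    congrArg Subtype.val (hmc.is_comm.comm ⟨x, hx⟩ ⟨y, hy⟩)
  -- every element of `S` acts on `z` through an algebraic integer
  let E : Subalgebra ℤ (Matrix (Fin r) (Fin r) ℤ) :=
    { carrier := {x | ∃ α : integralClosure ℤ ℂ,
        (x.map (Int.castRingHom ℂ)).mulVec z = (α : ℂ) • z}
      mul_mem' := by
        rintro x y ⟨α, hα⟩ ⟨β, hβ⟩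
        refine ⟨α * β, ?_⟩
        rw [Matrix.map_mul, ← Matrix.mulVec_mulVec, hβ, Matrix.mulVec_smul, hα, smul_smul,
          mul_comm]
        push_cast
        rfl
      add_mem' := by
        rintro x y ⟨α, hα⟩ ⟨β, hβ⟩
        refine ⟨α + β, ?_⟩
        rw [Matrix.map_add (Int.castRingHom ℂ) (fun _ _ => map_add _ _ _), Matrix.add_mulVec, hα,
          hβ, ← add_smul]
        push_cast
        rfl
      algebraMap_mem' := by
        intro n
        refine ⟨algebraMap ℤ _ n, ?_⟩
        have h1 : ((algebraMap ℤ (Matrix (Fin r) (Fin r) ℤ) n).map (Int.castRingHom ℂ))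
            = (n : ℂ) • (1 : Matrix (Fin r) (Fin r) ℂ) := by
          ext i j
          by_cases hij : i = j
          · subst hij; simp [Matrix.intCast_apply]
          · simp [Matrix.intCast_apply, hij]
        rw [h1, Matrix.smul_mulVec, Matrix.one_mulVec]
        simp }
  have hSE : S ≤ E := Algebra.adjoin_le (by
    rintro _ ⟨i, rfl⟩
    exact ⟨a i, hza i⟩)
  have huniq : ∀ α β : integralClosure ℤ ℂ, (α : ℂ) • z = (β : ℂ) • z → α = β := by
    intro α β h
    have h2 : ((α : ℂ) - (β : ℂ)) • z = 0 := by rw [sub_smul, h, sub_self]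
    rcases smul_eq_zero.mp h2 with h3 | h3
    · exact Subtype.ext (sub_eq_zero.mp h3)
    · exact absurd h3 hz
  choose c hc using fun x : S => hSE x.2
  let cHom : S →+* integralClosure ℤ ℂ :=
    { toFun := c
      map_one' := by
        apply huniq
        rw [← hc 1]
        simp
      map_mul' := fun x y => by
        apply huniq
        rw [← hc (x * y)]
        push_cast
        rw [Matrix.map_mul, ← Matrix.mulVec_mulVec, hc y, Matrix.mulVec_smul, hc x, smul_smul,
          mul_comm]
      map_zero' := by
        apply huniq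
        rw [← hc 0]
        simp
      map_add' := fun x y => by
        apply huniq
        rw [← hc (x + y)]
        push_cast
        rw [Matrix.map_add (Int.castRingHom ℂ) (fun _ _ => map_add _ _ _), Matrix.add_mulVec,
          hc x, hc y, ← add_smul] }
  obtain ⟨w, hw0, hw⟩ := exists_common_eigenvector S hS (φ.comp cHom)
  refine ⟨w, hw0, fun i => ?_⟩
  have h := hw ⟨t i, Algebra.subset_adjoin ⟨i, rfl⟩⟩
  have hci : c ⟨t i, Algebra.subset_adjoin ⟨i, rfl⟩⟩ = a i := by
    apply huniq
    rw [← hc, hza i]
  rw [RingHom.comp_apply] at h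
  change _ = φ (c _) • w at h
  rw [hci] at h
  exact h

end Subalgebra

end Fermat.Agent.S48.G1.EigenRed
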