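/-
PROGRAM DS (S48) / G1, residual engine (helper186): THE FIELD-LEVEL ENGINE.

A finite-level Galois action `ρ` on `k^r` (`k` a field, `2 ≠ 0`), a nonzero stable subspace `W`,
a finite-level character `ε` with `ε(c) = -1` for an involution `c`, and the Eichler–Shimura
relation `σ² - a_ℓ σ + ε(σ) = 0` on `W` at every Frobenius element `σ` over a prime `ℓ ∉ S`.
Then there is `ρ' : G_ℚ → GL₂(k)`, trivial wherever `ρ` and `ε` are, whose characteristic
polynomial at every such Frobenius is `X² - a_ℓ X + ε(σ)`.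

Proof: every `g` agrees with a power `s^b` of a Frobenius on the level field
(`Lib.FrobeniusDensity`), so by the Lucas relation every `g` satisfies a quadratic relation on
`W` with constant term `ε(g)`, EXACTLY (no approximation: we are over a field); then the landed
Clifford core `S30.ConjClifford.exists_rank_two_rep` with `O := k`.
-/
import Mathlib
import Fermat.Prelude.Def_GaloisRep_Residual
import Fermat.Prelude.Def_EllipticCurve_FrobeniusTrace
import Fermat.Prelude.Def_FLTPrelim_Ramification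
import Fermat.Agent.S30.ConjCliffordLattice
import Fermat.Agent.S30.CycloChar
import Fermat.Agent.Lib.FrobeniusDensity

set_option autoImplicit false

open Polynomial

namespace Fermat.Agent.S48.G1.FieldEngine

local notation "Qb" => AlgebraicClosure ℚ
local notation "Γ" => (AlgebraicClosure ℚ ≃ₐ[ℚ] AlgebraicClosure ℚ)

variable {k : Type} [Field k] {r : ℕ}

/-- A matrix action on `k^r` as an action by endomorphisms. -/
noncomputable def endOf (ρ : Γ →* Matrix (Fin r) (Fin r) k) : Γ →* Module.End k (Fin r → k) :=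
  ((Matrix.toLinAlgEquiv' : Matrix (Fin r) (Fin r) k ≃ₐ[k] Module.End k (Fin r → k)) :
    Matrix (Fin r) (Fin r) k →* Module.End k (Fin r → k)).comp ρ

theorem endOf_apply (ρ : Γ →* Matrix (Fin r) (Fin r) k) (g : Γ) (v : Fin r → k) :
    endOf ρ g v = (ρ g).mulVec v := by
  simp [endOf, Matrix.toLinAlgEquiv'_apply]

/-- Powers of the restriction of a matrix to a stable subspace. -/
theorem restrict_pow_apply (W : Submodule k (Fin r → k)) (Y : Matrix (Fin r) (Fin r) k)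
    (hY : ∀ v ∈ W, Y.mulVecLin v ∈ W) (b : ℕ) (m : W) :
    (((Y.mulVecLin.restrict hY : Module.End k W) ^ b) m : Fin r → k) = (Y ^ b).mulVec m := by
  induction b generalizing m with
  | zero => simp
  | succ b ih =>
    rw [pow_succ, Module.End.mul_apply, ih, pow_succ, ← Matrix.mulVec_mulVec]
    rfl

/-- **Frobenius-power step, exact form.**  Every `g` satisfies a quadratic relation on `W` with
constant term `ε g`. -/
theorem exists_rel (ρ : Γ →* Matrix (Fin r) (Fin r) k) (hρ : GaloisFactorsThroughFiniteLevel ρ)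
    (W : Submodule k (Fin r → k)) (hst : ∀ σ : Γ, ∀ w ∈ W, (ρ σ).mulVec w ∈ W)
    (ε : Γ →* kˣ) (hε : GaloisFactorsThroughFiniteLevel ε) (S : Finset ℕ) (a : ℕ → k)
    (hes : ∀ ℓ : ℕ, ℓ.Prime → ℓ ∉ S → ∀ A : ValuationSubring Qb, A.LiesOverPrime ℓ →
      ∀ σ : Γ, A.IsFrobeniusAt σ ℓ → ∀ w ∈ W,
        (ρ σ).mulVec ((ρ σ).mulVec w) - a ℓ • (ρ σ).mulVec w + ((ε σ : kˣ) : k) • w = 0)
    (g : Γ) :
    ∃ a' : k, ∀ m ∈ W,
      (ρ g).mulVec ((ρ g).mulVec m) - a' • (ρ g).mulVec m + ((ε g : kˣ) : k) • m = 0 := by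
  classical
  obtain ⟨L₁, hL₁fd, hL₁⟩ := hρ
  obtain ⟨L₂, hL₂fd, hL₂⟩ := hε
  have := hL₁fd
  have := hL₂fd
  have : FiniteDimensional ℚ ↥(L₁ ⊔ L₂) := IntermediateField.finiteDimensional_sup L₁ L₂
  obtain ⟨ℓ, A, s, b, hℓ, hℓS, hA, hs, -, hsg⟩ :=
    Fermat.Agent.Lib.FrobeniusDensity.exists_frobenius_pow_eq (L₁ ⊔ L₂) S g
  have hσfix : ∀ x ∈ L₁ ⊔ L₂, ((s ^ b)⁻¹ * g) x = x := by
    intro x hx
    rw [AlgEquiv.mul_apply, ← hsg x hx, ← AlgEquiv.mul_apply, inv_mul_cancel, AlgEquiv.one_apply]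
  have hg : g = s ^ b * ((s ^ b)⁻¹ * g) := by rw [mul_inv_cancel_left]
  have hρg : ρ g = ρ s ^ b := by
    have h1 : ρ ((s ^ b)⁻¹ * g) = 1 :=
      hL₁ _ fun x hx => hσfix x ((le_sup_left : L₁ ≤ L₁ ⊔ L₂) hx)
    conv_lhs => rw [hg]
    rw [map_mul, h1, mul_one, map_pow]
  have hεg : ε g = ε s ^ b := by
    have h1 : ε ((s ^ b)⁻¹ * g) = 1 :=
      hL₂ _ fun x hx => hσfix x ((le_sup_right : L₂ ≤ L₁ ⊔ L₂) hx)
    conv_lhs => rw [hg]
    rw [map_mul, h1, mul_one, map_pow]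
  -- the restriction of `ρ s` to `W`
  have hstY : ∀ v ∈ W, (ρ s).mulVecLin v ∈ W := fun v hv => hst s v hv
  obtain ⟨x, hx⟩ : ∃ x : Module.End k W, x = (ρ s).mulVecLin.restrict hstY := ⟨_, rfl⟩
  have hxm : ∀ m : W, ((x m : W) : Fin r → k) = (ρ s).mulVec m := by
    intro m
    rw [hx]
    rfl
  have hrel : x * x - a ℓ • x + ((ε s : kˣ) : k) • (1 : Module.End k W) = 0 := by
    apply LinearMap.ext
    intro m
    apply Subtype.ext
    have h := hes ℓ hℓ hℓS A hA s hs m m.2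
    simp only [LinearMap.add_apply, LinearMap.sub_apply, LinearMap.smul_apply,
      Module.End.mul_apply, Module.End.one_apply, LinearMap.zero_apply, Submodule.coe_add,
      Submodule.coe_sub, Submodule.coe_smul, Submodule.coe_zero, hxm]
    exact h
  have hluc := Fermat.Agent.S30.CycloChar.lucas_algebra x (a ℓ) ((ε s : kˣ) : k) hrel b
  refine ⟨Fermat.Agent.S30.CycloChar.lucasS (a ℓ) ((ε s : kˣ) : k) b, fun m hm => ?_⟩
  have hpow : ∀ m' : W, (((x ^ b) m' : W) : Fin r → k) = (ρ g).mulVec m' := by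
    intro m'
    rw [hx, restrict_pow_apply, hρg]
  have h := congrArg (fun f : Module.End k W => ((f ⟨m, hm⟩ : W) : Fin r → k)) hluc
  simp only [LinearMap.add_apply, LinearMap.sub_apply, LinearMap.smul_apply,
    Module.End.mul_apply, Module.End.one_apply, LinearMap.zero_apply, Submodule.coe_add,
    Submodule.coe_sub, Submodule.coe_smul, Submodule.coe_zero, hpow] at h
  rw [hεg, Units.val_pow_eq_pow_val]
  exact h

/-- **The field-level engine.** -/
theorem exists_rep (h2 : (2 : k) ≠ 0)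
    (ρ : Γ →* Matrix (Fin r) (Fin r) k) (hρ : GaloisFactorsThroughFiniteLevel ρ)
    (W : Submodule k (Fin r → k)) (hW : W ≠ ⊥)
    (hst : ∀ σ : Γ, ∀ w ∈ W, (ρ σ).mulVec w ∈ W)
    (ε : Γ →* kˣ) (hε : GaloisFactorsThroughFiniteLevel ε)
    (c : Γ) (hc : c * c = 1) (hεc : ε c = -1) (S : Finset ℕ) (a : ℕ → k)
    (hes : ∀ ℓ : ℕ, ℓ.Prime → ℓ ∉ S → ∀ A : ValuationSubring Qb, A.LiesOverPrime ℓ →
      ∀ σ : Γ, A.IsFrobeniusAt σ ℓ → ∀ w ∈ W,
        (ρ σ).mulVec ((ρ σ).mulVec w) - a ℓ • (ρ σ).mulVec w + ((ε σ : kˣ) : k) • w = 0) :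
    ∃ ρ' : Γ →* GL (Fin 2) k,
      (∀ σ : Γ, ρ σ = 1 → ε σ = 1 → ρ' σ = 1) ∧
      ∀ ℓ : ℕ, ℓ.Prime → ℓ ∉ S → ∀ A : ValuationSubring Qb, A.LiesOverPrime ℓ →
        ∀ σ : Γ, A.IsFrobeniusAt σ ℓ →
          ((ρ' σ : GL (Fin 2) k) : Matrix (Fin 2) (Fin 2) k).charpoly
            = X ^ 2 - C (a ℓ) * X + C ((ε σ : kˣ) : k) := by
  classical
  have hstE : ∀ g : Γ, ∀ m ∈ W, endOf ρ g m ∈ W := by
    intro g m hm
    rw [endOf_apply]
    exact hst g m hm
  have hrelE : ∀ g : Γ, ∃ a' : k, ∀ m ∈ W,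
      endOf ρ g (endOf ρ g m) - a' • endOf ρ g m + ((ε g : kˣ) : k) • m = 0 := by
    intro g
    obtain ⟨a', ha'⟩ := exists_rel ρ hρ W hst ε hε S a hes g
    refine ⟨a', fun m hm => ?_⟩
    rw [endOf_apply, endOf_apply]
    exact ha' m hm
  obtain ⟨V, iV1, iV2, iV3, iV4, ρV, hfin, hchar, hcong⟩ :=
    Fermat.Agent.S30.ConjClifford.exists_rank_two_rep (O := k) (G := Γ) (M := Fin r → k) h2
      (endOf ρ) W hW hstE ε hrelE c hc hεc
  let bV : Module.Basis (Fin 2) k V := Module.finBasisOfFinrankEq k V hfin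
  let mHom : Γ →* Matrix (Fin 2) (Fin 2) k :=
    ((LinearMap.toMatrixAlgEquiv bV : Module.End k V ≃ₐ[k] Matrix (Fin 2) (Fin 2) k) :
      Module.End k V →* Matrix (Fin 2) (Fin 2) k).comp ρV
  have hmHom : ∀ g, mHom g = LinearMap.toMatrix bV bV (ρV g) := fun g => rfl
  refine ⟨mHom.toHomUnits, ?_, ?_⟩
  · intro σ hσ1 hσ2
    have hv : ∀ v : V, ρV σ v - v ∈ (⊥ : Ideal k) • (⊤ : Submodule k V) := by
      refine hcong σ (⊥ : Ideal k) ?_ ?_
      · intro m
        have h0 : endOf ρ σ m - m = 0 := by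
          rw [endOf_apply, hσ1, Matrix.one_mulVec, sub_self]
        rw [h0]
        exact Submodule.zero_mem _
      · rw [hσ2, Units.val_one, sub_self]
        exact Submodule.zero_mem _
    have hone : ρV σ = 1 := by
      apply LinearMap.ext
      intro v
      have := hv v
      rw [Submodule.bot_smul, Submodule.mem_bot, sub_eq_zero] at this
      simpa using this
    apply Units.ext
    rw [MonoidHom.coe_toHomUnits, hmHom, hone, Units.val_one]
    exact LinearMap.toMatrix_one bV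
  · intro ℓ hℓ hℓS A hA σ hσ
    have hrel : ∀ m ∈ W,
        endOf ρ σ (endOf ρ σ m) - a ℓ • endOf ρ σ m + ((ε σ : kˣ) : k) • m = 0 := by
      intro m hm
      rw [endOf_apply, endOf_apply]
      exact hes ℓ hℓ hℓS A hA σ hσ m hm
    have key := hchar σ (a ℓ) hrel
    rw [MonoidHom.coe_toHomUnits, hmHom, LinearMap.charpoly_toMatrix]
    exact key

/-- The representation produced by the engine has finite level. -/
theorem finiteLevel_of_ker {ρ : Γ →* Matrix (Fin r) (Fin r) k}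
    (hρ : GaloisFactorsThroughFiniteLevel ρ) {ε : Γ →* kˣ}
    (hε : GaloisFactorsThroughFiniteLevel ε) {ρ' : Γ →* GL (Fin 2) k}
    (hker : ∀ σ : Γ, ρ σ = 1 → ε σ = 1 → ρ' σ = 1) :
    GaloisFactorsThroughFiniteLevel ρ' := by
  obtain ⟨L₁, hL₁fd, hL₁⟩ := hρ
  obtain ⟨L₂, hL₂fd, hL₂⟩ := hε
  have := hL₁fd
  have := hL₂fd
  refine ⟨L₁ ⊔ L₂, IntermediateField.finiteDimensional_sup L₁ L₂, fun σ hσ => ?_⟩
  exact hker σ (hL₁ σ fun x hx => hσ x ((le_sup_left : L₁ ≤ L₁ ⊔ L₂) hx))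
    (hL₂ σ fun x hx => hσ x ((le_sup_right : L₂ ≤ L₁ ⊔ L₂) hx))

end Fermat.Agent.S48.G1.FieldEngine
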