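/-
PROGRAM DS (S48, Deligne–Serre), part G1, layer LE (residual engine) — helper244.

`Γ₁`-twin of `S30/EigenLattice.lean`: the Galois action on `R^r` obtained from `ES1Data` by base
change along `ι : ℤ_[p] →+* R`, and the eigen-lattice of an eigen-system `(c, e)` of the Hecke
matrices `t ℓ` (`ℓ ∤ M p`) and of the diamond matrices `d u` inside `R^r`.

* `ES1Data.tR`, `ES1Data.dR`, `ES1Data.ρR`, `ES1Data.ρEnd` : base changes;
* `eigenLattice1 D c e` : the joint eigen-lattice; `eigenLattice1_stable` (Galois-stable);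
* `ES1Data.es_R` : the Eichler–Shimura relation with diamond after base change;
* `frobenius_relation1` : on the eigen-lattice a Frobenius `σ` over `ℓ ∤ M p` satisfies
  `σ² - c ℓ σ + ℓ e(ℓ) = 0`;
* `exists_character_of_ne_bot` : if the eigen-lattice is nonzero (over a domain) the diamond
  eigenvalues `e` form a character `ψ : (ℤ/M)ˣ →* Rˣ` with `ψ (-1) = 1`.
-/
import Mathlib
import Fermat.Agent.S48.G1.Contract

set_option autoImplicit false

namespace Fermat.Agent.S48.G1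

section

variable {M p : ℕ} [NeZero M] [Fact p.Prime] {V : Type} [AddCommGroup V] [Module ℂ V]
  {T : ℕ → Module.End ℂ V} {Dm : (ZMod M)ˣ → Module.End ℂ V}

/-- The Hecke matrix `t ℓ` with entries cast to a commutative ring `R`. -/
def ES1Data.tR (D : ES1Data M p T Dm) (R : Type*) [CommRing R] (ℓ : ℕ) :
    Matrix (Fin D.r) (Fin D.r) R :=
  (D.t ℓ).map (Int.castRingHom R)

/-- The diamond matrix `d u` with entries cast to a commutative ring `R`. -/
def ES1Data.dR (D : ES1Data M p T Dm) (R : Type*) [CommRing R] (u : (ZMod M)ˣ) :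
    Matrix (Fin D.r) (Fin D.r) R :=
  (D.d u).map (Int.castRingHom R)

theorem ES1Data.dR_one (D : ES1Data M p T Dm) (R : Type*) [CommRing R] : D.dR R 1 = 1 := by
  rw [ES1Data.dR, map_one]
  exact Matrix.map_one _ (map_zero _) (map_one _)

theorem ES1Data.dR_mul (D : ES1Data M p T Dm) (R : Type*) [CommRing R] (u u' : (ZMod M)ˣ) :
    D.dR R (u * u') = D.dR R u * D.dR R u' := by
  rw [ES1Data.dR, ES1Data.dR, ES1Data.dR, map_mul, Matrix.map_mul]

theorem ES1Data.dR_neg_one (D : ES1Data M p T Dm) (R : Type*) [CommRing R] :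
    D.dR R (-1) = 1 := by
  rw [ES1Data.dR, D.d_neg_one]
  exact Matrix.map_one _ (map_zero _) (map_one _)

/-- The Galois action of `D` base-changed along `ι : ℤ_[p] →+* R`, as matrices. -/
noncomputable def ES1Data.ρR (D : ES1Data M p T Dm) {R : Type*} [CommRing R]
    (ι : ℤ_[p] →+* R) : GQ1 →* Matrix (Fin D.r) (Fin D.r) R :=
  (ι.mapMatrix :
    Matrix (Fin D.r) (Fin D.r) ℤ_[p] →+* Matrix (Fin D.r) (Fin D.r) R).toMonoidHom.comp D.ρ

/-- The Galois action of `D` base-changed along `ι`, as endomorphisms of `R^r`. -/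
noncomputable def ES1Data.ρEnd (D : ES1Data M p T Dm) {R : Type*} [CommRing R]
    (ι : ℤ_[p] →+* R) : GQ1 →* Module.End R (Fin D.r → R) :=
  ((Matrix.toLinAlgEquiv' : Matrix (Fin D.r) (Fin D.r) R ≃ₐ[R] Module.End R (Fin D.r → R)) :
    Matrix (Fin D.r) (Fin D.r) R →* Module.End R (Fin D.r → R)).comp (D.ρR ι)

theorem ES1Data.ρEnd_apply (D : ES1Data M p T Dm) {R : Type*} [CommRing R] (ι : ℤ_[p] →+* R)
    (g : GQ1) (v : Fin D.r → R) : D.ρEnd ι g v = (D.ρR ι g).mulVec v := by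
  simp [ES1Data.ρEnd, Matrix.toLinAlgEquiv'_apply]

theorem ES1Data.ρR_apply (D : ES1Data M p T Dm) {R : Type*} [CommRing R] (ι : ℤ_[p] →+* R)
    (g : GQ1) : D.ρR ι g = (D.ρ g).map ι := rfl

/-- `ρ` commutes with the Hecke matrices after base change. -/
theorem ES1Data.ρR_comm_t (D : ES1Data M p T Dm) {R : Type*} [CommRing R] (ι : ℤ_[p] →+* R)
    (g : GQ1) (ℓ : ℕ) : D.ρR ι g * D.tR R ℓ = D.tR R ℓ * D.ρR ι g := by
  have h := D.ρ_comm_t g ℓ
  have h2 : ((D.t ℓ).map (Int.castRingHom ℤ_[p])).map ι = D.tR R ℓ := by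
    ext i j
    simp [ES1Data.tR, Matrix.map_apply]
  have h3 := congrArg (fun X : Matrix (Fin D.r) (Fin D.r) ℤ_[p] => X.map ι) h.eq
  simp only [Matrix.map_mul] at h3
  rw [h2] at h3
  exact h3

/-- `ρ` commutes with the diamond matrices after base change. -/
theorem ES1Data.ρR_comm_d (D : ES1Data M p T Dm) {R : Type*} [CommRing R] (ι : ℤ_[p] →+* R)
    (g : GQ1) (u : (ZMod M)ˣ) : D.ρR ι g * D.dR R u = D.dR R u * D.ρR ι g := by
  have h := D.ρ_comm_d g u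
  have h2 : ((D.d u).map (Int.castRingHom ℤ_[p])).map ι = D.dR R u := by
    ext i j
    simp [ES1Data.dR, Matrix.map_apply]
  have h3 := congrArg (fun X : Matrix (Fin D.r) (Fin D.r) ℤ_[p] => X.map ι) h.eq
  simp only [Matrix.map_mul] at h3
  rw [h2] at h3
  exact h3

/-- The Eichler–Shimura relation with diamond, after base change along `ι`. -/
theorem ES1Data.es_R (D : ES1Data M p T Dm) {R : Type*} [CommRing R] (ι : ℤ_[p] →+* R)
    {ℓ : ℕ} (hℓ : ℓ.Prime) (hℓM : ¬ ℓ ∣ M) (hℓp : ℓ ≠ p) (u : (ZMod M)ˣ)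
    (hu : (u : ZMod M) = (ℓ : ZMod M)) (A : ValuationSubring (AlgebraicClosure ℚ))
    (hA : A.LiesOverPrime ℓ) (σ : GQ1) (hσ : A.IsFrobeniusAt σ ℓ) :
    D.ρR ι σ * D.ρR ι σ - D.tR R ℓ * D.ρR ι σ + (ℓ : R) • D.dR R u = 0 := by
  have h := congrArg (ι.mapMatrix :
    Matrix (Fin D.r) (Fin D.r) ℤ_[p] →+* Matrix (Fin D.r) (Fin D.r) R)
    (D.es ℓ hℓ hℓM hℓp u hu A hA σ hσ)
  rw [map_add, map_sub, map_mul, map_mul, map_zero] at h
  have h2 : ι.mapMatrix ((D.t ℓ).map (Int.castRingHom ℤ_[p])) = D.tR R ℓ := by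
    ext i j
    simp [ES1Data.tR, Matrix.map_apply]
  have h3 : ι.mapMatrix (D.ρ σ) = D.ρR ι σ := rfl
  have h4 : ι.mapMatrix ((ℓ : ℤ_[p]) • (D.d u).map (Int.castRingHom ℤ_[p]))
      = (ℓ : R) • D.dR R u := by
    ext i j
    simp [ES1Data.dR, Matrix.map_apply]
  rw [h2, h3, h4] at h
  exact h

/-- The `(c, e)`-eigen-lattice: vectors of `R^r` on which every `t ℓ` (`ℓ` prime, `ℓ ∤ M`,
`ℓ ≠ p`) acts through the scalar `c ℓ` and every diamond matrix `d u` through the scalar `e u`. -/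
def eigenLattice1 (D : ES1Data M p T Dm) {R : Type*} [CommRing R] (c : ℕ → R)
    (e : (ZMod M)ˣ → R) : Submodule R (Fin D.r → R) where
  carrier := {v | (∀ ℓ : ℕ, ℓ.Prime → ¬ ℓ ∣ M → ℓ ≠ p → (D.tR R ℓ).mulVec v = c ℓ • v) ∧
    ∀ u : (ZMod M)ˣ, (D.dR R u).mulVec v = e u • v}
  add_mem' := by
    rintro v w ⟨hv, hv'⟩ ⟨hw, hw'⟩
    refine ⟨fun ℓ hℓ hℓM hℓp => ?_, fun u => ?_⟩
    · rw [Matrix.mulVec_add, hv ℓ hℓ hℓM hℓp, hw ℓ hℓ hℓM hℓp, smul_add]
    · rw [Matrix.mulVec_add, hv' u, hw' u, smul_add]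
  zero_mem' := ⟨fun ℓ _ _ _ => by simp, fun u => by simp⟩
  smul_mem' := by
    rintro a v ⟨hv, hv'⟩
    refine ⟨fun ℓ hℓ hℓM hℓp => ?_, fun u => ?_⟩
    · rw [Matrix.mulVec_smul, hv ℓ hℓ hℓM hℓp, smul_comm]
    · rw [Matrix.mulVec_smul, hv' u, smul_comm]

theorem mem_eigenLattice1 (D : ES1Data M p T Dm) {R : Type*} [CommRing R] (c : ℕ → R)
    (e : (ZMod M)ˣ → R) (v : Fin D.r → R) :
    v ∈ eigenLattice1 D c e ↔
      (∀ ℓ : ℕ, ℓ.Prime → ¬ ℓ ∣ M → ℓ ≠ p → (D.tR R ℓ).mulVec v = c ℓ • v) ∧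
        ∀ u : (ZMod M)ˣ, (D.dR R u).mulVec v = e u • v := Iff.rfl

/-- The eigen-lattice is stable under the Galois action. -/
theorem eigenLattice1_stable (D : ES1Data M p T Dm) {R : Type*} [CommRing R]
    (ι : ℤ_[p] →+* R) (c : ℕ → R) (e : (ZMod M)ˣ → R) (g : GQ1)
    {v : Fin D.r → R} (hv : v ∈ eigenLattice1 D c e) :
    (D.ρR ι g).mulVec v ∈ eigenLattice1 D c e := by
  obtain ⟨h1, h2⟩ := hv
  refine ⟨fun ℓ hℓ hℓM hℓp => ?_, fun u => ?_⟩
  · rw [Matrix.mulVec_mulVec, ← D.ρR_comm_t ι g ℓ, ← Matrix.mulVec_mulVec, h1 ℓ hℓ hℓM hℓp,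
      Matrix.mulVec_smul]
  · rw [Matrix.mulVec_mulVec, ← D.ρR_comm_d ι g u, ← Matrix.mulVec_mulVec, h2 u,
      Matrix.mulVec_smul]

/-- The eigen-lattice is stable under the Galois action (endomorphism form). -/
theorem eigenLattice1_stable_end (D : ES1Data M p T Dm) {R : Type*} [CommRing R]
    (ι : ℤ_[p] →+* R) (c : ℕ → R) (e : (ZMod M)ˣ → R) (g : GQ1) :
    ∀ v ∈ eigenLattice1 D c e, D.ρEnd ι g v ∈ eigenLattice1 D c e := by
  intro v hv
  rw [D.ρEnd_apply]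
  exact eigenLattice1_stable D ι c e g hv

/-- **Frobenius relation on the eigen-lattice**: a Frobenius element `σ` over `ℓ ∤ M p`
satisfies `σ² - c ℓ σ + ℓ e(ℓ) = 0` on the `(c, e)`-eigen-lattice. -/
theorem frobenius_relation1 (D : ES1Data M p T Dm) {R : Type*} [CommRing R] (ι : ℤ_[p] →+* R)
    (c : ℕ → R) (e : (ZMod M)ˣ → R)
    {ℓ : ℕ} (hℓ : ℓ.Prime) (hℓM : ¬ ℓ ∣ M) (hℓp : ℓ ≠ p) (u : (ZMod M)ˣ)
    (hu : (u : ZMod M) = (ℓ : ZMod M)) (A : ValuationSubring (AlgebraicClosure ℚ))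
    (hA : A.LiesOverPrime ℓ) (σ : GQ1) (hσ : A.IsFrobeniusAt σ ℓ)
    {m : Fin D.r → R} (hm : m ∈ eigenLattice1 D c e) :
    (D.ρR ι σ).mulVec ((D.ρR ι σ).mulVec m) - c ℓ • (D.ρR ι σ).mulVec m
      + ((ℓ : R) * e u) • m = 0 := by
  have hmat := D.es_R ι hℓ hℓM hℓp u hu A hA σ hσ
  have hst := eigenLattice1_stable D ι c e σ hm
  have happ := congrArg (fun X : Matrix (Fin D.r) (Fin D.r) R => X.mulVec m) hmat
  simp only [Matrix.add_mulVec, Matrix.sub_mulVec, Matrix.zero_mulVec, ← Matrix.mulVec_mulVec,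
    Matrix.smul_mulVec] at happ
  rw [hst.1 ℓ hℓ hℓM hℓp, hm.2 u, smul_smul] at happ
  exact happ

/-- If the eigen-lattice is nonzero over a domain, the diamond eigenvalues form a character of
`(ℤ/M)ˣ` which is trivial at `-1`. -/
theorem exists_character_of_ne_bot (D : ES1Data M p T Dm) {R : Type*} [CommRing R] [IsDomain R]
    (c : ℕ → R) (e : (ZMod M)ˣ → R) (h : eigenLattice1 D c e ≠ ⊥) :
    ∃ ψ : (ZMod M)ˣ →* Rˣ, (∀ u, ((ψ u : Rˣ) : R) = e u) ∧ ψ (-1) = 1 := by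
  obtain ⟨v, hv, hv0⟩ := Submodule.exists_mem_ne_zero_of_ne_bot h
  obtain ⟨i, hi⟩ := Function.ne_iff.mp hv0
  have hinj : ∀ a b : R, a • v = b • v → a = b := fun a b hab =>
    mul_right_cancel₀ hi (by simpa using congrFun hab i)
  have h1 : e 1 = 1 := hinj _ _ (by rw [← hv.2 1, D.dR_one, Matrix.one_mulVec, one_smul])
  have hmul : ∀ u u', e (u * u') = e u * e u' := fun u u' => hinj _ _ (by
    rw [← hv.2 (u * u'), D.dR_mul, ← Matrix.mulVec_mulVec, hv.2 u', Matrix.mulVec_smul, hv.2 u,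
      smul_smul, mul_comm])
  have hneg : e (-1) = 1 := hinj _ _ (by
    rw [← hv.2 (-1), D.dR_neg_one, Matrix.one_mulVec, one_smul])
  let ψ0 : (ZMod M)ˣ →* R := { toFun := e, map_one' := h1, map_mul' := hmul }
  refine ⟨ψ0.toHomUnits, fun u => MonoidHom.coe_toHomUnits ψ0 u, ?_⟩
  apply Units.ext
  rw [MonoidHom.coe_toHomUnits, Units.val_one]
  exact hneg

end

end Fermat.Agent.S48.G1
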