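/-
PROGRAM DS (S48, Deligne–Serre), part G1, layer LE (residual engine) — helper244.

`Γ₁`-twin of `S30/QuadRel.lean`: every `g : G_ℚ` satisfies a quadratic relation
`ρ(g)² - a ρ(g) + δ(g) = 0` on the eigen-lattice of an eigen-system `(c, ψ)` of the Hecke and
diamond matrices, where the constant term is the CHARACTER
`δ = detChar M p ι ψ = (p-adic cyclotomic character) · (ψ ∘ mod-M cyclotomic character)`.

* `detChar M p ι ψ : GQ1 →* Oˣ` with its values at Frobenius elements, on inertia, at complex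
  conjugation (`-1` as soon as `ψ (-1) = 1`) and its continuity;
* `exists_approx1` : the FROBENIUS-POWER STEP (Frobenius density + `D.es` + Lucas + `D.cont`
  + continuity of the two cyclotomic characters) giving the relation modulo `𝔪 ^ n`;
* `exists_quadratic_relation1` : the relation itself over a complete DVR (limit lemma);
* `quadRel1_end` : the same in the shape of the hypothesis `hrel` of
  `S30.ConjClifford.conjCliffordStatement`;
* `frobenius_relation1_end` : at a Frobenius over `ℓ ∤ M p` one may take `a = c ℓ`.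

The Frobenius density lemma is taken as the hypothesis `S30.QuadRel.DensityStatement`; it is
discharged by `fun L _ S g => Fermat.Agent.Lib.FrobeniusDensity.exists_frobenius_pow_eq L S g`.
-/
import Mathlib
import Fermat.Agent.S48.G1.EigenLattice1
import Fermat.Agent.S30.QuadRel
import Fermat.Agent.Lib.CycloCharMod

set_option autoImplicit false

namespace Fermat.Agent.S48.G1.QuadRel1

open Fermat.Agent.S48.G1 Fermat.Agent.S30 Fermat.Agent.S30.QuadRel Fermat.Agent.Lib IsLocalRing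

/-! ### The determinant character -/

section DetChar

variable (M p : ℕ) [NeZero M] [Fact p.Prime] {O : Type*} [CommRing O] (ι : ℤ_[p] →+* O)
  (ψ : (ZMod M)ˣ →* Oˣ)

/-- The determinant character of the engine with diamonds: the `p`-adic cyclotomic character
times the Galois character of `ψ`. -/
noncomputable def detChar : GQ1 →* Oˣ := CycloChar.epsO p ι * CycloCharMod.chi M ψ

theorem detChar_apply (g : GQ1) :
    ((detChar M p ι ψ g : Oˣ) : O)
      = ι ((CycloChar.eps p g : ℤ_[p]ˣ) : ℤ_[p]) * ((CycloCharMod.chi M ψ g : Oˣ) : O) := by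
  rw [detChar, MonoidHom.mul_apply, Units.val_mul, CycloChar.epsO_apply]

theorem detChar_apply' (g : GQ1) :
    ((detChar M p ι ψ g : Oˣ) : O)
      = ι ((CycloChar.eps p g : ℤ_[p]ˣ) : ℤ_[p])
        * ((ψ (CycloCharMod.kappa M g) : Oˣ) : O) := by
  rw [detChar_apply, CycloCharMod.chi_apply]

/-- At a Frobenius element over `ℓ ∤ M p` the determinant character is `ℓ · ψ(ℓ)`. -/
theorem detChar_frobenius {ℓ : ℕ} (hℓ : ℓ.Prime) (hℓM : ¬ ℓ ∣ M) (hℓp : ℓ ≠ p)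
    (u : (ZMod M)ˣ) (hu : (u : ZMod M) = (ℓ : ZMod M))
    (A : ValuationSubring (AlgebraicClosure ℚ)) (hA : A.LiesOverPrime ℓ) (σ : GQ1)
    (hσ : A.IsFrobeniusAt σ ℓ) :
    ((detChar M p ι ψ σ : Oˣ) : O) = (ℓ : O) * ((ψ u : Oˣ) : O) := by
  have hcop : Nat.Coprime M ℓ := ((Nat.Prime.coprime_iff_not_dvd hℓ).mpr hℓM).symm
  rw [detChar_apply, CycloChar.eps_frobenius p hℓ hℓp A hA σ hσ, map_natCast,
    CycloCharMod.chi_frobenius M ψ hcop A hA σ hσ u hu]

/-- The determinant character is trivial on inertia at `q ∤ M p`. -/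
theorem detChar_inertia {q : ℕ} (hq : q.Prime) (hqM : ¬ q ∣ M) (hqp : q ≠ p)
    (P : ValuationSubring (AlgebraicClosure ℚ)) (hP : P.LiesOverPrime q) (σ : GQ1)
    (hσ : σ ∈ P.inertiaSubgroupIn ℚ) : detChar M p ι ψ σ = 1 := by
  have hcop : Nat.Coprime M q := ((Nat.Prime.coprime_iff_not_dvd hq).mpr hqM).symm
  rw [detChar, MonoidHom.mul_apply, CycloChar.epsO_inertia p ι hq hqp P hP σ hσ,
    CycloCharMod.chi_inertia M ψ hcop P hP σ hσ, one_mul]

/-- The determinant character is odd as soon as `ψ (-1) = 1`. -/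
theorem detChar_complexConjugation (hψ : ψ (-1) = 1) :
    detChar M p ι ψ complexConjugation = -1 := by
  rw [detChar, MonoidHom.mul_apply, CycloChar.epsO_complexConjugation, CycloCharMod.chi_apply,
    CycloCharMod.kappa_complexConjugation, hψ, mul_one]

/-- Continuity of the determinant character: it is `≡ 1` modulo `p ^ n` on the elements fixing
`ℚ(ζ_{p^n})` and `ℚ(ζ_M)`. -/
theorem detChar_sub_one_mem (n : ℕ) (σ : GQ1)
    (h1 : ∀ x ∈ CycloChar.cycloField p n, σ x = x)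
    (h2 : ∀ x ∈ CycloCharMod.cycloField M, σ x = x) :
    ((detChar M p ι ψ σ : Oˣ) : O) - 1 ∈ Ideal.span {(p : O) ^ n} := by
  rw [detChar_apply, CycloCharMod.chi_eq_one_of_fix M ψ σ h2, Units.val_one, mul_one,
    ← CycloChar.epsO_apply]
  exact CycloChar.epsO_sub_one_mem p ι n σ h1

/-- Continuity of the determinant character, in the shape used by the engine. -/
theorem detChar_cont (n : ℕ) :
    ∃ L : IntermediateField ℚ (AlgebraicClosure ℚ), FiniteDimensional ℚ L ∧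
      ∀ σ : GQ1, (∀ x ∈ L, σ x = x) →
        ((detChar M p ι ψ σ : Oˣ) : O) - 1 ∈ Ideal.span {(p : O) ^ n} := by
  have := CycloChar.finiteDimensional_cycloField p n
  have := CycloCharMod.finiteDimensional_cycloField M
  refine ⟨CycloChar.cycloField p n ⊔ CycloCharMod.cycloField M,
    IntermediateField.finiteDimensional_sup _ _, fun σ hσ => ?_⟩
  exact detChar_sub_one_mem M p ι ψ n σ (fun x hx => hσ x ((le_sup_left :
    CycloChar.cycloField p n ≤ _) hx)) (fun x hx => hσ x ((le_sup_right :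
    CycloCharMod.cycloField M ≤ _) hx))

end DetChar

/-! ### The Frobenius-power step -/

section Main

variable {M p : ℕ} [NeZero M] [Fact p.Prime] {V : Type} [AddCommGroup V] [Module ℂ V]
  {T : ℕ → Module.End ℂ V} {Dm : (ZMod M)ˣ → Module.End ℂ V}

/-- **Frobenius-power step**: modulo `𝔪 ^ n` the element `g` satisfies a quadratic relation on
the eigen-lattice, with constant term the determinant character. -/
theorem exists_approx1 (hdens : DensityStatement) (D : ES1Data M p T Dm)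
    (𝒪' : Type) [CommRing 𝒪'] [IsDomain 𝒪'] [IsDiscreteValuationRing 𝒪']
    (hp : (p : 𝒪') ∈ maximalIdeal 𝒪') (ι : ℤ_[p] →+* 𝒪')
    (c : ℕ → 𝒪') (ψ : (ZMod M)ˣ →* 𝒪'ˣ) (g : GQ1) (n : ℕ) :
    ∃ a : 𝒪', ∀ m ∈ eigenLattice1 D c (fun u => ((ψ u : 𝒪'ˣ) : 𝒪')),
      (D.ρR ι g).mulVec ((D.ρR ι g).mulVec m) - a • (D.ρR ι g).mulVec m
        + ((detChar M p ι ψ g : 𝒪'ˣ) : 𝒪') • m
          ∈ vecIdeal (maximalIdeal 𝒪' ^ n) (Fin D.r) := by
  classical
  obtain ⟨L1, hL1fin, hL1⟩ := D.cont n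
  have := hL1fin
  have := CycloChar.finiteDimensional_cycloField p n
  have := CycloCharMod.finiteDimensional_cycloField M
  obtain ⟨ℓ, A, s, b, hℓ, hℓS, hA, hs, -, hsg⟩ :=
    hdens (L1 ⊔ CycloChar.cycloField p n ⊔ CycloCharMod.cycloField M)
      (insert p M.primeFactors) g
  have hℓp : ℓ ≠ p := fun h => hℓS (h ▸ Finset.mem_insert_self _ _)
  have hℓM : ¬ ℓ ∣ M := fun h =>
    hℓS (Finset.mem_insert_of_mem (Nat.mem_primeFactors.mpr ⟨hℓ, h, NeZero.ne M⟩))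
  have hcop : Nat.Coprime ℓ M := (Nat.Prime.coprime_iff_not_dvd hℓ).mpr hℓM
  obtain ⟨u, hu⟩ : ∃ u : (ZMod M)ˣ, (u : ZMod M) = (ℓ : ZMod M) :=
    ⟨ZMod.unitOfCoprime ℓ hcop, ZMod.coe_unitOfCoprime ℓ hcop⟩
  have hle1 : L1 ≤ L1 ⊔ CycloChar.cycloField p n ⊔ CycloCharMod.cycloField M :=
    le_sup_left.trans le_sup_left
  have hle2 : CycloChar.cycloField p n
      ≤ L1 ⊔ CycloChar.cycloField p n ⊔ CycloCharMod.cycloField M :=
    le_sup_right.trans le_sup_left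
  have hle3 : CycloCharMod.cycloField M
      ≤ L1 ⊔ CycloChar.cycloField p n ⊔ CycloCharMod.cycloField M := le_sup_right
  set J : Ideal 𝒪' := maximalIdeal 𝒪' ^ n with hJ
  have hιJ : ∀ x : ℤ_[p], x ∈ Ideal.span {(p : ℤ_[p]) ^ n} → ι x ∈ J := by
    intro x hx
    obtain ⟨y, rfl⟩ := Ideal.mem_span_singleton.mp hx
    rw [map_mul, map_pow, map_natCast]
    exact Ideal.mul_mem_right _ _ (Ideal.pow_mem_pow hp n)
  -- the three matrices
  obtain ⟨X, hX⟩ : ∃ X, X = D.ρR ι g := ⟨_, rfl⟩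
  obtain ⟨Ys, hYs⟩ : ∃ Ys, Ys = D.ρR ι s := ⟨_, rfl⟩
  obtain ⟨W, hW⟩ : ∃ W, W = D.ρR ι (s ^ b) := ⟨_, rfl⟩
  have hWpow : W = Ys ^ b := by rw [hW, hYs, map_pow]
  -- `X - W` has entries in `J`
  have hZ : ∀ i j, (X - W) i j ∈ J := by
    intro i j
    obtain ⟨σ, hσ⟩ : ∃ σ : GQ1, σ = (s ^ b)⁻¹ * g := ⟨_, rfl⟩
    have hσfix : ∀ x ∈ L1, σ x = x := by
      intro x hx
      have h := hsg x (hle1 hx)
      rw [hσ, AlgEquiv.mul_apply, ← h, ← AlgEquiv.mul_apply, inv_mul_cancel, AlgEquiv.one_apply]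
    have hg : g = s ^ b * σ := by rw [hσ, mul_inv_cancel_left]
    have h1 := hL1 σ hσfix
    have h2 : D.ρ g - D.ρ (s ^ b) = D.ρ (s ^ b) * (D.ρ σ - 1) := by
      rw [mul_sub, mul_one, ← map_mul, ← hg]
    have h3 : (X - W) i j = ι ((D.ρ g - D.ρ (s ^ b)) i j) := by
      rw [hX, hW, ES1Data.ρR_apply, ES1Data.ρR_apply, Matrix.sub_apply, Matrix.sub_apply,
        Matrix.map_apply, Matrix.map_apply, map_sub]
    rw [h3, h2]
    apply hιJ
    rw [Matrix.mul_apply]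
    exact Ideal.sum_mem _ fun k _ => Ideal.mul_mem_left _ _ (h1 k j)
  -- restriction to the eigen-lattice
  obtain ⟨E, hE⟩ : ∃ E, E = eigenLattice1 D c (fun u => ((ψ u : 𝒪'ˣ) : 𝒪')) := ⟨_, rfl⟩
  have hst : ∀ v ∈ E, Ys.mulVecLin v ∈ E := by
    intro v hv
    rw [hE] at hv ⊢
    rw [hYs]
    exact eigenLattice1_stable D ι c _ s hv
  obtain ⟨x, hx⟩ : ∃ x : Module.End 𝒪' E, x = Ys.mulVecLin.restrict hst := ⟨_, rfl⟩
  obtain ⟨d, hd⟩ : ∃ d : 𝒪', d = (ℓ : 𝒪') * ((ψ u : 𝒪'ˣ) : 𝒪') := ⟨_, rfl⟩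
  have hxm : ∀ m : E, ((x m : E) : Fin D.r → 𝒪') = Ys.mulVec m := by
    intro m
    rw [hx]
    rfl
  have hrel : x * x - c ℓ • x + d • (1 : Module.End 𝒪' E) = 0 := by
    refine LinearMap.ext fun m => Subtype.ext ?_
    have hm' : (m : Fin D.r → 𝒪') ∈ eigenLattice1 D c (fun u => ((ψ u : 𝒪'ˣ) : 𝒪')) := by
      rw [← hE]
      exact m.2
    have h := frobenius_relation1 D ι c (fun u => ((ψ u : 𝒪'ˣ) : 𝒪')) hℓ hℓM hℓp u hu A hA s hs
      hm'
    rw [← hYs, ← hd] at h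
    simp only [LinearMap.add_apply, LinearMap.sub_apply, LinearMap.smul_apply,
      Module.End.mul_apply, Module.End.one_apply, LinearMap.zero_apply, Submodule.coe_add,
      Submodule.coe_sub, Submodule.coe_smul, ZeroMemClass.coe_zero, hxm]
    exact h
  -- Lucas
  have hl := CycloChar.lucas_algebra x (c ℓ) d hrel b
  obtain ⟨a, ha⟩ : ∃ a : 𝒪', a = CycloChar.lucasS (c ℓ) d b := ⟨_, rfl⟩
  rw [← ha] at hl
  have hxb : ∀ m : E, (((x ^ b) m : E) : Fin D.r → 𝒪') = W.mulVec m := by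
    intro m
    rw [hx, restrict_pow_apply, hWpow]
  have hbr : ∀ m : E, W.mulVec (W.mulVec (m : Fin D.r → 𝒪')) - a • W.mulVec (m : Fin D.r → 𝒪')
      + d ^ b • (m : Fin D.r → 𝒪') = 0 := by
    intro m
    have h := congrArg (fun f : Module.End 𝒪' E => ((f m : E) : Fin D.r → 𝒪')) hl
    simp only [LinearMap.add_apply, LinearMap.sub_apply, LinearMap.smul_apply,
      Module.End.mul_apply, Module.End.one_apply, LinearMap.zero_apply, Submodule.coe_add,
      Submodule.coe_sub, Submodule.coe_smul, ZeroMemClass.coe_zero, hxb] at h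
    exact h
  -- the determinant character
  have heJ : ((detChar M p ι ψ g : 𝒪'ˣ) : 𝒪') - d ^ b ∈ J := by
    have h1 := hιJ _ (CycloChar.eps_pow_frobenius p n hℓ hℓp A hA s hs g b
      (fun x hx => (hsg x (hle2 hx)).symm))
    rw [map_sub, map_pow, map_natCast] at h1
    have h2 : CycloCharMod.chi M ψ g = ψ u ^ b :=
      CycloCharMod.chi_pow_frobenius M ψ hcop.symm A hA s hs g b
        (fun x hx => (hsg x (hle3 hx)).symm) u hu
    have h3 : ((detChar M p ι ψ g : 𝒪'ˣ) : 𝒪') - d ^ b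
        = (ι ((CycloChar.eps p g : ℤ_[p]ˣ) : ℤ_[p]) - (ℓ : 𝒪') ^ b)
          * ((ψ u : 𝒪'ˣ) : 𝒪') ^ b := by
      rw [detChar_apply, h2, Units.val_pow_eq_pow_val, hd, mul_pow]
      ring
    rw [h3]
    exact Ideal.mul_mem_right _ _ h1
  -- assembly
  refine ⟨a, fun m hm => ?_⟩
  rw [← hX]
  obtain ⟨e, he⟩ : ∃ e : 𝒪', e = ((detChar M p ι ψ g : 𝒪'ˣ) : 𝒪') := ⟨_, rfl⟩
  rw [← he] at heJ ⊢
  obtain ⟨Z, hZdef⟩ : ∃ Z, Z = X - W := ⟨_, rfl⟩
  rw [← hZdef] at hZ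
  have hXWZ : X = W + Z := by rw [hZdef]; abel
  have e1 : X.mulVec m = W.mulVec m + Z.mulVec m := by rw [hXWZ, Matrix.add_mulVec]
  have e2 : X.mulVec (X.mulVec m) =
      W.mulVec (W.mulVec m) + W.mulVec (Z.mulVec m) + Z.mulVec (X.mulVec m) := by
    conv_lhs => rw [hXWZ, Matrix.add_mulVec]
    rw [← hXWZ, e1, Matrix.mulVec_add]
  have hm' : m ∈ E := by rw [hE]; exact hm
  have h0 := hbr ⟨m, hm'⟩
  simp only at h0
  have key : X.mulVec (X.mulVec m) - a • X.mulVec m + e • m =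
      W.mulVec (Z.mulVec m) + Z.mulVec (X.mulVec m) - a • Z.mulVec m
        + (e - d ^ b) • m := by
    have h4 : X.mulVec (X.mulVec m) - a • X.mulVec m + e • m =
        (W.mulVec (W.mulVec m) - a • W.mulVec m + d ^ b • m)
          + (W.mulVec (Z.mulVec m) + Z.mulVec (X.mulVec m) - a • Z.mulVec m
            + (e - d ^ b) • m) := by
      have e1' : a • X.mulVec m = a • W.mulVec m + a • Z.mulVec m := by rw [e1, smul_add]
      rw [e2, e1']
      module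
    rw [h4, h0, zero_add]
  rw [key]
  refine Submodule.add_mem _ (Submodule.sub_mem _ (Submodule.add_mem _ ?_ ?_) ?_) ?_
  · exact mulVec_mem_of_mem W (mulVec_mem_of_entries hZ m)
  · exact mulVec_mem_of_entries hZ _
  · exact Submodule.smul_mem _ a (mulVec_mem_of_entries hZ m)
  · exact smul_mem_of_mem heJ m

/-- **Engine.QuadRel1** (with the Frobenius density lemma as a hypothesis): every `g : G_ℚ`
satisfies a quadratic relation on the `(c, ψ)`-eigen-lattice, with constant term the determinant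
character `detChar M p ι ψ`. -/
theorem exists_quadratic_relation1 (hdens : DensityStatement) (D : ES1Data M p T Dm)
    (𝒪' : Type) [CommRing 𝒪'] [IsDomain 𝒪'] [IsDiscreteValuationRing 𝒪']
    [IsAdicComplete (maximalIdeal 𝒪') 𝒪']
    (hp : (p : 𝒪') ∈ maximalIdeal 𝒪') (ι : ℤ_[p] →+* 𝒪')
    (c : ℕ → 𝒪') (ψ : (ZMod M)ˣ →* 𝒪'ˣ) (g : GQ1) :
    ∃ a : 𝒪', ∀ m ∈ eigenLattice1 D c (fun u => ((ψ u : 𝒪'ˣ) : 𝒪')),
      (D.ρR ι g).mulVec ((D.ρR ι g).mulVec m) - a • (D.ρR ι g).mulVec m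
        + ((detChar M p ι ψ g : 𝒪'ˣ) : 𝒪') • m = 0 := by
  obtain ⟨a, ha⟩ := exists_limit (O := 𝒪')
    (T := ↥(eigenLattice1 D c (fun u => ((ψ u : 𝒪'ˣ) : 𝒪'))) × Fin D.r)
    (fun t => ((D.ρR ι g).mulVec (t.1 : Fin D.r → 𝒪')) t.2)
    (fun t => ((D.ρR ι g).mulVec ((D.ρR ι g).mulVec (t.1 : Fin D.r → 𝒪'))) t.2
      + ((detChar M p ι ψ g : 𝒪'ˣ) : 𝒪') * (t.1 : Fin D.r → 𝒪') t.2)
    (by
      intro n
      obtain ⟨a, ha⟩ := exists_approx1 hdens D 𝒪' hp ι c ψ g n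
      refine ⟨a, fun t => ?_⟩
      have h := mem_vecIdeal.mp (ha t.1 t.1.2) t.2
      simp only [Pi.add_apply, Pi.sub_apply, Pi.smul_apply, smul_eq_mul] at h
      have h2 : ((D.ρR ι g).mulVec ((D.ρR ι g).mulVec (t.1 : Fin D.r → 𝒪'))) t.2
          + ((detChar M p ι ψ g : 𝒪'ˣ) : 𝒪') * (t.1 : Fin D.r → 𝒪') t.2
          - a * ((D.ρR ι g).mulVec (t.1 : Fin D.r → 𝒪')) t.2
          = ((D.ρR ι g).mulVec ((D.ρR ι g).mulVec (t.1 : Fin D.r → 𝒪'))) t.2
          - a * ((D.ρR ι g).mulVec (t.1 : Fin D.r → 𝒪')) t.2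
          + ((detChar M p ι ψ g : 𝒪'ˣ) : 𝒪') * (t.1 : Fin D.r → 𝒪') t.2 := by ring
      rw [h2]
      exact h)
  refine ⟨a, fun m hm => ?_⟩
  funext i
  have h := ha (⟨m, hm⟩, i)
  simp only [Pi.add_apply, Pi.sub_apply, Pi.smul_apply, smul_eq_mul, Pi.zero_apply]
  simp only at h
  linear_combination h

/-- **Engine.QuadRel1** in the shape of the hypothesis `hrel` of
`S30.ConjClifford.conjCliffordStatement` (endomorphism form, for all `g`). -/
theorem quadRel1_end (hdens : DensityStatement) (D : ES1Data M p T Dm)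
    (𝒪' : Type) [CommRing 𝒪'] [IsDomain 𝒪'] [IsDiscreteValuationRing 𝒪']
    [IsAdicComplete (maximalIdeal 𝒪') 𝒪']
    (hp : (p : 𝒪') ∈ maximalIdeal 𝒪') (ι : ℤ_[p] →+* 𝒪')
    (c : ℕ → 𝒪') (ψ : (ZMod M)ˣ →* 𝒪'ˣ) :
    ∀ g : GQ1, ∃ a : 𝒪', ∀ m ∈ eigenLattice1 D c (fun u => ((ψ u : 𝒪'ˣ) : 𝒪')),
      D.ρEnd ι g (D.ρEnd ι g m) - a • D.ρEnd ι g m
        + ((detChar M p ι ψ g : 𝒪'ˣ) : 𝒪') • m = 0 := by
  intro g
  obtain ⟨a, ha⟩ := exists_quadratic_relation1 hdens D 𝒪' hp ι c ψ g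
  refine ⟨a, fun m hm => ?_⟩
  rw [D.ρEnd_apply, D.ρEnd_apply]
  exact ha m hm

/-- At a Frobenius element `σ` over `ℓ ∤ M p` the quadratic relation holds with `a = c ℓ`
(endomorphism form; this is the hypothesis of the `charpoly` clause of `RankTwoConclusion`). -/
theorem frobenius_relation1_end (D : ES1Data M p T Dm) {R : Type*} [CommRing R]
    (ι : ℤ_[p] →+* R) (c : ℕ → R) (ψ : (ZMod M)ˣ →* Rˣ)
    {ℓ : ℕ} (hℓ : ℓ.Prime) (hℓM : ¬ ℓ ∣ M) (hℓp : ℓ ≠ p)
    (A : ValuationSubring (AlgebraicClosure ℚ)) (hA : A.LiesOverPrime ℓ) (σ : GQ1)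
    (hσ : A.IsFrobeniusAt σ ℓ) :
    ∀ m ∈ eigenLattice1 D c (fun u => ((ψ u : Rˣ) : R)),
      D.ρEnd ι σ (D.ρEnd ι σ m) - c ℓ • D.ρEnd ι σ m
        + ((detChar M p ι ψ σ : Rˣ) : R) • m = 0 := by
  intro m hm
  have hcop : Nat.Coprime ℓ M := (Nat.Prime.coprime_iff_not_dvd hℓ).mpr hℓM
  have hu : ((ZMod.unitOfCoprime ℓ hcop : (ZMod M)ˣ) : ZMod M) = (ℓ : ZMod M) :=
    ZMod.coe_unitOfCoprime ℓ hcop
  rw [D.ρEnd_apply, D.ρEnd_apply,
    detChar_frobenius M p ι ψ hℓ hℓM hℓp _ hu A hA σ hσ]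
  exact frobenius_relation1 D ι c (fun u => ((ψ u : Rˣ) : R)) hℓ hℓM hℓp _ hu A hA σ hσ hm

end Main

end Fermat.Agent.S48.G1.QuadRel1
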