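/-
PROGRAM DS (S48, Deligne–Serre), part G1, layer LE (residual engine) — helper244.

FIELD-LEVEL GLUE of `ResidualExit` (route of report #4540, helper186).  Everything happens in
`k^r`, `k` the target field of characteristic `p ≠ 2`:

* `exists_eigen_ringHom` : a nonzero common eigenvector `w₀ ∈ ℂ^r` of a set of integer matrices
  gives the eigenvalue ring hom `ψ : Algebra.adjoin ℤ gens →+* AlgInt`;
* `redK p k : ℤ_[p] →+* k`, and `ρ := D.ρR (redK p k)` has finite level (`D.cont 1`) and is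
  trivial on inertia at `q ∤ M p` (`D.unr`);
* `W := eigenLattice1 D (φ ∘ a) (φ ∘ e)` over `k` (landed `EigenLattice1`), nonzero by
  `EigenRedStatement`;
* `ε := detChar M p (redK p k) ψ_k` (landed `QuadRel1`);
* `residualExit_of : EigenRedStatement → FieldEngineStatement → ResidualExit`.

`EigenRedStatement` and `FieldEngineStatement` are the literal statements (A) and (B) of #4540.
-/
import Mathlib
import Fermat.Agent.S48.G1.EigenLattice1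
import Fermat.Agent.S48.G1.QuadRel1

set_option autoImplicit false

open Polynomial

namespace Fermat.Agent.S48.G1.ResidualGlue

open Fermat.Agent.S48.G1 Fermat.Agent.S48.G1.QuadRel1

/-- (A) of #4540: a ring hom from a commutative subalgebra of `M_r(ℤ)` to a field occurs as a
common eigenvector in `k^r`. -/
def EigenRedStatement : Prop :=
  ∀ {r : ℕ} (R : Subalgebra ℤ (Matrix (Fin r) (Fin r) ℤ))
    (_ : ∀ x ∈ R, ∀ y ∈ R, x * y = y * x) {k : Type} [Field k] (ψ : R →+* k),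
    ∃ w : Fin r → k, w ≠ 0 ∧
      ∀ x : R, ((x : Matrix (Fin r) (Fin r) ℤ).map (Int.castRingHom k)).mulVec w = ψ x • w

/-- (B) of #4540: the field-level engine (Frobenius density + Lucas + ConjClifford over `k`). -/
def FieldEngineStatement : Prop :=
  ∀ {k : Type} [Field k] (_ : (2 : k) ≠ 0) {r : ℕ} (ρ : GQ1 →* Matrix (Fin r) (Fin r) k)
    (_ : GaloisFactorsThroughFiniteLevel ρ) (W : Submodule k (Fin r → k)) (_ : W ≠ ⊥)
    (_ : ∀ σ, ∀ w ∈ W, (ρ σ).mulVec w ∈ W) (ε : GQ1 →* kˣ)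
    (_ : GaloisFactorsThroughFiniteLevel ε) (_ : ε complexConjugation = -1) (S : Finset ℕ)
    (a : ℕ → k)
    (_ : ∀ ℓ : ℕ, ℓ.Prime → ℓ ∉ S → ∀ A : ValuationSubring (AlgebraicClosure ℚ),
      A.LiesOverPrime ℓ → ∀ σ : GQ1, A.IsFrobeniusAt σ ℓ → ∀ w ∈ W,
        (ρ σ).mulVec ((ρ σ).mulVec w) - a ℓ • (ρ σ).mulVec w + ((ε σ : kˣ) : k) • w = 0),
    ∃ ρ' : GQ1 →* GL (Fin 2) k, (∀ σ, ρ σ = 1 → ε σ = 1 → ρ' σ = 1) ∧
      ∀ ℓ : ℕ, ℓ.Prime → ℓ ∉ S → ∀ A : ValuationSubring (AlgebraicClosure ℚ),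
        A.LiesOverPrime ℓ → ∀ σ : GQ1, A.IsFrobeniusAt σ ℓ →
          ((ρ' σ : GL (Fin 2) k) : Matrix (Fin 2) (Fin 2) k).charpoly
            = X ^ 2 - C (a ℓ) * X + C ((ε σ : kˣ) : k)

/-! ### The eigenvalue character -/

/-- A nonzero common eigenvector `w₀ ∈ ℂ^r` of a set `gens` of integer matrices is an
eigenvector of every element of `Algebra.adjoin ℤ gens`, and the eigenvalue is a ring
homomorphism into the algebraic integers. -/
theorem exists_eigen_ringHom {r : ℕ} (gens : Set (Matrix (Fin r) (Fin r) ℤ)) (w0 : Fin r → ℂ)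
    (hw0 : w0 ≠ 0)
    (h : ∀ x ∈ gens, ∃ c : ℂ, (x.map (Int.castRingHom ℂ)).mulVec w0 = c • w0) :
    ∃ ψ : Algebra.adjoin ℤ gens →+* AlgInt, ∀ x : Algebra.adjoin ℤ gens,
      ((x : Matrix (Fin r) (Fin r) ℤ).map (Int.castRingHom ℂ)).mulVec w0
        = ((ψ x : AlgInt) : ℂ) • w0 := by
  classical
  obtain ⟨i0, hi0⟩ := Function.ne_iff.mp hw0
  have hi0' : w0 i0 ≠ 0 := hi0
  obtain ⟨mapC, hmapC⟩ : ∃ mapC : Matrix (Fin r) (Fin r) ℤ →+* Matrix (Fin r) (Fin r) ℂ,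
      ∀ x, mapC x = x.map (Int.castRingHom ℂ) := ⟨(Int.castRingHom ℂ).mapMatrix, fun _ => rfl⟩
  have hall : ∀ x ∈ Algebra.adjoin ℤ gens, ∃ c : ℂ, (mapC x).mulVec w0 = c • w0 := by
    intro x hx
    induction hx using Algebra.adjoin_induction with
    | mem x hx =>
      obtain ⟨c, hc⟩ := h x hx
      exact ⟨c, by rw [hmapC, hc]⟩
    | algebraMap n =>
      refine ⟨(n : ℂ), ?_⟩
      rw [eq_intCast (algebraMap ℤ (Matrix (Fin r) (Fin r) ℤ)) n, map_intCast,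
        Matrix.intCast_mulVec]
    | add x y _ _ hx hy =>
      obtain ⟨c, hc⟩ := hx
      obtain ⟨c', hc'⟩ := hy
      exact ⟨c + c', by rw [map_add, Matrix.add_mulVec, hc, hc', add_smul]⟩
    | mul x y _ _ hx hy =>
      obtain ⟨c, hc⟩ := hx
      obtain ⟨c', hc'⟩ := hy
      exact ⟨c * c', by
        rw [map_mul, ← Matrix.mulVec_mulVec, hc', Matrix.mulVec_smul, hc, smul_smul, mul_comm]⟩
  obtain ⟨f0, hf0def⟩ : ∃ f0 : Algebra.adjoin ℤ gens → ℂ, ∀ x,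
      f0 x = ((mapC (x : Matrix (Fin r) (Fin r) ℤ)).mulVec w0) i0 / w0 i0 := ⟨_, fun _ => rfl⟩
  have hf0 : ∀ x : Algebra.adjoin ℤ gens,
      (mapC (x : Matrix (Fin r) (Fin r) ℤ)).mulVec w0 = f0 x • w0 := by
    intro x
    obtain ⟨c, hc⟩ := hall x x.2
    have hfc : f0 x = c := by
      rw [hf0def, hc, Pi.smul_apply, smul_eq_mul, mul_div_assoc, div_self hi0', mul_one]
    rw [hfc, hc]
  have huniq : ∀ c c' : ℂ, c • w0 = c' • w0 → c = c' := fun c c' hcc =>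
    mul_right_cancel₀ hi0' (by simpa using congrFun hcc i0)
  let f : Algebra.adjoin ℤ gens →+* ℂ :=
    { toFun := f0
      map_one' := huniq _ _ (by
        rw [← hf0, OneMemClass.coe_one, map_one, Matrix.one_mulVec, one_smul])
      map_mul' := fun x y => huniq _ _ (by
        rw [← hf0, MulMemClass.coe_mul, map_mul, ← Matrix.mulVec_mulVec, hf0 y,
          Matrix.mulVec_smul, hf0 x, smul_smul, mul_comm])
      map_zero' := huniq _ _ (by
        rw [← hf0, ZeroMemClass.coe_zero, map_zero, Matrix.zero_mulVec, zero_smul])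
      map_add' := fun x y => huniq _ _ (by
        rw [← hf0, AddMemClass.coe_add, map_add, Matrix.add_mulVec, hf0 x, hf0 y, add_smul]) }
  have hint : ∀ x, f x ∈ AlgInt := by
    intro x
    have h1 : IsIntegral ℤ (x : Matrix (Fin r) (Fin r) ℤ) := Matrix.isIntegral _
    have h2 : IsIntegral ℤ x :=
      (isIntegral_algHom_iff (Algebra.adjoin ℤ gens).val Subtype.val_injective).mp h1
    exact h2.map f.toIntAlgHom
  refine ⟨f.codRestrict AlgInt hint, fun x => ?_⟩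
  rw [← hmapC]
  exact hf0 x

/-! ### Reduction of the Galois action to `k` -/

section Red

variable (p : ℕ) [Fact p.Prime] (k : Type*) [Field k] [CharP k p]

/-- The reduction map `ℤ_[p] → 𝔽_p → k`. -/
noncomputable def redK : ℤ_[p] →+* k :=
  (ZMod.castHom (dvd_refl p) k).comp PadicInt.toZMod

theorem redK_p : redK p k (p : ℤ_[p]) = 0 := by
  rw [map_natCast]
  exact CharP.cast_eq_zero k p

end Red

section

variable {M p : ℕ} [NeZero M] [Fact p.Prime] {V : Type} [AddCommGroup V] [Module ℂ V]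
  {T : ℕ → Module.End ℂ V} {Dm : (ZMod M)ˣ → Module.End ℂ V}

/-- If `ι` kills `p ^ n` and `ρ σ ≡ 1` modulo `p ^ n` then `ρ σ` is trivial after base change. -/
theorem ρR_eq_one_of_entries (D : ES1Data M p T Dm) {R : Type*} [CommRing R] (ι : ℤ_[p] →+* R)
    (n : ℕ) (hι : ι ((p : ℤ_[p]) ^ n) = 0) (σ : GQ1)
    (h : ∀ i j, (D.ρ σ - 1) i j ∈ Ideal.span {(p : ℤ_[p]) ^ n}) : D.ρR ι σ = 1 := by
  ext i j
  obtain ⟨y, hy⟩ := Ideal.mem_span_singleton.mp (h i j)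
  have h1 : D.ρ σ i j = (p : ℤ_[p]) ^ n * y + (1 : Matrix (Fin D.r) (Fin D.r) ℤ_[p]) i j := by
    rw [← hy, Matrix.sub_apply, sub_add_cancel]
  rw [ES1Data.ρR_apply, Matrix.map_apply, h1, map_add, map_mul, hι, zero_mul, zero_add,
    Matrix.one_apply, Matrix.one_apply]
  split_ifs
  · exact map_one ι
  · exact map_zero ι

/-- The reduced Galois action has finite level. -/
theorem ρR_finiteLevel (D : ES1Data M p T Dm) {k : Type} [Field k] (ι : ℤ_[p] →+* k)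
    (hι : ι (p : ℤ_[p]) = 0) : GaloisFactorsThroughFiniteLevel (D.ρR ι) := by
  obtain ⟨L, hL, h⟩ := D.cont 1
  exact ⟨L, hL, fun σ hσ => ρR_eq_one_of_entries D ι 1 (by rw [pow_one, hι]) σ (h σ hσ)⟩

/-- The base-changed Galois action is trivial on inertia at `q ∤ M p`. -/
theorem ρR_inertia (D : ES1Data M p T Dm) {R : Type*} [CommRing R] (ι : ℤ_[p] →+* R)
    {q : ℕ} (hq : q.Prime) (hqM : ¬ q ∣ M) (hqp : q ≠ p)
    (P : ValuationSubring (AlgebraicClosure ℚ)) (hP : P.LiesOverPrime q) (σ : GQ1)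
    (hσ : σ ∈ P.inertiaSubgroupIn ℚ) : D.ρR ι σ = 1 := by
  rw [ES1Data.ρR_apply, D.unr q hq hqM hqp P hP σ hσ]
  exact Matrix.map_one _ (map_zero ι) (map_one ι)

/-- The determinant character with values in a field of characteristic `p` has finite level. -/
theorem detChar_finiteLevel {k : Type} [Field k] (ι : ℤ_[p] →+* k) (hι : ι (p : ℤ_[p]) = 0)
    (ψ : (ZMod M)ˣ →* kˣ) : GaloisFactorsThroughFiniteLevel (detChar M p ι ψ) := by
  obtain ⟨L, hL, h⟩ := detChar_cont M p ι ψ 1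
  refine ⟨L, hL, fun σ hσ => ?_⟩
  have h1 := h σ hσ
  have hp0 : (p : k) = 0 := by rw [← map_natCast ι, hι]
  rw [pow_one, hp0, Ideal.span_singleton_eq_bot.mpr rfl, Ideal.mem_bot, sub_eq_zero] at h1
  exact Units.ext h1

/-! ### The glue -/

/-- **`ResidualExit` from the two field-level bricks** (A) `EigenRedStatement` and
(B) `FieldEngineStatement`. -/
theorem residualExit_of (hA : EigenRedStatement) (hB : FieldEngineStatement) : ResidualExit := by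
  intro M p _ _ hp2 V _ _ T Dm hD v hv a e hT hDm k _ _ φ
  classical
  obtain ⟨D⟩ := hD
  obtain ⟨Φ, hΦinj, hΦT, hΦD⟩ := D.occ
  -- the complex eigenvector
  obtain ⟨w0, hw0def⟩ : ∃ w0, w0 = Φ v := ⟨_, rfl⟩
  have hw0 : w0 ≠ 0 := by
    rw [hw0def]
    exact fun h => hv (hΦinj (by rw [h, map_zero]))
  have hi0 := Function.ne_iff.mp hw0
  obtain ⟨i0, hi0⟩ := hi0
  have hi0' : w0 i0 ≠ 0 := hi0
  have huniq : ∀ c c' : ℂ, c • w0 = c' • w0 → c = c' := fun c c' hcc =>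
    mul_right_cancel₀ hi0' (by simpa using congrFun hcc i0)
  have hw0T : ∀ ℓ : ℕ, ℓ.Prime → ¬ ℓ ∣ M → ℓ ≠ p →
      ((D.t ℓ).map (Int.castRingHom ℂ)).mulVec w0 = ((a ℓ : AlgInt) : ℂ) • w0 := by
    intro ℓ hℓ hℓM hℓp
    rw [hw0def, ← hΦT ℓ hℓ hℓM hℓp v, hT ℓ hℓ hℓM hℓp, map_smul]
  have hw0D : ∀ u : (ZMod M)ˣ,
      ((D.d u).map (Int.castRingHom ℂ)).mulVec w0 = ((e u : AlgInt) : ℂ) • w0 := by
    intro u
    rw [hw0def, ← hΦD u v, hDm u, map_smul]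
  -- the commutative subalgebra and its eigenvalue character
  obtain ⟨gens, hgens⟩ : ∃ gens : Set (Matrix (Fin D.r) (Fin D.r) ℤ),
      gens = {x | (∃ ℓ : ℕ, ℓ.Prime ∧ ¬ ℓ ∣ M ∧ ℓ ≠ p ∧ x = D.t ℓ) ∨ ∃ u, x = D.d u} :=
    ⟨_, rfl⟩
  have hgT : ∀ ℓ : ℕ, ℓ.Prime → ¬ ℓ ∣ M → ℓ ≠ p → D.t ℓ ∈ gens := by
    intro ℓ hℓ hℓM hℓp
    rw [hgens]
    exact Or.inl ⟨ℓ, hℓ, hℓM, hℓp, rfl⟩
  have hgD : ∀ u : (ZMod M)ˣ, D.d u ∈ gens := by
    intro u
    rw [hgens]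
    exact Or.inr ⟨u, rfl⟩
  have hcomm : ∀ x ∈ gens, ∀ y ∈ gens, x * y = y * x := by
    intro x hx y hy
    rw [hgens] at hx hy
    rcases hx with ⟨ℓ, -, -, -, rfl⟩ | ⟨u, rfl⟩ <;> rcases hy with ⟨ℓ', -, -, -, rfl⟩ | ⟨u', rfl⟩
    · exact (D.t_comm ℓ ℓ').eq
    · exact (D.td_comm ℓ u').eq
    · exact (D.td_comm ℓ' u).eq.symm
    · rw [← map_mul, ← map_mul, mul_comm]
  have hR : ∀ x ∈ Algebra.adjoin ℤ gens, ∀ y ∈ Algebra.adjoin ℤ gens, x * y = y * x := by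
    intro x hx y hy
    have hc : IsMulCommutative (Algebra.adjoin ℤ gens) := Algebra.isMulCommutative_adjoin ℤ hcomm
    exact congrArg Subtype.val
      (hc.is_comm.comm (⟨x, hx⟩ : Algebra.adjoin ℤ gens) ⟨y, hy⟩)
  obtain ⟨ψ, hψ⟩ := exists_eigen_ringHom gens w0 hw0 (by
    intro x hx
    rw [hgens] at hx
    rcases hx with ⟨ℓ, hℓ, hℓM, hℓp, rfl⟩ | ⟨u, rfl⟩
    · exact ⟨_, hw0T ℓ hℓ hℓM hℓp⟩
    · exact ⟨_, hw0D u⟩)
  have hψT : ∀ (ℓ : ℕ) (hℓ : ℓ.Prime) (hℓM : ¬ ℓ ∣ M) (hℓp : ℓ ≠ p),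
      ψ ⟨D.t ℓ, Algebra.subset_adjoin (hgT ℓ hℓ hℓM hℓp)⟩ = a ℓ := by
    intro ℓ hℓ hℓM hℓp
    apply Subtype.ext
    apply huniq
    rw [← hψ, hw0T ℓ hℓ hℓM hℓp]
  have hψD : ∀ u : (ZMod M)ˣ, ψ ⟨D.d u, Algebra.subset_adjoin (hgD u)⟩ = e u := by
    intro u
    apply Subtype.ext
    apply huniq
    rw [← hψ, hw0D u]
  -- the eigenspace over `k`
  obtain ⟨w, hw, hwR⟩ := hA (Algebra.adjoin ℤ gens) hR (φ.comp ψ)
  obtain ⟨W, hWdef⟩ : ∃ W : Submodule k (Fin D.r → k),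
      W = eigenLattice1 D (fun ℓ => φ (a ℓ)) (fun u => φ (e u)) := ⟨_, rfl⟩
  have hwW : w ∈ W := by
    rw [hWdef]
    refine ⟨fun ℓ hℓ hℓM hℓp => ?_, fun u => ?_⟩
    · have h := hwR ⟨D.t ℓ, Algebra.subset_adjoin (hgT ℓ hℓ hℓM hℓp)⟩
      rw [RingHom.comp_apply, hψT ℓ hℓ hℓM hℓp] at h
      exact h
    · have h := hwR ⟨D.d u, Algebra.subset_adjoin (hgD u)⟩
      rw [RingHom.comp_apply, hψD u] at h
      exact h
  have hW : W ≠ ⊥ := fun h => hw (by rw [h] at hwW; exact (Submodule.mem_bot k).mp hwW)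
  -- the diamond character over `k`
  obtain ⟨ψk, hψk, hψk1⟩ := exists_character_of_ne_bot D (fun ℓ => φ (a ℓ)) (fun u => φ (e u))
    (hWdef ▸ hW)
  -- the reduced Galois action and the determinant character
  obtain ⟨ι, hι⟩ : ∃ ι : ℤ_[p] →+* k, ι (p : ℤ_[p]) = 0 := ⟨redK p k, redK_p p k⟩
  have hρfin : GaloisFactorsThroughFiniteLevel (D.ρR ι) := ρR_finiteLevel D ι hι
  have hεfin : GaloisFactorsThroughFiniteLevel (detChar M p ι ψk) := detChar_finiteLevel ι hι ψk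
  have hst : ∀ σ, ∀ w ∈ W, (D.ρR ι σ).mulVec w ∈ W := by
    intro σ w hw
    rw [hWdef] at hw ⊢
    exact eigenLattice1_stable D ι _ _ σ hw
  have h2 : (2 : k) ≠ 0 := by
    intro h
    have h' : ((2 : ℕ) : k) = 0 := by exact_mod_cast h
    have hdvd : p ∣ 2 := (CharP.cast_eq_zero_iff k p 2).mp h'
    exact hp2 ((Nat.prime_dvd_prime_iff_eq (Fact.out : p.Prime) Nat.prime_two).mp hdvd)
  have hgood : ∀ ℓ : ℕ, ℓ.Prime → ℓ ∉ insert p M.primeFactors → ¬ ℓ ∣ M ∧ ℓ ≠ p := by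
    intro ℓ hℓ hℓS
    exact ⟨fun h => hℓS (Finset.mem_insert_of_mem
      (Nat.mem_primeFactors.mpr ⟨hℓ, h, NeZero.ne M⟩)),
      fun h => hℓS (h ▸ Finset.mem_insert_self _ _)⟩
  have hbad : ∀ ℓ : ℕ, ℓ.Prime → ¬ ℓ ∣ M → ℓ ≠ p → ℓ ∉ insert p M.primeFactors := by
    intro ℓ hℓ hℓM hℓp hmem
    rcases Finset.mem_insert.mp hmem with h | h
    · exact hℓp h
    · exact hℓM (Nat.mem_primeFactors.mp h).2.1
  obtain ⟨ρ', hρ'1, hρ'2⟩ := hB h2 (D.ρR ι) hρfin W hW hst (detChar M p ι ψk) hεfin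
    (detChar_complexConjugation M p ι ψk hψk1) (insert p M.primeFactors) (fun ℓ => φ (a ℓ))
    (by
      intro ℓ hℓ hℓS A hA' σ hσ w hw
      obtain ⟨hℓM, hℓp⟩ := hgood ℓ hℓ hℓS
      have hcop : Nat.Coprime ℓ M := (Nat.Prime.coprime_iff_not_dvd hℓ).mpr hℓM
      have hu : ((ZMod.unitOfCoprime ℓ hcop : (ZMod M)ˣ) : ZMod M) = (ℓ : ZMod M) :=
        ZMod.coe_unitOfCoprime ℓ hcop
      rw [hWdef] at hw
      have h := frobenius_relation1 D ι (fun ℓ => φ (a ℓ)) (fun u => φ (e u)) hℓ hℓM hℓp _ hu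
        A hA' σ hσ hw
      rw [detChar_frobenius M p ι ψk hℓ hℓM hℓp _ hu A hA' σ hσ, hψk]
      exact h)
  refine ⟨ρ', ?_, ?_⟩
  · obtain ⟨L1, hL1, h1⟩ := hρfin
    obtain ⟨L2, hL2, h2'⟩ := hεfin
    refine ⟨L1 ⊔ L2, IntermediateField.finiteDimensional_sup L1 L2, fun σ hσ => ?_⟩
    exact hρ'1 σ (h1 σ fun x hx => hσ x ((le_sup_left : L1 ≤ L1 ⊔ L2) hx))
      (h2' σ fun x hx => hσ x ((le_sup_right : L2 ≤ L1 ⊔ L2) hx))
  · intro ℓ hℓ hℓM hℓp u hu P hP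
    refine ⟨fun σ hσ => ?_, fun σ hσ => ?_⟩
    · exact hρ'1 σ (ρR_inertia D ι hℓ hℓM hℓp P hP σ hσ)
        (detChar_inertia M p ι ψk hℓ hℓM hℓp P hP σ hσ)
    · rw [hρ'2 ℓ hℓ (hbad ℓ hℓ hℓM hℓp) P hP σ hσ,
        detChar_frobenius M p ι ψk hℓ hℓM hℓp u hu P hP σ hσ, hψk]

end

end Fermat.Agent.S48.G1.ResidualGlue
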