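/-
PROGRAM DS (S48) / G1, layer LE: the residual-engine exit `ResidualExit` by the FIELD-LEVEL route
(second, independent proof; the DVR-route proof is `ResEngine.residualExit`).

`ResidualGlue.residualExit_of` (helper244) applied to `EigenRed.exists_common_eigenvector` and
`FieldEngine.exists_rep` (helper186).  Closure: Contract + EigenLattice1 + QuadRel1 +
ResidualGlue + EigenRed + FieldEngine (no complete DVR, no S29 files).
-/
import Fermat.Agent.S48.G1.ResidualGlue
import Fermat.Agent.S48.G1.EigenRed
import Fermat.Agent.S48.G1.FieldEngine

set_option autoImplicit false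

namespace Fermat.Agent.S48.G1.ResidualField

/-- **Layer LE, field-level route.** -/
theorem residualExit : Fermat.Agent.S48.G1.ResidualExit :=
  Fermat.Agent.S48.G1.ResidualGlue.residualExit_of
    (by
      intro r R hR k _ ψ
      exact Fermat.Agent.S48.G1.EigenRed.exists_common_eigenvector R hR ψ)
    (by
      intro k _ h2 r ρ hρ W hW hst ε hε hc S a hes
      exact Fermat.Agent.S48.G1.FieldEngine.exists_rep h2 ρ hρ W hW hst ε hε complexConjugation
        complexConjugation_mul_self hc S a hes)

end Fermat.Agent.S48.G1.ResidualField
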