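import Mathlib
import Fermat.Agent.S18.K1Main.Generic
import Fermat.Agent.S18.LocPow
import Fermat.Agent.S30.E2.G1
import Fermat.Agent.S30.E2.G1Aux
import Fermat.Agent.S30.AuxA.GaussBC
import Fermat.Agent.S30.Haupt.Two
import Fermat.Agent.S30.Haupt.Three

/-!
# PROGRAM DS (S48) / G1, area K: `(K1E)` over a Hauptmodul base, for a GENERIC subfield of `E((q))`

Generic-`L` twin of `S30/Haupt/K1.lean` (`k1E_of_jInputs_two/_three`): no level, no function
field definition.  `O` a DVR with fraction field `E` (characteristic zero),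
`L : IntermediateField E (LaurentSeries E)` ANY subfield of `E((q))` containing

* `jL` with `q`-series `coeffEmb E jq` (the `j`-invariant), and
* `tL` with `q`-series `(coeffEmb E s₂)⁻¹` (`h₂ = Δ(q)/Δ(q²)`, the Hauptmodul of `Γ₀(2)`), resp.
  `(coeffEmb E s₃)⁻¹` (`h₃ = (η(q)/η(q³))¹²`, the Hauptmodul of `Γ₀(3)`).

Inputs: the two `u = j` inputs `fin` (`[L : E(j)] < ∞`) and `gauss` (`Model.GaussUnram π j`), the
fractions hypothesis `hfrac`, and hypothesis (ii) over the Hauptmodul base
(`Model.HorizUnram S tL`, e.g. from `S48/G1/HorizOfEmbRel`), with `S` having unit differences.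
Output: `K1E O E L p` for every prime `p` invertible in `O` (with `ζ_p ∈ O`).

Used for residue characteristic `3` (base `h₂`, `S = {0, -64}`) and `2` (base `h₃`,
`S = {0, -27}`), where the base `u = j` is useless (`0 ≡ 1728`).

* `j_mul_h2`, `j_mul_h3` : the relations `j h₂² = (h₂ + 256)³`, `j h₃³ = (h₃ + 27)(h₃ + 243)³`
  in any subfield of `E((q))`;
* `transcendental_j` ;
* `k1E_two_of_horiz`, `k1E_three_of_horiz` : general branch set `S`;
* `k1E_two`, `k1E_three` : `S = {0, -64}` (needs `2 ∈ Oˣ`), resp. `S = {0, -27}` (`3 ∈ Oˣ`).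
-/

set_option autoImplicit false
set_option linter.unusedSectionVars false
set_option linter.style.haveILetI false

open ModularCurve AlgebraicCurve Polynomial

noncomputable section

namespace Fermat.Agent.S48.G1.HauptK1Gen

open Fermat.Agent.S18.K1Defs Fermat.Agent.S18.K1Main Fermat.Agent.S30

/-! ### The relations in an arbitrary subfield of `E((q))` -/

section Rel

variable {E : Type} [Field E] [Algebra ℚ E] (L : IntermediateField E (LaurentSeries E))

theorem coeffEmb_s2_ne_zero : coeffEmb E Haupt.Two.s2 ≠ 0 := by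
  intro h0
  have h1 := congrArg (coeffEmb E) Haupt.Two.jq_mul_s2
  simp only [map_mul, map_pow, map_add, map_one, map_ofNat] at h1
  rw [h0] at h1
  simp at h1

theorem coeffEmb_s3_ne_zero : coeffEmb E Haupt.Three.s3 ≠ 0 := by
  intro h0
  have h1 := congrArg (coeffEmb E) Haupt.Three.jq_mul_s3
  simp only [map_mul, map_pow, map_add, map_one, map_ofNat] at h1
  rw [h0] at h1
  simp at h1

/-- `j · h₂² = (h₂ + 256)³` in any subfield of `E((q))` containing `j` and `h₂`. -/
theorem j_mul_h2 (jL tL : L) (hj : (jL : LaurentSeries E) = coeffEmb E jq)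
    (ht : (tL : LaurentSeries E) = (coeffEmb E Haupt.Two.s2)⁻¹) :
    jL * tL ^ 2 = (tL + 256) ^ 3 := by
  apply Subtype.ext
  have h1 := congrArg (coeffEmb E) Haupt.Two.jq_mul_s2
  simp only [map_mul, map_pow, map_add, map_one, map_ofNat] at h1
  have hS := coeffEmb_s2_ne_zero (E := E)
  show (jL : LaurentSeries E) * (tL : LaurentSeries E) ^ 2 = ((tL : LaurentSeries E) + 256) ^ 3
  rw [hj, ht]
  field_simp
  linear_combination h1

/-- `j · h₃³ = (h₃ + 27)(h₃ + 243)³` in any subfield of `E((q))` containing `j` and `h₃`. -/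
theorem j_mul_h3 (jL tL : L) (hj : (jL : LaurentSeries E) = coeffEmb E jq)
    (ht : (tL : LaurentSeries E) = (coeffEmb E Haupt.Three.s3)⁻¹) :
    jL * tL ^ 3 = (tL + 27) * (tL + 243) ^ 3 := by
  apply Subtype.ext
  have h1 := congrArg (coeffEmb E) Haupt.Three.jq_mul_s3
  simp only [map_mul, map_pow, map_add, map_one, map_ofNat] at h1
  have hS := coeffEmb_s3_ne_zero (E := E)
  show (jL : LaurentSeries E) * (tL : LaurentSeries E) ^ 3 =
    ((tL : LaurentSeries E) + 27) * ((tL : LaurentSeries E) + 243) ^ 3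
  rw [hj, ht]
  field_simp
  linear_combination h1

/-- `j` is transcendental over `E` in any subfield of `E((q))`. -/
theorem transcendental_j (jL : L) (hj : (jL : LaurentSeries E) = coeffEmb E jq) :
    Transcendental E jL := by
  apply transcendental_of_order_neg L jL
  rw [hj, E2G1.coeffEmb_jq]
  exact E2G1.order_jqModC_neg E

end Rel

/-! ### `(K1E)` over the Hauptmodul bases -/

section Main

variable {O E : Type} [CommRing O] [IsDomain O] [IsDiscreteValuationRing O]
  [Field E] [CharZero E] [Algebra ℚ E] [Algebra O E] [IsFractionRing O E]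
  (L : IntermediateField E (LaurentSeries E)) [Algebra O L] [IsScalarTower O E L]

/-- **`(K1E)` over the base `h₂`, general branch set.** -/
theorem k1E_two_of_horiz
    (hfrac : ∀ x : L, (x : LaurentSeries E) ∈ GaussDVR.fracField O E)
    (jL tL : L) (hj : (jL : LaurentSeries E) = coeffEmb E jq)
    (ht : (tL : LaurentSeries E) = (coeffEmb E Haupt.Two.s2)⁻¹)
    [FiniteDimensional (IntermediateField.adjoin E {jL}) L]
    (hgauss : ∀ π : O, Irreducible π → Model.GaussUnram (E := E) π jL)
    (S : Finset O) (hS : ∀ c ∈ S, ∀ c' ∈ S, c ≠ c' → IsUnit (c - c'))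
    (hhoriz : Model.HorizUnram (E := E) S tL)
    (p : ℕ) (hp : p.Prime) (hpO : IsUnit (p : O)) (ζ : O) (hζ : IsPrimitiveRoot ζ p) :
    K1E O E L p := by
  classical
  obtain ⟨π, hπ⟩ := IsDiscreteValuationRing.exists_irreducible O
  obtain ⟨hT, hFD, hG⟩ := AuxA.GaussBC.gaussUnram_of_cubic π hπ jL tL
    (transcendental_j L jL hj) (hgauss π hπ) (j_mul_h2 L jL tL hj ht).symm
  haveI := hFD
  have htO : (tL : LaurentSeries E) = GaussDVR.iota O E (E2G1Aux.invO O Haupt.Two.s2Z) := by
    rw [ht, Haupt.Two.s2_eq_emb]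
    exact E2G1Aux.inv_coeffEmb_eq_iota Haupt.Two.s2Z Haupt.Two.coeff_zero_s2Z
      Haupt.Two.coeff_one_s2Z
  exact k1E_of_inputs L hfrac π hπ tL (E2G1Aux.invO O Haupt.Two.s2Z) htO
    (E2G1Aux.order_rho_invO_neg Haupt.Two.s2Z) hG S hS hhoriz p hp hpO ζ hζ
    (fun g hg hord => Fermat.Agent.S18.LocPow.locPow_of_dvd_ord tL hT p g hg hord)

/-- **`(K1E)` over the base `h₃`, general branch set.** -/
theorem k1E_three_of_horiz
    (hfrac : ∀ x : L, (x : LaurentSeries E) ∈ GaussDVR.fracField O E)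
    (jL tL : L) (hj : (jL : LaurentSeries E) = coeffEmb E jq)
    (ht : (tL : LaurentSeries E) = (coeffEmb E Haupt.Three.s3)⁻¹)
    [FiniteDimensional (IntermediateField.adjoin E {jL}) L]
    (hgauss : ∀ π : O, Irreducible π → Model.GaussUnram (E := E) π jL)
    (S : Finset O) (hS : ∀ c ∈ S, ∀ c' ∈ S, c ≠ c' → IsUnit (c - c'))
    (hhoriz : Model.HorizUnram (E := E) S tL)
    (p : ℕ) (hp : p.Prime) (hpO : IsUnit (p : O)) (ζ : O) (hζ : IsPrimitiveRoot ζ p) :
    K1E O E L p := by
  classical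
  obtain ⟨π, hπ⟩ := IsDiscreteValuationRing.exists_irreducible O
  obtain ⟨hT, hFD, hG⟩ := AuxA.GaussBC.gaussUnram_of_quartic π hπ jL tL
    (transcendental_j L jL hj) (hgauss π hπ) (j_mul_h3 L jL tL hj ht).symm
  haveI := hFD
  have htO : (tL : LaurentSeries E) = GaussDVR.iota O E (E2G1Aux.invO O Haupt.Three.s3Z) := by
    rw [ht]
    exact E2G1Aux.inv_coeffEmb_eq_iota Haupt.Three.s3Z Haupt.Three.coeff_zero_s3Z
      Haupt.Three.coeff_one_s3Z
  exact k1E_of_inputs L hfrac π hπ tL (E2G1Aux.invO O Haupt.Three.s3Z) htO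
    (E2G1Aux.order_rho_invO_neg Haupt.Three.s3Z) hG S hS hhoriz p hp hpO ζ hζ
    (fun g hg hord => Fermat.Agent.S18.LocPow.locPow_of_dvd_ord tL hT p g hg hord)

/-- The branch set `{0, -64}` of `h₂` has unit differences as soon as `2` is a unit. -/
theorem unit_diff_two [DecidableEq O] (h2 : IsUnit (2 : O)) :
    ∀ c ∈ ({0, -64} : Finset O), ∀ c' ∈ ({0, -64} : Finset O), c ≠ c' → IsUnit (c - c') := by

  have h64 : IsUnit (64 : O) := by
    have : (64 : O) = 2 ^ 6 := by norm_num
    rw [this]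
    exact h2.pow 6
  intro c hc c' hc' hne
  simp only [Finset.mem_insert, Finset.mem_singleton] at hc hc'
  rcases hc with rfl | rfl <;> rcases hc' with rfl | rfl
  · exact absurd rfl hne
  · rw [zero_sub, neg_neg]; exact h64
  · rw [sub_zero]; exact h64.neg
  · exact absurd rfl hne

/-- The branch set `{0, -27}` of `h₃` has unit differences as soon as `3` is a unit. -/
theorem unit_diff_three [DecidableEq O] (h3 : IsUnit (3 : O)) :
    ∀ c ∈ ({0, -27} : Finset O), ∀ c' ∈ ({0, -27} : Finset O), c ≠ c' → IsUnit (c - c') := by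

  have h27 : IsUnit (27 : O) := by
    have : (27 : O) = 3 ^ 3 := by norm_num
    rw [this]
    exact h3.pow 3
  intro c hc c' hc' hne
  simp only [Finset.mem_insert, Finset.mem_singleton] at hc hc'
  rcases hc with rfl | rfl <;> rcases hc' with rfl | rfl
  · exact absurd rfl hne
  · rw [zero_sub, neg_neg]; exact h27
  · rw [sub_zero]; exact h27.neg
  · exact absurd rfl hne

/-- **`(K1E)` for a subfield `L ∋ j, h₂` of `E((q))`, residue characteristic odd**: base
`u = h₂`, branch values `0, -64`. -/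
theorem k1E_two [DecidableEq O]
    (hfrac : ∀ x : L, (x : LaurentSeries E) ∈ GaussDVR.fracField O E)
    (jL tL : L) (hj : (jL : LaurentSeries E) = coeffEmb E jq)
    (ht : (tL : LaurentSeries E) = (coeffEmb E Haupt.Two.s2)⁻¹)
    [FiniteDimensional (IntermediateField.adjoin E {jL}) L]
    (hgauss : ∀ π : O, Irreducible π → Model.GaussUnram (E := E) π jL)
    (hhoriz : Model.HorizUnram (E := E) ({0, -64} : Finset O) tL)
    (h2 : IsUnit (2 : O))
    (p : ℕ) (hp : p.Prime) (hpO : IsUnit (p : O)) (ζ : O) (hζ : IsPrimitiveRoot ζ p) :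
    K1E O E L p :=
  k1E_two_of_horiz L hfrac jL tL hj ht hgauss {0, -64} (unit_diff_two h2) hhoriz p hp hpO ζ hζ

/-- **`(K1E)` for a subfield `L ∋ j, h₃` of `E((q))`, residue characteristic `≠ 3`**: base
`u = h₃`, branch values `0, -27`. -/
theorem k1E_three [DecidableEq O]
    (hfrac : ∀ x : L, (x : LaurentSeries E) ∈ GaussDVR.fracField O E)
    (jL tL : L) (hj : (jL : LaurentSeries E) = coeffEmb E jq)
    (ht : (tL : LaurentSeries E) = (coeffEmb E Haupt.Three.s3)⁻¹)
    [FiniteDimensional (IntermediateField.adjoin E {jL}) L]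
    (hgauss : ∀ π : O, Irreducible π → Model.GaussUnram (E := E) π jL)
    (hhoriz : Model.HorizUnram (E := E) ({0, -27} : Finset O) tL)
    (h3 : IsUnit (3 : O))
    (p : ℕ) (hp : p.Prime) (hpO : IsUnit (p : O)) (ζ : O) (hζ : IsPrimitiveRoot ζ p) :
    K1E O E L p :=
  k1E_three_of_horiz L hfrac jL tL hj ht hgauss {0, -27} (unit_diff_three h3) hhoriz p hp hpO ζ hζ

end Main

end Fermat.Agent.S48.G1.HauptK1Gen
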