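/-
S48 / G1(c), level-free half of hypothesis (ii) of the MODEL THEOREM (helper70).

`horizUnram_of_holEmb`: let `L / E(u)` be a finite extension of fields (`u` plays the role of
`j`), `ι : E →+* ℂ`, and let `ρ i : L →+* Frac(HolH)` (`i : I`, `I` finite) be pairwise distinct
ring homomorphisms into the fraction field of the ring of holomorphic functions on `ℍ` which
are `ι` on constants and send `u` to the modular invariant `j`.  If `[L : E(u)] ≤ |I|`, then
`L / E(u)` is unramified at every closed point of the `u`-line other than `u = 0, 1728`: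
`Model.HorizUnram S u` for every `S ∋ 0, 1728`.

No level, no function field, no Laurent series: for a congruence subgroup `Γ` the `ρ i` are the
pull-backs by coset representatives of `Γ \ SL₂(ℤ)` composed with an analytic realisation of
`L`.  The degree equality `[L : E(u)] = |I|` is derived (`finrank_eq_card`), only `≤` is asked.
Proof: Taylor expansions at a point `τ0` with `j τ0 = c` (a root of `f`), `j' τ0 ≠ 0`, and the
generic `E2.HorizGen.unramAt_of_embeddings`.
-/
import Fermat.Agent.S30.Model.Main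
import Fermat.Agent.S30.E2.HorizTaylor

set_option autoImplicit false

noncomputable section

namespace Fermat.Agent.S48.G1.HorizOfEmb

open UpperHalfPlane Polynomial IntermediateField
open Fermat.Agent.S24.HolH Fermat.Agent.S24.JHol Fermat.Agent.S24.JFun
open Fermat.Agent.S30.Ramif.TaylorEmb Fermat.Agent.S30.E2.HorizTaylor

variable {E L : Type} [Field E] [Field L] [Algebra E L]

section Card

variable {Ω : Type*} [Field Ω]

/-- Two ring homomorphisms which agree on `E` and at `u` agree on `E⟮u⟯`. -/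
theorem eq_on_adjoin (u : L) (σ τ : L →+* Ω)
    (hE : ∀ a : E, σ (algebraMap E L a) = τ (algebraMap E L a)) (hu : σ u = τ u)
    (z : E⟮u⟯) : σ (z : L) = τ (z : L) := by
  obtain ⟨z, hz⟩ := z
  show σ z = τ z
  induction hz using IntermediateField.adjoin_induction with
  | mem x hx =>
    rw [Set.mem_singleton_iff] at hx
    rw [hx]
    exact hu
  | algebraMap x => exact hE x
  | add x y _ _ hx hy => rw [map_add, map_add, hx, hy]
  | inv x _ hx => rw [map_inv₀, map_inv₀, hx]
  | mul x y _ _ hx hy => rw [map_mul, map_mul, hx, hy]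

/-- A family of pairwise distinct ring homomorphisms `L → Ω` with a common restriction to
`E⟮u⟯` has at most `[L : E⟮u⟯]` members. -/
theorem card_le_finrank (u : L) [FiniteDimensional E⟮u⟯ L] {I : Type*} [Finite I]
    (σ : I → L →+* Ω) (hσ : Function.Injective σ)
    (hE : ∀ i j (a : E), σ i (algebraMap E L a) = σ j (algebraMap E L a))
    (hu : ∀ i j, σ i u = σ j u) : Nat.card I ≤ Module.finrank E⟮u⟯ L := by
  classical
  rcases isEmpty_or_nonempty I with h | ⟨⟨i0⟩⟩
  · rw [Nat.card_of_isEmpty]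
    exact Nat.zero_le _
  let _ : Algebra E⟮u⟯ Ω := ((σ i0).comp (algebraMap E⟮u⟯ L)).toAlgebra
  let g : I → (L →ₐ[E⟮u⟯] Ω) := fun i =>
    { σ i with
      commutes' := fun z => eq_on_adjoin u (σ i) (σ i0) (hE i i0) (hu i i0) z }
  have hg : Function.Injective g := by
    intro i j h
    apply hσ
    ext a
    exact congrArg (fun φ : L →ₐ[E⟮u⟯] Ω => φ a) h
  calc Nat.card I ≤ Nat.card (L →ₐ[E⟮u⟯] Ω) := Nat.card_le_card_of_injective g hg
    _ ≤ Module.finrank E⟮u⟯ L := card_algHom_le_finrank _ _ _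

end Card

/-- The Taylor embeddings attached to a family of analytic realisations. -/
def emb (τ0 : ℍ) {I : Type*} (ρ : I → L →+* FractionRing HolH) (i : I) :
    L →+* LaurentSeries ℂ :=
  (tayFrac τ0).comp (ρ i)

theorem emb_injective (τ0 : ℍ) {I : Type*} (ρ : I → L →+* FractionRing HolH)
    (hρ : Function.Injective ρ) : Function.Injective (emb τ0 ρ) := by
  intro i j h
  apply hρ
  refine RingHom.ext fun a => ?_
  apply (tayFrac τ0).injective
  exact congrArg (fun φ : L →+* LaurentSeries ℂ => φ a) h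

theorem emb_algebraMap (ι : E →+* ℂ) (τ0 : ℍ) {I : Type*} (ρ : I → L →+* FractionRing HolH)
    (hρE : ∀ i a, ρ i (algebraMap E L a) =
      algebraMap HolH (FractionRing HolH) (algebraMap ℂ HolH (ι a))) (i : I) (a : E) :
    emb τ0 ρ i (algebraMap E L a) = HahnSeries.C (ι a) := by
  rw [emb, RingHom.comp_apply, hρE, tayFrac_algebraMap, taylorHol_algebraMap,
    HahnSeries.ofPowerSeries_C]

theorem emb_u (τ0 : ℍ) {I : Type*} (ρ : I → L →+* FractionRing HolH) (u : L)
    (hρu : ∀ i, ρ i u = algebraMap HolH (FractionRing HolH) jHol) (i : I) :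
    emb τ0 ρ i u = HahnSeries.ofPowerSeries ℤ ℂ (taylorHol τ0 jHol) := by
  rw [emb, RingHom.comp_apply, hρu, tayFrac_algebraMap]

/-- The degree is the number of realisations. -/
theorem finrank_eq_card (u : L) [FiniteDimensional E⟮u⟯ L] (ι : E →+* ℂ)
    {I : Type*} [Finite I] (ρ : I → L →+* FractionRing HolH) (hρ : Function.Injective ρ)
    (hdeg : Module.finrank E⟮u⟯ L ≤ Nat.card I)
    (hρE : ∀ i a, ρ i (algebraMap E L a) =
      algebraMap HolH (FractionRing HolH) (algebraMap ℂ HolH (ι a)))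
    (hρu : ∀ i, ρ i u = algebraMap HolH (FractionRing HolH) jHol) :
    Module.finrank E⟮u⟯ L = Nat.card I :=
  le_antisymm hdeg (card_le_finrank u ρ hρ
    (fun i j a => by rw [hρE, hρE]) (fun i j => by rw [hρu, hρu]))

/-- **Single point form.** `L / E(u)` is unramified at the closed point `f(u) = 0` of the
`u`-line, for every irreducible `f ∈ E[X]` with `f(0) ≠ 0` and `f(1728) ≠ 0`.  The conclusion is
the literal body of `Model.UnramAt E⟮u⟯ (Algebra.adjoin E {u}) (aeval u f)`. -/
theorem unramAt_of_holEmb (u : L) [FiniteDimensional E⟮u⟯ L] (ι : E →+* ℂ)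
    {I : Type*} [Finite I] (ρ : I → L →+* FractionRing HolH) (hρ : Function.Injective ρ)
    (hdeg : Module.finrank E⟮u⟯ L ≤ Nat.card I)
    (hρE : ∀ i a, ρ i (algebraMap E L a) =
      algebraMap HolH (FractionRing HolH) (algebraMap ℂ HolH (ι a)))
    (hρu : ∀ i, ρ i u = algebraMap HolH (FractionRing HolH) jHol)
    (f : E[X]) (hf : Irreducible f) (h0 : f.eval 0 ≠ 0) (h1 : f.eval 1728 ≠ 0) :
    ∃ b : Fin (Module.finrank E⟮u⟯ L) → L,
      (∀ i, IsIntegral (Algebra.adjoin E {u}) (b i)) ∧
      ∃ d : L, d ∈ Algebra.adjoin E {u} ∧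
        ((Algebra.traceMatrix E⟮u⟯ b).det : L) = d ∧
        ∀ c : L, c ∈ Algebra.adjoin E {u} → d ≠ aeval u f * c := by
  have key : ∀ a : E, (f.map ι).eval (ι a) = ι (f.eval a) := fun a => by
    rw [eval_map, eval₂_at_apply]
  obtain ⟨c, hc⟩ := IsAlgClosed.exists_root (f.map ι)
    (by rw [degree_map]; exact (degree_pos_of_irreducible hf).ne')
  have hc0 : c ≠ 0 := by
    rintro rfl
    apply h0
    apply ι.injective
    rw [← key, map_zero]
    exact hc
  have hc1 : c ≠ 1728 := by
    rintro rfl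
    apply h1
    apply ι.injective
    rw [← key, map_ofNat, map_zero]
    exact hc
  obtain ⟨τ0, hτ0, hord⟩ := exists_ordZ_jHol_sub_eq_one hc0 hc1
  refine Fermat.Agent.S30.E2.HorizGen.unramAt_of_embeddings u ι (taylorHol τ0 jHol)
    (coeff_one_taylorHol_jHol hord) (finrank_eq_card u ι ρ hρ hdeg hρE hρu).symm
    (emb τ0 ρ) (emb_injective τ0 ρ hρ) (emb_algebraMap ι τ0 ρ hρE) (emb_u τ0 ρ u hρu) f hf ?_
  rw [constantCoeff_taylorHol, jHol_apply, hτ0]
  exact hc

/-- **G1(c), hypothesis (ii), level-free.** -/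
theorem horizUnram_of_holEmb (u : L) [FiniteDimensional E⟮u⟯ L] (ι : E →+* ℂ)
    {I : Type*} [Finite I] (ρ : I → L →+* FractionRing HolH) (hρ : Function.Injective ρ)
    (hdeg : Module.finrank E⟮u⟯ L ≤ Nat.card I)
    (hρE : ∀ i a, ρ i (algebraMap E L a) =
      algebraMap HolH (FractionRing HolH) (algebraMap ℂ HolH (ι a)))
    (hρu : ∀ i, ρ i u = algebraMap HolH (FractionRing HolH) jHol)
    {O : Type*} [CommRing O] [Algebra O E]
    (S : Finset O) (h0 : ∃ c ∈ S, algebraMap O E c = 0)
    (h1728 : ∃ c ∈ S, algebraMap O E c = 1728) :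
    Fermat.Agent.S30.Model.HorizUnram (E := E) S u := by
  intro f hf hS
  obtain ⟨c0, hc0S, hc0⟩ := h0
  obtain ⟨c1, hc1S, hc1⟩ := h1728
  have key : ∀ a : E, f.eval a = 0 → Associated f (X - C a) := fun a ha =>
    ((irreducible_X_sub_C a).associated_of_dvd hf (dvd_iff_isRoot.mpr ha)).symm
  exact unramAt_of_holEmb u ι ρ hρ hdeg hρE hρu f hf
    (fun h => hS c0 hc0S (by rw [hc0]; exact key 0 h))
    (fun h => hS c1 hc1S (by rw [hc1]; exact key 1728 h))

end Fermat.Agent.S48.G1.HorizOfEmb
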