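/-
S48 / G1(c), hypothesis (ii) of the MODEL THEOREM over an auxiliary Hauptmodul base, level-free
and place-free (helper70).

Data: fields `E ⊆ L`, `ι : E →+* ℂ`, `jL u : L` with a relation `A(u) = jL · B(u)`
(`A, B ∈ E[X]`, `A` monic, `deg B < deg A`, coprime; e.g. `u = h₂`, `A = (X+256)³`, `B = X²`),
and the full family `ρ i : L →+* Frac(HolH)` of analytic realisations over the `j`-line
(pairwise distinct, `ι` on constants, `jL ↦ j`, `[L : E(jL)] ≤ |I|`).

`horizUnram_of_holEmb_rel`: `L / E(u)` is unramified at every closed point of the `u`-line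
outside `S`, as soon as `S` contains the roots of `B` (cusps), the roots of `A` of multiplicity
`< 3` and the roots of `A - 1728 B` of multiplicity `< 2` (elliptic points of the auxiliary
level).

Proof.  The `ρ i u` are all the roots of `A - j B` in `Frac(HolH)` (degree count with
`HauptGen.finrank_eq_mul`), so every root `c` of `A - j(τ0) B` is the value at `τ0` of one of
them; by integrality its Taylor series `Y` at `τ0` is a power series, and
`m · ord(Y - c) = ord_{τ0}(j - j(τ0)) ≤ m` forces `ord(Y - c) = 1`.  Then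
`HorizGen.unramAt_of_embeddings` on the fibre `{i | ρ i u = ρ i0 u}`, of cardinality `[L : E(u)]`.
-/
import Fermat.Agent.S48.G1.HorizOfEmb
import Fermat.Agent.S30.E2.HauptGen

set_option autoImplicit false

noncomputable section

namespace Fermat.Agent.S48.G1.HorizOfEmbRel

open UpperHalfPlane Polynomial IntermediateField
open Fermat.Agent.S24.HolH Fermat.Agent.S24.JHol Fermat.Agent.S24.JFun
open Fermat.Agent.S30.Ramif.TaylorEmb Fermat.Agent.S30.E2.HorizTaylor
open Fermat.Agent.S48.G1.HorizOfEmb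

/-! ### Generic algebra -/

section Algebra

/-- A monic polynomial with `deg` many distinct roots is the product of the linear factors. -/
theorem eq_prod_of_roots {F : Type*} [Field F] [DecidableEq F] (G : F[X]) (hG : G.Monic)
    (R : Finset F) (hR : ∀ y ∈ R, G.eval y = 0) (hcard : G.natDegree ≤ R.card) :
    G = ∏ y ∈ R, (X - C y) := by
  have hne : G ≠ 0 := hG.ne_zero
  have hle : R.val ≤ G.roots := by
    rw [Multiset.le_iff_subset R.nodup]
    intro y hy
    exact (mem_roots hne).mpr (hR y (Finset.mem_val.mp hy))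
  have hcard' : Multiset.card G.roots ≤ Multiset.card R.val :=
    (card_roots' G).trans hcard
  have heq : R.val = G.roots := Multiset.eq_of_le_of_card_le hle hcard'
  have hroots : Multiset.card G.roots = G.natDegree := by
    apply le_antisymm (card_roots' G)
    rw [← heq]
    exact hcard
  have h := prod_multiset_X_sub_C_of_monic_of_roots_card_eq hG hroots
  rw [← heq] at h
  exact h.symm

/-- Fibre counting: `n * d` points, fibres of size `≤ d`, at most `n` fibres: exactly `n` fibres,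
each of size `d`. -/
theorem card_fibers {I F : Type*} [Fintype I] [DecidableEq F] (v : I → F) (n d : ℕ)
    (hd : 0 < d) (htot : Fintype.card I = n * d)
    (hfib : ∀ y, (Finset.univ.filter (fun i => v i = y)).card ≤ d)
    (himg : (Finset.univ.image v).card ≤ n) :
    (Finset.univ.image v).card = n ∧
      ∀ i0, (Finset.univ.filter (fun i => v i = v i0)).card = d := by
  have hsum : Fintype.card I =
      ∑ y ∈ Finset.univ.image v, (Finset.univ.filter (fun i => v i = y)).card := by
    rw [← Finset.card_univ]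
    exact Finset.card_eq_sum_card_image v Finset.univ
  have hle : ∑ y ∈ Finset.univ.image v, (Finset.univ.filter (fun i => v i = y)).card ≤
      ∑ _y ∈ Finset.univ.image v, d := Finset.sum_le_sum (fun y _ => hfib y)
  rw [Finset.sum_const, smul_eq_mul] at hle
  have h1 : n * d ≤ (Finset.univ.image v).card * d := by
    rw [← htot, hsum]
    exact hle
  have h2 : (Finset.univ.image v).card = n :=
    le_antisymm himg (Nat.le_of_mul_le_mul_right h1 hd)
  refine ⟨h2, fun i0 => ?_⟩
  have heq : ∑ y ∈ Finset.univ.image v, (Finset.univ.filter (fun i => v i = y)).card =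
      ∑ _y ∈ Finset.univ.image v, d := by
    rw [Finset.sum_const, smul_eq_mul, ← hsum, htot, h2]
  exact (Finset.sum_eq_sum_iff_of_le (fun y _ => hfib y)).mp heq (v i0)
    (Finset.mem_image_of_mem v (Finset.mem_univ i0))

/-- A Laurent series which is a root of a monic polynomial over power series is a power
series. -/
theorem exists_powerSeries_of_monic_root {K : Type*} [Field K] (P : (PowerSeries K)[X])
    (hP : P.Monic) (y : LaurentSeries K)
    (hy : P.eval₂ (HahnSeries.ofPowerSeries ℤ K) y = 0) :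
    ∃ Y : PowerSeries K, HahnSeries.ofPowerSeries ℤ K Y = y := by
  have halg : algebraMap (PowerSeries K) (LaurentSeries K) = HahnSeries.ofPowerSeries ℤ K :=
    RingHom.ext fun r => by rw [LaurentSeries.coe_algebraMap]
  have hint : IsIntegral (PowerSeries K) y := ⟨P, hP, by rw [halg]; exact hy⟩
  obtain ⟨Y, hY⟩ := IsIntegrallyClosed.isIntegral_iff.mp hint
  exact ⟨Y, by rw [← hY, halg]⟩

end Algebra

/-! ### Power series -/

section Series

/-- `A(Y) = J · B(Y)`, `Y(0) = c`, and `ord(J - j0) ≤` the multiplicity of `c` as a root of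
`A - j0 B`: then `Y - c` has order exactly one. -/
theorem coeff_one_ne_zero_of_rel (Ai Bi : ℂ[X]) (j0 c : ℂ) (Jj Y : PowerSeries ℂ)
    (hY0 : PowerSeries.constantCoeff Y = c) (hBc : Bi.eval c ≠ 0)
    (hQ0 : Ai - C j0 * Bi ≠ 0) (hroot : (Ai - C j0 * Bi).eval c = 0)
    (hrel : aeval Y Ai = Jj * aeval Y Bi)
    (hord : (Jj - PowerSeries.C j0).order ≤ (rootMultiplicity c (Ai - C j0 * Bi) : ℕ∞)) :
    PowerSeries.coeff 1 Y ≠ 0 := by
  intro h1
  have hm : 0 < rootMultiplicity c (Ai - C j0 * Bi) := (rootMultiplicity_pos hQ0).mpr hroot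
  obtain ⟨Q1, hQ1, -⟩ := exists_eq_pow_rootMultiplicity_mul_and_not_dvd (Ai - C j0 * Bi) hQ0 c
  generalize rootMultiplicity c (Ai - C j0 * Bi) = m at hm hQ1 hord
  have hX2 : (PowerSeries.X : PowerSeries ℂ) ^ 2 ∣ Y - PowerSeries.C c := by
    rw [PowerSeries.X_pow_dvd_iff]
    intro i hi
    interval_cases i
    · rw [PowerSeries.coeff_zero_eq_constantCoeff_apply, map_sub, hY0,
        PowerSeries.constantCoeff_C, sub_self]
    · rw [map_sub, h1, PowerSeries.coeff_C]
      simp
  have hdvd : (PowerSeries.X : PowerSeries ℂ) ^ (2 * m) ∣ (Y - PowerSeries.C c) ^ m := by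
    rw [pow_mul]
    exact pow_dvd_pow_of_dvd hX2 m
  have key : aeval Y (Ai - C j0 * Bi) = (Jj - PowerSeries.C j0) * aeval Y Bi := by
    rw [map_sub, map_mul, aeval_C, hrel, PowerSeries.algebraMap_eq]
    ring
  have key2 : aeval Y (Ai - C j0 * Bi) = (Y - PowerSeries.C c) ^ m * aeval Y Q1 := by
    rw [hQ1, map_mul, map_pow, map_sub, aeval_X, aeval_C, PowerSeries.algebraMap_eq]
  have hunit : IsUnit (aeval Y Bi) := by
    rw [PowerSeries.isUnit_iff_constantCoeff,
      Fermat.Agent.S30.E2.HorizGen.constantCoeff_aeval, hY0]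
    exact isUnit_iff_ne_zero.mpr hBc
  have h3 : (PowerSeries.X : PowerSeries ℂ) ^ (2 * m) ∣ (Jj - PowerSeries.C j0) * aeval Y Bi := by
    rw [← key, key2]
    exact Dvd.dvd.mul_right hdvd _
  have h4 : (PowerSeries.X : PowerSeries ℂ) ^ (2 * m) ∣ Jj - PowerSeries.C j0 :=
    (IsUnit.dvd_mul_right hunit).mp h3
  have h5 : ((2 * m : ℕ) : ℕ∞) ≤ (Jj - PowerSeries.C j0).order :=
    PowerSeries.nat_le_order _ _ (PowerSeries.X_pow_dvd_iff.mp h4)
  have h6 : ((2 * m : ℕ) : ℕ∞) ≤ (m : ℕ∞) := h5.trans hord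
  have h7 : 2 * m ≤ m := by exact_mod_cast h6
  omega

end Series

/-! ### The Hauptmodul theorem -/

section Main

variable {E L : Type} [Field E] [Field L] [Algebra E L]

/-- Constants, as elements of `Frac(HolH)`. -/
def phi0 : ℂ →+* FractionRing HolH :=
  (algebraMap HolH (FractionRing HolH)).comp (algebraMap ℂ HolH)

theorem tayFrac_phi0 (τ0 : ℍ) (c : ℂ) : tayFrac τ0 (phi0 c) = HahnSeries.C c := by
  rw [phi0, RingHom.comp_apply, tayFrac_algebraMap, taylorHol_algebraMap,
    HahnSeries.ofPowerSeries_C]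

/-- `A - t B` is monic of degree `deg A`. -/
theorem monic_rel {R : Type*} [CommRing R] [Nontrivial R] (φ : E →+* R) (t : R) {A B : E[X]}
    (hA : A.Monic) (hAB : B.natDegree < A.natDegree) :
    (A.map φ - C t * B.map φ).natDegree = A.natDegree ∧ (A.map φ - C t * B.map φ).Monic := by
  have h1 : (A.map φ).Monic := hA.map _
  have h2 : (A.map φ).natDegree = A.natDegree := hA.natDegree_map _
  have h4 : (C t * B.map φ).natDegree < (A.map φ).natDegree := by
    rw [h2]
    exact lt_of_le_of_lt (natDegree_C_mul_le _ _) (lt_of_le_of_lt natDegree_map_le hAB)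
  constructor
  · rw [natDegree_sub_eq_left_of_natDegree_lt h4, h2]
  · exact h1.sub_of_left (degree_lt_degree h4)

/-- The polynomial `A - j B` over `Frac(HolH)`. -/
def relG (ι : E →+* ℂ) (A B : E[X]) : (FractionRing HolH)[X] :=
  A.map (phi0.comp ι) - C (algebraMap HolH (FractionRing HolH) jHol) * B.map (phi0.comp ι)

theorem map_aeval_hol (ι : E →+* ℂ) (σ : L →+* FractionRing HolH)
    (hσE : ∀ a, σ (algebraMap E L a) =
      algebraMap HolH (FractionRing HolH) (algebraMap ℂ HolH (ι a)))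
    (u : L) (g : E[X]) : σ (aeval u g) = (g.map (phi0.comp ι)).eval (σ u) := by
  have hcomp : σ.comp (algebraMap E L) = phi0.comp ι := RingHom.ext hσE
  rw [aeval_def, hom_eval₂, hcomp, eval_map]

/-- Every realisation of `u` is a root of `A - j B`. -/
theorem eval_relG (ι : E →+* ℂ) (σ : L →+* FractionRing HolH)
    (hσE : ∀ a, σ (algebraMap E L a) =
      algebraMap HolH (FractionRing HolH) (algebraMap ℂ HolH (ι a)))
    (jL u : L) (hσj : σ jL = algebraMap HolH (FractionRing HolH) jHol) (A B : E[X])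
    (hrel : aeval u A = jL * aeval u B) : (relG ι A B).eval (σ u) = 0 := by
  have h := congrArg σ hrel
  rw [map_mul, map_aeval_hol ι σ hσE, map_aeval_hol ι σ hσE, hσj] at h
  rw [relG, eval_sub, eval_mul, eval_C, h, sub_self]

theorem ofPS_aeval (ι : E →+* ℂ) (Y : PowerSeries ℂ) (g : E[X]) :
    HahnSeries.ofPowerSeries ℤ ℂ (aeval Y (g.map ι)) =
      eval₂ ((HahnSeries.C : ℂ →+* LaurentSeries ℂ).comp ι) (HahnSeries.ofPowerSeries ℤ ℂ Y) g := by
  rw [aeval_def, eval₂_map, hom_eval₂]
  congr 1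
  ext a
  simp only [RingHom.comp_apply, PowerSeries.algebraMap_eq, HahnSeries.ofPowerSeries_C]

theorem tayFrac_eval₂ (ι : E →+* ℂ) (τ0 : ℍ) (y : FractionRing HolH) (g : E[X]) :
    tayFrac τ0 (eval₂ (phi0.comp ι) y g) =
      eval₂ ((HahnSeries.C : ℂ →+* LaurentSeries ℂ).comp ι) (tayFrac τ0 y) g := by
  rw [hom_eval₂]
  congr 1
  ext a
  simp only [RingHom.comp_apply, tayFrac_phi0]

/-- The Taylor expansion at `τ0` of a root of `A - j B` is a power series satisfying the
relation. -/
theorem taylor_rel (ι : E →+* ℂ) (τ0 : ℍ) {A B : E[X]} (hA : A.Monic)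
    (hAB : B.natDegree < A.natDegree) (y : FractionRing HolH)
    (hy : (relG ι A B).eval y = 0) :
    ∃ Y : PowerSeries ℂ, HahnSeries.ofPowerSeries ℤ ℂ Y = tayFrac τ0 y ∧
      aeval Y (A.map ι) = taylorHol τ0 jHol * aeval Y (B.map ι) := by
  have hinj : Function.Injective (HahnSeries.ofPowerSeries ℤ ℂ) :=
    HahnSeries.ofPowerSeries_injective
  -- the relation for `y`
  have h1 : eval₂ (phi0.comp ι) y A =
      algebraMap HolH (FractionRing HolH) jHol * eval₂ (phi0.comp ι) y B := by
    rw [relG, eval_sub, eval_mul, eval_C, eval_map, eval_map, sub_eq_zero] at hy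
    exact hy
  -- transported by the Taylor expansion
  have h2 : eval₂ ((HahnSeries.C : ℂ →+* LaurentSeries ℂ).comp ι) (tayFrac τ0 y) A =
      HahnSeries.ofPowerSeries ℤ ℂ (taylorHol τ0 jHol) *
        eval₂ ((HahnSeries.C : ℂ →+* LaurentSeries ℂ).comp ι) (tayFrac τ0 y) B := by
    rw [← tayFrac_eval₂, ← tayFrac_eval₂, h1, map_mul, tayFrac_algebraMap]
  -- integrality
  obtain ⟨hdegP, hP⟩ := monic_rel ((PowerSeries.C : ℂ →+* PowerSeries ℂ).comp ι)
    (taylorHol τ0 jHol) hA hAB
  have hcomp : (HahnSeries.ofPowerSeries ℤ ℂ).comp ((PowerSeries.C : ℂ →+* PowerSeries ℂ).comp ι)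
      = (HahnSeries.C : ℂ →+* LaurentSeries ℂ).comp ι := by
    ext a
    simp only [RingHom.comp_apply, HahnSeries.ofPowerSeries_C]
  obtain ⟨Y, hY⟩ := exists_powerSeries_of_monic_root _ hP (tayFrac τ0 y) (by
    rw [eval₂_sub, eval₂_mul, eval₂_C, eval₂_map, eval₂_map, hcomp, h2, sub_self])
  refine ⟨Y, hY, ?_⟩
  apply hinj
  rw [map_mul, ofPS_aeval, ofPS_aeval, hY, h2]

end Main

/-! ### Unramifiedness over the Hauptmodul line -/

section Core

variable {E L : Type} [Field E] [Field L] [Algebra E L]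

/-- **Single point form.**  `c` is a root of `f`, not a root of `B`, `τ0` a point with
`j(τ0) = A(c)/B(c)` at which `ord(j - j(τ0))` is at most the multiplicity of `c` as a root of
`A - j(τ0) B`.  Then `L / E(u)` is unramified at the closed point `f(u) = 0` of the `u`-line.  The
conclusion is the literal body of `Model.UnramAt E⟮u⟯ (Algebra.adjoin E {u}) (aeval u f)`. -/
theorem unramAt_of_holEmb_rel (jL u : L) [FiniteDimensional E⟮jL⟯ L] [FiniteDimensional E⟮u⟯ L]
    (hj : Transcendental E jL) (ι : E →+* ℂ) {I : Type*} [Finite I]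
    (ρ : I → L →+* FractionRing HolH) (hρ : Function.Injective ρ)
    (hdeg : Module.finrank E⟮jL⟯ L ≤ Nat.card I)
    (hρE : ∀ i a, ρ i (algebraMap E L a) =
      algebraMap HolH (FractionRing HolH) (algebraMap ℂ HolH (ι a)))
    (hρj : ∀ i, ρ i jL = algebraMap HolH (FractionRing HolH) jHol)
    {A B : E[X]} (hA : A.Monic) (hAB : B.natDegree < A.natDegree) (hcop : IsCoprime A B)
    (hrel : aeval u A = jL * aeval u B)
    (f : E[X]) (hf : Irreducible f) (c : ℂ) (hc : (f.map ι).eval c = 0)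
    (hBc : (B.map ι).eval c ≠ 0) (τ0 : ℍ)
    (hτ0 : (A.map ι).eval c = jFun τ0 * (B.map ι).eval c)
    (hmult : ordAt τ0 (jHol - algebraMap ℂ HolH (jFun τ0)) ≤
      (rootMultiplicity c (A.map ι - C (jFun τ0) * B.map ι) : ℕ∞)) :
    ∃ b : Fin (Module.finrank E⟮u⟯ L) → L,
      (∀ i, IsIntegral (Algebra.adjoin E {u}) (b i)) ∧
      ∃ d : L, d ∈ Algebra.adjoin E {u} ∧
        ((Algebra.traceMatrix E⟮u⟯ b).det : L) = d ∧
        ∀ c : L, c ∈ Algebra.adjoin E {u} → d ≠ aeval u f * c := by
  classical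
  let _ : Fintype I := Fintype.ofFinite I
  set v : I → FractionRing HolH := fun i => ρ i u with hv
  have hroot : ∀ i, (relG ι A B).eval (v i) = 0 := fun i =>
    eval_relG ι (ρ i) (hρE i) jL u (hρj i) A B hrel
  obtain ⟨hGdeg, hGmonic⟩ :=
    monic_rel (phi0.comp ι) (algebraMap HolH (FractionRing HolH) jHol) hA hAB
  have hGdeg' : (relG ι A B).natDegree = A.natDegree := hGdeg
  have hGmonic' : (relG ι A B).Monic := hGmonic
  -- counting
  have hd : 0 < Module.finrank E⟮u⟯ L := Module.finrank_pos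
  have htot : Fintype.card I = A.natDegree * Module.finrank E⟮u⟯ L := by
    rw [← Nat.card_eq_fintype_card, ← finrank_eq_card jL ι ρ hρ hdeg hρE hρj]
    exact Fermat.Agent.S30.E2.HauptGen.finrank_eq_mul hj hA hAB hcop u hrel
  have hfib : ∀ y, (Finset.univ.filter (fun i => v i = y)).card ≤ Module.finrank E⟮u⟯ L := by
    intro y
    have h := card_le_finrank (E := E) u (fun i : {i : I // v i = y} => ρ i.1)
      (fun i j hij => Subtype.ext (hρ hij))
      (fun i j a => by rw [hρE, hρE])
      (fun i j => by rw [show ρ i.1 u = y from i.2, show ρ j.1 u = y from j.2])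
    rw [Nat.card_eq_fintype_card, Fintype.card_subtype] at h
    exact h
  have himg : (Finset.univ.image v).card ≤ A.natDegree := by
    rw [← hGdeg']
    have hle : (Finset.univ.image v).val ≤ (relG ι A B).roots := by
      rw [Multiset.le_iff_subset (Finset.univ.image v).nodup]
      intro y hy
      obtain ⟨i, -, rfl⟩ := Finset.mem_image.mp (Finset.mem_val.mp hy)
      exact (mem_roots hGmonic'.ne_zero).mpr (hroot i)
    exact (Multiset.card_le_card hle).trans (card_roots' _)
  obtain ⟨hRcard, hfibeq⟩ := card_fibers v _ _ hd htot hfib himg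
  -- the realisations of `u` are all the roots of `A - j B`
  have hprod : relG ι A B = ∏ y ∈ Finset.univ.image v, (X - C y) :=
    eq_prod_of_roots _ hGmonic' _ (fun y hy => by
      obtain ⟨i, -, rfl⟩ := Finset.mem_image.mp hy
      exact hroot i) (by rw [hGdeg', hRcard])
  -- Taylor expansions of the roots
  have hex : ∀ y ∈ Finset.univ.image v, ∃ Y : PowerSeries ℂ,
      HahnSeries.ofPowerSeries ℤ ℂ Y = tayFrac τ0 y ∧
      aeval Y (A.map ι) = taylorHol τ0 jHol * aeval Y (B.map ι) := by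
    intro y hy
    obtain ⟨i, -, rfl⟩ := Finset.mem_image.mp hy
    exact taylor_rel ι τ0 hA hAB _ (hroot i)
  choose! Yf hYf hYrel using hex
  -- some root has the value `c` at `τ0`
  have hval : ∃ y ∈ Finset.univ.image v, PowerSeries.constantCoeff (Yf y) = c := by
    have h1 := congrArg (eval₂ (tayFrac τ0) (HahnSeries.C c : LaurentSeries ℂ)) hprod
    have hL : eval₂ (tayFrac τ0) (HahnSeries.C c : LaurentSeries ℂ) (relG ι A B) =
        HahnSeries.ofPowerSeries ℤ ℂ (PowerSeries.C ((B.map ι).eval c) *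
          (PowerSeries.C (jFun τ0) - taylorHol τ0 jHol)) := by
      rw [relG, eval₂_sub, eval₂_mul, eval₂_C, eval₂_map, eval₂_map, tayFrac_algebraMap]
      have hcomp : (tayFrac τ0).comp (phi0.comp ι) =
          (HahnSeries.C : ℂ →+* LaurentSeries ℂ).comp ι := by
        ext a
        simp only [RingHom.comp_apply, tayFrac_phi0]
      have hev : ∀ g : E[X], eval₂ ((HahnSeries.C : ℂ →+* LaurentSeries ℂ).comp ι)
          (HahnSeries.C c) g = HahnSeries.C ((g.map ι).eval c) := by
        intro g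
        rw [eval_map, hom_eval₂]
      rw [hcomp, hev, hev, hτ0]
      simp only [map_mul, map_sub, HahnSeries.ofPowerSeries_C]
      ring
    have hR : eval₂ (tayFrac τ0) (HahnSeries.C c : LaurentSeries ℂ)
        (∏ y ∈ Finset.univ.image v, (X - C y)) =
        HahnSeries.ofPowerSeries ℤ ℂ (∏ y ∈ Finset.univ.image v, (PowerSeries.C c - Yf y)) := by
      rw [eval₂_finsetProd, map_prod]
      refine Finset.prod_congr rfl fun y hy => ?_
      rw [eval₂_sub, eval₂_X, eval₂_C, map_sub, HahnSeries.ofPowerSeries_C, hYf y hy]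
    rw [hL, hR] at h1
    have h2 := HahnSeries.ofPowerSeries_injective h1
    have h3 := congrArg PowerSeries.constantCoeff h2
    simp only [map_mul, map_sub, PowerSeries.constantCoeff_C, constantCoeff_taylorHol,
      jHol_apply, sub_self, mul_zero, map_prod] at h3
    obtain ⟨y, hy, hy0⟩ := Finset.prod_eq_zero_iff.mp h3.symm
    exact ⟨y, hy, (sub_eq_zero.mp hy0).symm⟩
  obtain ⟨y0, hy0mem, hy0c⟩ := hval
  obtain ⟨i0, -, hi0⟩ := Finset.mem_image.mp hy0mem
  -- order one
  have hQ0 : A.map ι - C (jFun τ0) * B.map ι ≠ 0 := (monic_rel ι (jFun τ0) hA hAB).2.ne_zero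
  have hone : PowerSeries.coeff 1 (Yf y0) ≠ 0 := by
    refine coeff_one_ne_zero_of_rel (A.map ι) (B.map ι) (jFun τ0) c (taylorHol τ0 jHol) (Yf y0)
      hy0c hBc hQ0 ?_ (hYrel y0 hy0mem) ?_
    · rw [eval_sub, eval_mul, eval_C, hτ0, sub_self]
    · have h := order_taylorHol τ0 (jHol - algebraMap ℂ HolH (jFun τ0))
      rw [map_sub, taylorHol_algebraMap] at h
      rw [h]
      exact hmult
  -- the fibre of `i0`
  have hcardIu : Nat.card {i : I // v i = v i0} = Module.finrank E⟮u⟯ L := by
    rw [Nat.card_eq_fintype_card, Fintype.card_subtype]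
    exact hfibeq i0
  refine Fermat.Agent.S30.E2.HorizGen.unramAt_of_embeddings u ι (Yf y0) hone hcardIu
    (fun i : {i : I // v i = v i0} => (tayFrac τ0).comp (ρ i.1)) ?_ ?_ ?_ f hf ?_
  · intro i j hij
    apply Subtype.ext
    apply hρ
    refine RingHom.ext fun a => ?_
    apply (tayFrac τ0).injective
    exact congrArg (fun φ : L →+* LaurentSeries ℂ => φ a) hij
  · intro i a
    rw [RingHom.comp_apply, hρE, tayFrac_algebraMap, taylorHol_algebraMap,
      HahnSeries.ofPowerSeries_C]
  · intro i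
    rw [RingHom.comp_apply, show ρ i.1 u = y0 from i.2.trans hi0, hYf y0 hy0mem]
  · rw [hy0c]
    exact hc

/-- **G1(c), hypothesis (ii) over a Hauptmodul base, level-free.**  `S` must contain the roots
of `B` (cusps), the roots of `A` which are not triple and the roots of `A - 1728 B` which are
not double (the elliptic points of the auxiliary level). -/
theorem horizUnram_of_holEmb_rel (jL u : L) [FiniteDimensional E⟮jL⟯ L]
    [FiniteDimensional E⟮u⟯ L] (hj : Transcendental E jL) (ι : E →+* ℂ) {I : Type*} [Finite I]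
    (ρ : I → L →+* FractionRing HolH) (hρ : Function.Injective ρ)
    (hdeg : Module.finrank E⟮jL⟯ L ≤ Nat.card I)
    (hρE : ∀ i a, ρ i (algebraMap E L a) =
      algebraMap HolH (FractionRing HolH) (algebraMap ℂ HolH (ι a)))
    (hρj : ∀ i, ρ i jL = algebraMap HolH (FractionRing HolH) jHol)
    {A B : E[X]} (hA : A.Monic) (hAB : B.natDegree < A.natDegree) (hcop : IsCoprime A B)
    (hrel : aeval u A = jL * aeval u B)
    {O : Type*} [CommRing O] [Algebra O E] (S : Finset O)
    (hS : ∀ c : ℂ, ((B.map ι).eval c = 0 ∨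
        ((A.map ι).eval c = 0 ∧ ¬ (X - C c) ^ 3 ∣ A.map ι) ∨
        ((A.map ι - C 1728 * B.map ι).eval c = 0 ∧
          ¬ (X - C c) ^ 2 ∣ A.map ι - C 1728 * B.map ι)) →
      ∃ s ∈ S, ι (algebraMap O E s) = c) :
    Fermat.Agent.S30.Model.HorizUnram (E := E) S u := by
  intro f hf hfS
  have key : ∀ a : E, (f.map ι).eval (ι a) = ι (f.eval a) := fun a => by
    rw [eval_map, eval₂_at_apply]
  obtain ⟨c, hc⟩ := IsAlgClosed.exists_root (f.map ι)
    (by rw [degree_map]; exact (degree_pos_of_irreducible hf).ne')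
  have hgood : ¬ ((B.map ι).eval c = 0 ∨
      ((A.map ι).eval c = 0 ∧ ¬ (X - C c) ^ 3 ∣ A.map ι) ∨
      ((A.map ι - C 1728 * B.map ι).eval c = 0 ∧
        ¬ (X - C c) ^ 2 ∣ A.map ι - C 1728 * B.map ι)) := by
    intro hbad
    obtain ⟨s, hsS, hs⟩ := hS c hbad
    apply hfS s hsS
    have h0 : f.eval (algebraMap O E s) = 0 := by
      apply ι.injective
      rw [← key, hs, map_zero]
      exact hc
    exact ((irreducible_X_sub_C _).associated_of_dvd hf (dvd_iff_isRoot.mpr h0)).symm
  rw [not_or, not_or, not_and_not_right, not_and_not_right] at hgood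
  obtain ⟨hBc, h3, h2⟩ := hgood
  have hjc : (A.map ι).eval c =
      (A.map ι).eval c / (B.map ι).eval c * (B.map ι).eval c := by
    rw [div_mul_cancel₀ _ hBc]
  generalize (A.map ι).eval c / (B.map ι).eval c = j0 at hjc
  have hne : ∀ t : ℂ, A.map ι - C t * B.map ι ≠ 0 := fun t => (monic_rel ι t hA hAB).2.ne_zero
  by_cases h0 : j0 = 0
  · refine unramAt_of_holEmb_rel jL u hj ι ρ hρ hdeg hρE hρj hA hAB hcop hrel f hf c hc hBc
      rho ?_ ?_
    · rw [jFun_rho, zero_mul, hjc, h0, zero_mul]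
    · have hAc : (A.map ι).eval c = 0 := by rw [hjc, h0, zero_mul]
      have hm : 3 ≤ rootMultiplicity c (A.map ι - C (jFun rho) * B.map ι) := by
        rw [jFun_rho, map_zero, zero_mul, sub_zero]
        have hA0 : A.map ι ≠ 0 := by
          have := hne 0
          rwa [map_zero, zero_mul, sub_zero] at this
        exact (le_rootMultiplicity_iff hA0).mpr (h3 hAc)
      rw [jFun_rho, ordAt_jHol_sub_zero_rho]
      rw [jFun_rho] at hm
      exact_mod_cast hm
  · by_cases h1 : j0 = 1728
    · refine unramAt_of_holEmb_rel jL u hj ι ρ hρ hdeg hρE hρj hA hAB hcop hrel f hf c hc hBc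
        UpperHalfPlane.I ?_ ?_
      · rw [jFun_I, hjc, h1]
      · have hAc : (A.map ι - C 1728 * B.map ι).eval c = 0 := by
          rw [eval_sub, eval_mul, eval_C, hjc, h1, sub_self]
        have hm : 2 ≤ rootMultiplicity c (A.map ι - C 1728 * B.map ι) :=
          (le_rootMultiplicity_iff (hne 1728)).mpr (h2 hAc)
        rw [jFun_I, ordAt_jHol_sub_I]
        exact_mod_cast hm
    · obtain ⟨τ0, hτ0⟩ := jFun_surjective j0
      refine unramAt_of_holEmb_rel jL u hj ι ρ hρ hdeg hρE hρj hA hAB hcop hrel f hf c hc hBc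
        τ0 ?_ ?_
      · rw [hτ0]
        exact hjc
      · have hr : (A.map ι - C (jFun τ0) * B.map ι).IsRoot c := by
          rw [IsRoot, eval_sub, eval_mul, eval_C, hτ0, hjc, sub_self]
        have hm : 0 < rootMultiplicity c (A.map ι - C (jFun τ0) * B.map ι) :=
          (rootMultiplicity_pos (hne _)).mpr hr
        rw [ordAt_jHol_sub_self τ0 (by rw [hτ0]; exact h0) (by rw [hτ0]; exact h1)]
        exact_mod_cast Nat.succ_le_of_lt hm

/-! ### The two auxiliary Hauptmoduln `h₂`, `h₃` -/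

theorem isCoprime_X_add_C_X [CharZero E] (a : ℕ) (ha : a ≠ 0) :
    IsCoprime ((X : E[X]) + C (a : E)) X := by
  have ha' : (a : E) ≠ 0 := Nat.cast_ne_zero.mpr ha
  refine ⟨C ((a : E)⁻¹), -C ((a : E)⁻¹), ?_⟩
  have h : C ((a : E)⁻¹) * (X + C (a : E)) + -C ((a : E)⁻¹) * X = C ((a : E)⁻¹ * (a : E)) := by
    rw [C_mul]
    ring
  rw [h, inv_mul_cancel₀ ha', C_1]

/-- **`u = h₂`**: `jL · u² = (u + 256)³`; `S ∋ 0, -64`. -/
theorem horizUnram_two (jL u : L) [FiniteDimensional E⟮jL⟯ L]
    [FiniteDimensional E⟮u⟯ L] (hj : Transcendental E jL) (ι : E →+* ℂ) {I : Type*} [Finite I]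
    (ρ : I → L →+* FractionRing HolH) (hρ : Function.Injective ρ)
    (hdeg : Module.finrank E⟮jL⟯ L ≤ Nat.card I)
    (hρE : ∀ i a, ρ i (algebraMap E L a) =
      algebraMap HolH (FractionRing HolH) (algebraMap ℂ HolH (ι a)))
    (hρj : ∀ i, ρ i jL = algebraMap HolH (FractionRing HolH) jHol)
    (hrel : jL * u ^ 2 = (u + 256) ^ 3)
    {O : Type*} [CommRing O] [Algebra O E] (S : Finset O)
    (h0 : ∃ c ∈ S, algebraMap O E c = 0) (h64 : ∃ c ∈ S, algebraMap O E c = -64) :
    Fermat.Agent.S30.Model.HorizUnram (E := E) S u := by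
  have : CharZero E := (RingHom.charZero_iff ι.injective).mpr inferInstance
  have hA : ((X : E[X]) + C ((256 : ℕ) : E)) ^ 3 |>.Monic := (monic_X_add_C _).pow 3
  have hAB : ((X : E[X]) ^ 2).natDegree < (((X : E[X]) + C ((256 : ℕ) : E)) ^ 3).natDegree := by
    rw [natDegree_X_pow, natDegree_pow, natDegree_X_add_C]
    norm_num
  have hcop : IsCoprime (((X : E[X]) + C ((256 : ℕ) : E)) ^ 3) ((X : E[X]) ^ 2) :=
    (isCoprime_X_add_C_X 256 (by norm_num)).pow
  have hrel' : aeval u (((X : E[X]) + C ((256 : ℕ) : E)) ^ 3) = jL * aeval u ((X : E[X]) ^ 2) := by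
    simp only [map_pow, map_add, aeval_X, map_natCast]
    rw [hrel]
    norm_num
  refine horizUnram_of_holEmb_rel jL u hj ι ρ hρ hdeg hρE hρj hA hAB hcop hrel' S ?_
  intro c hbad
  have hAi : (((X : E[X]) + C ((256 : ℕ) : E)) ^ 3).map ι = ((X : ℂ[X]) + C 256) ^ 3 := by
    simp [Polynomial.map_pow, Polynomial.map_add, map_ofNat]
  have hBi : ((X : E[X]) ^ 2).map ι = (X : ℂ[X]) ^ 2 := by simp
  rw [hAi, hBi] at hbad
  rcases hbad with hb | ⟨ha, hnd⟩ | ⟨ha, hnd⟩
  · have hc : c = 0 := by simpa using hb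
    obtain ⟨s, hs, hs0⟩ := h0
    exact ⟨s, hs, by rw [hs0, map_zero, hc]⟩
  · exfalso
    apply hnd
    have h1 : (c + 256) ^ 3 = 0 := by simpa using ha
    have hc : c = -256 := by
      have h2 := pow_eq_zero_iff (three_ne_zero) |>.mp h1
      linear_combination h2
    rw [hc, C_neg, sub_neg_eq_add]
  · have hfac : ((X : ℂ[X]) + C 256) ^ 3 - C 1728 * X ^ 2 = (X - C 512) ^ 2 * (X + C 64) := by
      simp only [map_ofNat]
      ring
    rw [hfac] at ha hnd
    have h1 : (c - 512) ^ 2 * (c + 64) = 0 := by simpa using ha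
    rcases mul_eq_zero.mp h1 with h | h
    · exfalso
      apply hnd
      have hc : c = 512 := by
        have h2 := pow_eq_zero_iff (two_ne_zero) |>.mp h
        linear_combination h2
      rw [hc]
      exact Dvd.intro _ rfl
    · have hc : c = -64 := by linear_combination h
      obtain ⟨s, hs, hs0⟩ := h64
      exact ⟨s, hs, by rw [hs0, map_neg, map_ofNat, hc]⟩

/-- **`u = h₃`**: `jL · u³ = (u + 27)(u + 243)³`; `S ∋ 0, -27`. -/
theorem horizUnram_three (jL u : L) [FiniteDimensional E⟮jL⟯ L]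
    [FiniteDimensional E⟮u⟯ L] (hj : Transcendental E jL) (ι : E →+* ℂ) {I : Type*} [Finite I]
    (ρ : I → L →+* FractionRing HolH) (hρ : Function.Injective ρ)
    (hdeg : Module.finrank E⟮jL⟯ L ≤ Nat.card I)
    (hρE : ∀ i a, ρ i (algebraMap E L a) =
      algebraMap HolH (FractionRing HolH) (algebraMap ℂ HolH (ι a)))
    (hρj : ∀ i, ρ i jL = algebraMap HolH (FractionRing HolH) jHol)
    (hrel : jL * u ^ 3 = (u + 27) * (u + 243) ^ 3)
    {O : Type*} [CommRing O] [Algebra O E] (S : Finset O)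
    (h0 : ∃ c ∈ S, algebraMap O E c = 0) (h27 : ∃ c ∈ S, algebraMap O E c = -27) :
    Fermat.Agent.S30.Model.HorizUnram (E := E) S u := by
  have : CharZero E := (RingHom.charZero_iff ι.injective).mpr inferInstance
  have hA : (((X : E[X]) + C ((27 : ℕ) : E)) * ((X : E[X]) + C ((243 : ℕ) : E)) ^ 3).Monic :=
    (monic_X_add_C _).mul ((monic_X_add_C _).pow 3)
  have hAB : ((X : E[X]) ^ 3).natDegree <
      (((X : E[X]) + C ((27 : ℕ) : E)) * ((X : E[X]) + C ((243 : ℕ) : E)) ^ 3).natDegree := by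
    rw [natDegree_X_pow, Monic.natDegree_mul (monic_X_add_C _) ((monic_X_add_C _).pow 3),
      natDegree_pow, natDegree_X_add_C, natDegree_X_add_C]
    norm_num
  have hcop : IsCoprime (((X : E[X]) + C ((27 : ℕ) : E)) * ((X : E[X]) + C ((243 : ℕ) : E)) ^ 3)
      ((X : E[X]) ^ 3) :=
    IsCoprime.mul_left (isCoprime_X_add_C_X 27 (by norm_num)).pow_right
      (isCoprime_X_add_C_X 243 (by norm_num)).pow
  have hrel' : aeval u (((X : E[X]) + C ((27 : ℕ) : E)) * ((X : E[X]) + C ((243 : ℕ) : E)) ^ 3) =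
      jL * aeval u ((X : E[X]) ^ 3) := by
    simp only [map_mul, map_pow, map_add, aeval_X, map_natCast]
    rw [hrel]
    norm_num
  refine horizUnram_of_holEmb_rel jL u hj ι ρ hρ hdeg hρE hρj hA hAB hcop hrel' S ?_
  intro c hbad
  have hAi : (((X : E[X]) + C ((27 : ℕ) : E)) * ((X : E[X]) + C ((243 : ℕ) : E)) ^ 3).map ι =
      ((X : ℂ[X]) + C 27) * ((X : ℂ[X]) + C 243) ^ 3 := by
    simp [Polynomial.map_pow, Polynomial.map_add, Polynomial.map_mul, map_ofNat]
  have hBi : ((X : E[X]) ^ 3).map ι = (X : ℂ[X]) ^ 3 := by simp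
  rw [hAi, hBi] at hbad
  rcases hbad with hb | ⟨ha, hnd⟩ | ⟨ha, hnd⟩
  · have hc : c = 0 := by simpa using hb
    obtain ⟨s, hs, hs0⟩ := h0
    exact ⟨s, hs, by rw [hs0, map_zero, hc]⟩
  · have h1 : (c + 27) * (c + 243) ^ 3 = 0 := by simpa using ha
    rcases mul_eq_zero.mp h1 with h | h
    · have hc : c = -27 := by linear_combination h
      obtain ⟨s, hs, hs0⟩ := h27
      exact ⟨s, hs, by rw [hs0, map_neg, map_ofNat, hc]⟩
    · exfalso
      apply hnd
      have hc : c = -243 := by
        have h2 := pow_eq_zero_iff (three_ne_zero) |>.mp h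
        linear_combination h2
      rw [hc, C_neg, sub_neg_eq_add]
      exact Dvd.intro_left _ rfl
  · exfalso
    apply hnd
    have hfac : ((X : ℂ[X]) + C 27) * ((X : ℂ[X]) + C 243) ^ 3 - C 1728 * X ^ 3 =
        (X ^ 2 - C 486 * X - C 19683) ^ 2 := by
      simp only [map_ofNat]
      ring
    rw [hfac] at ha ⊢
    have h1 : (c ^ 2 - 486 * c - 19683) ^ 2 = 0 := by simpa using ha
    have h2 : c ^ 2 - 486 * c - 19683 = 0 := pow_eq_zero_iff (two_ne_zero) |>.mp h1
    have h3 : (X - C c) ∣ ((X : ℂ[X]) ^ 2 - C 486 * X - C 19683) := by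
      rw [dvd_iff_isRoot]
      simpa using h2
    exact pow_dvd_pow_of_dvd h3 2

end Core

end Fermat.Agent.S48.G1.HorizOfEmbRel
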