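/-
PROGRAM DS (S48) / G1, AREA P — the ANALYTIC AVATAR of the multiplicative Hecke operator WITH
DIAMOND (helper206).  Level-free twin of `S30/HeckeGood.hasQExpK_heckeMul`.

On `q`-expansions the multiplicative Hecke operator of `Γ₁(M)` is
`CongrD.heckeMul2 ℓ z x y (q) = y (q ^ ℓ) · ∏_{i < ℓ} x (zⁱ q^{1/ℓ})` (`y` the diamond translate of
`x`).  Its analytic avatar is `heckeFun2 ℓ φ ψ τ = ψ (ℓ τ) · ∏_{j < ℓ} φ ((τ + j) / ℓ)`:

* `qExpand_heckeMul2`               : the defining relation in terms of the `S24` operators;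
* `heckeMul2_eq_of_isPrimitiveRoot` : independence of the primitive `ℓ`-th root of unity;
* `hasQExpK_heckeMul2`              : if `φ`, `ψ` have the `q`-expansions `x`, `y` and
  `heckeFun2 ℓ φ ψ` is `1`-periodic, then it has the `q`-expansion `heckeMul2 ℓ z x y`;
* `hasQ_heckeMul2`                  : the same in the `S24.Theta.HasQ` vocabulary.
-/
import Fermat.Agent.S30.HeckeGood
import Fermat.Agent.S48.CongrD
import Fermat.Agent.S24.Theta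

set_option autoImplicit false

noncomputable section

open scoped MatrixGroups
open UpperHalfPlane ModularForm ModularCurve HahnSeries
open Fermat.Agent.S24.Puiseux Fermat.Agent.S24.QB Fermat.Agent.S24.Cusp
open Fermat.Agent.S30 Fermat.Agent.S30.HeckeGood Fermat.Agent.S22.HeckePerm

namespace Fermat.Agent.S48.G1.Avatar2

/-! ### Formal part -/

section Formal

variable {L : Type*} [Field L]

/-- The defining relation of `heckeMul2`, in terms of the `S24` operators. -/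
theorem qExpand_heckeMul2 {ℓ : ℕ} [NeZero ℓ] (hℓ : 0 < ℓ) {z : Lˣ} (hz : IsPrimitiveRoot z ℓ)
    (x y : LaurentSeries L) :
    qExpand L ℓ (CongrD.heckeMul2 ℓ hℓ z x y)
      = qExpand L ℓ (qExpand L ℓ y) * ∏ i ∈ Finset.range ℓ, scale (z ^ i) x := by
  unfold CongrD.heckeMul2
  rw [map_mul, ← expand_eq_qExpand ℓ hℓ (Congr.normL ℓ hℓ z x), Congr.expand_normL ℓ hℓ z hz,
    conjProd_eq_prod_scale, expand_eq_qExpand]

/-- `heckeMul2` does not depend on the primitive `ℓ`-th root of unity. -/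
theorem heckeMul2_eq_of_isPrimitiveRoot {ℓ : ℕ} (hℓ : 0 < ℓ) {z w : Lˣ}
    (hz : IsPrimitiveRoot z ℓ) (hw : IsPrimitiveRoot w ℓ) (x y : LaurentSeries L) :
    CongrD.heckeMul2 ℓ hℓ z x y = CongrD.heckeMul2 ℓ hℓ w x y := by
  unfold CongrD.heckeMul2 Congr.normL
  rw [conjProd_eq_of_isPrimitiveRoot hℓ hz hw]

end Formal

/-! ### The analytic avatar -/

/-- The analytic avatar of the multiplicative Hecke operator with diamond:
`τ ↦ ψ (ℓ τ) · ∏_{j < ℓ} φ ((τ + j) / ℓ)` (`ψ` the diamond translate of `φ`). -/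
def heckeFun2 (ℓ : ℕ) [NeZero ℓ] (φ ψ : ℍ → ℂ) (τ : ℍ) : ℂ :=
  ψ (heckeDiagMatrix ℓ • τ) * ∏ j ∈ Finset.range ℓ, φ (heckeMatrix ℓ j • τ)

theorem heckeFun2_self (ℓ : ℕ) [NeZero ℓ] (φ : ℍ → ℂ) : heckeFun2 ℓ φ φ = heckeFun ℓ φ :=
  funext fun τ => (heckeFun_eq ℓ φ τ).symm

/-- `heckeFun2` as a product over the `ℓ + 1` Hecke representatives. -/
theorem heckeFun2_eq_prod (ℓ : ℕ) [NeZero ℓ] (φ ψ : ℍ → ℂ) (τ : ℍ) :
    heckeFun2 ℓ φ ψ τ
      = ∏ t : OnePoint (ZMod ℓ), (t.elim ψ (fun _ => φ)) (tRep ℓ t • τ) := by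
  unfold heckeFun2
  rw [← prod_zmod_val_eq_prod_range ℓ (fun j => φ (heckeMatrix ℓ j • τ))]
  exact (Fintype.prod_option
    (fun t : OnePoint (ZMod ℓ) => (t.elim ψ (fun _ => φ)) (tRep ℓ t • τ))).symm

section Main

variable {L : Type} [Field L] [IsAlgClosed L] [CharZero L] (ι : L →+* ℂ)

/-- **The avatar of `T_ℓ` with diamond**: if `φ`, `ψ` have the `q`-expansions `x`, `y` and
`τ ↦ ψ (ℓ τ) · ∏_j φ ((τ + j) / ℓ)` is `1`-periodic, then it has the `q`-expansion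
`heckeMul2 ℓ z x y`. -/
theorem hasQExpK_heckeMul2 {ℓ : ℕ} [NeZero ℓ] (hℓ : 0 < ℓ) {z : Lˣ} (hz : IsPrimitiveRoot z ℓ)
    {x y : LaurentSeries L} {φ ψ : ℍ → ℂ} (hx : HasQExpK ι 1 x φ) (hy : HasQExpK ι 1 y ψ)
    (hper : ∀ τ : ℍ, heckeFun2 ℓ φ ψ ((1 : ℝ) +ᵥ τ) = heckeFun2 ℓ φ ψ τ) :
    HasQExpK ι 1 (CongrD.heckeMul2 ℓ hℓ z x y) (heckeFun2 ℓ φ ψ) := by
  obtain ⟨ζ, hζprim, hζ⟩ := exists_unit_map_eq_exp ι (NeZero.ne ℓ)
  have hζ' : ι (ζ : L) = Complex.exp (2 * Real.pi * Complex.I / ((1 * ℓ : ℕ) : ℂ)) := by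
    rw [one_mul]
    exact hζ
  have hfam : ∀ t : OnePoint (ZMod ℓ),
      HasQExpK ι 1 (t.elim y (fun _ => x)) (t.elim ψ (fun _ => φ)) := by
    intro t
    induction t using OnePoint.rec with
    | infty => exact hy
    | coe j => exact hx
  have h1 := hasQExpK_prod_tRep (ℓ := ℓ) one_ne_zero ζ hζ'
    (fun t : OnePoint (ZMod ℓ) => t.elim y (fun _ => x))
    (fun t : OnePoint (ZMod ℓ) => t.elim ψ (fun _ => φ)) hfam
  have h2 : HasQExpK ι (1 * ℓ)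
      (qExpand L ℓ (qExpand L ℓ y) * ∏ j : ZMod ℓ, scale (ζ ^ j.val) x) (heckeFun2 ℓ φ ψ) :=
    h1.congr fun τ => (heckeFun2_eq_prod ℓ φ ψ τ).symm
  rw [prod_zmod_val_eq_prod_range ℓ (fun i => scale (ζ ^ i) x), ← qExpand_heckeMul2 hℓ hζprim,
    one_mul] at h2
  obtain ⟨A', hA', hA'1⟩ := HasQExpK.exists_qExpand_of_periodic ζ hζ h2 hper
  have e : CongrD.heckeMul2 ℓ hℓ ζ x y = A' := qExpand_injective ℓ hA'
  rw [heckeMul2_eq_of_isPrimitiveRoot hℓ hz hζprim, e]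
  exact hA'1

/-- The same in the `HasQ` vocabulary of `S24.Theta`. -/
theorem hasQ_heckeMul2 {ℓ : ℕ} [NeZero ℓ] (hℓ : 0 < ℓ) {z : Lˣ} (hz : IsPrimitiveRoot z ℓ)
    {x y : LaurentSeries L} {φ ψ : ℍ → ℂ} (hx : Fermat.Agent.S24.Theta.HasQ ι x φ)
    (hy : Fermat.Agent.S24.Theta.HasQ ι y ψ)
    (hper : ∀ τ : ℍ, heckeFun2 ℓ φ ψ ((1 : ℝ) +ᵥ τ) = heckeFun2 ℓ φ ψ τ) :
    Fermat.Agent.S24.Theta.HasQ ι (CongrD.heckeMul2 ℓ hℓ z x y) (heckeFun2 ℓ φ ψ) :=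
  Fermat.Agent.S24.Theta.hasQ_iff_hasQExpK.mpr
    (hasQExpK_heckeMul2 ι hℓ hz (Fermat.Agent.S24.Theta.hasQ_iff_hasQExpK.mp hx)
      (Fermat.Agent.S24.Theta.hasQ_iff_hasQExpK.mp hy) hper)

end Main

end Fermat.Agent.S48.G1.Avatar2
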