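/-
S48 / G1, BETTI SIDE (helper165; second of helper79's Betti–Hecke brick): the CYCLE / parabolic–
elliptic lemma for a GENERIC represented coset system, and the descent of natural operators on
`Hom(Γ, B)` to endomorphisms of `A_Γ = Γ^ab / ⟨parEll⟩` (helper191's `Betti1.AG`).

`Γ` is ANY subgroup of `SL(2, ℤ)`, `X` any finite type; no level, no primality.

* `sum_eq_zero_of_rep`  : if `t x * γ = c x * t (σ x)` (integer matrices, `det (t x) ≠ 0`,
                          `σ` a permutation of `X`, `c x ∈ Γ`) and `tr(γ)² ≤ 4`, then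
                          `∑ x, φ (c x) = 0` for every `φ : Γ → A` vanishing on `tr² ≤ 4`;
* `parEll_transfer`     : hence a transfer `ψ g = ∑ x, φ (coc g x)` kills `parEll Γ` if `φ` does;
* `parEll_comp`         : the same for `φ ∘ c`, `c : Γ →* Γ` trace preserving (conjugations);
* `omega`               : the endomorphism of `AG Γ` induced by a natural, `parEll`-preserving
                          operator family `T B : (Γ → B) → (Γ → B)`; `comp_omega` (the operator is
                          `c ↦ c ∘ omega`), `omega_comp` (contravariant), `omega_comm`,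
                          `omega_congr`, `omega_id`, `omega_proj_sum`.
-/
import Mathlib
import Fermat.Agent.S30.BettiHecke.CycleSum
import Fermat.Agent.S48.Betti1.AG

set_option autoImplicit false

open scoped MatrixGroups

namespace Fermat.Agent.S48.G1.CycleGen

open Fermat.Agent.S48.Betti1

variable {Γ : Subgroup SL(2, ℤ)}

/-! ### Products of the cocycle along an orbit -/

section Cycle

variable {X : Type*}

/-- The product `c x * c (σ x) * ⋯ * c (σ^(k-1) x)`. -/
def cprod (σ : Equiv.Perm X) (c : X → Γ) (x : X) : ℕ → Γ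
  | 0 => 1
  | k + 1 => cprod σ c x k * c ((σ ^ k) x)

@[simp]
theorem cprod_zero (σ : Equiv.Perm X) (c : X → Γ) (x : X) : cprod σ c x 0 = 1 := rfl

theorem cprod_succ (σ : Equiv.Perm X) (c : X → Γ) (x : X) (k : ℕ) :
    cprod σ c x (k + 1) = cprod σ c x k * c ((σ ^ k) x) := rfl

/-- `t x * γ^k = (c x ⋯ c (σ^(k-1) x)) * t (σ^k x)`. -/
theorem cprod_spec (t : X → Matrix (Fin 2) (Fin 2) ℤ) (γ : Γ) (σ : Equiv.Perm X) (c : X → Γ)
    (hspec : ∀ x, t x * ((γ : SL(2, ℤ)) : Matrix (Fin 2) (Fin 2) ℤ) =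
      ((c x : SL(2, ℤ)) : Matrix (Fin 2) (Fin 2) ℤ) * t (σ x)) (x : X) (k : ℕ) :
    t x * (((γ ^ k : Γ) : SL(2, ℤ)) : Matrix (Fin 2) (Fin 2) ℤ) =
      ((cprod σ c x k : SL(2, ℤ)) : Matrix (Fin 2) (Fin 2) ℤ) * t ((σ ^ k) x) := by
  induction k with
  | zero => simp
  | succ k ih =>
    rw [pow_succ, Subgroup.coe_mul, Matrix.SpecialLinearGroup.coe_mul, ← Matrix.mul_assoc, ih,
      Matrix.mul_assoc, hspec, ← Matrix.mul_assoc, cprod_succ, Subgroup.coe_mul,
      Matrix.SpecialLinearGroup.coe_mul, pow_succ', Equiv.Perm.mul_apply]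

/-- A homomorphism to an abelian group turns the orbit product into the orbit sum. -/
theorem map_cprod {A : Type*} [AddCommGroup A] (φ : Additive Γ →+ A) (σ : Equiv.Perm X)
    (c : X → Γ) (x : X) (k : ℕ) :
    φ (Additive.ofMul (cprod σ c x k)) =
      ∑ i ∈ Finset.range k, φ (Additive.ofMul (c ((σ ^ i) x))) := by
  induction k with
  | zero => simp
  | succ k ih => rw [cprod_succ, ofMul_mul, map_add, ih, Finset.sum_range_succ]

/-- `T * G = B * T` with `det T ≠ 0` forces `tr B = tr G` (integer matrices). -/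
theorem trace_eq_of_mul_eq {T G B : Matrix (Fin 2) (Fin 2) ℤ} (hT : T.det ≠ 0)
    (h : T * G = B * T) : B.trace = G.trace := by
  have h1 : T.det • B = T * G * T.adjugate := by
    rw [h, Matrix.mul_assoc, Matrix.mul_adjugate, Matrix.mul_smul, Matrix.mul_one]
  have h2 : (T * G * T.adjugate).trace = T.det * G.trace := by
    rw [Matrix.trace_mul_comm, ← Matrix.mul_assoc, Matrix.adjugate_mul, Matrix.smul_mul,
      Matrix.one_mul, Matrix.trace_smul, smul_eq_mul]
  have h3 : T.det * B.trace = T.det * G.trace := by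
    rw [← h2, ← h1, Matrix.trace_smul, smul_eq_mul]
  exact mul_left_cancel₀ hT h3

/-- At a point fixed by `σ^k`, the orbit product has the trace of `γ^k`. -/
theorem trace_cprod_of_fixed (t : X → Matrix (Fin 2) (Fin 2) ℤ) (ht : ∀ x, (t x).det ≠ 0)
    (γ : Γ) (σ : Equiv.Perm X) (c : X → Γ)
    (hspec : ∀ x, t x * ((γ : SL(2, ℤ)) : Matrix (Fin 2) (Fin 2) ℤ) =
      ((c x : SL(2, ℤ)) : Matrix (Fin 2) (Fin 2) ℤ) * t (σ x)) (x : X) (k : ℕ)
    (hfix : (σ ^ k) x = x) :
    ((cprod σ c x k : SL(2, ℤ)) : Matrix (Fin 2) (Fin 2) ℤ).trace =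
      (((γ ^ k : Γ) : SL(2, ℤ)) : Matrix (Fin 2) (Fin 2) ℤ).trace := by
  have h := cprod_spec t γ σ c hspec x k
  rw [hfix] at h
  exact trace_eq_of_mul_eq (ht x) h

variable [Fintype X]

/-- **Cycle lemma for a represented system.**  If `t x * γ = c x * t (σ x)` for a permutation
`σ` of the finite set `X` and elements `c x ∈ Γ` (`t x` integer matrices of nonzero
determinant), and `tr(γ)² ≤ 4`, then `∑ x, φ (c x) = 0` for every homomorphism `φ` from `Γ` to an
abelian group vanishing on the elements of trace-square `≤ 4`. -/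
theorem sum_eq_zero_of_rep (t : X → Matrix (Fin 2) (Fin 2) ℤ) (ht : ∀ x, (t x).det ≠ 0)
    (γ : Γ) (σ : Equiv.Perm X) (c : X → Γ)
    (hspec : ∀ x, t x * ((γ : SL(2, ℤ)) : Matrix (Fin 2) (Fin 2) ℤ) =
      ((c x : SL(2, ℤ)) : Matrix (Fin 2) (Fin 2) ℤ) * t (σ x))
    {A : Type*} [AddCommGroup A] (φ : Additive Γ →+ A)
    (hφ : ∀ g : Γ, ((g : SL(2, ℤ)) : Matrix (Fin 2) (Fin 2) ℤ).trace ^ 2 ≤ 4 →
      φ (Additive.ofMul g) = 0)
    (hγ : ((γ : SL(2, ℤ)) : Matrix (Fin 2) (Fin 2) ℤ).trace ^ 2 ≤ 4) :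
    ∑ x : X, φ (Additive.ofMul (c x)) = 0 := by
  classical
  apply Fermat.Agent.S30.BettiHecke.CycleSum.sum_eq_zero_of_cycles σ
  intro x k _ hfix _
  rw [← map_cprod φ σ c x k]
  apply hφ
  rw [trace_cprod_of_fixed t ht γ σ c hspec x k hfix, Subgroup.coe_pow,
    Matrix.SpecialLinearGroup.coe_pow]
  exact Fermat.Agent.S30.BettiHecke.CycleSum.trace_pow_sq_le _ (γ : SL(2, ℤ)).det_coe hγ k

/-- **A transfer kills the parabolic and elliptic elements.**  `ψ g = ∑ x, φ (coc g x)` for a
represented system `t x * g = coc g x * t (perm g x)`. -/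
theorem parEll_transfer (t : X → Matrix (Fin 2) (Fin 2) ℤ) (ht : ∀ x, (t x).det ≠ 0)
    (perm : Γ → Equiv.Perm X) (coc : Γ → X → Γ)
    (hspec : ∀ (g : Γ) (x : X), t x * ((g : SL(2, ℤ)) : Matrix (Fin 2) (Fin 2) ℤ) =
      ((coc g x : SL(2, ℤ)) : Matrix (Fin 2) (Fin 2) ℤ) * t (perm g x))
    {A : Type*} [AddCommGroup A] (φ ψ : Additive Γ →+ A)
    (hψ : ∀ g : Γ, ψ (Additive.ofMul g) = ∑ x : X, φ (Additive.ofMul (coc g x)))
    (hφ : ∀ γ ∈ parEll Γ, φ (Additive.ofMul γ) = 0) :
    ∀ γ ∈ parEll Γ, ψ (Additive.ofMul γ) = 0 := by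
  intro γ hγ
  rw [hψ γ]
  exact sum_eq_zero_of_rep t ht γ (perm γ) (coc γ) (hspec γ) φ (fun g hg => hφ g hg) hγ

end Cycle

/-! ### Trace-preserving endomorphisms (conjugations) -/

/-- Conjugation in `SL(2, ℤ)` preserves the trace. -/
theorem trace_conj (s g : SL(2, ℤ)) :
    ((s * g * s⁻¹ : SL(2, ℤ)) : Matrix (Fin 2) (Fin 2) ℤ).trace =
      (g : Matrix (Fin 2) (Fin 2) ℤ).trace := by
  rw [Matrix.SpecialLinearGroup.coe_mul, Matrix.trace_mul_comm,
    ← Matrix.SpecialLinearGroup.coe_mul, ← mul_assoc, inv_mul_cancel, one_mul]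

/-- Precomposition with a trace-preserving endomorphism of `Γ` preserves the vanishing on
`parEll Γ`. -/
theorem parEll_comp (c : Γ →* Γ)
    (hc : ∀ g : Γ, ((c g : SL(2, ℤ)) : Matrix (Fin 2) (Fin 2) ℤ).trace =
      ((g : SL(2, ℤ)) : Matrix (Fin 2) (Fin 2) ℤ).trace)
    {A : Type*} [AddCommGroup A] (φ : Additive Γ →+ A)
    (hφ : ∀ γ ∈ parEll Γ, φ (Additive.ofMul γ) = 0) :
    ∀ γ ∈ parEll Γ, (φ.comp (MonoidHom.toAdditive c)) (Additive.ofMul γ) = 0 := by
  intro γ hγ
  refine hφ (c γ) ?_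
  rw [mem_parEll, hc γ]
  exact hγ

/-! ### Descent of natural operators to `AG Γ` -/

section Descent

/-- Naturality of an operator family on `Hom(Γ, B)` in the coefficient group `B`. -/
def IsNat (T : ∀ (B : Type) [AddCommGroup B], (Additive Γ →+ B) → (Additive Γ →+ B)) : Prop :=
  ∀ (B C : Type) [AddCommGroup B] [AddCommGroup C] (c : B →+ C) (φ : Additive Γ →+ B),
    T C (c.comp φ) = c.comp (T B φ)

/-- The operator family preserves the vanishing on parabolic and elliptic elements. -/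
def PresPar (T : ∀ (B : Type) [AddCommGroup B], (Additive Γ →+ B) → (Additive Γ →+ B)) : Prop :=
  ∀ (B : Type) [AddCommGroup B] (φ : Additive Γ →+ B),
    (∀ γ ∈ parEll Γ, φ (Additive.ofMul γ) = 0) → ∀ γ ∈ parEll Γ, T B φ (Additive.ofMul γ) = 0

variable (T T' : ∀ (B : Type) [AddCommGroup B], (Additive Γ →+ B) → (Additive Γ →+ B))

/-- The endomorphism of `A_Γ` induced by a `parEll`-preserving operator family: the image of
the universal homomorphism `proj Γ`. -/
noncomputable def omega (hpar : PresPar T) : AG Γ →+ AG Γ :=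
  lift (T (AG Γ) (proj Γ)) (hpar (AG Γ) (proj Γ) fun _ hγ => proj_parEll hγ)

theorem omega_proj (hpar : PresPar T) (g : Additive Γ) :
    omega T hpar (proj Γ g) = T (AG Γ) (proj Γ) g := rfl

theorem omega_comp_proj (hpar : PresPar T) :
    (omega T hpar).comp (proj Γ) = T (AG Γ) (proj Γ) :=
  lift_comp_proj _ _

/-- The operator on `Hom(A_Γ, B)` is `c ↦ c ∘ omega`. -/
theorem comp_omega (hnat : IsNat T) (hpar : PresPar T) (B : Type) [AddCommGroup B]
    (c : AG Γ →+ B) : (c.comp (omega T hpar)).comp (proj Γ) = T B (c.comp (proj Γ)) := by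
  rw [AddMonoidHom.comp_assoc, omega_comp_proj, hnat]

/-- Pointwise form of `comp_omega`. -/
theorem comp_omega_apply (hnat : IsNat T) (hpar : PresPar T) (B : Type) [AddCommGroup B]
    (c : AG Γ →+ B) (g : Γ) :
    c (omega T hpar (proj Γ (Additive.ofMul g))) = T B (c.comp (proj Γ)) (Additive.ofMul g) := by
  rw [← comp_omega T hnat hpar B c]
  rfl

/-- Transfer formula on `A_Γ`. -/
theorem omega_proj_sum (hpar : PresPar T) {X : Type*} [Fintype X] (coc : Γ → X → Γ)
    (hT : ∀ g : Γ, T (AG Γ) (proj Γ) (Additive.ofMul g) =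
      ∑ x : X, proj Γ (Additive.ofMul (coc g x))) (g : Γ) :
    omega T hpar (proj Γ (Additive.ofMul g)) = ∑ x : X, proj Γ (Additive.ofMul (coc g x)) := by
  rw [omega_proj, hT]

theorem presPar_comp (hpar : PresPar T) (hpar' : PresPar T') :
    PresPar (fun B _ φ => T B (T' B φ)) :=
  fun B _ φ hφ => hpar B (T' B φ) (hpar' B φ hφ)

theorem isNat_comp (hnat : IsNat T) (hnat' : IsNat T') :
    IsNat (fun B _ φ => T B (T' B φ)) := by
  intro B C _ _ c φ
  show T C (T' C (c.comp φ)) = c.comp (T B (T' B φ))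
  rw [hnat', hnat]

/-- The composite operator `T ∘ T'` induces `omega T' ∘ omega T` (contravariant). -/
theorem omega_comp (hnat : IsNat T) (hpar : PresPar T) (hpar' : PresPar T') :
    omega (fun B _ φ => T B (T' B φ)) (presPar_comp T T' hpar hpar') =
      (omega T' hpar').comp (omega T hpar) := by
  refine hom_ext fun γ => ?_
  have h1 : T (AG Γ) (T' (AG Γ) (proj Γ)) = (omega T' hpar').comp (T (AG Γ) (proj Γ)) := by
    rw [← omega_comp_proj T' hpar', hnat]
  show T (AG Γ) (T' (AG Γ) (proj Γ)) (Additive.ofMul γ) =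
    (omega T' hpar') ((omega T hpar) (proj Γ (Additive.ofMul γ)))
  rw [h1, omega_proj]
  rfl

/-- Operators that agree on the universal homomorphism induce the same endomorphism. -/
theorem omega_congr (hpar : PresPar T) (hpar' : PresPar T')
    (h : T (AG Γ) (proj Γ) = T' (AG Γ) (proj Γ)) : omega T hpar = omega T' hpar' := by
  refine hom_ext fun γ => ?_
  rw [omega_proj, omega_proj, h]

/-- Commuting operator families induce commuting endomorphisms of `A_Γ`. -/
theorem omega_comm (hnat : IsNat T) (hnat' : IsNat T') (hpar : PresPar T) (hpar' : PresPar T')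
    (h : T (AG Γ) (T' (AG Γ) (proj Γ)) = T' (AG Γ) (T (AG Γ) (proj Γ))) :
    (omega T hpar).comp (omega T' hpar') = (omega T' hpar').comp (omega T hpar) := by
  rw [← omega_comp T T' hnat hpar hpar', ← omega_comp T' T hnat' hpar' hpar]
  exact (omega_congr _ _ _ _ h).symm

theorem presPar_id : PresPar (Γ := Γ) (fun _ _ φ => φ) := fun _ _ _ hφ => hφ

theorem isNat_id : IsNat (Γ := Γ) (fun _ _ φ => φ) := fun _ _ _ _ _ _ => rfl

theorem omega_id : omega (Γ := Γ) (fun _ _ φ => φ) presPar_id = AddMonoidHom.id (AG Γ) :=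
  hom_ext fun _ => rfl

/-- The operator induced on `Hom(A_Γ, B)` composes as the operator family does: for every
`c : A_Γ →+ B`, `(c ∘ omega T') ∘ omega T` pulls back to `T (T' (c ∘ proj))`. -/
theorem comp_omega_comp (hnat : IsNat T) (hnat' : IsNat T') (hpar : PresPar T)
    (hpar' : PresPar T') (B : Type) [AddCommGroup B] (c : AG Γ →+ B) :
    ((c.comp (omega T' hpar')).comp (omega T hpar)).comp (proj Γ) =
      T B (T' B (c.comp (proj Γ))) := by
  rw [comp_omega T hnat hpar B (c.comp (omega T' hpar')), comp_omega T' hnat' hpar' B c]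

end Descent

end Fermat.Agent.S48.G1.CycleGen
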