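/-
S48 (Deligne–Serre), brick G1, Betti side (helper79): the GENERIC TRANSFER ENGINE.

A *coset system with cocycle* on a group `Γ` with index type `X` is a right action `perm` of `Γ`
on `X` together with a cocycle `coc : Γ → X → Γ`
(`coc (γ δ) x = coc γ x * coc δ (x · γ)`).  Its *transfer* is the endomorphism
`φ ↦ (γ ↦ ∑ₓ φ (coc γ x))` of `Hom(Γ, A)` (`A` any abelian group) — the group-cohomological
form of a Hecke correspondence.

* `CocSys.ver`       : the transfer;
* `CocSys.comp`, `CocSys.ver_comp` : the transfer of the product system is the composite;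
* `CocSys.ver_congr` : cohomologous systems have the same transfer;
* `CocSys.twist`, `CocSys.ver_twist` : pull-back by an automorphism of `Γ`;
* `CocSys.ver_eq_zero_of_fixed` : the cycle lemma (the transfer of `φ` vanishes at `γ` as soon
  as `φ` vanishes on the cocycle values `coc (γ ^ k) x` at the fixed points `x · γ ^ k = x`);
* `RepSys` : a system given by representatives `t : X → 𝕄` in an ambient monoid
  (`t x * γ = coc γ x * t (x · γ)`, with uniqueness of the decomposition);
* `RepSys.ver_eq_of_exists` : two complete systems of representatives of the same cosets have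
  the same transfer;
* `RepSys.ver_comm` : **commutation of two transfers** whose product systems (in the two orders)
  represent the same cosets;
* `RepSys.twist` : conjugation of the representatives by a unit normalising `Γ`.

No modular object occurs here.
-/
import Mathlib
import Fermat.Agent.S30.BettiHecke.CycleSum

set_option autoImplicit false

namespace Fermat.Agent.S48.G1.Transfer

/-- A coset system with cocycle on the group `Γ`, with index type `X`. -/
structure CocSys (Γ : Type*) [Group Γ] (X : Type*) where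
  /-- the right action of `Γ` on the index set -/
  perm : Γ → X → X
  /-- the cocycle -/
  coc : Γ → X → Γ
  perm_one : ∀ x, perm 1 x = x
  perm_mul : ∀ γ δ x, perm (γ * δ) x = perm δ (perm γ x)
  coc_mul : ∀ γ δ x, coc (γ * δ) x = coc γ x * coc δ (perm γ x)

namespace CocSys

variable {Γ : Type*} [Group Γ] {X : Type*} (S : CocSys Γ X)

theorem coc_one (x : X) : S.coc 1 x = 1 := by
  have h := S.coc_mul 1 1 x
  rw [mul_one, S.perm_one] at h
  exact left_eq_mul.mp h

/-- The permutation of the index set given by `γ`. -/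
def permEquiv (γ : Γ) : Equiv.Perm X where
  toFun := S.perm γ
  invFun := S.perm γ⁻¹
  left_inv x := by rw [← S.perm_mul, mul_inv_cancel, S.perm_one]
  right_inv x := by rw [← S.perm_mul, inv_mul_cancel, S.perm_one]

theorem permEquiv_apply (γ : Γ) (x : X) : S.permEquiv γ x = S.perm γ x := rfl

theorem perm_pow (γ : Γ) (k : ℕ) (x : X) : S.perm (γ ^ k) x = ((S.permEquiv γ) ^ k) x := by
  induction k with
  | zero => rw [pow_zero, pow_zero, S.perm_one]; rfl
  | succ k ih =>
    rw [pow_succ, S.perm_mul, ih, pow_succ', Equiv.Perm.mul_apply, permEquiv_apply]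

section Ver

variable [Fintype X] (A : Type*) [AddCommGroup A]

/-- The transfer of one homomorphism. -/
def verFun (φ : Additive Γ →+ A) : Additive Γ →+ A where
  toFun γ := ∑ x, φ (Additive.ofMul (S.coc (Additive.toMul γ) x))
  map_zero' := by simp [coc_one]
  map_add' γ δ := by
    simp only [toMul_add, S.coc_mul, ofMul_mul, map_add, Finset.sum_add_distrib]
    congr 1
    exact Equiv.sum_comp (S.permEquiv (Additive.toMul γ))
      (fun y => φ (Additive.ofMul (S.coc (Additive.toMul δ) y)))

/-- **The transfer** `φ ↦ (γ ↦ ∑ₓ φ (coc γ x))` on `Hom(Γ, A)`. -/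
def ver : (Additive Γ →+ A) →+ (Additive Γ →+ A) where
  toFun := S.verFun A
  map_zero' := by
    ext γ
    simp [verFun]
  map_add' φ ψ := by
    ext γ
    simp [verFun, Finset.sum_add_distrib]

variable {A}

theorem ver_apply (φ : Additive Γ →+ A) (γ : Γ) :
    S.ver A φ (Additive.ofMul γ) = ∑ x, φ (Additive.ofMul (S.coc γ x)) := rfl

omit [Fintype X] in
/-- The cocycle along a power of `γ`. -/
theorem map_coc_pow (φ : Additive Γ →+ A) (γ : Γ) (x : X) (k : ℕ) :
    φ (Additive.ofMul (S.coc (γ ^ k) x)) =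
      ∑ i ∈ Finset.range k, φ (Additive.ofMul (S.coc γ (S.perm (γ ^ i) x))) := by
  induction k with
  | zero => simp [coc_one]
  | succ k ih =>
    rw [pow_succ, S.coc_mul, ofMul_mul, map_add, ih, Finset.sum_range_succ]

/-- **The cycle lemma.**  If `φ` vanishes on `coc (γ ^ k) x` whenever `x · γ ^ k = x`, then the
transfer of `φ` vanishes at `γ`. -/
theorem ver_eq_zero_of_fixed [DecidableEq X] (φ : Additive Γ →+ A) (γ : Γ)
    (h : ∀ (x : X) (k : ℕ), 0 < k → S.perm (γ ^ k) x = x →
      φ (Additive.ofMul (S.coc (γ ^ k) x)) = 0) :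
    S.ver A φ (Additive.ofMul γ) = 0 := by
  rw [ver_apply]
  refine Fermat.Agent.S30.BettiHecke.CycleSum.sum_eq_zero_of_cycles (S.permEquiv γ)
    (fun x => φ (Additive.ofMul (S.coc γ x))) ?_
  intro x k hk hfix _
  have h1 := S.map_coc_pow φ γ x k
  have h2 : ∀ i, S.perm (γ ^ i) x = ((S.permEquiv γ) ^ i) x := fun i => S.perm_pow γ i x
  simp only [h2] at h1
  rw [← h1]
  exact h x k hk (by rw [S.perm_pow]; exact hfix)

end Ver

/-! ### Composition -/

/-- The product system: first `S`, then `S'`. -/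
def comp {Y : Type*} (S' : CocSys Γ Y) (S : CocSys Γ X) : CocSys Γ (X × Y) where
  perm γ z := (S.perm γ z.1, S'.perm (S.coc γ z.1) z.2)
  coc γ z := S'.coc (S.coc γ z.1) z.2
  perm_one z := by
    rw [S.perm_one, S.coc_one, S'.perm_one]
  perm_mul γ δ z := by
    simp only [S.perm_mul, S.coc_mul, S'.perm_mul]
  coc_mul γ δ z := by
    simp only [S.coc_mul, S'.coc_mul]

theorem ver_comp {Y : Type*} [Fintype X] [Fintype Y] (S' : CocSys Γ Y) (S : CocSys Γ X)
    {A : Type*} [AddCommGroup A] (φ : Additive Γ →+ A) :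
    (S'.comp S).ver A φ = S.ver A (S'.ver A φ) := by
  refine AddMonoidHom.ext fun γ' => ?_
  suffices key : ∀ γ : Γ, (S'.comp S).ver A φ (Additive.ofMul γ) =
      S.ver A (S'.ver A φ) (Additive.ofMul γ) from key (Additive.toMul γ')
  intro γ
  rw [ver_apply, ver_apply, Fintype.sum_prod_type]
  rfl

/-! ### Cohomologous systems -/

/-- Two systems whose cocycles differ by a coboundary (after re-indexing) have the same
transfer. -/
theorem ver_congr {X' : Type*} [Fintype X] [Fintype X'] (A : Type*) [AddCommGroup A]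
    (S : CocSys Γ X) (S' : CocSys Γ X') (e : X ≃ X') (g : X → Γ)
    (hcoc : ∀ γ x, S'.coc γ (e x) = g x * S.coc γ x * (g (S.perm γ x))⁻¹) :
    S'.ver A = S.ver A := by
  refine AddMonoidHom.ext fun φ => AddMonoidHom.ext fun γ' => ?_
  suffices key : ∀ γ : Γ, S'.ver A φ (Additive.ofMul γ) = S.ver A φ (Additive.ofMul γ) from
    key (Additive.toMul γ')
  intro γ
  rw [ver_apply, ver_apply, ← Equiv.sum_comp e]
  have hterm : ∀ x : X, φ (Additive.ofMul (S'.coc γ (e x))) =
      φ (Additive.ofMul (S.coc γ x)) +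
        (φ (Additive.ofMul (g x)) - φ (Additive.ofMul (g (S.perm γ x)))) := fun x => by
    rw [hcoc, ofMul_mul, ofMul_mul, ofMul_inv, map_add, map_add, map_neg]
    abel
  have hs : ∑ x, φ (Additive.ofMul (g (S.perm γ x))) = ∑ x, φ (Additive.ofMul (g x)) :=
    Equiv.sum_comp (S.permEquiv γ) (fun y => φ (Additive.ofMul (g y)))
  rw [Finset.sum_congr rfl (fun x _ => hterm x), Finset.sum_add_distrib, Finset.sum_sub_distrib,
    hs, sub_self, add_zero]

/-! ### Twist by an automorphism -/

/-- Pull-back of a system by an automorphism `θ` of `Γ`. -/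
def twist (θ : Γ ≃* Γ) : CocSys Γ X where
  perm γ x := S.perm (θ γ) x
  coc γ x := θ.symm (S.coc (θ γ) x)
  perm_one x := by rw [map_one, S.perm_one]
  perm_mul γ δ x := by rw [map_mul, S.perm_mul]
  coc_mul γ δ x := by rw [map_mul, S.coc_mul, map_mul]

theorem ver_twist [Fintype X] {A : Type*} [AddCommGroup A] (θ : Γ ≃* Γ)
    (φ : Additive Γ →+ A) (γ : Γ) :
    (S.twist θ).ver A φ (Additive.ofMul γ) =
      S.ver A (φ.comp (MonoidHom.toAdditive θ.symm.toMonoidHom)) (Additive.ofMul (θ γ)) := rfl

end CocSys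

/-! ### Systems given by representatives -/

/-- A coset system given by representatives `t x` in an ambient monoid `𝕄 ⊇ Γ`:
`t x * γ = coc γ x * t (x · γ)`, and the cosets `Γ * t x` are pairwise distinct and free. -/
structure RepSys {Γ : Type*} [Group Γ] {𝕄 : Type*} [Monoid 𝕄] (ι : Γ →* 𝕄) (X : Type*) where
  /-- the representatives -/
  t : X → 𝕄
  perm : Γ → X → X
  coc : Γ → X → Γ
  spec : ∀ γ x, t x * ι γ = ι (coc γ x) * t (perm γ x)
  uniq : ∀ (g g' : Γ) (x y : X), ι g * t x = ι g' * t y → x = y ∧ g = g'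

namespace RepSys

variable {Γ : Type*} [Group Γ] {𝕄 : Type*} [Monoid 𝕄] {ι : Γ →* 𝕄} {X : Type*}

theorem perm_coc_unique (S : RepSys ι X) (γ : Γ) (x y : X) (g : Γ)
    (h : S.t x * ι γ = ι g * S.t y) : S.perm γ x = y ∧ S.coc γ x = g :=
  S.uniq _ _ _ _ ((S.spec γ x).symm.trans h)

theorem spec_mul (S : RepSys ι X) (γ δ : Γ) (x : X) :
    S.t x * ι (γ * δ) =
      ι (S.coc γ x * S.coc δ (S.perm γ x)) * S.t (S.perm δ (S.perm γ x)) := by
  rw [map_mul, ← mul_assoc, S.spec, mul_assoc, S.spec, ← mul_assoc, map_mul]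

/-- The underlying coset system with cocycle. -/
def toCocSys (S : RepSys ι X) : CocSys Γ X where
  perm := S.perm
  coc := S.coc
  perm_one x := (S.perm_coc_unique 1 x x 1 (by simp)).1
  perm_mul γ δ x := (S.perm_coc_unique (γ * δ) x _ _ (S.spec_mul γ δ x)).1
  coc_mul γ δ x := (S.perm_coc_unique (γ * δ) x _ _ (S.spec_mul γ δ x)).2

@[simp] theorem toCocSys_perm (S : RepSys ι X) : S.toCocSys.perm = S.perm := rfl

@[simp] theorem toCocSys_coc (S : RepSys ι X) : S.toCocSys.coc = S.coc := rfl

/-- A system of representatives from the existence and the uniqueness of the decomposition. -/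
noncomputable def ofExists (t : X → 𝕄)
    (hex : ∀ (γ : Γ) (x : X), ∃ (g : Γ) (y : X), t x * ι γ = ι g * t y)
    (uniq : ∀ (g g' : Γ) (x y : X), ι g * t x = ι g' * t y → x = y ∧ g = g') : RepSys ι X where
  t := t
  perm γ x := (hex γ x).choose_spec.choose
  coc γ x := (hex γ x).choose
  spec γ x := (hex γ x).choose_spec.choose_spec
  uniq := uniq

@[simp] theorem ofExists_t (t : X → 𝕄)
    (hex : ∀ (γ : Γ) (x : X), ∃ (g : Γ) (y : X), t x * ι γ = ι g * t y)
    (uniq : ∀ (g g' : Γ) (x y : X), ι g * t x = ι g' * t y → x = y ∧ g = g') :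
    (ofExists t hex uniq).t = t := rfl

/-- Two systems whose representatives differ by left factors in `Γ` (after re-indexing) have
the same transfer. -/
theorem ver_eq_of_reps {X' : Type*} [Fintype X] [Fintype X'] (S : RepSys ι X)
    (S' : RepSys ι X') (e : X ≃ X') (g : X → Γ) (h : ∀ x, S'.t (e x) = ι (g x) * S.t x)
    (A : Type*) [AddCommGroup A] : S'.toCocSys.ver A = S.toCocSys.ver A := by
  refine CocSys.ver_congr A S.toCocSys S'.toCocSys e g ?_
  intro γ x
  have h1 : S.t (S.perm γ x) = ι (g (S.perm γ x))⁻¹ * S'.t (e (S.perm γ x)) := by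
    rw [h, ← mul_assoc, ← map_mul, inv_mul_cancel, map_one, one_mul]
  have h2 : S'.t (e x) * ι γ =
      ι (g x * S.coc γ x * (g (S.perm γ x))⁻¹) * S'.t (e (S.perm γ x)) := by
    rw [h, mul_assoc, S.spec, h1]
    simp only [map_mul, mul_assoc]
  exact (S'.perm_coc_unique γ (e x) _ _ h2).2

/-- Two complete systems of representatives of the same cosets have the same transfer. -/
theorem ver_eq_of_exists {X' : Type*} [Fintype X] [Fintype X'] (S : RepSys ι X)
    (S' : RepSys ι X') (hcard : Fintype.card X = Fintype.card X')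
    (hex : ∀ x, ∃ (y : X') (g : Γ), S'.t y = ι g * S.t x)
    (A : Type*) [AddCommGroup A] : S'.toCocSys.ver A = S.toCocSys.ver A := by
  choose f g hfg using hex
  have hinj : Function.Injective f := by
    intro x x₂ hx
    have h1 : ι (g x) * S.t x = ι (g x₂) * S.t x₂ := by rw [← hfg, ← hfg, hx]
    exact (S.uniq _ _ _ _ h1).1
  have hbij : Function.Bijective f :=
    (Fintype.bijective_iff_injective_and_card f).mpr ⟨hinj, hcard⟩
  exact ver_eq_of_reps S S' (Equiv.ofBijective f hbij) g (fun x => hfg x) A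

/-- The product of two systems of representatives (first `S`, then `S'`), when the products
`t' y * t x` represent distinct free cosets. -/
def prod {Y : Type*} (S' : RepSys ι Y) (S : RepSys ι X)
    (huniq : ∀ (g g' : Γ) (z z' : X × Y),
      ι g * (S'.t z.2 * S.t z.1) = ι g' * (S'.t z'.2 * S.t z'.1) → z = z' ∧ g = g') :
    RepSys ι (X × Y) where
  t z := S'.t z.2 * S.t z.1
  perm γ z := (S.perm γ z.1, S'.perm (S.coc γ z.1) z.2)
  coc γ z := S'.coc (S.coc γ z.1) z.2
  spec γ z := by rw [mul_assoc, S.spec, ← mul_assoc, S'.spec, mul_assoc]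
  uniq := huniq

theorem prod_toCocSys {Y : Type*} (S' : RepSys ι Y) (S : RepSys ι X)
    (huniq : ∀ (g g' : Γ) (z z' : X × Y),
      ι g * (S'.t z.2 * S.t z.1) = ι g' * (S'.t z'.2 * S.t z'.1) → z = z' ∧ g = g') :
    (S'.prod S huniq).toCocSys = S'.toCocSys.comp S.toCocSys := rfl

/-- **Commutation of two transfers.**  If the products of the representatives in the two orders
are free systems of representatives of the same cosets, the two transfers commute. -/
theorem ver_comm {Y : Type*} [Fintype X] [Fintype Y] (S : RepSys ι X) (S' : RepSys ι Y)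
    (hu : ∀ (g g' : Γ) (z z' : X × Y),
      ι g * (S'.t z.2 * S.t z.1) = ι g' * (S'.t z'.2 * S.t z'.1) → z = z' ∧ g = g')
    (hu' : ∀ (g g' : Γ) (w w' : Y × X),
      ι g * (S.t w.2 * S'.t w.1) = ι g' * (S.t w'.2 * S'.t w'.1) → w = w' ∧ g = g')
    (hex : ∀ (x : X) (y : Y), ∃ (y' : Y) (x' : X) (g : Γ),
      S.t x' * S'.t y' = ι g * (S'.t y * S.t x))
    {A : Type*} [AddCommGroup A] (φ : Additive Γ →+ A) :
    S.toCocSys.ver A (S'.toCocSys.ver A φ) = S'.toCocSys.ver A (S.toCocSys.ver A φ) := by
  rw [← CocSys.ver_comp, ← CocSys.ver_comp, ← prod_toCocSys S' S hu, ← prod_toCocSys S S' hu']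
  have key := ver_eq_of_exists (S'.prod S hu) (S.prod S' hu')
    (by rw [Fintype.card_prod, Fintype.card_prod, mul_comm])
    (fun z => by
      obtain ⟨y', x', g, hg⟩ := hex z.1 z.2
      exact ⟨(y', x'), g, hg⟩) A
  rw [key]

/-- Conjugation of the representatives by a unit `s` of the ambient monoid normalising `Γ`
(through the automorphism `θ`, `ι (θ γ) = s * ι γ * s'`). -/
def twist (S : RepSys ι X) (θ : Γ ≃* Γ) (s s' : 𝕄) (hs : s * s' = 1) (hs' : s' * s = 1)
    (hθ : ∀ γ, ι (θ γ) = s * ι γ * s') : RepSys ι X where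
  t x := s' * S.t x * s
  perm γ x := S.perm (θ γ) x
  coc γ x := θ.symm (S.coc (θ γ) x)
  spec γ x := by
    have h1 : ι (θ.symm (S.coc (θ γ) x)) = s' * ι (S.coc (θ γ) x) * s := by
      have h2 := hθ (θ.symm (S.coc (θ γ) x))
      rw [MulEquiv.apply_symm_apply] at h2
      rw [h2, ← mul_assoc, ← mul_assoc, hs', one_mul, mul_assoc, hs', mul_one]
    have h3 : s * ι γ = ι (θ γ) * s := by
      rw [hθ, mul_assoc, hs', mul_one]
    rw [h1, mul_assoc (s' * S.t x), h3, ← mul_assoc, mul_assoc s', S.spec]
    simp only [mul_assoc]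
    rw [← mul_assoc s s', hs, one_mul]
  uniq g g' x y h := by
    have h1 : ι (θ g) * S.t x = ι (θ g') * S.t y := by
      have h2 : s * (ι g * (s' * S.t x * s)) * s' = s * (ι g' * (s' * S.t y * s)) * s' := by
        rw [h]
      rw [hθ, hθ]
      have e : ∀ (a : Γ) (z : X), s * (ι a * (s' * S.t z * s)) * s' = s * ι a * s' * S.t z := by
        intro a z
        simp only [mul_assoc]
        rw [hs, mul_one]
      rw [e, e] at h2
      exact h2
    obtain ⟨hxy, hg⟩ := S.uniq _ _ _ _ h1
    exact ⟨hxy, θ.injective hg⟩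

theorem twist_toCocSys (S : RepSys ι X) (θ : Γ ≃* Γ) (s s' : 𝕄) (hs : s * s' = 1)
    (hs' : s' * s = 1) (hθ : ∀ γ, ι (θ γ) = s * ι γ * s') :
    (S.twist θ s s' hs hs' hθ).toCocSys = S.toCocSys.twist θ := rfl

end RepSys

end Fermat.Agent.S48.G1.Transfer
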