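/-
S48 / G1, BETTI SIDE (helper165): the parabolic–elliptic lemma and the descent to
`A_Γ = Γ^ab / ⟨parEll⟩` in the vocabulary of helper79's transfer engine
(`Transfer.CocSys`, `Transfer.RepSys`).

`Γ` is ANY subgroup of `SL(2, ℤ)`, represented in the monoid of integer `2 × 2` matrices through
`ι : Γ →* Matrix (Fin 2) (Fin 2) ℤ` with `ι g = ↑↑g`.

* `ver_parEll`   : the transfer of a system of representatives of nonzero determinant preserves
                   the vanishing on `parEll Γ`;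
* `isNat_ver`, `presPar_ver` : the transfer is a natural, `parEll`-preserving operator family;
* `tauAG`        : the induced endomorphism of `AG Γ`; `tauAG_proj` (transfer formula),
                   `comp_tauAG` (`c ↦ c ∘ tauAG` is the transfer on `Hom(A_Γ, B)`),
                   `tauAG_comm` (commuting transfers give commuting endomorphisms);
* `autAG θ`      : the automorphism of `AG Γ` induced by a trace-preserving automorphism `θ` of
                   `Γ` (diamonds); `autAG_proj`, `comp_autAG`, `autAG_mul`, `autAG_one`,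
                   `autAG_eq_id_of_conj` (inner automorphisms act trivially), `tauAG_autAG_comm`.
-/
import Mathlib
import Fermat.Agent.S48.G1.Transfer
import Fermat.Agent.S48.G1.CycleGen

set_option autoImplicit false

open scoped MatrixGroups

namespace Fermat.Agent.S48.G1.CycleRep

open Fermat.Agent.S48.Betti1 Fermat.Agent.S48.G1.Transfer Fermat.Agent.S48.G1.CycleGen

variable {Γ : Subgroup SL(2, ℤ)}

/-! ### Transfers -/

section Ver

variable {X : Type*} [Fintype X]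

/-- The transfer is natural in the coefficient group. -/
theorem ver_natural (S : CocSys Γ X) {B C : Type*} [AddCommGroup B] [AddCommGroup C]
    (c : B →+ C) (φ : Additive Γ →+ B) : S.ver C (c.comp φ) = c.comp (S.ver B φ) := by
  refine AddMonoidHom.ext fun γ' => ?_
  suffices key : ∀ γ : Γ, S.ver C (c.comp φ) (Additive.ofMul γ) =
      (c.comp (S.ver B φ)) (Additive.ofMul γ) from key (Additive.toMul γ')
  intro γ
  rw [AddMonoidHom.comp_apply, CocSys.ver_apply, CocSys.ver_apply, map_sum]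
  rfl

theorem isNat_ver (S : CocSys Γ X) : IsNat (fun B _ => S.ver B) :=
  fun _ _ _ _ c φ => ver_natural S c φ

variable {ι : Γ →* Matrix (Fin 2) (Fin 2) ℤ}

/-- **The transfer of a system of representatives preserves the vanishing on parabolic and
elliptic elements.** -/
theorem ver_parEll (hι : ∀ g : Γ, ι g = ((g : SL(2, ℤ)) : Matrix (Fin 2) (Fin 2) ℤ))
    (S : RepSys ι X) (ht : ∀ x, (S.t x).det ≠ 0) {A : Type*} [AddCommGroup A]
    (φ : Additive Γ →+ A) (hφ : ∀ γ ∈ parEll Γ, φ (Additive.ofMul γ) = 0) :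
    ∀ γ ∈ parEll Γ, S.toCocSys.ver A φ (Additive.ofMul γ) = 0 := by
  refine parEll_transfer S.t ht S.toCocSys.permEquiv S.coc ?_ φ (S.toCocSys.ver A φ)
    (fun g => rfl) hφ
  intro g x
  have h := S.spec g x
  rw [hι, hι] at h
  exact h

theorem presPar_ver (hι : ∀ g : Γ, ι g = ((g : SL(2, ℤ)) : Matrix (Fin 2) (Fin 2) ℤ))
    (S : RepSys ι X) (ht : ∀ x, (S.t x).det ≠ 0) : PresPar (fun B _ => S.toCocSys.ver B) :=
  fun _ _ φ hφ => ver_parEll hι S ht φ hφ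

/-- The endomorphism of `A_Γ` induced by the transfer of a system of representatives. -/
noncomputable def tauAG (hι : ∀ g : Γ, ι g = ((g : SL(2, ℤ)) : Matrix (Fin 2) (Fin 2) ℤ))
    (S : RepSys ι X) (ht : ∀ x, (S.t x).det ≠ 0) : AG Γ →+ AG Γ :=
  omega (fun B _ => S.toCocSys.ver B) (presPar_ver hι S ht)

/-- Transfer formula on `A_Γ`. -/
theorem tauAG_proj (hι : ∀ g : Γ, ι g = ((g : SL(2, ℤ)) : Matrix (Fin 2) (Fin 2) ℤ))
    (S : RepSys ι X) (ht : ∀ x, (S.t x).det ≠ 0) (g : Γ) :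
    tauAG hι S ht (proj Γ (Additive.ofMul g)) = ∑ x : X, proj Γ (Additive.ofMul (S.coc g x)) :=
  rfl

/-- On `Hom(A_Γ, B)` the transfer is `c ↦ c ∘ tauAG`. -/
theorem comp_tauAG (hι : ∀ g : Γ, ι g = ((g : SL(2, ℤ)) : Matrix (Fin 2) (Fin 2) ℤ))
    (S : RepSys ι X) (ht : ∀ x, (S.t x).det ≠ 0) (B : Type) [AddCommGroup B] (c : AG Γ →+ B) :
    (c.comp (tauAG hι S ht)).comp (proj Γ) = S.toCocSys.ver B (c.comp (proj Γ)) :=
  comp_omega (fun B _ => S.toCocSys.ver B) (isNat_ver S.toCocSys) (presPar_ver hι S ht) B c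

/-- Pointwise form of `comp_tauAG`. -/
theorem comp_tauAG_apply (hι : ∀ g : Γ, ι g = ((g : SL(2, ℤ)) : Matrix (Fin 2) (Fin 2) ℤ))
    (S : RepSys ι X) (ht : ∀ x, (S.t x).det ≠ 0) (B : Type) [AddCommGroup B] (c : AG Γ →+ B)
    (g : Γ) :
    c (tauAG hι S ht (proj Γ (Additive.ofMul g))) =
      ∑ x : X, c (proj Γ (Additive.ofMul (S.coc g x))) := by
  rw [tauAG_proj, map_sum]

/-- Commuting transfers induce commuting endomorphisms of `A_Γ`. -/
theorem tauAG_comm {Y : Type*} [Fintype Y]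
    (hι : ∀ g : Γ, ι g = ((g : SL(2, ℤ)) : Matrix (Fin 2) (Fin 2) ℤ))
    (S : RepSys ι X) (ht : ∀ x, (S.t x).det ≠ 0) (S' : RepSys ι Y)
    (ht' : ∀ y, (S'.t y).det ≠ 0)
    (h : S.toCocSys.ver (AG Γ) (S'.toCocSys.ver (AG Γ) (proj Γ)) =
      S'.toCocSys.ver (AG Γ) (S.toCocSys.ver (AG Γ) (proj Γ))) :
    (tauAG hι S ht).comp (tauAG hι S' ht') = (tauAG hι S' ht').comp (tauAG hι S ht) :=
  omega_comm (fun B _ => S.toCocSys.ver B) (fun B _ => S'.toCocSys.ver B)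
    (isNat_ver S.toCocSys) (isNat_ver S'.toCocSys) (presPar_ver hι S ht)
    (presPar_ver hι S' ht') h

end Ver

/-! ### Trace-preserving automorphisms (diamonds) -/

section Aut

/-- Precomposition with an endomorphism of `Γ`, as an operator family. -/
def pre (θ : Γ →* Γ) (B : Type) [AddCommGroup B] (φ : Additive Γ →+ B) : Additive Γ →+ B :=
  φ.comp (MonoidHom.toAdditive θ)

theorem pre_apply (θ : Γ →* Γ) (B : Type) [AddCommGroup B] (φ : Additive Γ →+ B) (g : Γ) :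
    pre θ B φ (Additive.ofMul g) = φ (Additive.ofMul (θ g)) := rfl

theorem isNat_pre (θ : Γ →* Γ) : IsNat (pre θ) := fun _ _ _ _ _ _ => rfl

theorem presPar_pre (θ : Γ →* Γ)
    (hθ : ∀ g : Γ, ((θ g : SL(2, ℤ)) : Matrix (Fin 2) (Fin 2) ℤ).trace =
      ((g : SL(2, ℤ)) : Matrix (Fin 2) (Fin 2) ℤ).trace) : PresPar (pre θ) :=
  fun _ _ φ hφ => parEll_comp θ hθ φ hφ

/-- The endomorphism of `A_Γ` induced by a trace-preserving endomorphism `θ` of `Γ`. -/
noncomputable def autAG (θ : Γ →* Γ)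
    (hθ : ∀ g : Γ, ((θ g : SL(2, ℤ)) : Matrix (Fin 2) (Fin 2) ℤ).trace =
      ((g : SL(2, ℤ)) : Matrix (Fin 2) (Fin 2) ℤ).trace) : AG Γ →+ AG Γ :=
  omega (pre θ) (presPar_pre θ hθ)

theorem autAG_proj (θ : Γ →* Γ)
    (hθ : ∀ g : Γ, ((θ g : SL(2, ℤ)) : Matrix (Fin 2) (Fin 2) ℤ).trace =
      ((g : SL(2, ℤ)) : Matrix (Fin 2) (Fin 2) ℤ).trace) (g : Γ) :
    autAG θ hθ (proj Γ (Additive.ofMul g)) = proj Γ (Additive.ofMul (θ g)) := rfl

/-- On `Hom(A_Γ, B)` precomposition with `θ` is `c ↦ c ∘ autAG θ`. -/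
theorem comp_autAG (θ : Γ →* Γ)
    (hθ : ∀ g : Γ, ((θ g : SL(2, ℤ)) : Matrix (Fin 2) (Fin 2) ℤ).trace =
      ((g : SL(2, ℤ)) : Matrix (Fin 2) (Fin 2) ℤ).trace) (B : Type) [AddCommGroup B]
    (c : AG Γ →+ B) (g : Γ) :
    c (autAG θ hθ (proj Γ (Additive.ofMul g))) = c (proj Γ (Additive.ofMul (θ g))) := rfl

theorem autAG_id (h : ∀ g : Γ, (((MonoidHom.id Γ) g : SL(2, ℤ)) : Matrix (Fin 2) (Fin 2) ℤ).trace =
      ((g : SL(2, ℤ)) : Matrix (Fin 2) (Fin 2) ℤ).trace) :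
    autAG (MonoidHom.id Γ) h = AddMonoidHom.id (AG Γ) :=
  hom_ext fun _ => rfl

/-- `autAG` is multiplicative: `autAG (θ ∘ θ') = autAG θ ∘ autAG θ'`. -/
theorem autAG_comp (θ θ' : Γ →* Γ)
    (hθ : ∀ g : Γ, ((θ g : SL(2, ℤ)) : Matrix (Fin 2) (Fin 2) ℤ).trace =
      ((g : SL(2, ℤ)) : Matrix (Fin 2) (Fin 2) ℤ).trace)
    (hθ' : ∀ g : Γ, ((θ' g : SL(2, ℤ)) : Matrix (Fin 2) (Fin 2) ℤ).trace =
      ((g : SL(2, ℤ)) : Matrix (Fin 2) (Fin 2) ℤ).trace)
    (hθθ' : ∀ g : Γ, (((θ.comp θ') g : SL(2, ℤ)) : Matrix (Fin 2) (Fin 2) ℤ).trace =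
      ((g : SL(2, ℤ)) : Matrix (Fin 2) (Fin 2) ℤ).trace) :
    autAG (θ.comp θ') hθθ' = (autAG θ hθ).comp (autAG θ' hθ') :=
  hom_ext fun _ => rfl

/-- Endomorphisms that agree up to conjugation inside `Γ` induce the same endomorphism of
`A_Γ` (the target is abelian). -/
theorem autAG_eq_of_conj (θ θ' : Γ →* Γ)
    (hθ : ∀ g : Γ, ((θ g : SL(2, ℤ)) : Matrix (Fin 2) (Fin 2) ℤ).trace =
      ((g : SL(2, ℤ)) : Matrix (Fin 2) (Fin 2) ℤ).trace)
    (hθ' : ∀ g : Γ, ((θ' g : SL(2, ℤ)) : Matrix (Fin 2) (Fin 2) ℤ).trace =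
      ((g : SL(2, ℤ)) : Matrix (Fin 2) (Fin 2) ℤ).trace)
    (h : ∀ g : Γ, ∃ a : Γ, θ' g = a * θ g * a⁻¹) : autAG θ hθ = autAG θ' hθ' := by
  refine hom_ext fun g => ?_
  obtain ⟨a, ha⟩ := h g
  rw [autAG_proj, autAG_proj, ha, ofMul_mul, ofMul_mul, ofMul_inv, map_add, map_add, map_neg]
  abel

/-- An endomorphism which is pointwise a conjugation inside `Γ` acts trivially on `A_Γ`. -/
theorem autAG_eq_id_of_conj (θ : Γ →* Γ)
    (hθ : ∀ g : Γ, ((θ g : SL(2, ℤ)) : Matrix (Fin 2) (Fin 2) ℤ).trace =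
      ((g : SL(2, ℤ)) : Matrix (Fin 2) (Fin 2) ℤ).trace)
    (h : ∀ g : Γ, ∃ a : Γ, θ g = a * g * a⁻¹) : autAG θ hθ = AddMonoidHom.id (AG Γ) := by
  refine hom_ext fun g => ?_
  obtain ⟨a, ha⟩ := h g
  rw [autAG_proj, ha, ofMul_mul, ofMul_mul, ofMul_inv, map_add, map_add, map_neg]
  simp

/-- A transfer commuting with precomposition by `θ` on `Hom(Γ, A_Γ)` gives commuting
endomorphisms of `A_Γ`. -/
theorem tauAG_autAG_comm {X : Type*} [Fintype X] {ι : Γ →* Matrix (Fin 2) (Fin 2) ℤ}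
    (hι : ∀ g : Γ, ι g = ((g : SL(2, ℤ)) : Matrix (Fin 2) (Fin 2) ℤ))
    (S : RepSys ι X) (ht : ∀ x, (S.t x).det ≠ 0) (θ : Γ →* Γ)
    (hθ : ∀ g : Γ, ((θ g : SL(2, ℤ)) : Matrix (Fin 2) (Fin 2) ℤ).trace =
      ((g : SL(2, ℤ)) : Matrix (Fin 2) (Fin 2) ℤ).trace)
    (h : S.toCocSys.ver (AG Γ) (pre θ (AG Γ) (proj Γ)) =
      pre θ (AG Γ) (S.toCocSys.ver (AG Γ) (proj Γ))) :
    (tauAG hι S ht).comp (autAG θ hθ) = (autAG θ hθ).comp (tauAG hι S ht) :=
  omega_comm (fun B _ => S.toCocSys.ver B) (pre θ) (isNat_ver S.toCocSys) (isNat_pre θ)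
    (presPar_ver hι S ht) (presPar_pre θ hθ) h

end Aut

end Fermat.Agent.S48.G1.CycleRep
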