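/-
S48 (Deligne–Serre), brick G1, Betti side (helper79): THE COSETS OF `T_ℓ` ON `Γ₁(M)`.

Integer `2 × 2` matrices `m` with first column `≡ (1, 0)ᵀ` modulo `M` (`IsD1 M m`) form a monoid
`Δ¹(M)` containing `Γ₁(M)`.  For a prime `ℓ ∤ M` the representatives

  `t1Mat x = [[1, j], [0, ℓ]]`  (`x = j ∈ 𝔽_ℓ`),   `t1Mat ∞ = σ_ℓ · [[ℓ, 0], [0, 1]]`,

`σ_ℓ = Hecke1.diamondRep M ℓ ∈ Γ₀(M)` with lower right entry `≡ ℓ` (helper170's convention:
`T_ℓ = U_ℓ + V_ℓ ⟨ℓ⟩`), are a complete free system of representatives of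
`Γ₁(M) \ {m ∈ Δ¹(M) : det m = ℓ}`:

* `exists_factor`, `factor_unique` : an integer matrix `m` with `p ∣ det m` is `m' * tMat p x`
  with `m'` integral, for a unique `x ∈ ℙ¹(𝔽_p)` when `p² ∤ det m` (the ONE arithmetic lemma);
* `exists_decomp`   : `det m = ℓ`, `IsD1 M m` ⟹ `m = h * t1Mat x` with `h ∈ Γ₁(M)`;
* `t1Mat_unique`    : uniqueness of the decomposition;
* `exists_decomp₂`  : `det m = ℓ ℓ'`, `IsD1 M m` ⟹ `m = h * t1Mat_ℓ x * t1Mat_ℓ' y`;
* `sys1 M hℓ hℓM : RepSys (iota M) (OnePoint (ZMod ℓ))` : the coset system of `T_ℓ` on `Γ₁(M)`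
  (`perm`, `coc` with `t1Mat x * γ = coc γ x * t1Mat (perm γ x)`).
-/
import Mathlib
import Fermat.Agent.S48.G1.Transfer
import Fermat.Agent.S48.Hecke1.Defs

set_option autoImplicit false

noncomputable section

namespace Fermat.Agent.S48.G1.Gamma1Coset

open scoped MatrixGroups
open CongruenceSubgroup Matrix.SpecialLinearGroup
open Fermat.Agent.S30.BettiHecke (tMat tMat_infty tMat_coe)
open Fermat.Agent.S48.G1.Transfer

local notation "Mat" => Matrix (Fin 2) (Fin 2) ℤ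

/-! ### Integer `2 × 2` matrices -/

theorem det_tMat (p : ℕ) (x : OnePoint (ZMod p)) : (tMat p x).det = p := by
  induction x using OnePoint.rec with
  | infty => rw [tMat_infty, Matrix.det_fin_two_of]; ring
  | coe j => rw [tMat_coe, Matrix.det_fin_two_of]; ring

/-- **Factorisation.**  An integer matrix whose determinant is divisible by the prime `p` is
`m' * tMat p x` with `m'` integral. -/
theorem exists_factor {p : ℕ} (hp : p.Prime) (m : Mat) (hdet : (p : ℤ) ∣ m.det) :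
    ∃ (x : OnePoint (ZMod p)) (m' : Mat), m = m' * tMat p x := by
  haveI : Fact p.Prime := ⟨hp⟩
  have hpp : Prime (p : ℤ) := Nat.prime_iff_prime_int.mp hp
  rw [Matrix.det_fin_two] at hdet
  have key : ∀ k : ZMod p, (p : ℤ) ∣ m 0 1 - m 0 0 * (k.val : ℤ) →
      (p : ℤ) ∣ m 1 1 - m 1 0 * (k.val : ℤ) →
      ∃ (x : OnePoint (ZMod p)) (m' : Mat), m = m' * tMat p x := by
    rintro k ⟨e, he⟩ ⟨f, hf⟩
    refine ⟨(k : OnePoint (ZMod p)), !![m 0 0, e; m 1 0, f], ?_⟩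
    rw [tMat_coe]
    generalize ((k.val : ℕ) : ℤ) = kv at he hf ⊢
    ext i j
    fin_cases i <;> fin_cases j <;> simp [Matrix.mul_apply, Fin.sum_univ_two] <;> linarith
  have hcast : ∀ (u v : ℤ) (k : ZMod p), (u : ZMod p) = (v : ZMod p) * k →
      (p : ℤ) ∣ u - v * (k.val : ℤ) := by
    intro u v k h
    rw [← ZMod.intCast_zmod_eq_zero_iff_dvd]
    push_cast
    rw [ZMod.natCast_zmod_val, h, sub_self]
  by_cases ha : (p : ℤ) ∣ m 0 0
  · by_cases hc : (p : ℤ) ∣ m 1 0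
    · obtain ⟨a', ha'⟩ := ha
      obtain ⟨c', hc'⟩ := hc
      refine ⟨OnePoint.infty, !![a', m 0 1; c', m 1 1], ?_⟩
      rw [tMat_infty]
      ext i j
      fin_cases i <;> fin_cases j <;> simp [Matrix.mul_apply, Fin.sum_univ_two] <;> linarith
    · have hc0 : ((m 1 0 : ℤ) : ZMod p) ≠ 0 := by
        rwa [Ne, ZMod.intCast_zmod_eq_zero_iff_dvd]
      refine key (((m 1 1 : ℤ) : ZMod p) * ((m 1 0 : ℤ) : ZMod p)⁻¹) ?_ ?_
      · have hb : (p : ℤ) ∣ m 0 1 := by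
          have h1 : (p : ℤ) ∣ m 0 1 * m 1 0 := by
            have h2 := dvd_sub (Dvd.dvd.mul_right ha (m 1 1)) hdet
            have e : m 0 0 * m 1 1 - (m 0 0 * m 1 1 - m 0 1 * m 1 0) = m 0 1 * m 1 0 := by ring
            rwa [e] at h2
          exact (hpp.dvd_or_dvd h1).resolve_right hc
        exact dvd_sub hb (Dvd.dvd.mul_right ha _)
      · apply hcast
        field_simp
  · have ha0 : ((m 0 0 : ℤ) : ZMod p) ≠ 0 := by
      rwa [Ne, ZMod.intCast_zmod_eq_zero_iff_dvd]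
    have h1 : (p : ℤ) ∣ m 0 1 - m 0 0 *
        (((((m 0 1 : ℤ) : ZMod p) * ((m 0 0 : ℤ) : ZMod p)⁻¹).val : ℕ) : ℤ) := by
      apply hcast
      field_simp
    refine key (((m 0 1 : ℤ) : ZMod p) * ((m 0 0 : ℤ) : ZMod p)⁻¹) h1 ?_
    set kv : ℤ := (((((m 0 1 : ℤ) : ZMod p) * ((m 0 0 : ℤ) : ZMod p)⁻¹).val : ℕ) : ℤ) with hkv
    have h2 : (p : ℤ) ∣ m 0 0 * (m 1 1 - m 1 0 * kv) := by
      have e : m 0 0 * (m 1 1 - m 1 0 * kv) =
          (m 0 0 * m 1 1 - m 0 1 * m 1 0) + m 1 0 * (m 0 1 - m 0 0 * kv) := by ring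
      rw [e]
      exact dvd_add hdet (Dvd.dvd.mul_left h1 _)
    exact (hpp.dvd_or_dvd h2).resolve_left ha

/-- **Uniqueness of the factorisation.** -/
theorem factor_unique {p : ℕ} (hp : p.Prime) {m' m'' : Mat} {x y : OnePoint (ZMod p)}
    (h : m' * tMat p x = m'' * tMat p y)
    (hdet : ¬ ((p : ℤ) ^ 2 ∣ (m' * tMat p x).det)) : x = y := by
  haveI : Fact p.Prime := ⟨hp⟩
  have hpp : Prime (p : ℤ) := Nat.prime_iff_prime_int.mp hp
  have hdet' : ¬ (p : ℤ) ∣ m'.det := by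
    intro hd
    apply hdet
    rw [Matrix.det_mul, det_tMat, pow_two]
    exact mul_dvd_mul hd dvd_rfl
  have hdet'' : ¬ (p : ℤ) ∣ m''.det := by
    intro hd
    apply hdet
    rw [h, Matrix.det_mul, det_tMat, pow_two]
    exact mul_dvd_mul hd dvd_rfl
  rw [Matrix.det_fin_two] at hdet' hdet''
  have e00 := congrFun (congrFun h 0) 0
  have e01 := congrFun (congrFun h 0) 1
  have e10 := congrFun (congrFun h 1) 0
  have e11 := congrFun (congrFun h 1) 1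
  induction x using OnePoint.rec with
  | infty =>
    induction y using OnePoint.rec with
    | infty => rfl
    | coe j =>
      exfalso
      simp only [tMat_infty, tMat_coe, Matrix.mul_apply, Fin.sum_univ_two, Matrix.of_apply,
        Matrix.cons_val', Matrix.cons_val_zero, Matrix.cons_val_one, Matrix.empty_val',
        Matrix.cons_val_fin_one] at e00 e01 e10 e11
      apply hdet''
      have h0 : m'' 0 0 = m' 0 0 * p := by linarith
      have h1 : m'' 1 0 = m' 1 0 * p := by linarith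
      rw [h0, h1]
      exact ⟨m' 0 0 * m'' 1 1 - m'' 0 1 * m' 1 0, by ring⟩
  | coe j =>
    induction y using OnePoint.rec with
    | infty =>
      exfalso
      simp only [tMat_infty, tMat_coe, Matrix.mul_apply, Fin.sum_univ_two, Matrix.of_apply,
        Matrix.cons_val', Matrix.cons_val_zero, Matrix.cons_val_one, Matrix.empty_val',
        Matrix.cons_val_fin_one] at e00 e01 e10 e11
      apply hdet'
      have h0 : m' 0 0 = m'' 0 0 * p := by linarith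
      have h1 : m' 1 0 = m'' 1 0 * p := by linarith
      rw [h0, h1]
      exact ⟨m'' 0 0 * m' 1 1 - m' 0 1 * m'' 1 0, by ring⟩
    | coe j' =>
      simp only [tMat_coe, Matrix.mul_apply, Fin.sum_univ_two, Matrix.of_apply,
        Matrix.cons_val', Matrix.cons_val_zero, Matrix.cons_val_one, Matrix.empty_val',
        Matrix.cons_val_fin_one] at e00 e01 e10 e11
      by_contra hne
      have hjj : j ≠ j' := fun hj => hne (by rw [hj])
      have hnd : ¬ (p : ℤ) ∣ (j.val : ℤ) - (j'.val : ℤ) := by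
        intro hd
        rw [← ZMod.intCast_zmod_eq_zero_iff_dvd] at hd
        push_cast at hd
        rw [ZMod.natCast_zmod_val, ZMod.natCast_zmod_val, sub_eq_zero] at hd
        exact hjj hd
      have h00 : m'' 0 0 = m' 0 0 := by linarith
      have h10 : m'' 1 0 = m' 1 0 := by linarith
      have ha : (p : ℤ) ∣ m' 0 0 * ((j.val : ℤ) - (j'.val : ℤ)) :=
        ⟨m'' 0 1 - m' 0 1, by rw [h00] at e01; linarith⟩
      have hc : (p : ℤ) ∣ m' 1 0 * ((j.val : ℤ) - (j'.val : ℤ)) :=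
        ⟨m'' 1 1 - m' 1 1, by rw [h10] at e11; linarith⟩
      have ha' := (hpp.dvd_or_dvd ha).resolve_right hnd
      have hc' := (hpp.dvd_or_dvd hc).resolve_right hnd
      exact hdet' (dvd_sub (Dvd.dvd.mul_right ha' _) (Dvd.dvd.mul_left hc' _))

/-- Right cancellation of an integer matrix of non-zero determinant. -/
theorem mul_right_cancel_of_det_ne_zero {A B T : Mat} (hT : T.det ≠ 0) (h : A * T = B * T) :
    A = B := by
  have h1 : A * (T * T.adjugate) = B * (T * T.adjugate) := by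
    rw [← Matrix.mul_assoc, ← Matrix.mul_assoc, h]
  rw [Matrix.mul_adjugate, Matrix.mul_smul, Matrix.mul_smul, Matrix.mul_one, Matrix.mul_one]
    at h1
  ext i j
  have h2 := congrFun (congrFun h1 i) j
  rw [Matrix.smul_apply, Matrix.smul_apply, smul_eq_mul, smul_eq_mul] at h2
  exact mul_left_cancel₀ hT h2

/-! ### First column `≡ (1, 0)ᵀ` modulo `M` -/

/-- The first column of `m` is `≡ (1, 0)ᵀ` modulo `M`. -/
def IsD1 (M : ℕ) (m : Mat) : Prop :=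
  ((m 0 0 : ℤ) : ZMod M) = 1 ∧ ((m 1 0 : ℤ) : ZMod M) = 0

theorem IsD1.mul {M : ℕ} {a b : Mat} (ha : IsD1 M a) (hb : IsD1 M b) : IsD1 M (a * b) := by
  obtain ⟨ha0, ha1⟩ := ha
  obtain ⟨hb0, hb1⟩ := hb
  constructor
  · rw [Matrix.mul_apply, Fin.sum_univ_two]
    push_cast
    rw [ha0, hb0, hb1]
    ring
  · rw [Matrix.mul_apply, Fin.sum_univ_two]
    push_cast
    rw [ha1, hb0, hb1]
    ring

theorem IsD1.of_mul_right {M : ℕ} {a b : Mat} (hab : IsD1 M (a * b)) (hb : IsD1 M b) :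
    IsD1 M a := by
  obtain ⟨h0, h1⟩ := hab
  obtain ⟨hb0, hb1⟩ := hb
  rw [Matrix.mul_apply, Fin.sum_univ_two] at h0 h1
  push_cast at h0 h1
  rw [hb0, hb1, mul_one, mul_zero, add_zero] at h0 h1
  exact ⟨h0, h1⟩

theorem isD1_of_mem_gamma1 {M : ℕ} {g : SL(2, ℤ)} (hg : g ∈ Gamma1 M) :
    IsD1 M (g : Mat) :=
  ⟨((Gamma1_mem M g).mp hg).1, ((Gamma1_mem M g).mp hg).2.2⟩

theorem mem_gamma1_of_isD1 {M : ℕ} {g : SL(2, ℤ)} (h : IsD1 M (g : Mat)) : g ∈ Gamma1 M := by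
  rw [Gamma1_mem]
  refine ⟨h.1, ?_, h.2⟩
  have hdet := g.det_coe
  rw [Matrix.det_fin_two] at hdet
  have h3 := congrArg (Int.cast : ℤ → ZMod M) hdet
  push_cast at h3
  have h1 : ((g 0 0 : ℤ) : ZMod M) = 1 := h.1
  have h2 : ((g 1 0 : ℤ) : ZMod M) = 0 := h.2
  rw [h1, h2, mul_zero, sub_zero, one_mul] at h3
  exact h3

/-- Conjugation by an element of `Γ₀(M)` preserves `IsD1`. -/
theorem IsD1.conj {M : ℕ} {ρ : SL(2, ℤ)} (hρ : ρ ∈ Gamma0 M) {m : Mat} (hm : IsD1 M m) :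
    IsD1 M ((ρ : Mat) * m * ((ρ⁻¹ : SL(2, ℤ)) : Mat)) := by
  obtain ⟨hm0, hm1⟩ := hm
  have hρ' : ρ⁻¹ ∈ Gamma0 M := inv_mem hρ
  rw [Gamma0_mem] at hρ hρ'
  have hone : (ρ : Mat) * ((ρ⁻¹ : SL(2, ℤ)) : Mat) = 1 := by
    rw [← Matrix.SpecialLinearGroup.coe_mul, mul_inv_cancel, Matrix.SpecialLinearGroup.coe_one]
  have h00 := congrFun (congrFun hone 0) 0
  rw [Matrix.mul_apply, Fin.sum_univ_two, Matrix.one_apply_eq] at h00
  have h00' := congrArg (Int.cast : ℤ → ZMod M) h00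
  push_cast at h00'
  constructor
  · simp only [Matrix.mul_apply, Fin.sum_univ_two]
    push_cast
    rw [hm0, hm1]
    have e := hρ'
    rw [show (((ρ⁻¹ : SL(2, ℤ)) : Mat) 1 0 : ZMod M) = 0 from hρ'] at h00' ⊢
    linear_combination h00'
  · simp only [Matrix.mul_apply, Fin.sum_univ_two]
    push_cast
    rw [hm0, hm1, show (((ρ⁻¹ : SL(2, ℤ)) : Mat) 1 0 : ZMod M) = 0 from hρ',
      show ((ρ : Mat) 1 0 : ZMod M) = 0 from hρ]
    ring

/-! ### The embedding of `Γ₁(M)` into the integer matrices -/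

/-- `Γ₁(M) → M₂(ℤ)`. -/
def iota (M : ℕ) : Gamma1 M →* Mat where
  toFun γ := ((γ : SL(2, ℤ)) : Mat)
  map_one' := by simp
  map_mul' γ δ := by simp

theorem iota_apply (M : ℕ) (γ : Gamma1 M) : iota M γ = ((γ : SL(2, ℤ)) : Mat) := rfl

theorem iota_injective (M : ℕ) : Function.Injective (iota M) := fun _ _ h =>
  Subtype.ext (Subtype.ext h)

theorem det_iota (M : ℕ) (γ : Gamma1 M) : (iota M γ).det = 1 := (γ : SL(2, ℤ)).det_coe

theorem isD1_iota (M : ℕ) (γ : Gamma1 M) : IsD1 M (iota M γ) := isD1_of_mem_gamma1 γ.2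

/-! ### The representatives of `T_ℓ` on `Γ₁(M)` -/

section Reps

variable (M : ℕ) [NeZero M] {ℓ : ℕ} (hℓ : ℓ.Prime) (hℓM : ¬ ℓ ∣ M)

/-- The unit `ℓ mod M`. -/
def unitOf : (ZMod M)ˣ :=
  ZMod.unitOfCoprime ℓ ((Nat.Prime.coprime_iff_not_dvd hℓ).mpr hℓM)

omit [NeZero M] in
theorem coe_unitOf : ((unitOf M hℓ hℓM : (ZMod M)ˣ) : ZMod M) = (ℓ : ZMod M) :=
  ZMod.coe_unitOfCoprime ℓ _

/-- The element `σ_ℓ ∈ Γ₀(M)` with lower right entry `≡ ℓ` (helper170's `diamondRep`). -/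
def sig : SL(2, ℤ) := Fermat.Agent.S48.Hecke1.diamondRep M (unitOf M hℓ hℓM)

theorem sig_mem : sig M hℓ hℓM ∈ Gamma0 M := Fermat.Agent.S48.Hecke1.diamondRep_mem M _

theorem sig_entry : ((sig M hℓ hℓM 1 1 : ℤ) : ZMod M) = (ℓ : ZMod M) := by
  rw [sig, Fermat.Agent.S48.Hecke1.diamondRep_entry, coe_unitOf]

/-- The left factor of the representative: `σ_ℓ` at `∞`, `1` at the finite points. -/
def sPt (x : OnePoint (ZMod ℓ)) : SL(2, ℤ) := x.elim (sig M hℓ hℓM) (fun _ => 1)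

theorem sPt_infty : sPt M hℓ hℓM OnePoint.infty = sig M hℓ hℓM := rfl

theorem sPt_coe (j : ZMod ℓ) : sPt M hℓ hℓM (j : OnePoint (ZMod ℓ)) = 1 := rfl

/-- **The representatives of `Γ₁(M) \ Δ¹_ℓ(M)`.** -/
def t1Mat (x : OnePoint (ZMod ℓ)) : Mat := (sPt M hℓ hℓM x : Mat) * tMat ℓ x

theorem t1Mat_infty :
    t1Mat M hℓ hℓM OnePoint.infty = (sig M hℓ hℓM : Mat) * !![(ℓ : ℤ), 0; 0, 1] := rfl

theorem t1Mat_coe (j : ZMod ℓ) :
    t1Mat M hℓ hℓM (j : OnePoint (ZMod ℓ)) = !![1, (j.val : ℤ); 0, (ℓ : ℤ)] := by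
  rw [t1Mat, sPt_coe, Matrix.SpecialLinearGroup.coe_one, Matrix.one_mul, tMat_coe]

theorem det_t1Mat (x : OnePoint (ZMod ℓ)) : (t1Mat M hℓ hℓM x).det = ℓ := by
  rw [t1Mat, Matrix.det_mul, Matrix.SpecialLinearGroup.det_coe, one_mul, det_tMat]

theorem det_t1Mat_ne_zero (x : OnePoint (ZMod ℓ)) : (t1Mat M hℓ hℓM x).det ≠ 0 := by
  rw [det_t1Mat]
  exact_mod_cast hℓ.ne_zero

theorem isD1_t1Mat (x : OnePoint (ZMod ℓ)) : IsD1 M (t1Mat M hℓ hℓM x) := by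
  induction x using OnePoint.rec with
  | infty =>
    rw [t1Mat_infty]
    have hmem := sig_mem M hℓ hℓM
    rw [Gamma0_mem] at hmem
    have hent := sig_entry M hℓ hℓM
    have hdet := (sig M hℓ hℓM).det_coe
    rw [Matrix.det_fin_two] at hdet
    have h3 := congrArg (Int.cast : ℤ → ZMod M) hdet
    push_cast at h3
    constructor
    · simp only [Matrix.mul_apply, Fin.sum_univ_two, Matrix.of_apply, Matrix.cons_val',
        Matrix.cons_val_zero, Matrix.cons_val_one, Matrix.empty_val', Matrix.cons_val_fin_one]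
      push_cast
      rw [hmem, hent] at h3
      linear_combination h3
    · simp only [Matrix.mul_apply, Fin.sum_univ_two, Matrix.of_apply, Matrix.cons_val',
        Matrix.cons_val_zero, Matrix.cons_val_one, Matrix.empty_val', Matrix.cons_val_fin_one]
      push_cast
      rw [hmem]
      ring
  | coe j =>
    rw [t1Mat_coe]
    constructor <;> simp

/-- **Decomposition in `Δ¹_ℓ(M)`**: an integer matrix of determinant `ℓ` with first column
`≡ (1, 0)ᵀ` modulo `M` is `h * t1Mat x` with `h ∈ Γ₁(M)`. -/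
theorem exists_decomp (m : Mat) (hdet : m.det = ℓ) (hD : IsD1 M m) :
    ∃ (x : OnePoint (ZMod ℓ)) (h : Gamma1 M), m = iota M h * t1Mat M hℓ hℓM x := by
  obtain ⟨x, m', hm⟩ := exists_factor hℓ m (by rw [hdet])
  have hℓ0 : (ℓ : ℤ) ≠ 0 := by exact_mod_cast hℓ.ne_zero
  set h₀ : Mat := m' * (((sPt M hℓ hℓM x)⁻¹ : SL(2, ℤ)) : Mat) with hh₀
  have hm2 : m = h₀ * t1Mat M hℓ hℓM x := by
    rw [hh₀, t1Mat, Matrix.mul_assoc, ← Matrix.mul_assoc _ (sPt M hℓ hℓM x : Mat),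
      ← Matrix.SpecialLinearGroup.coe_mul, inv_mul_cancel, Matrix.SpecialLinearGroup.coe_one,
      Matrix.one_mul]
    exact hm
  have hdet₀ : h₀.det = 1 := by
    have h1 : m.det = h₀.det * (ℓ : ℤ) := by
      rw [hm2, Matrix.det_mul, det_t1Mat]
    rw [hdet] at h1
    have h2 : (1 : ℤ) * ℓ = h₀.det * ℓ := by rw [one_mul]; exact h1
    exact (mul_right_cancel₀ hℓ0 h2).symm
  have hD₀ : IsD1 M h₀ := by
    rw [hm2] at hD
    exact hD.of_mul_right (isD1_t1Mat M hℓ hℓM x)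
  exact ⟨x, ⟨⟨h₀, hdet₀⟩, mem_gamma1_of_isD1 hD₀⟩, hm2⟩

/-- **Uniqueness of the decomposition.** -/
theorem t1Mat_unique (g g' : Gamma1 M) (x y : OnePoint (ZMod ℓ))
    (h : iota M g * t1Mat M hℓ hℓM x = iota M g' * t1Mat M hℓ hℓM y) : x = y ∧ g = g' := by
  have hℓ0 : (ℓ : ℤ) ≠ 0 := by exact_mod_cast hℓ.ne_zero
  have hxy : x = y := by
    have h1 : (iota M g * (sPt M hℓ hℓM x : Mat)) * tMat ℓ x =
        (iota M g' * (sPt M hℓ hℓM y : Mat)) * tMat ℓ y := by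
      rw [Matrix.mul_assoc, Matrix.mul_assoc]
      exact h
    refine factor_unique hℓ h1 ?_
    rw [Matrix.det_mul, Matrix.det_mul, det_iota, Matrix.SpecialLinearGroup.det_coe, det_tMat,
      one_mul, one_mul, pow_two]
    intro hd
    have h2 : (ℓ : ℤ) * ℓ ∣ ℓ * 1 := by rwa [mul_one]
    have h3 := (mul_dvd_mul_iff_left hℓ0).mp h2
    have h4 := Int.eq_one_of_dvd_one (by positivity) h3
    have h5 : ℓ = 1 := by exact_mod_cast h4
    exact hℓ.one_lt.ne' h5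
  subst hxy
  exact ⟨rfl, iota_injective M
    (mul_right_cancel_of_det_ne_zero (det_t1Mat_ne_zero M hℓ hℓM x) h)⟩

/-- **The coset system of `T_ℓ` on `Γ₁(M)`.** -/
def sys1 : RepSys (iota M) (OnePoint (ZMod ℓ)) :=
  RepSys.ofExists (t1Mat M hℓ hℓM)
    (fun γ x => by
      obtain ⟨y, g, hg⟩ := exists_decomp M hℓ hℓM (t1Mat M hℓ hℓM x * iota M γ)
        (by rw [Matrix.det_mul, det_t1Mat, det_iota, mul_one])
        ((isD1_t1Mat M hℓ hℓM x).mul (isD1_iota M γ))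
      exact ⟨g, y, hg⟩)
    (t1Mat_unique M hℓ hℓM)

@[simp] theorem sys1_t : (sys1 M hℓ hℓM).t = t1Mat M hℓ hℓM := rfl

end Reps

/-! ### Two primes -/

section TwoPrimes

variable (M : ℕ) [NeZero M] {ℓ ℓ' : ℕ} (hℓ : ℓ.Prime) (hℓM : ¬ ℓ ∣ M) (hℓ' : ℓ'.Prime)
  (hℓ'M : ¬ ℓ' ∣ M)

/-- **Decomposition in `Δ¹_{ℓ ℓ'}(M)`.** -/
theorem exists_decomp₂ (m : Mat) (hdet : m.det = (ℓ : ℤ) * ℓ') (hD : IsD1 M m) :
    ∃ (x : OnePoint (ZMod ℓ)) (y : OnePoint (ZMod ℓ')) (h : Gamma1 M),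
      m = iota M h * t1Mat M hℓ hℓM x * t1Mat M hℓ' hℓ'M y := by
  have hℓ'0 : (ℓ' : ℤ) ≠ 0 := by exact_mod_cast hℓ'.ne_zero
  obtain ⟨y, m', hm⟩ := exists_factor hℓ' m (by rw [hdet]; exact Dvd.intro_left _ rfl)
  set m₂ : Mat := m' * (((sPt M hℓ' hℓ'M y)⁻¹ : SL(2, ℤ)) : Mat) with hm₂
  have hm2 : m = m₂ * t1Mat M hℓ' hℓ'M y := by
    rw [hm₂, t1Mat, Matrix.mul_assoc, ← Matrix.mul_assoc _ (sPt M hℓ' hℓ'M y : Mat),
      ← Matrix.SpecialLinearGroup.coe_mul, inv_mul_cancel, Matrix.SpecialLinearGroup.coe_one,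
      Matrix.one_mul]
    exact hm
  have hdet₂ : m₂.det = ℓ := by
    have h1 : m.det = m₂.det * (ℓ' : ℤ) := by
      rw [hm2, Matrix.det_mul, det_t1Mat]
    rw [hdet] at h1
    exact (mul_right_cancel₀ hℓ'0 h1).symm
  have hD₂ : IsD1 M m₂ := by
    rw [hm2] at hD
    exact hD.of_mul_right (isD1_t1Mat M hℓ' hℓ'M y)
  obtain ⟨x, h, hx⟩ := exists_decomp M hℓ hℓM m₂ hdet₂ hD₂
  exact ⟨x, y, h, by rw [hm2, hx]⟩

/-- **Uniqueness in `Δ¹_{ℓ ℓ'}(M)`** (`ℓ ≠ ℓ'`): the products `t1Mat_ℓ' y * t1Mat_ℓ x`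
represent distinct free cosets. -/
theorem prod_unique (hne : ℓ ≠ ℓ') (g g' : Gamma1 M)
    (z z' : OnePoint (ZMod ℓ) × OnePoint (ZMod ℓ'))
    (h : iota M g * (t1Mat M hℓ' hℓ'M z.2 * t1Mat M hℓ hℓM z.1) =
      iota M g' * (t1Mat M hℓ' hℓ'M z'.2 * t1Mat M hℓ hℓM z'.1)) : z = z' ∧ g = g' := by
  have hℓ0 : (ℓ : ℤ) ≠ 0 := by exact_mod_cast hℓ.ne_zero
  have hx : z.1 = z'.1 := by
    have h1 : (iota M g * t1Mat M hℓ' hℓ'M z.2 * (sPt M hℓ hℓM z.1 : Mat)) * tMat ℓ z.1 =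
        (iota M g' * t1Mat M hℓ' hℓ'M z'.2 * (sPt M hℓ hℓM z'.1 : Mat)) * tMat ℓ z'.1 := by
      simp only [Matrix.mul_assoc]
      exact h
    refine factor_unique hℓ h1 ?_
    rw [Matrix.det_mul, Matrix.det_mul, Matrix.det_mul, det_iota, det_t1Mat,
      Matrix.SpecialLinearGroup.det_coe, det_tMat, one_mul, mul_one, pow_two]
    intro hd
    have h3 := (mul_dvd_mul_iff_right hℓ0).mp hd
    have h4 : ℓ ∣ ℓ' := by exact_mod_cast h3
    exact hne ((Nat.prime_dvd_prime_iff_eq hℓ hℓ').mp h4)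
  have h2 : iota M g * t1Mat M hℓ' hℓ'M z.2 = iota M g' * t1Mat M hℓ' hℓ'M z'.2 := by
    rw [← hx, ← Matrix.mul_assoc, ← Matrix.mul_assoc] at h
    exact mul_right_cancel_of_det_ne_zero (det_t1Mat_ne_zero M hℓ hℓM z.1) h
  obtain ⟨hy, hg⟩ := t1Mat_unique M hℓ' hℓ'M g g' z.2 z'.2 h2
  exact ⟨Prod.ext hx hy, hg⟩

end TwoPrimes

end Fermat.Agent.S48.G1.Gamma1Coset
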