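/-
S48 / G1, AREA P, brick `ParEll1`: GENERIC CORE (helper172).

The multiplier of a Kummer root is trivial on parabolic and elliptic elements, for ANY model
`(A, ιA : A →+* F, θ : A →+* HolH)` of a function field `F / K` by holomorphic functions on
the upper half plane.  No level and no congruence subgroup appear in the types, so `Γ₁(M)`,
its auxiliary levels and `Γ₀(N)` are all instances.  This is the generic twin of
`S30/KummerChar/{Elliptic,Cusp}` and `S30/Producer/ParEllBrick`.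

Setting: `a b : A` nonzero with `m ∣ div (a / b)` at every place of `F / K`, and `H`
holomorphic on `ℍ` with `H ^ m = θ a * θ b ^ (m - 1)`.  Then for every `σ ∈ SL(2, ℤ)` fixing
`θ x` for all `x : A` and with `tr(σ)² ≤ 4`, the multiplier of `H` under `σ` is `1`.

* `exists_eq_mul_of_dvd_ord_hom`, `mem_of_mul_eq_hom` : the "every order function is a multiple
  of a place" principle, unbundled (no `Algebra K A`, no `IsFractionRing` instance);
* `mult_eq_one_of_fixed_gen`      : `σ` has a fixed point in `ℍ`;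
* `mult_eq_one_of_parabolic_gen`  : `σ = g T^n g⁻¹`;
* `mult_eq_one_of_trace_sq_le`    : the exit, `tr(σ)² ≤ 4` (the sign `σ = -(g T^n g⁻¹)` of an
  irregular cusp is covered because `compSL (-γ) = compSL γ`);
* `const_of_algebra`              : the constants hypothesis when `A` is a `K`-algebra.
-/
import Mathlib
import Fermat.Agent.S30.KummerChar.Elliptic
import Fermat.Agent.S30.KummerChar.Cusp
import Fermat.Agent.S21.Parabolic
import Fermat.Agent.S48.Betti1.PeriodGen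

set_option autoImplicit false
set_option linter.dupNamespace false

noncomputable section

open scoped MatrixGroups Topology Real
open AlgebraicCurve UpperHalfPlane ModularCurve CongruenceSubgroup Filter
open Fermat.Agent.S24.HolH Fermat.Agent.S24.FibreCount
open Fermat.Agent.S24.CuspOrd Fermat.Agent.S24.Degree
open Fermat.Agent.S30.KummerChar

namespace Fermat.Agent.S48.G1.ParEllGen

/-! ### Order functions are multiples of places (unbundled) -/

section Abstract

variable {K F A : Type*} [Field K] [Field F] [Algebra K F] [CommRing A]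

/-- If `o` is an order function on `A` (trivial on constants) with values in `Z ≤ ℤ` and the
divisor of `a / b` is divisible by `m` at every place, then `o a - o b ∈ m • Z`.  Unbundled form
of `S30.KummerChar.exists_eq_mul_of_dvd_ord`: `A` is only a ring with an injective map to `F`
whose image generates `F` as a field of fractions. -/
theorem exists_eq_mul_of_dvd_ord_hom (ιA : A →+* F) (hιA : Function.Injective ιA)
    (hfrac : ∀ f : F, ∃ a b : A, b ≠ 0 ∧ f * ιA b = ιA a)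
    (o : A → ℤ)
    (hmul : ∀ x y : A, x ≠ 0 → y ≠ 0 → o (x * y) = o x + o y)
    (hadd : ∀ x y : A, x ≠ 0 → y ≠ 0 → x + y ≠ 0 → min (o x) (o y) ≤ o (x + y))
    (hK : ∀ (c : K) (x y : A), x ≠ 0 → y ≠ 0 → algebraMap K F c * ιA y = ιA x → o x = o y)
    (Z : AddSubgroup ℤ) (hZ : ∀ x : A, x ≠ 0 → o x ∈ Z)
    (m : ℕ) (a b : A) (ha : a ≠ 0) (hb : b ≠ 0)
    (hdiv : ∀ v : Place K F, (m : ℤ) ∣ v.ord (ιA a) - v.ord (ιA b)) :
    ∃ t ∈ Z, o a - o b = m * t := by
  classical
  have hne : ∀ x : A, x ≠ 0 → ιA x ≠ 0 := fun x hx => (map_ne_zero_iff ιA hιA).mpr hx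
  have hnzd : ∀ x y : A, x ≠ 0 → y ≠ 0 → x * y ≠ 0 := by
    intro x y hx hy h
    have h1 := congrArg ιA h
    rw [map_mul, map_zero] at h1
    exact mul_ne_zero (hne x hx) (hne y hy) h1
  have h1A : (1 : A) ≠ 0 := by
    intro h
    have h1 := congrArg ιA h
    rw [map_one, map_zero] at h1
    exact one_ne_zero h1
  -- every nonzero element of `F` is a quotient of nonzero elements of `A`
  have hrep : ∀ f : F, f ≠ 0 → ∃ x y : A, x ≠ 0 ∧ y ≠ 0 ∧ f * ιA y = ιA x := by
    intro f hf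
    obtain ⟨x, y, hy, h⟩ := hfrac f
    refine ⟨x, y, ?_, hy, h⟩
    rintro rfl
    rw [map_zero] at h
    exact mul_ne_zero hf (hne y hy) h
  -- independence of the representation
  have hwd : ∀ (f : F) (x y x' y' : A), x ≠ 0 → y ≠ 0 → x' ≠ 0 → y' ≠ 0 →
      f * ιA y = ιA x → f * ιA y' = ιA x' → o x - o y = o x' - o y' := by
    intro f x y x' y' hx hy hx' hy' h h'
    have e : x * y' = x' * y := by
      apply hιA
      rw [map_mul, map_mul, ← h, ← h']
      ring
    have e1 := hmul x y' hx hy'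
    have e2 := hmul x' y hx' hy
    rw [e] at e1
    omega
  -- the order function on `F`
  let u : F → ℤ := fun f => if hf : f = 0 then 0 else
    o (hrep f hf).choose - o (hrep f hf).choose_spec.choose
  have hu_eq : ∀ (f : F) (x y : A), x ≠ 0 → y ≠ 0 → f * ιA y = ιA x → u f = o x - o y := by
    intro f x y hx hy h
    have hf : f ≠ 0 := by
      rintro rfl
      rw [zero_mul] at h
      exact hne x hx h.symm
    show (if hf : f = 0 then 0 else
      o (hrep f hf).choose - o (hrep f hf).choose_spec.choose) = _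
    rw [dif_neg hf]
    obtain ⟨h1, h2, h3⟩ := (hrep f hf).choose_spec.choose_spec
    exact hwd f _ _ x y h1 h2 hx hy h3 h
  have hu : IsOrd u := by
    refine ⟨fun f g hf hg => ?_, fun f g hf hg hfg => ?_⟩
    · obtain ⟨x, y, hx, hy, h⟩ := hrep f hf
      obtain ⟨x', y', hx', hy', h'⟩ := hrep g hg
      have e : f * g * ιA (y * y') = ιA (x * x') := by
        rw [map_mul, map_mul, ← h, ← h']
        ring
      rw [hu_eq _ _ _ (hnzd x x' hx hx') (hnzd y y' hy hy') e, hu_eq f x y hx hy h,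
        hu_eq g x' y' hx' hy' h', hmul x x' hx hx', hmul y y' hy hy']
      ring
    · obtain ⟨x, y, hx, hy, h⟩ := hrep f hf
      obtain ⟨x', y', hx', hy', h'⟩ := hrep g hg
      have e : (f + g) * ιA (y * y') = ιA (x * y' + x' * y) := by
        rw [map_add, map_mul, map_mul, map_mul, ← h, ← h']
        ring
      have hs : x * y' + x' * y ≠ 0 := by
        intro h0
        rw [h0, map_zero] at e
        exact mul_ne_zero hfg (hne _ (hnzd y y' hy hy')) e
      rw [hu_eq _ _ _ hs (hnzd y y' hy hy') e, hu_eq f x y hx hy h, hu_eq g x' y' hx' hy' h']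
      have e1 := hadd (x * y') (x' * y) (hnzd x y' hx hy') (hnzd x' y hx' hy) hs
      rw [hmul x y' hx hy', hmul x' y hx' hy] at e1
      rw [hmul y y' hy hy']
      omega
  have hux : ∀ x : A, x ≠ 0 → u (ιA x) = o x := by
    intro x hx
    have e := hu_eq (ιA x) x 1 hx h1A (by rw [map_one, mul_one])
    have e1 := hmul 1 1 h1A h1A
    rw [mul_one] at e1
    rw [e]
    omega
  have huK : ∀ c : K, c ≠ 0 → u (algebraMap K F c) = 0 := by
    intro c hc
    have hc' : algebraMap K F c ≠ 0 := (map_ne_zero (algebraMap K F)).mpr hc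
    obtain ⟨x, y, hx, hy, h⟩ := hrep _ hc'
    rw [hu_eq _ x y hx hy h, hK c x y hx hy h, sub_self]
  have huZ : ∀ f : F, f ≠ 0 → u f ∈ Z := by
    intro f hf
    obtain ⟨x, y, hx, hy, h⟩ := hrep f hf
    rw [hu_eq f x y hx hy h]
    exact Z.sub_mem (hZ x hx) (hZ y hy)
  have hab : o a - o b = u (ιA a / ιA b) := by
    rw [hu.map_div (hne a ha) (hne b hb), hux a ha, hux b hb]
  by_cases hnt : ∃ f : F, f ≠ 0 ∧ u f < 0
  · obtain ⟨κ, -, ⟨w, hw0, hw⟩, hκ⟩ := exists_placeOfOrd_ord u hu huK hnt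
    obtain ⟨s, hs⟩ := hdiv (placeOfOrd u hu huK hnt)
    refine ⟨s * κ, ?_, ?_⟩
    · have h1 : κ ∈ Z := hw ▸ huZ w hw0
      have h2 := Z.zsmul_mem h1 s
      rwa [smul_eq_mul] at h2
    · rw [hab, hκ _ (div_ne_zero (hne a ha) (hne b hb)),
        (isOrd_place (placeOfOrd u hu huK hnt)).map_div (hne a ha) (hne b hb), hs]
      ring
  · refine ⟨0, Z.zero_mem, ?_⟩
    have hnn : ∀ f : F, f ≠ 0 → 0 ≤ u f := by
      intro f hf
      by_contra hlt
      exact hnt ⟨f, hf, not_le.mp hlt⟩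
    have hf0 : ιA a / ιA b ≠ 0 := div_ne_zero (hne a ha) (hne b hb)
    have h1 := hnn _ hf0
    have h2 := hnn _ (inv_ne_zero hf0)
    rw [hu.map_inv hf0] at h2
    rw [hab, mul_zero]
    omega

/-- The order of an "`m`-th root of `a * b ^ (m - 1)`" lies in `Z` (unbundled form of
`S30.KummerChar.mem_of_mul_eq`). -/
theorem mem_of_mul_eq_hom (ιA : A →+* F) (hιA : Function.Injective ιA)
    (hfrac : ∀ f : F, ∃ a b : A, b ≠ 0 ∧ f * ιA b = ιA a)
    (o : A → ℤ)
    (hmul : ∀ x y : A, x ≠ 0 → y ≠ 0 → o (x * y) = o x + o y)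
    (hadd : ∀ x y : A, x ≠ 0 → y ≠ 0 → x + y ≠ 0 → min (o x) (o y) ≤ o (x + y))
    (hK : ∀ (c : K) (x y : A), x ≠ 0 → y ≠ 0 → algebraMap K F c * ιA y = ιA x → o x = o y)
    (Z : AddSubgroup ℤ) (hZ : ∀ x : A, x ≠ 0 → o x ∈ Z)
    (m : ℕ) (hm : 0 < m) (a b : A) (ha : a ≠ 0) (hb : b ≠ 0)
    (hdiv : ∀ v : Place K F, (m : ℤ) ∣ v.ord (ιA a) - v.ord (ιA b))
    (k : ℤ) (hk : (m : ℤ) * k = o a + ((m : ℤ) - 1) * o b) : k ∈ Z := by
  obtain ⟨t, ht, h⟩ :=
    exists_eq_mul_of_dvd_ord_hom ιA hιA hfrac o hmul hadd hK Z hZ m a b ha hb hdiv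
  have hm0 : (m : ℤ) ≠ 0 := by exact_mod_cast hm.ne'
  have h1 : (m : ℤ) * k = (m : ℤ) * (t + o b) := by
    rw [hk]
    linear_combination h
  rw [mul_left_cancel₀ hm0 h1]
  exact Z.add_mem ht (hZ b hb)

/-- The constants hypothesis of the theorems below, when `A` is a `K`-algebra inside `F` and
`θ` is semilinear over `ι : K →+* ℂ`. -/
theorem const_of_algebra [Algebra K A] [Algebra A F] [IsScalarTower K A F]
    (hinj : Function.Injective (algebraMap A F)) (ι : K →+* ℂ) (θ : A →+* HolH)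
    (hθK : ∀ c : K, θ (algebraMap K A c) = algebraMap ℂ HolH (ι c))
    (c : K) (x y : A) (h : algebraMap K F c * algebraMap A F y = algebraMap A F x) :
    θ x = algebraMap ℂ HolH (ι c) * θ y := by
  have e : x = algebraMap K A c * y := by
    apply hinj
    rw [map_mul, ← IsScalarTower.algebraMap_apply K A F, h]
  rw [e, map_mul, hθK]

end Abstract

/-! ### Auxiliary facts on `compSL` and multipliers -/

theorem compSL_pow_eq {γ : SL(2, ℤ)} {f : HolH} (h : compSL γ f = f) (k : ℕ) :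
    compSL (γ ^ k) f = f := by
  induction k with
  | zero => rw [pow_zero, compSL_one]
  | succ k ih => rw [pow_succ, compSL_mul, ih, h]

theorem compSL_neg (γ : SL(2, ℤ)) (f : HolH) : compSL (-γ) f = compSL γ f := by
  apply Subtype.ext
  funext τ
  show (f : ℍ → ℂ) ((-γ) • τ) = (f : ℍ → ℂ) (γ • τ)
  rw [ModularGroup.SL_neg_smul]

theorem mult_neg (γ : SL(2, ℤ)) {H : HolH} (hH : H ≠ 0) (h : IsEig γ H) :
    mult (-γ) H = mult γ H :=
  mult_eq_of_eq hH (by rw [compSL_neg]; exact h.compSL_eq)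

/-! ### The generic statements -/

section Main

variable {K F A : Type*} [Field K] [Field F] [Algebra K F] [CommRing A]
  (ιA : A →+* F) (ι : K →+* ℂ) (θ : A →+* HolH)

/-- A root of `θ a * θ b ^ (m - 1)` is nonzero. -/
theorem root_ne_zero (hθ : Function.Injective θ) {m : ℕ} (hm : 0 < m) {a b : A} (ha : a ≠ 0)
    (hb : b ≠ 0) {H : HolH} (hH : H ^ m = θ a * θ b ^ (m - 1)) : H ≠ 0 := by
  rintro rfl
  rw [zero_pow hm.ne'] at hH
  exact mul_ne_zero ((map_ne_zero_iff θ hθ).mpr ha)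
    (pow_ne_zero _ ((map_ne_zero_iff θ hθ).mpr hb)) hH.symm

/-- The `m`-th power of a root is invariant under every `γ` fixing `θ A`. -/
theorem compSL_root_pow {m : ℕ} {a b : A} {H : HolH} (hH : H ^ m = θ a * θ b ^ (m - 1))
    {γ : SL(2, ℤ)} (hγ : ∀ x : A, compSL γ (θ x) = θ x) : compSL γ (H ^ m) = H ^ m := by
  rw [hH, map_mul, map_pow, hγ, hγ]

/-- **Elliptic triviality, generic.** If `m ∣ div (a / b)` and `H` is an `m`-th root of
`θ a * θ b ^ (m - 1)`, the multiplier of `H` under any `σ` fixing `θ A` and having a fixed point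
in `ℍ` is `1`. -/
theorem mult_eq_one_of_fixed_gen (hιA : Function.Injective ιA)
    (hfrac : ∀ f : F, ∃ a b : A, b ≠ 0 ∧ f * ιA b = ιA a) (hθ : Function.Injective θ)
    (hconst : ∀ (c : K) (x y : A), algebraMap K F c * ιA y = ιA x →
      θ x = algebraMap ℂ HolH (ι c) * θ y)
    {m : ℕ} (hm : 0 < m) {a b : A} (ha : a ≠ 0) (hb : b ≠ 0)
    (hdiv : ∀ v : Place K F, (m : ℤ) ∣ v.ord (ιA a) - v.ord (ιA b))
    {H : HolH} (hH : H ^ m = θ a * θ b ^ (m - 1))
    {σ : SL(2, ℤ)} (hσ : ∀ x : A, compSL σ (θ x) = θ x) {τ : ℍ} (hfix : σ • τ = τ) :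
    mult σ H = 1 := by
  set μ : ℂ := 1 / denom (σ : GL (Fin 2) ℝ) τ ^ 2 with hμdef
  have hμ : μ ≠ 0 := one_div_ne_zero (pow_ne_zero 2 (denom_ne_zero _ τ))
  have hθ0 : ∀ x : A, x ≠ 0 → θ x ≠ 0 := fun x hx => (map_ne_zero_iff θ hθ).mpr hx
  have hne : ∀ x : A, x ≠ 0 → ιA x ≠ 0 := fun x hx => (map_ne_zero_iff ιA hιA).mpr hx
  have hH0 : H ≠ 0 := root_ne_zero θ hθ hm ha hb hH
  let o : A → ℤ := fun x => ordZ τ (θ x)
  have hmul : ∀ x y : A, x ≠ 0 → y ≠ 0 → o (x * y) = o x + o y := by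
    intro x y hx hy
    show ordZ τ (θ (x * y)) = _
    rw [map_mul, ordZ_mul τ (hθ0 x hx) (hθ0 y hy)]
  have hadd : ∀ x y : A, x ≠ 0 → y ≠ 0 → x + y ≠ 0 → min (o x) (o y) ≤ o (x + y) := by
    intro x y hx hy hxy
    show _ ≤ ordZ τ (θ (x + y))
    rw [map_add]
    refine min_le_ordZ_add τ (hθ0 x hx) (hθ0 y hy) ?_
    rw [← map_add]
    exact hθ0 _ hxy
  have hK : ∀ (c : K) (x y : A), x ≠ 0 → y ≠ 0 → algebraMap K F c * ιA y = ιA x →
      o x = o y := by
    intro c x y hx hy h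
    have hc : c ≠ 0 := by
      rintro rfl
      rw [map_zero, zero_mul] at h
      exact hne x hx h.symm
    have hc' : algebraMap ℂ HolH (ι c) ≠ 0 :=
      (map_ne_zero (algebraMap ℂ HolH)).mpr ((map_ne_zero ι).mpr hc)
    show ordZ τ (θ x) = ordZ τ (θ y)
    rw [hconst c x y h, ordZ_mul τ hc' (hθ0 y hy), ordZ_algebraMap ((map_ne_zero ι).mpr hc),
      zero_add]
  have hZ : ∀ x : A, x ≠ 0 → o x ∈ zpowKer μ hμ := by
    intro x hx
    show μ ^ (ordZ τ (θ x)) = 1
    rw [ordZ, zpow_natCast]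
    exact multiplier_pow_ordAt_eq_one σ τ hfix _ (hθ0 x hx) (hσ x)
  have hk : (m : ℤ) * ordZ τ H = o a + ((m : ℤ) - 1) * o b := by
    have h1 : ordZ τ (H ^ m) = (m : ℤ) * ordZ τ H := ordZ_pow τ hH0 m
    have h2 : ordZ τ (θ a * θ b ^ (m - 1)) =
        ordZ τ (θ a) + ((m - 1 : ℕ) : ℤ) * ordZ τ (θ b) := by
      rw [ordZ_mul τ (hθ0 a ha) (pow_ne_zero _ (hθ0 b hb)), ordZ_pow τ (hθ0 b hb)]
    have h3 : ((m - 1 : ℕ) : ℤ) = (m : ℤ) - 1 := by
      rw [Nat.cast_sub hm]
      simp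
    rw [← h1, hH, h2, h3]
  have hmem := mem_of_mul_eq_hom ιA hιA hfrac o hmul hadd hK (zpowKer μ hμ) hZ m hm a b
    ha hb hdiv (ordZ τ H) hk
  have h1 : μ ^ (ordZ τ H) = 1 := hmem
  rw [ordZ, zpow_natCast] at h1
  have heig : IsEig σ H := isEig_of_pow hm (compSL_root_pow θ hH hσ)
  have h2 := multiplier_pow_ordAt_eq_mult σ τ hfix H hH0 heig.compSL_eq
  rw [← h2]
  exact h1

/-- **Parabolic triviality, generic.** If `m ∣ div (a / b)` and `H` is an `m`-th root of
`θ a * θ b ^ (m - 1)`, the multiplier of `H` under any conjugate `g T^n g⁻¹` of a translation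
which fixes `θ A` is `1`.  `N` is any level: all conjugates of `T ^ N` fix `θ A`. -/
theorem mult_eq_one_of_parabolic_gen (hιA : Function.Injective ιA)
    (hfrac : ∀ f : F, ∃ a b : A, b ≠ 0 ∧ f * ιA b = ιA a) (hθ : Function.Injective θ)
    (hconst : ∀ (c : K) (x y : A), algebraMap K F c * ιA y = ιA x →
      θ x = algebraMap ℂ HolH (ι c) * θ y)
    (hcusp : ∀ x : A, θ x ∈ cuspMod)
    {N : ℕ} [NeZero N]
    (hN : ∀ (g : SL(2, ℤ)) (x : A),
      compSL (g * ModularGroup.T ^ (N : ℤ) * g⁻¹) (θ x) = θ x)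
    {m : ℕ} (hm : 0 < m) {a b : A} (ha : a ≠ 0) (hb : b ≠ 0)
    (hdiv : ∀ v : Place K F, (m : ℤ) ∣ v.ord (ιA a) - v.ord (ιA b))
    {H : HolH} (hH : H ^ m = θ a * θ b ^ (m - 1)) (g : SL(2, ℤ)) (n : ℤ)
    (hσ : ∀ x : A, compSL (g * ModularGroup.T ^ n * g⁻¹) (θ x) = θ x) :
    mult (g * ModularGroup.T ^ n * g⁻¹) H = 1 := by
  have hθ0 : ∀ x : A, x ≠ 0 → θ x ≠ 0 := fun x hx => (map_ne_zero_iff θ hθ).mpr hx
  have hne : ∀ x : A, x ≠ 0 → ιA x ≠ 0 := fun x hx => (map_ne_zero_iff ιA hιA).mpr hx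
  have hH0 : H ≠ 0 := root_ne_zero θ hθ hm ha hb hH
  have hH'0 : compSL g H ≠ 0 := compSL_ne_zero g hH0
  have hNpos : 0 < N := Nat.pos_of_ne_zero (NeZero.ne N)
  set M : ℕ := N * m with hMdef
  have : NeZero M := ⟨(Nat.mul_pos hNpos hm).ne'⟩
  -- the translate `H' = H ∘ g`
  have hpow : compSL g H ^ m = compSL g (θ a) * compSL g (θ b) ^ (m - 1) := by
    rw [← map_pow, hH, map_mul, map_pow]
  -- the translates of `θ x` are invariant under `T ^ k` when `g T^k g⁻¹` fixes `θ A`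
  have htrans : ∀ k : ℤ, (∀ x : A, compSL (g * ModularGroup.T ^ k * g⁻¹) (θ x) = θ x) →
      ∀ x : A, compSL (ModularGroup.T ^ k) (compSL g (θ x)) = compSL g (θ x) := by
    intro k hk x
    rw [compSL_conj, hk]
  have e5 : (ModularGroup.T ^ (N : ℤ)) ^ m = ModularGroup.T ^ (M : ℤ) := by
    rw [← zpow_natCast, ← zpow_mul, hMdef]
    push_cast
    rfl
  have hMfix : ∀ x : A, compSL (g * ModularGroup.T ^ (M : ℤ) * g⁻¹) (θ x) = θ x := by
    intro x
    have e : (g * ModularGroup.T ^ (N : ℤ) * g⁻¹) ^ m = g * ModularGroup.T ^ (M : ℤ) * g⁻¹ := by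
      rw [conj_pow, e5]
    rw [← e]
    exact compSL_pow_eq (hN g x) m
  -- `H'` is `M`-periodic
  have hperT : compSL (ModularGroup.T ^ (M : ℤ)) (compSL g H) = compSL g H := by
    have hinvN : compSL (g * ModularGroup.T ^ (N : ℤ) * g⁻¹) (H ^ m) = H ^ m :=
      compSL_root_pow θ hH (hN g)
    have e1 : IsEig (g * ModularGroup.T ^ (N : ℤ) * g⁻¹) H := isEig_of_pow hm hinvN
    have e2 : IsEig (ModularGroup.T ^ (N : ℤ)) (compSL g H) := (isEig_conj_iff g _ H).mp e1
    have e3 : mult (ModularGroup.T ^ (N : ℤ)) (compSL g H) ^ m = 1 := by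
      rw [mult_conj g _ hH0 e1]
      exact mult_pow_eq_one hm hH0 hinvN
    have e4 := e2.zpow_nat hH'0 m
    rw [e5] at e4
    have e6 := e4.1.compSL_eq
    rw [e4.2, e3, map_one, one_mul] at e6
    exact e6
  -- `H'` has moderate growth
  have hmodH : ModAt ((compSL g H : HolH) : ℍ → ℂ) := by
    have hP : ModAt ((compSL g (θ (a * b ^ (m - 1))) : HolH) : ℍ → ℂ) := hcusp _ g
    refine modAt_of_pow hm hP fun τ => ?_
    have := congrArg (fun F : HolH => (F : ℍ → ℂ) τ) hpow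
    rw [map_mul, map_pow, map_mul, map_pow]
    exact this
  have hmemH : compSL g H ∈ MerInf M := mem_MerInf_of_modAt (periodic_of_compSL_T hperT) hmodH
  have hmemθ : ∀ x : A, compSL g (θ x) ∈ MerInf M := fun x =>
    mem_MerInf_of_modAt (periodic_of_compSL_T (htrans _ hMfix x)) (hcusp x g)
  -- the order function at the cusp
  let ρ : A → MerInf M := fun x => ⟨compSL g (θ x), hmemθ x⟩
  have hρ0 : ∀ x : A, x ≠ 0 → ρ x ≠ 0 := by
    intro x hx h0
    have h1 : compSL g (θ x) = 0 := congrArg Subtype.val h0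
    exact compSL_ne_zero g (hθ0 x hx) h1
  have hρmul : ∀ x y : A, ρ (x * y) = ρ x * ρ y := by
    intro x y
    apply Subtype.ext
    show compSL g (θ (x * y)) = compSL g (θ x) * compSL g (θ y)
    rw [map_mul, map_mul]
  have hρadd : ∀ x y : A, ρ (x + y) = ρ x + ρ y := by
    intro x y
    apply Subtype.ext
    show compSL g (θ (x + y)) = compSL g (θ x) + compSL g (θ y)
    rw [map_add, map_add]
  let o : A → ℤ := fun x => ordR (ρ x)
  have hmul : ∀ x y : A, x ≠ 0 → y ≠ 0 → o (x * y) = o x + o y := by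
    intro x y hx hy
    show ordR (ρ (x * y)) = _
    rw [hρmul, ordR_mul _ _ (hρ0 x hx) (hρ0 y hy)]
  have hadd : ∀ x y : A, x ≠ 0 → y ≠ 0 → x + y ≠ 0 → min (o x) (o y) ≤ o (x + y) := by
    intro x y hx hy hxy
    show _ ≤ ordR (ρ (x + y))
    rw [hρadd]
    refine ordR_add _ _ (hρ0 x hx) (hρ0 y hy) ?_
    rw [← hρadd]
    exact hρ0 _ hxy
  have hK : ∀ (c : K) (x y : A), x ≠ 0 → y ≠ 0 → algebraMap K F c * ιA y = ιA x →
      o x = o y := by
    intro c x y hx hy h
    have hc : c ≠ 0 := by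
      rintro rfl
      rw [map_zero, zero_mul] at h
      exact hne x hx h.symm
    have hcM : algebraMap ℂ (MerInf M) (ι c) ≠ 0 := by
      intro h0
      have h1 : algebraMap ℂ HolH (ι c) = 0 := congrArg Subtype.val h0
      exact (map_ne_zero ι).mpr hc ((map_eq_zero (algebraMap ℂ HolH)).mp h1)
    have e : ρ x = algebraMap ℂ (MerInf M) (ι c) * ρ y := by
      apply Subtype.ext
      show compSL g (θ x) = algebraMap ℂ HolH (ι c) * compSL g (θ y)
      rw [hconst c x y h, map_mul, AlgHom.commutes]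
    show ordR (ρ x) = ordR (ρ y)
    rw [e, ordR_mul _ _ hcM (hρ0 y hy), ordR_algebraMap ((map_ne_zero ι).mpr hc), zero_add]
  have hZ : ∀ x : A, x ≠ 0 → o x ∈ dvdMulSubgroup M n := by
    intro x hx
    show (M : ℤ) ∣ ordR (ρ x) * n
    exact dvd_ordInf_mul_of_compSL_T_zpow_eq (hmemθ x) (compSL_ne_zero g (hθ0 x hx))
      (htrans n hσ x)
  -- the order of `H'`
  let h' : MerInf M := ⟨compSL g H, hmemH⟩
  have hh'0 : h' ≠ 0 := by
    intro h0
    exact hH'0 (congrArg Subtype.val h0)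
  have hpow' : h' ^ m = ρ a * ρ b ^ (m - 1) := by
    apply Subtype.ext
    show compSL g H ^ m = compSL g (θ a) * compSL g (θ b) ^ (m - 1)
    exact hpow
  have hk : (m : ℤ) * ordR h' = o a + ((m : ℤ) - 1) * o b := by
    have h1 : ordR (h' ^ m) = (m : ℤ) * ordR h' := ordR_pow hh'0 m
    have h2 : ordR (ρ a * ρ b ^ (m - 1)) = ordR (ρ a) + ((m - 1 : ℕ) : ℤ) * ordR (ρ b) := by
      rw [ordR_mul _ _ (hρ0 a ha) (pow_ne_zero _ (hρ0 b hb)), ordR_pow (hρ0 b hb)]
    have h3 : ((m - 1 : ℕ) : ℤ) = (m : ℤ) - 1 := by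
      rw [Nat.cast_sub hm]
      simp
    rw [← h1, hpow', h2, h3]
  have hmem := mem_of_mul_eq_hom ιA hιA hfrac o hmul hadd hK (dvdMulSubgroup M n) hZ m hm
    a b ha hb hdiv (ordR h') hk
  have hdvd : (M : ℤ) ∣ ordR h' * n := hmem
  -- the multiplier is `rootExp M n ^ ordR h'`
  have heig : IsEig (g * ModularGroup.T ^ n * g⁻¹) H :=
    isEig_of_pow hm (compSL_root_pow θ hH hσ)
  have heig' : IsEig (ModularGroup.T ^ n) (compSL g H) := (isEig_conj_iff g _ H).mp heig
  have hmult : mult (ModularGroup.T ^ n) (compSL g H) = mult (g * ModularGroup.T ^ n * g⁻¹) H :=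
    mult_conj g _ hH0 heig
  obtain ⟨c, hc0, hc⟩ := exists_hasOrd_ordR h' hh'0
  have hv := hc.vadd n
  have hv' : HasOrd M (fun τ => ((h' : HolH) : ℍ → ℂ) ((n : ℝ) +ᵥ τ)) (ordR h')
      (mult (ModularGroup.T ^ n) (compSL g H) * c) := by
    have h1 : Tendsto (fun τ => mult (ModularGroup.T ^ n) (compSL g H) *
        (((h' : HolH) : ℍ → ℂ) τ * sPar M τ ^ (-(ordR h')))) atImInfty
        (𝓝 (mult (ModularGroup.T ^ n) (compSL g H) * c)) := hc.const_mul _
    refine h1.congr fun τ => ?_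
    have h2 := congrArg (fun F : HolH => (F : ℍ → ℂ) τ) heig'.compSL_eq
    simp only [compSL_apply] at h2
    rw [UpperHalfPlane.modular_T_zpow_smul] at h2
    show mult (ModularGroup.T ^ n) (compSL g H) * ((compSL g H : ℍ → ℂ) τ * _) =
      (compSL g H : ℍ → ℂ) ((n : ℝ) +ᵥ τ) * _
    simp only [compSL_apply]
    rw [h2]
    show _ = mult (ModularGroup.T ^ n) (compSL g H) * (H : ℍ → ℂ) (g • τ) * _
    ring
  have h3 : c * rootExp M n ^ (ordR h') = mult (ModularGroup.T ^ n) (compSL g H) * c :=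
    tendsto_nhds_unique hv hv'
  have h4 : rootExp M n ^ (ordR h') = 1 := (rootExp_zpow_eq_one_iff M n (ordR h')).mpr hdvd
  rw [h4, mul_one] at h3
  rw [← hmult]
  have h5 : (1 : ℂ) * c = mult (ModularGroup.T ^ n) (compSL g H) * c := by rw [one_mul]; exact h3
  exact (mul_right_cancel₀ hc0 h5).symm

/-- **ParEll, generic.** If `m ∣ div (a / b)` and `H` is an `m`-th root of
`θ a * θ b ^ (m - 1)`, the multiplier of `H` under every `σ ∈ SL(2, ℤ)` which fixes `θ A` and
has `tr(σ)² ≤ 4` is `1`.  Hypotheses on the model: `θ A` consists of functions of moderate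
growth at all cusps, invariant under some principal congruence subgroup `Γ(N)`. -/
theorem mult_eq_one_of_trace_sq_le (hιA : Function.Injective ιA)
    (hfrac : ∀ f : F, ∃ a b : A, b ≠ 0 ∧ f * ιA b = ιA a) (hθ : Function.Injective θ)
    (hconst : ∀ (c : K) (x y : A), algebraMap K F c * ιA y = ιA x →
      θ x = algebraMap ℂ HolH (ι c) * θ y)
    (hcusp : ∀ x : A, θ x ∈ cuspMod)
    {N : ℕ} [NeZero N] (hN : ∀ γ ∈ Gamma N, ∀ x : A, compSL γ (θ x) = θ x)
    {m : ℕ} (hm : 0 < m) {a b : A} (ha : a ≠ 0) (hb : b ≠ 0)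
    (hdiv : ∀ v : Place K F, (m : ℤ) ∣ v.ord (ιA a) - v.ord (ιA b))
    {H : HolH} (hH : H ^ m = θ a * θ b ^ (m - 1))
    {σ : SL(2, ℤ)} (hσ : ∀ x : A, compSL σ (θ x) = θ x)
    (htr : (σ : Matrix (Fin 2) (Fin 2) ℤ).trace ^ 2 ≤ 4) : mult σ H = 1 := by
  have hN' : ∀ (g : SL(2, ℤ)) (x : A),
      compSL (g * ModularGroup.T ^ (N : ℤ) * g⁻¹) (θ x) = θ x := fun g x =>
    hN _ (Fermat.Agent.S48.Betti1.conj_T_zpow_mem (le_refl (Gamma N)) g) x
  rcases lt_or_eq_of_le htr with hlt | heq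
  · -- elliptic: a fixed point in `ℍ`
    obtain ⟨τ, hτ⟩ := Fermat.Agent.S48.Betti1.exists_fixed_of_trace_sq_lt σ hlt
    exact mult_eq_one_of_fixed_gen ιA ι θ hιA hfrac hθ hconst hm ha hb hdiv hH hσ hτ
  · -- parabolic or `±1`
    obtain ⟨δ, hδ⟩ := Fermat.Agent.S21.exists_conj_upper σ heq
    obtain ⟨n, hn⟩ := Fermat.Agent.S21.upper_eq_T_zpow _ hδ
    have hσeq : σ = δ * (δ⁻¹ * σ * δ) * δ⁻¹ := by group
    rcases hn with hn | hn
    · have h1 : σ = δ * ModularGroup.T ^ n * δ⁻¹ := by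
        rw [← hn]
        exact hσeq
      rw [h1] at hσ ⊢
      exact mult_eq_one_of_parabolic_gen ιA ι θ hιA hfrac hθ hconst hcusp hN' hm ha hb hdiv hH
        δ n hσ
    · have h1 : σ = -(δ * ModularGroup.T ^ n * δ⁻¹) := by
        have h2 : δ * (-ModularGroup.T ^ n) * δ⁻¹ = -(δ * ModularGroup.T ^ n * δ⁻¹) := by
          rw [mul_neg, neg_mul]
        rw [← h2, ← hn]
        exact hσeq
      rw [h1] at hσ ⊢
      have hσ' : ∀ x : A, compSL (δ * ModularGroup.T ^ n * δ⁻¹) (θ x) = θ x := fun x => by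
        rw [← compSL_neg]
        exact hσ x
      have hH0 : H ≠ 0 := root_ne_zero θ hθ hm ha hb hH
      rw [mult_neg _ hH0 (isEig_of_pow hm (compSL_root_pow θ hH hσ'))]
      exact mult_eq_one_of_parabolic_gen ιA ι θ hιA hfrac hθ hconst hcusp hN' hm ha hb hdiv hH
        δ n hσ'

end Main

end Fermat.Agent.S48.G1.ParEllGen
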