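/-
PROGRAM DS (S48) / G1 (helper13): the CHARACTER-LEVEL p-ADIC LIMIT, coordinate form.

Twin of `S30/BettiLimit.nonempty_esData` in which the Hecke endomorphisms are not fixed in
advance: for a finitely generated abelian group `A` and a compatible, continuous system of
`G_ℚ`-actions on the finite groups `Hom(A, ℤ/p^n)` we produce dual coordinates `(a, e)` of `A`
modulo torsion and the `p`-adic limit representation `ρ`, together with TRANSFER statements for
ARBITRARY endomorphisms of `A`:

* `emat a e ω`    : the integer matrix of `c ↦ c ∘ ω` (`ω : A →+ A`);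
* commutation     : `σ (c ∘ ω) = (σ c) ∘ ω` at all levels  ⇒  `ρ σ` commutes with `emat ω`;
* quadratic relation with a diamond: `σ² c - (σ c) ∘ ω + ℓ • (c ∘ θ) = 0` at all levels ⇒
  `ρσ² - emat ω · ρσ + ℓ • emat θ = 0`;
* triviality      : `σ` acts trivially at all levels ⇒ `ρ σ = 1`;
* `emat` is multiplicative (contravariantly), so every identity between words in the
  endomorphisms (on integral characters) becomes an identity of integer matrices;
* `exists_phi`    : an injective period map `V → Hom(A, ℂ)` gives an injective `Φ : V → ℂ^r`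
  intertwining every operator `T` of `V` adjoint to an endomorphism `ω` of `A` with `emat ω`.
-/
import Mathlib
import Fermat.Agent.S30.BettiLimit

set_option autoImplicit false

namespace Fermat.Agent.S48.G1.Limit

open Fermat.Agent.S30 Fermat.Agent.S30.BettiLimit

section Emat

variable {A : Type} [AddCommGroup A] {r : ℕ} (a : Fin r → A) (e : Fin r → (A →+ ℤ))

/-- The integer matrix of an endomorphism `ω` of `A` in the coordinates `(a, e)`:
`(emat ω) i j = e_j (ω a_i)`. -/
def emat (ω : A →+ A) : Matrix (Fin r) (Fin r) ℤ := Matrix.of fun i j => e j (ω (a i))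

theorem emat_apply (ω : A →+ A) (i j : Fin r) : emat a e ω i j = e j (ω (a i)) := rfl

theorem emat_eq_tmat (ω : A →+ A) (ℓ : ℕ) : emat a e ω = tmat a e (fun _ => ω) ℓ := rfl

theorem tmat_eq_emat (τ : ℕ → A →+ A) (ℓ : ℕ) : tmat a e τ ℓ = emat a e (τ ℓ) := rfl

variable (he : ∀ i j, e j (a i) = if i = j then 1 else 0)
  (hexp : ∀ (M : Type) [AddCommGroup M] [Module.IsTorsionFree ℤ M] (c : A →+ M) (x : A),
    c x = ∑ i, e i x • c (a i))

include he in
theorem emat_id : emat a e (AddMonoidHom.id A) = 1 := by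
  ext i j
  rw [emat_apply, AddMonoidHom.id_apply, he, Matrix.one_apply]

include hexp in
/-- `emat` is contravariantly multiplicative. -/
theorem emat_mul (ω θ : A →+ A) : emat a e ω * emat a e θ = emat a e (θ.comp ω) := by
  ext k j
  have h := tmat_mul_apply a e hexp (fun n : ℕ => if n = 0 then ω else θ) 0 1 k j
  simp only [tmat_eq_emat, if_true, one_ne_zero, if_false] at h
  rw [h]
  rfl

/-- Endomorphisms which agree on integral characters have the same matrix. -/
theorem emat_congr {ω θ : A →+ A} (h : ∀ c : A →+ ℤ, c.comp ω = c.comp θ) :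
    emat a e ω = emat a e θ := by
  ext i j
  rw [emat_apply, emat_apply]
  exact DFunLike.congr_fun (h (e j)) (a i)

include hexp in
theorem emat_commute {ω θ : A →+ A}
    (h : ∀ c : A →+ ℤ, (c.comp ω).comp θ = (c.comp θ).comp ω) :
    Commute (emat a e ω) (emat a e θ) := by
  show emat a e ω * emat a e θ = emat a e θ * emat a e ω
  rw [emat_mul a e hexp, emat_mul a e hexp]
  refine emat_congr a e fun c => ?_
  have := h c
  exact this.symm

end Emat

/-! ### Level `n` -/

section Level

variable {p : ℕ} [hp : Fact p.Prime] {A : Type} [AddCommGroup A] {r : ℕ}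
  (a : Fin r → A) (e : Fin r → (A →+ ℤ))
  (act : ∀ n : ℕ, GQ →* AddMonoid.End (A →+ ZMod (p ^ n)))
  (hexp : ∀ (M : Type) [AddCommGroup M] [Module.IsTorsionFree ℤ M] (c : A →+ M) (x : A),
    c x = ∑ i, e i x • c (a i))
  (act_red : ∀ (n : ℕ) (σ : GQ) (c : A →+ ZMod (p ^ (n + 1))),
    act n σ (red A p n c) = red A p n (act (n + 1) σ c))
  (he : ∀ i j, e j (a i) = if i = j then 1 else 0)

include hexp act_red in
/-- Commutation with an endomorphism at level `n`. -/
theorem rhoN_commute (n : ℕ) (σ : GQ) (ω : A →+ A)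
    (h : ∀ c : A →+ ZMod (p ^ n), act n σ (c.comp ω) = (act n σ c).comp ω) :
    Commute (rhoN a e act n σ) ((emat a e ω).map (Int.castRingHom (ZMod (p ^ n)))) :=
  rhoN_comm a e act hexp act_red (fun _ => ω) n σ 0 h

include hexp act_red in
/-- The quadratic relation with a diamond term at level `n`. -/
theorem rhoN_es1 (n : ℕ) (σ : GQ) (ℓ : ℕ) (ω θ : A →+ A)
    (h : ∀ c : A →+ ZMod (p ^ n),
      act n σ (act n σ c) - (act n σ c).comp ω + ℓ • c.comp θ = 0) :
    rhoN a e act n σ * rhoN a e act n σ -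
      (emat a e ω).map (Int.castRingHom (ZMod (p ^ n))) * rhoN a e act n σ +
      (ℓ : ZMod (p ^ n)) • (emat a e θ).map (Int.castRingHom (ZMod (p ^ n))) = 0 := by
  ext k j
  have h1 := DFunLike.congr_fun (h (ebar e p n j)) (a k)
  rw [AddMonoidHom.add_apply, AddMonoidHom.sub_apply,
    act_comp_tau_apply a e act hexp act_red (fun _ => ω) n σ 0 k j,
    AddMonoidHom.nsmul_apply, AddMonoidHom.zero_apply] at h1
  have h2 : act n σ (act n σ (ebar e p n j)) (a k) = (rhoN a e act n σ * rhoN a e act n σ) k j := by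
    rw [← rhoN_mul a e act hexp act_red, rhoN_apply, map_mul, AddMonoid.End.coe_mul,
      Function.comp_apply]
  rw [h2] at h1
  rw [Matrix.add_apply, Matrix.sub_apply, Matrix.zero_apply, ← h1]
  congr 1
  rw [Matrix.smul_apply, Matrix.map_apply, emat_apply, AddMonoidHom.comp_apply, ebar_apply,
    nsmul_eq_mul, smul_eq_mul]
  rfl

end Level

/-! ### The limit -/

section Assembly

variable {p : ℕ} [hp : Fact p.Prime]

theorem map_int_toZModPow {r : ℕ} (M : Matrix (Fin r) (Fin r) ℤ) (n : ℕ) :
    (PadicInt.toZModPow n).mapMatrix (M.map (Int.castRingHom ℤ_[p])) =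
      M.map (Int.castRingHom (ZMod (p ^ n))) := by
  ext i j
  simp

/-- **The character-level `p`-adic limit, coordinate form.**  A compatible continuous system
of `G_ℚ`-actions on the finite groups `Hom(A, ℤ/p^n)` (`A` finitely generated, torsion allowed)
gives dual coordinates `(a, e)` of `A` modulo torsion and a `p`-adic representation `ρ` whose
reduction mod `p^n` is the matrix of the level-`n` action, with the transfer properties
(continuity, triviality, commutation with endomorphisms of `A`, quadratic relations). -/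
theorem exists_limit_spec (A : Type) [AddCommGroup A] (hA : AddGroup.FG A)
    (act : ∀ n : ℕ, GQ →* AddMonoid.End (A →+ ZMod (p ^ n)))
    (act_red : ∀ (n : ℕ) (σ : GQ) (c : A →+ ZMod (p ^ (n + 1))),
      act n σ (red A p n c) = red A p n (act (n + 1) σ c))
    (cont : ∀ n : ℕ, ∃ L : IntermediateField ℚ (AlgebraicClosure ℚ), FiniteDimensional ℚ L ∧
      ∀ σ : GQ, (∀ x ∈ L, σ x = x) → act n σ = 1) :
    ∃ (r : ℕ) (a : Fin r → A) (e : Fin r → (A →+ ℤ)),
      (∀ i j, e j (a i) = if i = j then 1 else 0) ∧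
      (∀ (M : Type) [AddCommGroup M] [Module.IsTorsionFree ℤ M] (c : A →+ M) (x : A),
         c x = ∑ i, e i x • c (a i)) ∧
      ∃ ρ : GQ →* Matrix (Fin r) (Fin r) ℤ_[p],
        (∀ (σ : GQ) (n : ℕ), (PadicInt.toZModPow n).mapMatrix (ρ σ) = rhoN a e act n σ) ∧
        (∀ n : ℕ, ∃ L : IntermediateField ℚ (AlgebraicClosure ℚ), FiniteDimensional ℚ L ∧
          ∀ σ : GQ, (∀ x ∈ L, σ x = x) →
            ∀ i j, (ρ σ - 1) i j ∈ Ideal.span {(p : ℤ_[p]) ^ n}) ∧
        (∀ σ : GQ, (∀ n, act n σ = 1) → ρ σ = 1) ∧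
        (∀ (σ : GQ) (ω : A →+ A),
          (∀ (n : ℕ) (c : A →+ ZMod (p ^ n)), act n σ (c.comp ω) = (act n σ c).comp ω) →
            Commute (ρ σ) ((emat a e ω).map (Int.castRingHom ℤ_[p]))) ∧
        (∀ (σ : GQ) (ℓ : ℕ) (ω θ : A →+ A),
          (∀ (n : ℕ) (c : A →+ ZMod (p ^ n)),
            act n σ (act n σ c) - (act n σ c).comp ω + ℓ • c.comp θ = 0) →
            ρ σ * ρ σ - (emat a e ω).map (Int.castRingHom ℤ_[p]) * ρ σ
              + (ℓ : ℤ_[p]) • (emat a e θ).map (Int.castRingHom ℤ_[p]) = 0) := by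
  classical
  obtain ⟨r, a, e, he, hexp⟩ := exists_coords A hA
  refine ⟨r, a, e, he, hexp, ?_⟩
  have hex : ∀ (σ : GQ) (i j : Fin r), ∃ y : ℤ_[p],
      ∀ n, PadicInt.toZModPow n y = rhoN a e act n σ i j :=
    fun σ i j => exists_limit (fun n => rhoN a e act n σ i j) (rhoN_compat a e act act_red σ i j)
  choose ρ hρ using hex
  have hmap : ∀ (σ : GQ) (n : ℕ),
      (PadicInt.toZModPow n).mapMatrix (Matrix.of (ρ σ)) = rhoN a e act n σ := by
    intro σ n
    ext i j
    exact hρ σ i j n
  let ρh : GQ →* Matrix (Fin r) (Fin r) ℤ_[p] :=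
    { toFun := fun σ => Matrix.of (ρ σ)
      map_one' := by
        refine padic_matrix_ext fun n => ?_
        rw [hmap, rhoN_one a e act he, map_one]
      map_mul' := by
        intro σ τ'
        refine padic_matrix_ext fun n => ?_
        rw [map_mul, hmap, hmap, hmap, rhoN_mul a e act hexp act_red] }
  have hρm : ∀ (σ : GQ) (n : ℕ), (PadicInt.toZModPow n).mapMatrix (ρh σ) = rhoN a e act n σ :=
    hmap
  refine ⟨ρh, hρm, ?_, ?_, ?_, ?_⟩
  · -- continuity
    intro n
    obtain ⟨L, hL, h⟩ := cont n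
    refine ⟨L, hL, fun σ hσ i j => ?_⟩
    rw [← PadicInt.ker_toZModPow, RingHom.mem_ker]
    have h1 : (PadicInt.toZModPow n).mapMatrix (ρh σ - 1) = 0 := by
      rw [map_sub, hρm, rhoN_eq_one_of_act a e act he n σ (h σ hσ), map_one, sub_self]
    exact congrFun (congrFun h1 i) j
  · -- triviality
    intro σ hσ
    refine padic_matrix_ext fun n => ?_
    rw [hρm, map_one]
    exact rhoN_eq_one_of_act a e act he n σ (hσ n)
  · -- commutation
    intro σ ω h
    show ρh σ * _ = _ * ρh σ
    refine padic_matrix_ext fun n => ?_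
    rw [map_mul, map_mul, hρm, map_int_toZModPow]
    exact (rhoN_commute a e act hexp act_red n σ ω (h n)).eq
  · -- quadratic relation
    intro σ ℓ ω θ h
    refine padic_matrix_ext fun n => ?_
    rw [map_zero, map_add, map_sub, map_mul, map_mul, hρm, map_int_toZModPow]
    have h3 : (PadicInt.toZModPow n).mapMatrix
        ((ℓ : ℤ_[p]) • (emat a e θ).map (Int.castRingHom ℤ_[p])) =
          (ℓ : ZMod (p ^ n)) • (emat a e θ).map (Int.castRingHom (ZMod (p ^ n))) := by
      rw [← map_int_toZModPow (p := p) (emat a e θ) n]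
      ext i j
      simp
    rw [h3]
    exact rhoN_es1 a e act hexp act_red n σ ℓ ω θ (h n)

end Assembly

/-! ### The period map in coordinates -/

section Occ

variable {A : Type} [AddCommGroup A] {r : ℕ} (a : Fin r → A) (e : Fin r → (A →+ ℤ))
  (hexp : ∀ (M : Type) [AddCommGroup M] [Module.IsTorsionFree ℤ M] (c : A →+ M) (x : A),
    c x = ∑ i, e i x • c (a i))

include hexp in
/-- An injective period map `P : V → Hom(A, ℂ)` in coordinates: `Φ f = (P f (a i))_i` is
injective and intertwines every operator `T` of `V` which is adjoint to an endomorphism `ω`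
of `A` with the integer matrix `emat a e ω`. -/
theorem exists_phi {V : Type*} [AddCommGroup V] [Module ℂ V] (P : V →ₗ[ℂ] (A → ℂ))
    (hadd : ∀ f a b, P f (a + b) = P f a + P f b) (hinj : Function.Injective P) :
    ∃ Φ : V →ₗ[ℂ] (Fin r → ℂ), Function.Injective Φ ∧
      ∀ (T : V → V) (ω : A →+ A), (∀ f x, P (T f) x = P f (ω x)) →
        ∀ f, Φ (T f) = ((emat a e ω).map (Int.castRingHom ℂ)).mulVec (Φ f) := by
  have hP : ∀ (f : V) (x : A), P f x = ∑ i, e i x • P f (a i) := fun f x =>
    hexp ℂ (AddMonoidHom.mk' (P f) (hadd f)) x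
  refine ⟨LinearMap.pi fun i => (LinearMap.proj (a i)).comp P, ?_, ?_⟩
  · intro f g hfg
    apply hinj
    funext x
    rw [hP f x, hP g x]
    refine Finset.sum_congr rfl fun i _ => ?_
    have := congrFun hfg i
    simp only [LinearMap.pi_apply, LinearMap.coe_comp, Function.comp_apply,
      LinearMap.proj_apply] at this
    rw [this]
  · intro T ω hT f
    funext k
    simp only [LinearMap.pi_apply, LinearMap.coe_comp, Function.comp_apply,
      LinearMap.proj_apply, Matrix.mulVec, dotProduct, Matrix.map_apply, Int.coe_castRingHom]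
    rw [hT f (a k), hP f (ω (a k))]
    refine Finset.sum_congr rfl fun i _ => ?_
    rw [zsmul_eq_mul, emat_apply]

end Occ

end Fermat.Agent.S48.G1.Limit
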