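/-
PROGRAM DS (S48) / G1 (helper13): ABSTRACT KUMMER PAIRINGS and their `p`-adic limit.

`KummerPairing p F gal` is the function-field-independent form of the S30 producer interface
(`S30/Producer/CharSystem`): a field `F` with an action `gal` of `G_ℚ` by ring automorphisms, a
finitely generated abelian group `A`, and the relation

  `R n f c` : "`f ∈ F^×` is a Kummer function of exponent `p^n` with Kummer character
              `c : A →+ ℤ/p^n`",

which identifies `{f : p^n ∣ div f} / F^{× p^n}` with `Hom(A, ℤ/p^n)` compatibly in `n`, is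
Galois stable, and such that every function is fixed by an open subgroup.

No Hecke operator, no diamond operator and no cusp form occur in the structure.  They enter
through TRANSFER statements for arbitrary pairs (`h : F → F`, `ω : A →+ A`) with
`R n f c → R n (h f) (c ∘ ω)`:

* `exists_spec` : dual coordinates `(a, e)` of `A` modulo torsion and the limit representation
  `ρ : G_ℚ → GL_r(ℤ_p)` with
  - continuity;
  - `ρ σ = 1` if `σ` fixes all Kummer classes;
  - `ρ σ` commutes with `emat a e ω` if `h` commutes with `σ` on Kummer functions;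
  - `ρσ² - emat ω · ρσ + ℓ • emat θ = 0` if `σ² f · (D f)^ℓ = H (σ f) · g^(p^n)` on Kummer
    functions (`H ↔ ω` the Hecke operator, `D ↔ θ` the diamond operator).
-/
import Mathlib
import Fermat.Agent.S48.G1.Limit

set_option autoImplicit false

namespace Fermat.Agent.S48.G1

open Fermat.Agent.S30 Fermat.Agent.S30.BettiLimit

/-- An abstract Kummer pairing for the prime `p` on a field `F` with a `G_ℚ`-action. -/
structure KummerPairing (p : ℕ) [Fact p.Prime] (F : Type) [Field F] (gal : GQ → F ≃+* F) where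
  /-- the finitely generated abelian group of which Kummer classes are characters -/
  A : Type
  [instA : AddCommGroup A]
  fg : AddGroup.FG A
  /-- `R n f c`: `f` is a Kummer function of exponent `p ^ n` with Kummer character `c` -/
  R : (n : ℕ) → F → (A →+ ZMod (p ^ n)) → Prop
  ne_zero : ∀ {n : ℕ} {f : F} {c : A →+ ZMod (p ^ n)}, R n f c → f ≠ 0
  /-- surjectivity of the Kummer character -/
  ex : ∀ (n : ℕ) (c : A →+ ZMod (p ^ n)), ∃ f : F, R n f c
  mul : ∀ {n : ℕ} {f g : F} {c d : A →+ ZMod (p ^ n)}, R n f c → R n g d → R n (f * g) (c + d)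
  /-- the character is determined by the function -/
  uniq : ∀ {n : ℕ} {f : F} {c d : A →+ ZMod (p ^ n)}, R n f c → R n f d → c = d
  /-- injectivity of the Kummer character (trivial character ⇒ `p^n`-th power) -/
  inj : ∀ {n : ℕ} {f : F}, R n f 0 → ∃ g : F, f = g ^ (p ^ n)
  pow : ∀ (n : ℕ) {g : F}, g ≠ 0 → R n (g ^ (p ^ n)) 0
  /-- transition `J_{p^(n+1)} → J_{p^n}` is the identity on representatives -/
  red : ∀ {n : ℕ} {f : F} {c : A →+ ZMod (p ^ (n + 1))},
    R (n + 1) f c → R n f (BettiLimit.red A p n c)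
  gal_one : ∀ f : F, gal 1 f = f
  gal_mul : ∀ (σ τ : GQ) (f : F), gal (σ * τ) f = gal σ (gal τ f)
  /-- Galois stability of the Kummer functions -/
  stable : ∀ (σ : GQ) {n : ℕ} {f : F} {c : A →+ ZMod (p ^ n)},
    R n f c → ∃ d : A →+ ZMod (p ^ n), R n (gal σ f) d
  /-- every function is fixed by an open subgroup -/
  cont : ∀ f : F, ∃ L : IntermediateField ℚ (AlgebraicClosure ℚ), FiniteDimensional ℚ L ∧
    ∀ σ : GQ, (∀ x ∈ L, σ x = x) → gal σ f = f

attribute [instance] KummerPairing.instA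

namespace KummerPairing

variable {p : ℕ} [hp : Fact p.Prime] {F : Type} [Field F] {gal : GQ → F ≃+* F}
  (K : KummerPairing p F gal)

/-- Two Kummer functions with the same character differ by a `p^n`-th power. -/
theorem eq_mul_pow {n : ℕ} {f f' : F} {c : K.A →+ ZMod (p ^ n)}
    (h : K.R n f c) (h' : K.R n f' c) : ∃ g : F, g ≠ 0 ∧ f' = f * g ^ (p ^ n) := by
  obtain ⟨u, hu⟩ := K.ex n (-c)
  have h1 := K.mul h hu
  have h2 := K.mul h' hu
  rw [add_neg_cancel] at h1 h2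
  obtain ⟨g1, hg1⟩ := K.inj h1
  obtain ⟨g2, hg2⟩ := K.inj h2
  have hf : f ≠ 0 := K.ne_zero h
  have hf' : f' ≠ 0 := K.ne_zero h'
  have hu0 : u ≠ 0 := K.ne_zero hu
  have hg1' : g1 ≠ 0 := by
    rintro rfl
    rw [zero_pow (pow_ne_zero n hp.out.ne_zero)] at hg1
    exact mul_ne_zero hf hu0 hg1
  have hg2' : g2 ≠ 0 := by
    rintro rfl
    rw [zero_pow (pow_ne_zero n hp.out.ne_zero)] at hg2
    exact mul_ne_zero hf' hu0 hg2
  refine ⟨g2 / g1, div_ne_zero hg2' hg1', ?_⟩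
  rw [div_pow, ← hg1, ← hg2]
  field_simp

theorem rel_mul_pow {n : ℕ} {f g : F} {c : K.A →+ ZMod (p ^ n)}
    (h : K.R n f c) (hg : g ≠ 0) : K.R n (f * g ^ (p ^ n)) c := by
  have := K.mul h (K.pow n hg)
  rwa [add_zero] at this

theorem rel_one (n : ℕ) : K.R n (1 : F) 0 := by
  have := K.pow n (one_ne_zero (α := F))
  rwa [one_pow] at this

theorem rel_pow_nat {n : ℕ} {f : F} {c : K.A →+ ZMod (p ^ n)}
    (h : K.R n f c) (k : ℕ) : K.R n (f ^ k) (k • c) := by
  induction k with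
  | zero =>
    rw [pow_zero, zero_smul]
    exact K.rel_one n
  | succ k ih =>
    rw [pow_succ, succ_nsmul]
    exact K.mul ih h

/-- A relation `f = f' * g ^ (p ^ n)` between Kummer functions: `g ≠ 0`. -/
theorem ne_zero_of_eq_mul_pow {n : ℕ} {f f' g : F} {c : K.A →+ ZMod (p ^ n)}
    (h : K.R n f c) (hg : f = f' * g ^ (p ^ n)) : g ≠ 0 := by
  rintro rfl
  rw [zero_pow (pow_ne_zero n hp.out.ne_zero), mul_zero] at hg
  exact K.ne_zero h hg

/-- The character of `σ f`, for `f` of character `c`. -/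
noncomputable def actFun (σ : GQ) (n : ℕ) (c : K.A →+ ZMod (p ^ n)) : K.A →+ ZMod (p ^ n) :=
  Classical.choose (K.stable σ (Classical.choose_spec (K.ex n c)))

theorem actFun_spec (σ : GQ) {n : ℕ} {f : F} {c : K.A →+ ZMod (p ^ n)} (h : K.R n f c) :
    K.R n (gal σ f) (K.actFun σ n c) := by
  have h0 := Classical.choose_spec (K.ex n c)
  have h1 : K.R n (gal σ (Classical.choose (K.ex n c))) (K.actFun σ n c) :=
    Classical.choose_spec (K.stable σ h0)
  obtain ⟨g, hg, rfl⟩ := K.eq_mul_pow h0 h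
  rw [map_mul, map_pow]
  exact K.rel_mul_pow h1 ((map_ne_zero_iff _ (gal σ).injective).2 hg)

theorem actFun_eq (σ : GQ) {n : ℕ} {f : F} {c d : K.A →+ ZMod (p ^ n)} (h : K.R n f c)
    (hd : K.R n (gal σ f) d) : K.actFun σ n c = d :=
  K.uniq (K.actFun_spec σ h) hd

theorem actFun_add (σ : GQ) (n : ℕ) (c d : K.A →+ ZMod (p ^ n)) :
    K.actFun σ n (c + d) = K.actFun σ n c + K.actFun σ n d := by
  obtain ⟨f, hf⟩ := K.ex n c
  obtain ⟨g, hg⟩ := K.ex n d
  refine K.actFun_eq σ (K.mul hf hg) ?_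
  rw [map_mul]
  exact K.mul (K.actFun_spec σ hf) (K.actFun_spec σ hg)

theorem actFun_one (n : ℕ) (c : K.A →+ ZMod (p ^ n)) : K.actFun 1 n c = c := by
  obtain ⟨f, hf⟩ := K.ex n c
  refine K.actFun_eq 1 hf ?_
  rwa [K.gal_one]

theorem actFun_mul (σ τ' : GQ) (n : ℕ) (c : K.A →+ ZMod (p ^ n)) :
    K.actFun (σ * τ') n c = K.actFun σ n (K.actFun τ' n c) := by
  obtain ⟨f, hf⟩ := K.ex n c
  refine K.actFun_eq (σ * τ') hf ?_
  rw [K.gal_mul]
  exact K.actFun_spec σ (K.actFun_spec τ' hf)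

/-- The Galois action on `Hom(A, ℤ/p^n)`. -/
noncomputable def act (n : ℕ) : GQ →* AddMonoid.End (K.A →+ ZMod (p ^ n)) where
  toFun σ := AddMonoidHom.mk' (K.actFun σ n) (K.actFun_add σ n)
  map_one' := by
    ext c : 1
    exact K.actFun_one n c
  map_mul' := by
    intro σ τ'
    ext c : 1
    exact K.actFun_mul σ τ' n c

theorem act_apply (n : ℕ) (σ : GQ) (c : K.A →+ ZMod (p ^ n)) :
    K.act n σ c = K.actFun σ n c := rfl

theorem finite_hom (n : ℕ) : Finite (K.A →+ ZMod (p ^ n)) := by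
  have : NeZero (p ^ n) := ⟨pow_ne_zero n hp.out.ne_zero⟩
  obtain ⟨S, hS⟩ := K.fg
  have hS' : AddSubgroup.closure (S : Set K.A) = ⊤ := hS
  refine Finite.of_injective (fun (c : K.A →+ ZMod (p ^ n)) (s : S) => c s) ?_
  intro c d hcd
  refine AddMonoidHom.eq_of_eqOn_dense hS' ?_
  intro s hs
  exact congrFun hcd ⟨s, hs⟩

/-! ### The inputs of the limit -/

theorem act_red (n : ℕ) (σ : GQ) (c : K.A →+ ZMod (p ^ (n + 1))) :
    K.act n σ (BettiLimit.red K.A p n c) = BettiLimit.red K.A p n (K.act (n + 1) σ c) := by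
  obtain ⟨f, hf⟩ := K.ex (n + 1) c
  rw [act_apply, act_apply]
  exact K.actFun_eq σ (K.red hf) (K.red (K.actFun_spec σ hf))

theorem act_cont (n : ℕ) :
    ∃ L : IntermediateField ℚ (AlgebraicClosure ℚ), FiniteDimensional ℚ L ∧
      ∀ σ : GQ, (∀ x ∈ L, σ x = x) → K.act n σ = 1 := by
  have := K.finite_hom n
  choose f hf using K.ex n
  choose L hL hLf using fun c : K.A →+ ZMod (p ^ n) => K.cont (f c)
  refine ⟨⨆ c, L c, inferInstance, fun σ hσ => ?_⟩
  ext c : 1
  rw [act_apply]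
  refine K.actFun_eq σ (hf c) ?_
  rw [hLf c σ fun x hx => hσ x (le_iSup L c hx)]
  exact hf c

/-- `σ` fixes every Kummer class of exponent `p ^ n` ⇒ it acts trivially on characters. -/
theorem act_eq_one (n : ℕ) (σ : GQ)
    (h : ∀ {f : F} {c : K.A →+ ZMod (p ^ n)}, K.R n f c → ∃ g : F, gal σ f = f * g ^ (p ^ n)) :
    K.act n σ = 1 := by
  ext c : 1
  rw [act_apply]
  obtain ⟨f, hf⟩ := K.ex n c
  obtain ⟨g, hg⟩ := h hf
  refine K.actFun_eq σ hf ?_
  rw [hg]
  refine K.rel_mul_pow hf ?_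
  rintro rfl
  rw [zero_pow (pow_ne_zero n hp.out.ne_zero), mul_zero] at hg
  exact (map_ne_zero_iff _ (gal σ).injective).2 (K.ne_zero hf) hg

/-- An operator pair `(H, ω)` (`R n f c → R n (H f) (c ∘ ω)`) commuting with `σ` on Kummer
functions: the action of `σ` on characters commutes with `c ↦ c ∘ ω`. -/
theorem act_comp (n : ℕ) (σ : GQ) (H : F → F) (ω : K.A →+ K.A)
    (hH : ∀ {f : F} {c : K.A →+ ZMod (p ^ n)}, K.R n f c → K.R n (H f) (c.comp ω))
    (hσ : ∀ {f : F} {c : K.A →+ ZMod (p ^ n)}, K.R n f c → H (gal σ f) = gal σ (H f))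
    (c : K.A →+ ZMod (p ^ n)) :
    K.act n σ (c.comp ω) = (K.act n σ c).comp ω := by
  obtain ⟨f, hf⟩ := K.ex n c
  rw [act_apply, act_apply]
  refine K.actFun_eq σ (hH hf) ?_
  rw [← hσ hf]
  exact hH (K.actFun_spec σ hf)

/-- The quadratic relation with a diamond term: if `σ² f · (D f)^ℓ = H (σ f) · g^(p^n)` on
Kummer functions, with `H ↔ ω` and `D ↔ θ`, then
`σ² c - (σ c) ∘ ω + ℓ • (c ∘ θ) = 0` on characters. -/
theorem act_es (n : ℕ) (σ : GQ) (ℓ : ℕ) (H D : F → F) (ω θ : K.A →+ K.A)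
    (hH : ∀ {f : F} {c : K.A →+ ZMod (p ^ n)}, K.R n f c → K.R n (H f) (c.comp ω))
    (hD : ∀ {f : F} {c : K.A →+ ZMod (p ^ n)}, K.R n f c → K.R n (D f) (c.comp θ))
    (h : ∀ {f : F} {c : K.A →+ ZMod (p ^ n)}, K.R n f c →
      ∃ g : F, gal σ (gal σ f) * D f ^ ℓ = H (gal σ f) * g ^ (p ^ n))
    (c : K.A →+ ZMod (p ^ n)) :
    K.act n σ (K.act n σ c) - (K.act n σ c).comp ω + ℓ • c.comp θ = 0 := by
  obtain ⟨f, hf⟩ := K.ex n c
  obtain ⟨g, hg⟩ := h hf
  have h1 := K.actFun_spec σ hf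
  have h2 := K.actFun_spec σ h1
  have h3 := hH h1
  have hL := K.mul h2 (K.rel_pow_nat (hD hf) ℓ)
  have hg0 : g ≠ 0 := K.ne_zero_of_eq_mul_pow hL hg
  rw [hg] at hL
  have key := K.uniq hL (K.rel_mul_pow h3 hg0)
  rw [act_apply, act_apply, sub_add_eq_add_sub, key, sub_self]

/-! ### The limit -/

/-- **Abstract Kummer pairing ⇒ `p`-adic limit data in coordinates.** -/
theorem exists_spec :
    ∃ (r : ℕ) (a : Fin r → K.A) (e : Fin r → (K.A →+ ℤ)),
      (∀ i j, e j (a i) = if i = j then 1 else 0) ∧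
      (∀ (M : Type) [AddCommGroup M] [Module.IsTorsionFree ℤ M] (c : K.A →+ M) (x : K.A),
         c x = ∑ i, e i x • c (a i)) ∧
      ∃ ρ : GQ →* Matrix (Fin r) (Fin r) ℤ_[p],
        -- continuity
        (∀ n : ℕ, ∃ L : IntermediateField ℚ (AlgebraicClosure ℚ), FiniteDimensional ℚ L ∧
          ∀ σ : GQ, (∀ x ∈ L, σ x = x) →
            ∀ i j, (ρ σ - 1) i j ∈ Ideal.span {(p : ℤ_[p]) ^ n}) ∧
        -- triviality
        (∀ σ : GQ, (∀ (n : ℕ) {f : F} {c : K.A →+ ZMod (p ^ n)}, K.R n f c →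
            ∃ g : F, gal σ f = f * g ^ (p ^ n)) → ρ σ = 1) ∧
        -- commutation with operator pairs
        (∀ (σ : GQ) (H : F → F) (ω : K.A →+ K.A),
          (∀ (n : ℕ) {f : F} {c : K.A →+ ZMod (p ^ n)}, K.R n f c → K.R n (H f) (c.comp ω)) →
          (∀ (n : ℕ) {f : F} {c : K.A →+ ZMod (p ^ n)}, K.R n f c →
            H (gal σ f) = gal σ (H f)) →
            Commute (ρ σ) ((Limit.emat a e ω).map (Int.castRingHom ℤ_[p]))) ∧
        -- the quadratic relation with a diamond term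
        (∀ (σ : GQ) (ℓ : ℕ) (H D : F → F) (ω θ : K.A →+ K.A),
          (∀ (n : ℕ) {f : F} {c : K.A →+ ZMod (p ^ n)}, K.R n f c → K.R n (H f) (c.comp ω)) →
          (∀ (n : ℕ) {f : F} {c : K.A →+ ZMod (p ^ n)}, K.R n f c → K.R n (D f) (c.comp θ)) →
          (∀ (n : ℕ) {f : F} {c : K.A →+ ZMod (p ^ n)}, K.R n f c →
            ∃ g : F, gal σ (gal σ f) * D f ^ ℓ = H (gal σ f) * g ^ (p ^ n)) →
            ρ σ * ρ σ - (Limit.emat a e ω).map (Int.castRingHom ℤ_[p]) * ρ σ
              + (ℓ : ℤ_[p]) • (Limit.emat a e θ).map (Int.castRingHom ℤ_[p]) = 0) := by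
  obtain ⟨r, a, e, he, hexp, ρ, -, hcont, htriv, hcomm, hes⟩ :=
    Limit.exists_limit_spec K.A K.fg K.act K.act_red K.act_cont
  refine ⟨r, a, e, he, hexp, ρ, hcont, ?_, ?_, ?_⟩
  · intro σ h
    exact htriv σ fun n => K.act_eq_one n σ (h n)
  · intro σ H ω hH hσ
    exact hcomm σ ω fun n c => K.act_comp n σ H ω (hH n) (hσ n) c
  · intro σ ℓ H D ω θ hH hD h
    exact hes σ ℓ ω θ fun n c => K.act_es n σ ℓ H D ω θ (hH n) (hD n) (h n) c

end KummerPairing

end Fermat.Agent.S48.G1
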