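/-
PROGRAM DS (S48) / G1 (helper78): IMPOSING RELATIONS on the character group of a Kummer pairing.

In Program E the commutation of the Betti Hecke correspondences on `Hom(Γ₀(N), ℤ)` was obtained
through the Eichler–Shimura ISOMORPHISM (surjectivity of the period pair, i.e. the dimension
formula).  For `Γ₁(M)` only an INJECTIVE period map is available.  This file shows that no more
is needed: any relation between endomorphisms of `A` which are compatible with the Galois action
on characters can simply be IMPOSED, by passing to the quotient `A / C`.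

* `CommQuot.relSubgroup gens rel` : the smallest subgroup `C` of `A` containing all `u a - v a`
  (`(u, v) ∈ rel`) and stable under every `u ∈ gens`.
* `KummerPairing.IsCompat u` : `σ (c ∘ u) = (σ c) ∘ u` on characters at all levels
  (`isCompat_of_pair`: true for every operator pair commuting with the Galois action).
* `KummerPairing.quot K gens rel hgens hrel` : the Kummer pairing with character group `A / C`
  and `R' n f c' ↔ R n f (c' ∘ π)`.
* `CommQuot.desc gens rel u : A / C →+ A / C` : the endomorphism induced by a `C`-stable `u`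
  (`desc_mk`, `desc_id`, `desc_comp`, `desc_eq_of_rel`, `desc_comm`).
* `KummerPairing.quot_pair` : operator pairs `(H, u)` of `K` are operator pairs `(H, desc u)`
  of the quotient pairing.
* `CommQuot.periodQuot`, `periodQuot_mk`, `periodQuot_add`, `periodQuot_injective`,
  `periodQuot_adj` :
  a period map `P : V → (A → ℂ)` whose adjoint operators satisfy the relations descends to
  `A / C`, stays injective, and keeps its adjointness.
-/
import Mathlib
import Fermat.Agent.S48.G1.Pairing

set_option autoImplicit false

namespace Fermat.Agent.S48.G1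

open Fermat.Agent.S30 Fermat.Agent.S30.BettiLimit

/-! ### The relation subgroup and the quotient -/

namespace CommQuot

section RelSubgroup

variable {A : Type} [AddCommGroup A] (gens : Set (A →+ A)) (rel : Set ((A →+ A) × (A →+ A)))

/-- The smallest subgroup of `A` which contains `u a - v a` for every relation `(u, v) ∈ rel`
and is stable under every endomorphism of `gens`. -/
def relSubgroup : AddSubgroup A :=
  sInf {S : AddSubgroup A | (∀ uv ∈ rel, ∀ a : A, uv.1 a - uv.2 a ∈ S) ∧
    ∀ u ∈ gens, ∀ y ∈ S, u y ∈ S}

variable {gens rel}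

theorem rel_mem_relSubgroup {uv : (A →+ A) × (A →+ A)} (h : uv ∈ rel) (a : A) :
    uv.1 a - uv.2 a ∈ relSubgroup gens rel := by
  rw [relSubgroup, AddSubgroup.mem_sInf]
  intro S hS
  exact hS.1 uv h a

theorem gen_mem_relSubgroup {u : A →+ A} (h : u ∈ gens) {y : A}
    (hy : y ∈ relSubgroup gens rel) : u y ∈ relSubgroup gens rel := by
  rw [relSubgroup, AddSubgroup.mem_sInf] at hy ⊢
  intro S hS
  exact hS.2 u h y (hy S hS)

theorem relSubgroup_le {S : AddSubgroup A}
    (h1 : ∀ uv ∈ rel, ∀ a : A, uv.1 a - uv.2 a ∈ S) (h2 : ∀ u ∈ gens, ∀ y ∈ S, u y ∈ S) :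
    relSubgroup gens rel ≤ S :=
  sInf_le ⟨h1, h2⟩

variable (gens rel)

/-- `u` preserves the relation subgroup. -/
def Stab (u : A →+ A) : Prop := ∀ y ∈ relSubgroup gens rel, u y ∈ relSubgroup gens rel

variable {gens rel}

theorem stab_of_mem {u : A →+ A} (h : u ∈ gens) : Stab gens rel u := fun _ hy =>
  gen_mem_relSubgroup h hy

theorem stab_id : Stab gens rel (AddMonoidHom.id A) := fun _ hy => hy

theorem Stab.comp {u v : A →+ A} (hu : Stab gens rel u) (hv : Stab gens rel v) :
    Stab gens rel (u.comp v) := fun y hy => hu _ (hv y hy)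

variable (gens rel)

/-- The projection `A → A / C`. -/
def quotMk : A →+ A ⧸ relSubgroup gens rel := QuotientAddGroup.mk' (relSubgroup gens rel)

theorem quotMk_surjective : Function.Surjective (quotMk gens rel) :=
  QuotientAddGroup.mk'_surjective _

variable {gens rel}

theorem quotMk_eq_zero_iff {a : A} : quotMk gens rel a = 0 ↔ a ∈ relSubgroup gens rel :=
  QuotientAddGroup.eq_zero_iff a

theorem quotMk_rel {uv : (A →+ A) × (A →+ A)} (h : uv ∈ rel) (a : A) :
    quotMk gens rel (uv.1 a) = quotMk gens rel (uv.2 a) := by
  rw [← sub_eq_zero, ← map_sub, quotMk_eq_zero_iff]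
  exact rel_mem_relSubgroup h a

/-- Two homomorphisms on the quotient which agree after the projection are equal. -/
theorem quot_hom_ext {B : Type*} [AddZeroClass B] {c d : A ⧸ relSubgroup gens rel →+ B}
    (h : c.comp (quotMk gens rel) = d.comp (quotMk gens rel)) : c = d := by
  refine AddMonoidHom.ext fun x => ?_
  obtain ⟨a, rfl⟩ := quotMk_surjective gens rel x
  exact DFunLike.congr_fun h a

variable (gens rel)

open Classical in
/-- The endomorphism of `A / C` induced by `u` (junk value `0` if `u` does not preserve `C`). -/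
noncomputable def desc (u : A →+ A) : A ⧸ relSubgroup gens rel →+ A ⧸ relSubgroup gens rel :=
  if h : Stab gens rel u then
    QuotientAddGroup.map (relSubgroup gens rel) (relSubgroup gens rel) u h
  else 0

variable {gens rel}

theorem desc_mk {u : A →+ A} (hu : Stab gens rel u) (a : A) :
    desc gens rel u (quotMk gens rel a) = quotMk gens rel (u a) := by
  rw [desc, dif_pos hu]
  rfl

theorem desc_comp_quotMk {u : A →+ A} (hu : Stab gens rel u) :
    (desc gens rel u).comp (quotMk gens rel) = (quotMk gens rel).comp u :=
  AddMonoidHom.ext fun a => desc_mk hu a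

theorem desc_id : desc gens rel (AddMonoidHom.id A) = AddMonoidHom.id _ :=
  quot_hom_ext (AddMonoidHom.ext fun a => desc_mk stab_id a)

theorem desc_comp {u v : A →+ A} (hu : Stab gens rel u) (hv : Stab gens rel v) :
    desc gens rel (u.comp v) = (desc gens rel u).comp (desc gens rel v) := by
  refine quot_hom_ext (AddMonoidHom.ext fun a => ?_)
  rw [AddMonoidHom.comp_apply, AddMonoidHom.comp_apply, AddMonoidHom.comp_apply,
    desc_mk (hu.comp hv), desc_mk hv, desc_mk hu]
  rfl

/-- A relation of `rel` holds on the quotient. -/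
theorem desc_eq_of_rel {u v : A →+ A} (h : (u, v) ∈ rel) (hu : Stab gens rel u)
    (hv : Stab gens rel v) : desc gens rel u = desc gens rel v := by
  refine quot_hom_ext (AddMonoidHom.ext fun a => ?_)
  rw [AddMonoidHom.comp_apply, AddMonoidHom.comp_apply, desc_mk hu, desc_mk hv]
  exact quotMk_rel h a

/-- If the commutation relation of `u`, `v` is in `rel`, the induced endomorphisms commute. -/
theorem desc_comm {u v : A →+ A} (h : (u.comp v, v.comp u) ∈ rel) (hu : Stab gens rel u)
    (hv : Stab gens rel v) :
    (desc gens rel u).comp (desc gens rel v) = (desc gens rel v).comp (desc gens rel u) := by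
  rw [← desc_comp hu hv, ← desc_comp hv hu]
  exact desc_eq_of_rel h (hu.comp hv) (hv.comp hu)

/-- The form of a relation which `Limit.emat_congr` consumes: equality after composing with any
character of the quotient. -/
theorem comp_desc_eq_of_rel {B : Type*} [AddZeroClass B] {u v : A →+ A} (h : (u, v) ∈ rel)
    (hu : Stab gens rel u) (hv : Stab gens rel v) (c : A ⧸ relSubgroup gens rel →+ B) :
    c.comp (desc gens rel u) = c.comp (desc gens rel v) := by
  rw [desc_eq_of_rel h hu hv]

/-- The form of a commutation relation which `Limit.emat_commute` consumes. -/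
theorem comp_desc_comm {B : Type*} [AddZeroClass B] {u v : A →+ A}
    (h : (u.comp v, v.comp u) ∈ rel) (hu : Stab gens rel u) (hv : Stab gens rel v)
    (c : A ⧸ relSubgroup gens rel →+ B) :
    (c.comp (desc gens rel u)).comp (desc gens rel v) =
      (c.comp (desc gens rel v)).comp (desc gens rel u) := by
  rw [AddMonoidHom.comp_assoc, AddMonoidHom.comp_assoc, desc_comm h hu hv]

theorem fg_quot (hA : AddGroup.FG A) : AddGroup.FG (A ⧸ relSubgroup gens rel) := by
  have := hA
  exact AddGroup.fg_of_surjective (quotMk_surjective gens rel)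

end RelSubgroup

end CommQuot

/-! ### The quotient Kummer pairing -/

namespace KummerPairing

open CommQuot

variable {p : ℕ} [hp : Fact p.Prime] {F : Type} [Field F] {gal : GQ → F ≃+* F}
  (K : KummerPairing p F gal)

/-- `u` is compatible with the Galois action on characters: `σ (c ∘ u) = (σ c) ∘ u`. -/
def IsCompat (u : K.A →+ K.A) : Prop :=
  ∀ (n : ℕ) (σ : GQ) (c : K.A →+ ZMod (p ^ n)), K.act n σ (c.comp u) = (K.act n σ c).comp u

/-- An operator pair `(H, u)` commuting with the Galois action on Kummer functions gives a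
compatible endomorphism. -/
theorem isCompat_of_pair (H : F → F) (u : K.A →+ K.A)
    (hH : ∀ (n : ℕ) {f : F} {c : K.A →+ ZMod (p ^ n)}, K.R n f c → K.R n (H f) (c.comp u))
    (hσ : ∀ (σ : GQ) (n : ℕ) {f : F} {c : K.A →+ ZMod (p ^ n)}, K.R n f c →
      H (gal σ f) = gal σ (H f)) : K.IsCompat u := fun n σ c =>
  K.act_comp n σ H u (hH n) (hσ σ n) c

theorem isCompat_id : K.IsCompat (AddMonoidHom.id K.A) := fun _ _ _ => rfl

variable {K} in
theorem IsCompat.comp {u v : K.A →+ K.A} (hu : K.IsCompat u) (hv : K.IsCompat v) :
    K.IsCompat (u.comp v) := by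
  intro n σ c
  rw [← AddMonoidHom.comp_assoc, hv n σ (c.comp u), hu n σ c, AddMonoidHom.comp_assoc]

variable (gens : Set (K.A →+ K.A)) (rel : Set ((K.A →+ K.A) × (K.A →+ K.A)))

/-- The characters of `A / C`, pulled back to `A`, are stable under the Galois action. -/
theorem relSubgroup_le_ker_act (hgens : ∀ u ∈ gens, K.IsCompat u)
    (hrel : ∀ uv ∈ rel, K.IsCompat uv.1 ∧ K.IsCompat uv.2) (n : ℕ) (σ : GQ)
    (c : K.A ⧸ relSubgroup gens rel →+ ZMod (p ^ n)) :
    relSubgroup gens rel ≤ (K.act n σ (c.comp (quotMk gens rel))).ker := by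
  have key : relSubgroup gens rel ≤
      ⨅ c : K.A ⧸ relSubgroup gens rel →+ ZMod (p ^ n),
        (K.act n σ (c.comp (quotMk gens rel))).ker := by
    refine relSubgroup_le ?_ ?_
    · intro uv huv a
      rw [AddSubgroup.mem_iInf]
      intro c
      rw [AddMonoidHom.mem_ker, map_sub, sub_eq_zero]
      have h1 : (c.comp (quotMk gens rel)).comp uv.1 = (c.comp (quotMk gens rel)).comp uv.2 := by
        refine AddMonoidHom.ext fun x => ?_
        show c (quotMk gens rel (uv.1 x)) = c (quotMk gens rel (uv.2 x))
        rw [quotMk_rel huv x]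
      have h2 := (hrel uv huv).1 n σ (c.comp (quotMk gens rel))
      have h3 := (hrel uv huv).2 n σ (c.comp (quotMk gens rel))
      rw [h1] at h2
      have h4 := h2.symm.trans h3
      exact DFunLike.congr_fun h4 a
    · intro u hu y hy
      rw [AddSubgroup.mem_iInf] at hy ⊢
      intro c
      rw [AddMonoidHom.mem_ker]
      have h1 : (c.comp (quotMk gens rel)).comp u =
          (c.comp (desc gens rel u)).comp (quotMk gens rel) := by
        rw [AddMonoidHom.comp_assoc, AddMonoidHom.comp_assoc, desc_comp_quotMk (stab_of_mem hu)]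
      have h2 := hgens u hu n σ (c.comp (quotMk gens rel))
      rw [h1] at h2
      have h3 := hy (c.comp (desc gens rel u))
      rw [AddMonoidHom.mem_ker, h2] at h3
      exact h3
  exact key.trans (iInf_le _ c)

/-- **The quotient Kummer pairing**: character group `A / C`, and `f` has the character `c'`
iff it has the character `c' ∘ π` for `K`. -/
noncomputable def quot (hgens : ∀ u ∈ gens, K.IsCompat u)
    (hrel : ∀ uv ∈ rel, K.IsCompat uv.1 ∧ K.IsCompat uv.2) : KummerPairing p F gal where
  A := K.A ⧸ relSubgroup gens rel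
  fg := fg_quot K.fg
  R n f c := K.R n f (c.comp (quotMk gens rel))
  ne_zero h := K.ne_zero h
  ex n c := K.ex n (c.comp (quotMk gens rel))
  mul h h' := by
    have := K.mul h h'
    rwa [← AddMonoidHom.add_comp] at this
  uniq h h' := quot_hom_ext (K.uniq h h')
  inj h := by
    rw [AddMonoidHom.zero_comp] at h
    exact K.inj h
  pow n g hg := by
    rw [AddMonoidHom.zero_comp]
    exact K.pow n hg
  red h := K.red h
  gal_one := K.gal_one
  gal_mul := K.gal_mul
  stable σ n f c h := by
    refine ⟨QuotientAddGroup.lift (relSubgroup gens rel) (K.act n σ (c.comp (quotMk gens rel)))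
      (K.relSubgroup_le_ker_act gens rel hgens hrel n σ c), ?_⟩
    have h1 := K.actFun_spec σ h
    have h2 : (QuotientAddGroup.lift (relSubgroup gens rel)
        (K.act n σ (c.comp (quotMk gens rel)))
        (K.relSubgroup_le_ker_act gens rel hgens hrel n σ c)).comp (quotMk gens rel) =
          K.actFun σ n (c.comp (quotMk gens rel)) := by
      refine AddMonoidHom.ext fun x => ?_
      rfl
    rw [h2]
    exact h1
  cont := K.cont

variable {gens rel} (hgens : ∀ u ∈ gens, K.IsCompat u)
  (hrel : ∀ uv ∈ rel, K.IsCompat uv.1 ∧ K.IsCompat uv.2)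

theorem quot_rel_iff {n : ℕ} {f : F} {c : K.A ⧸ relSubgroup gens rel →+ ZMod (p ^ n)} :
    (K.quot gens rel hgens hrel).R n f c ↔ K.R n f (c.comp (quotMk gens rel)) := Iff.rfl

/-- Operator pairs of `K` (with `C`-stable endomorphism) are operator pairs of the quotient. -/
theorem quot_pair (H : F → F) {u : K.A →+ K.A} (hu : Stab gens rel u) {n : ℕ}
    (hH : ∀ {f : F} {c : K.A →+ ZMod (p ^ n)}, K.R n f c → K.R n (H f) (c.comp u))
    {f : F} {c : K.A ⧸ relSubgroup gens rel →+ ZMod (p ^ n)}
    (h : (K.quot gens rel hgens hrel).R n f c) :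
    (K.quot gens rel hgens hrel).R n (H f) (c.comp (desc gens rel u)) := by
  show K.R n (H f) ((c.comp (desc gens rel u)).comp (quotMk gens rel))
  rw [AddMonoidHom.comp_assoc, desc_comp_quotMk hu, ← AddMonoidHom.comp_assoc]
  exact hH h

end KummerPairing

/-! ### The period map on the quotient -/

namespace CommQuot

section Period

variable {A : Type} [AddCommGroup A] {gens : Set (A →+ A)} {rel : Set ((A →+ A) × (A →+ A))}
  {V : Type*} [AddCommGroup V] [Module ℂ V] (P : V →ₗ[ℂ] (A → ℂ))
  (hadd : ∀ f a b, P f (a + b) = P f a + P f b)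
  (hgen : ∀ u ∈ gens, ∃ T : V → V, ∀ f x, P (T f) x = P f (u x))
  (hrelP : ∀ uv ∈ rel, ∀ f x, P f (uv.1 x) = P f (uv.2 x))

include hadd hgen hrelP in
/-- Every period kills the relation subgroup. -/
theorem period_relSubgroup (f : V) {y : A} (hy : y ∈ relSubgroup gens rel) : P f y = 0 := by
  have key : relSubgroup gens rel ≤ ⨅ f : V, (AddMonoidHom.mk' (P f) (hadd f)).ker := by
    refine relSubgroup_le ?_ ?_
    · intro uv huv a
      rw [AddSubgroup.mem_iInf]
      intro f
      rw [AddMonoidHom.mem_ker, map_sub, sub_eq_zero]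
      exact hrelP uv huv f a
    · intro u hu y hy
      rw [AddSubgroup.mem_iInf] at hy ⊢
      intro f
      obtain ⟨T, hT⟩ := hgen u hu
      have := hy (T f)
      rw [AddMonoidHom.mem_ker] at this ⊢
      show P f (u y) = 0
      rw [← hT f y]
      exact this
  have := key hy
  rw [AddSubgroup.mem_iInf] at this
  exact this f

/-- The period map on the quotient `A / C`. -/
noncomputable def periodQuot : V →ₗ[ℂ] ((A ⧸ relSubgroup gens rel) → ℂ) where
  toFun f := fun q => QuotientAddGroup.lift (relSubgroup gens rel)
    (AddMonoidHom.mk' (P f) (hadd f))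
    (fun _ hy => period_relSubgroup P hadd hgen hrelP f hy) q
  map_add' f g := by
    funext q
    obtain ⟨a, rfl⟩ := quotMk_surjective gens rel q
    show P (f + g) a = P f a + P g a
    rw [map_add]
    rfl
  map_smul' c f := by
    funext q
    obtain ⟨a, rfl⟩ := quotMk_surjective gens rel q
    show P (c • f) a = c • P f a
    rw [map_smul]
    rfl

theorem periodQuot_mk (f : V) (a : A) :
    periodQuot P hadd hgen hrelP f (quotMk gens rel a) = P f a := rfl

theorem periodQuot_add (f : V) (x y : A ⧸ relSubgroup gens rel) :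
    periodQuot P hadd hgen hrelP f (x + y) =
      periodQuot P hadd hgen hrelP f x + periodQuot P hadd hgen hrelP f y :=
  map_add (QuotientAddGroup.lift (relSubgroup gens rel) (AddMonoidHom.mk' (P f) (hadd f))
    (fun _ hy => period_relSubgroup P hadd hgen hrelP f hy)) x y

theorem periodQuot_injective (hinj : Function.Injective P) :
    Function.Injective (periodQuot P hadd hgen hrelP) := by
  intro f g hfg
  apply hinj
  funext a
  have := congrFun hfg (quotMk gens rel a)
  rwa [periodQuot_mk, periodQuot_mk] at this

/-- Adjointness descends: if `T` is adjoint to the `C`-stable endomorphism `u`, it is adjoint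
to `desc u` for the period map of the quotient. -/
theorem periodQuot_adj {T : V → V} {u : A →+ A} (hu : Stab gens rel u)
    (hT : ∀ f x, P (T f) x = P f (u x)) (f : V) (x : A ⧸ relSubgroup gens rel) :
    periodQuot P hadd hgen hrelP (T f) x = periodQuot P hadd hgen hrelP f (desc gens rel u x) := by
  obtain ⟨a, rfl⟩ := quotMk_surjective gens rel x
  rw [desc_mk hu, periodQuot_mk, periodQuot_mk, hT]

end Period

end CommQuot

end Fermat.Agent.S48.G1
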