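/-
PROGRAM DS (S48) / G1 (helper78): ABSTRACT PRODUCER EXIT through the relation quotient.

`nonempty_es1Data` : an abstract Kummer pairing `K` over a field `F` with a `G_ℚ`-action, with
operator pairs `(heckeF ℓ, tau ℓ)` (relevant primes) and `(diaF u, dia u)` (`u ∈ (ℤ/M)ˣ`)
commuting with the Galois action on Kummer functions, the statements (unr) and (ES with
diamond) on Kummer functions, and an injective additive period map `P : V → (K.A → ℂ)` for which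
`T ℓ`, `Dm u` are adjoint to `tau ℓ`, `dia u`, give `Nonempty (ES1Data M p T Dm)` —
PROVIDED the operators `T ℓ`, `Dm u` ON `V` satisfy the relations
`T ℓ T ℓ' = T ℓ' T ℓ`, `T ℓ Dm u = Dm u T ℓ`, `Dm (u v) = Dm u Dm v`, `Dm 1 = 1`, `Dm (-1) = 1`.

NO relation between the endomorphisms `tau ℓ`, `dia u` of `K.A` is assumed: the relations are
imposed on the character group by `KummerPairing.quot` (`G1/CommQuot.lean`).
-/
import Mathlib
import Fermat.Agent.S48.G1.Contract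
import Fermat.Agent.S48.G1.CommQuot

set_option autoImplicit false

namespace Fermat.Agent.S48.G1.ToES1Quot

open Fermat.Agent.S30 Fermat.Agent.S30.BettiLimit Fermat.Agent.S48.G1.CommQuot
  Fermat.Agent.S48.G1.Limit

/-- The relevant primes for `(M, p)`. -/
def Good (M p ℓ : ℕ) : Prop := ℓ.Prime ∧ ¬ ℓ ∣ M ∧ ℓ ≠ p

section Rel

variable (M p : ℕ) {A : Type} [AddCommGroup A] (tau : ℕ → A →+ A) (dia : (ZMod M)ˣ → A →+ A)

/-- The generators: Hecke correspondences at relevant primes and all diamonds. -/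
def gens : Set (A →+ A) := {w | (∃ ℓ, Good M p ℓ ∧ w = tau ℓ) ∨ ∃ u, w = dia u}

/-- The relations demanded by `ES1Data`. -/
def rel : Set ((A →+ A) × (A →+ A)) :=
  {uv | (∃ ℓ ℓ', Good M p ℓ ∧ Good M p ℓ' ∧
          uv = ((tau ℓ).comp (tau ℓ'), (tau ℓ').comp (tau ℓ))) ∨
        (∃ ℓ u, Good M p ℓ ∧ uv = ((tau ℓ).comp (dia u), (dia u).comp (tau ℓ))) ∨
        (∃ u v, uv = ((dia v).comp (dia u), dia (u * v))) ∨
        uv = (dia 1, AddMonoidHom.id A) ∨ uv = (dia (-1), AddMonoidHom.id A)}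

variable {M p tau dia}

theorem tau_mem_gens {ℓ : ℕ} (hℓ : Good M p ℓ) : tau ℓ ∈ gens M p tau dia :=
  Or.inl ⟨ℓ, hℓ, rfl⟩

theorem dia_mem_gens (u : (ZMod M)ˣ) : dia u ∈ gens M p tau dia := Or.inr ⟨u, rfl⟩

theorem stab_tau {ℓ : ℕ} (hℓ : Good M p ℓ) :
    Stab (gens M p tau dia) (rel M p tau dia) (tau ℓ) := stab_of_mem (tau_mem_gens hℓ)

theorem stab_dia (u : (ZMod M)ˣ) :
    Stab (gens M p tau dia) (rel M p tau dia) (dia u) := stab_of_mem (dia_mem_gens u)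

theorem rel_tau_tau {ℓ ℓ' : ℕ} (hℓ : Good M p ℓ) (hℓ' : Good M p ℓ') :
    ((tau ℓ).comp (tau ℓ'), (tau ℓ').comp (tau ℓ)) ∈ rel M p tau dia :=
  Or.inl ⟨ℓ, ℓ', hℓ, hℓ', rfl⟩

theorem rel_tau_dia {ℓ : ℕ} (hℓ : Good M p ℓ) (u : (ZMod M)ˣ) :
    ((tau ℓ).comp (dia u), (dia u).comp (tau ℓ)) ∈ rel M p tau dia :=
  Or.inr (Or.inl ⟨ℓ, u, hℓ, rfl⟩)

theorem rel_dia_mul (u v : (ZMod M)ˣ) :
    ((dia v).comp (dia u), dia (u * v)) ∈ rel M p tau dia :=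
  Or.inr (Or.inr (Or.inl ⟨u, v, rfl⟩))

theorem rel_dia_one : (dia 1, AddMonoidHom.id A) ∈ rel M p tau dia :=
  Or.inr (Or.inr (Or.inr (Or.inl rfl)))

theorem rel_dia_neg_one : (dia (-1), AddMonoidHom.id A) ∈ rel M p tau dia :=
  Or.inr (Or.inr (Or.inr (Or.inr rfl)))

end Rel

section Main

variable {M p : ℕ} [NeZero M] [hp : Fact p.Prime] {F : Type} [Field F] {gal : GQ → F ≃+* F}

/-- **Abstract producer exit.**  See the file header. -/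
theorem nonempty_es1Data {V : Type} [AddCommGroup V] [Module ℂ V]
    (T : ℕ → Module.End ℂ V) (Dm : (ZMod M)ˣ → Module.End ℂ V)
    (K : KummerPairing p F gal)
    (heckeF : ℕ → F → F) (diaF : (ZMod M)ˣ → F → F)
    (tau : ℕ → K.A →+ K.A) (dia : (ZMod M)ˣ → K.A →+ K.A)
    -- operator pairs
    (hecke : ∀ ℓ, Good M p ℓ → ∀ (n : ℕ) {f : F} {c : K.A →+ ZMod (p ^ n)},
      K.R n f c → K.R n (heckeF ℓ f) (c.comp (tau ℓ)))
    (diam : ∀ (u : (ZMod M)ˣ) (n : ℕ) {f : F} {c : K.A →+ ZMod (p ^ n)},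
      K.R n f c → K.R n (diaF u f) (c.comp (dia u)))
    (hecke_gal : ∀ ℓ, Good M p ℓ → ∀ (σ : GQ) (n : ℕ) {f : F} {c : K.A →+ ZMod (p ^ n)},
      K.R n f c → heckeF ℓ (gal σ f) = gal σ (heckeF ℓ f))
    (dia_gal : ∀ (u : (ZMod M)ˣ) (σ : GQ) (n : ℕ) {f : F} {c : K.A →+ ZMod (p ^ n)},
      K.R n f c → diaF u (gal σ f) = gal σ (diaF u f))
    -- (unr) on Kummer functions
    (unr : ∀ q : ℕ, q.Prime → ¬ q ∣ M → q ≠ p →
      ∀ P : ValuationSubring (AlgebraicClosure ℚ), P.LiesOverPrime q →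
        ∀ σ ∈ P.inertiaSubgroupIn ℚ, ∀ (n : ℕ) {f : F} {c : K.A →+ ZMod (p ^ n)},
          K.R n f c → ∃ g : F, gal σ f = f * g ^ (p ^ n))
    -- (ES) with diamond on Kummer functions
    (es : ∀ ℓ : ℕ, Good M p ℓ → ∀ u : (ZMod M)ˣ, (u : ZMod M) = (ℓ : ZMod M) →
      ∀ B : ValuationSubring (AlgebraicClosure ℚ), B.LiesOverPrime ℓ →
        ∀ σ : GQ, B.IsFrobeniusAt σ ℓ → ∀ (n : ℕ) {f : F} {c : K.A →+ ZMod (p ^ n)},
          K.R n f c → ∃ g : F,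
            gal σ (gal σ f) * diaF u f ^ ℓ = heckeF ℓ (gal σ f) * g ^ (p ^ n))
    -- the period map and its adjointness
    (P : V →ₗ[ℂ] (K.A → ℂ)) (hadd : ∀ f a b, P f (a + b) = P f a + P f b)
    (hinj : Function.Injective P)
    (P_T : ∀ ℓ, Good M p ℓ → ∀ f x, P (T ℓ f) x = P f (tau ℓ x))
    (P_D : ∀ (u : (ZMod M)ˣ) f x, P (Dm u f) x = P f (dia u x))
    -- the relations on `V`
    (TT : ∀ ℓ ℓ', Good M p ℓ → Good M p ℓ' → ∀ f, T ℓ (T ℓ' f) = T ℓ' (T ℓ f))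
    (TD : ∀ ℓ (u : (ZMod M)ˣ), Good M p ℓ → ∀ f, T ℓ (Dm u f) = Dm u (T ℓ f))
    (DD : ∀ (u v : (ZMod M)ˣ) f, Dm (u * v) f = Dm u (Dm v f))
    (D1 : ∀ f, Dm 1 f = f) (Dneg : ∀ f, Dm (-1) f = f) :
    Nonempty (ES1Data M p T Dm) := by
  classical
  -- compatibility of the generators and of the relations
  have ctau : ∀ ℓ, Good M p ℓ → K.IsCompat (tau ℓ) := fun ℓ hℓ =>
    K.isCompat_of_pair (heckeF ℓ) (tau ℓ) (hecke ℓ hℓ) (hecke_gal ℓ hℓ)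
  have cdia : ∀ u : (ZMod M)ˣ, K.IsCompat (dia u) := fun u =>
    K.isCompat_of_pair (diaF u) (dia u) (diam u) (dia_gal u)
  have hgens : ∀ w ∈ gens M p tau dia, K.IsCompat w := by
    rintro w (⟨ℓ, hℓ, rfl⟩ | ⟨u, rfl⟩)
    · exact ctau ℓ hℓ
    · exact cdia u
  have hrel : ∀ uv ∈ rel M p tau dia, K.IsCompat uv.1 ∧ K.IsCompat uv.2 := by
    rintro uv (⟨ℓ, ℓ', hℓ, hℓ', rfl⟩ | ⟨ℓ, u, hℓ, rfl⟩ | ⟨u, v, rfl⟩ | rfl | rfl)
    · exact ⟨(ctau ℓ hℓ).comp (ctau ℓ' hℓ'), (ctau ℓ' hℓ').comp (ctau ℓ hℓ)⟩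
    · exact ⟨(ctau ℓ hℓ).comp (cdia u), (cdia u).comp (ctau ℓ hℓ)⟩
    · exact ⟨(cdia v).comp (cdia u), cdia (u * v)⟩
    · exact ⟨cdia 1, K.isCompat_id⟩
    · exact ⟨cdia (-1), K.isCompat_id⟩
  -- the period map kills the relations
  have hgenP : ∀ w ∈ gens M p tau dia, ∃ T' : V → V, ∀ f x, P (T' f) x = P f (w x) := by
    rintro w (⟨ℓ, hℓ, rfl⟩ | ⟨u, rfl⟩)
    · exact ⟨fun f => T ℓ f, P_T ℓ hℓ⟩
    · exact ⟨fun f => Dm u f, P_D u⟩
  have hrelP : ∀ uv ∈ rel M p tau dia, ∀ f x, P f (uv.1 x) = P f (uv.2 x) := by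
    rintro uv (⟨ℓ, ℓ', hℓ, hℓ', rfl⟩ | ⟨ℓ, u, hℓ, rfl⟩ | ⟨u, v, rfl⟩ | rfl | rfl) f x
    · show P f (tau ℓ (tau ℓ' x)) = P f (tau ℓ' (tau ℓ x))
      rw [← P_T ℓ hℓ, ← P_T ℓ' hℓ', ← P_T ℓ' hℓ', ← P_T ℓ hℓ, TT ℓ ℓ' hℓ hℓ']
    · show P f (tau ℓ (dia u x)) = P f (dia u (tau ℓ x))
      rw [← P_T ℓ hℓ, ← P_D u, ← P_D u, ← P_T ℓ hℓ, TD ℓ u hℓ]
    · show P f (dia v (dia u x)) = P f (dia (u * v) x)
      rw [← P_D v, ← P_D u, ← P_D (u * v), DD u v]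
    · show P f (dia 1 x) = P f x
      rw [← P_D 1, D1]
    · show P f (dia (-1) x) = P f x
      rw [← P_D (-1), Dneg]
  -- the quotient pairing and its limit
  set G := gens M p tau dia with hG
  set Rl := rel M p tau dia with hRl
  obtain ⟨r, a, e, he, hexp, ρ, hcont, htriv, hcomm, hes⟩ :=
    (K.quot G Rl hgens hrel).exists_spec
  have st : ∀ ℓ, Good M p ℓ → Stab G Rl (tau ℓ) := fun ℓ hℓ => stab_tau hℓ
  have sd : ∀ u : (ZMod M)ˣ, Stab G Rl (dia u) := fun u => stab_dia u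
  -- the period map in coordinates
  obtain ⟨Φ, hΦinj, hΦ⟩ := exists_phi a e hexp (periodQuot P hadd hgenP hrelP)
    (periodQuot_add P hadd hgenP hrelP) (periodQuot_injective P hadd hgenP hrelP hinj)
  -- the matrices
  let tm : ℕ → Matrix (Fin r) (Fin r) ℤ := fun ℓ =>
    if Good M p ℓ then emat a e (desc G Rl (tau ℓ)) else 0
  let dm : (ZMod M)ˣ → Matrix (Fin r) (Fin r) ℤ := fun u => emat a e (desc G Rl (dia u))
  have tm_good : ∀ ℓ, Good M p ℓ → tm ℓ = emat a e (desc G Rl (tau ℓ)) := fun ℓ hℓ => if_pos hℓ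
  have tm_bad : ∀ ℓ, ¬ Good M p ℓ → tm ℓ = 0 := fun ℓ hℓ => if_neg hℓ
  have dm_one : dm 1 = 1 := by
    show emat a e (desc G Rl (dia 1)) = 1
    rw [desc_eq_of_rel rel_dia_one (sd 1) stab_id, desc_id]
    exact emat_id a e he
  have dm_mul : ∀ u v : (ZMod M)ˣ, dm (u * v) = dm u * dm v := by
    intro u v
    show emat a e (desc G Rl (dia (u * v))) =
      emat a e (desc G Rl (dia u)) * emat a e (desc G Rl (dia v))
    have h1 : (desc G Rl (dia v)).comp (desc G Rl (dia u)) = desc G Rl (dia (u * v)) := by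
      rw [← desc_comp (sd v) (sd u)]
      exact desc_eq_of_rel (rel_dia_mul u v) ((sd v).comp (sd u)) (sd (u * v))
    rw [emat_mul a e hexp]
    exact congrArg (emat a e) h1.symm
  let dhom : (ZMod M)ˣ →* Matrix (Fin r) (Fin r) ℤ :=
    { toFun := dm, map_one' := dm_one, map_mul' := dm_mul }
  refine ⟨⟨r, tm, dhom, ρ, ?_, ?_, ?_, ?_, ?_, hcont, ?_, ?_, ?_⟩⟩
  · -- t_comm
    intro ℓ ℓ'
    by_cases hℓ : Good M p ℓ
    swap
    · rw [tm_bad ℓ hℓ]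
      exact Commute.zero_left _
    by_cases hℓ' : Good M p ℓ'
    swap
    · rw [tm_bad ℓ' hℓ']
      exact Commute.zero_right _
    rw [tm_good ℓ hℓ, tm_good ℓ' hℓ']
    exact emat_commute a e hexp fun c =>
      comp_desc_comm (rel_tau_tau hℓ hℓ') (st ℓ hℓ) (st ℓ' hℓ') c
  · -- td_comm
    intro ℓ u
    by_cases hℓ : Good M p ℓ
    swap
    · rw [tm_bad ℓ hℓ]
      exact Commute.zero_left _
    rw [tm_good ℓ hℓ]
    exact emat_commute a e hexp fun c => comp_desc_comm (rel_tau_dia hℓ u) (st ℓ hℓ) (sd u) c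
  · -- d_neg_one
    show emat a e (desc G Rl (dia (-1))) = 1
    rw [desc_eq_of_rel rel_dia_neg_one (sd (-1)) stab_id, desc_id]
    exact emat_id a e he
  · -- ρ_comm_t
    intro σ ℓ
    by_cases hℓ : Good M p ℓ
    swap
    · rw [tm_bad ℓ hℓ, Matrix.map_zero _ (map_zero _)]
      exact Commute.zero_right _
    rw [tm_good ℓ hℓ]
    exact hcomm σ (heckeF ℓ) (desc G Rl (tau ℓ))
      (fun n _ _ h => K.quot_pair hgens hrel (heckeF ℓ) (st ℓ hℓ) (hecke ℓ hℓ n) h)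
      (fun n _ _ h => hecke_gal ℓ hℓ σ n h)
  · -- ρ_comm_d
    intro σ u
    exact hcomm σ (diaF u) (desc G Rl (dia u))
      (fun n _ _ h => K.quot_pair hgens hrel (diaF u) (sd u) (diam u n) h)
      (fun n _ _ h => dia_gal u σ n h)
  · -- unr
    intro q hq hqM hqp Pv hPv σ hσ
    exact htriv σ fun n _ _ h => unr q hq hqM hqp Pv hPv σ hσ n h
  · -- es
    intro ℓ hℓ hℓM hℓp u hu B hB σ hσ
    have hg : Good M p ℓ := ⟨hℓ, hℓM, hℓp⟩
    rw [tm_good ℓ hg]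
    exact hes σ ℓ (heckeF ℓ) (diaF u) (desc G Rl (tau ℓ)) (desc G Rl (dia u))
      (fun n _ _ h => K.quot_pair hgens hrel (heckeF ℓ) (st ℓ hg) (hecke ℓ hg n) h)
      (fun n _ _ h => K.quot_pair hgens hrel (diaF u) (sd u) (diam u n) h)
      (fun n _ _ h => es ℓ hg u hu B hB σ hσ n h)
  · -- occ
    refine ⟨Φ, hΦinj, ?_, ?_⟩
    · intro ℓ hℓ hℓM hℓp f
      have hg : Good M p ℓ := ⟨hℓ, hℓM, hℓp⟩
      rw [tm_good ℓ hg]
      exact hΦ (fun f => T ℓ f) (desc G Rl (tau ℓ))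
        (fun f x => periodQuot_adj P hadd hgenP hrelP (st ℓ hg) (P_T ℓ hg) f x) f
    · intro u f
      exact hΦ (fun f => Dm u f) (desc G Rl (dia u))
        (fun f x => periodQuot_adj P hadd hgenP hrelP (sd u) (P_D u) f x) f

end Main

end Fermat.Agent.S48.G1.ToES1Quot
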