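/-
PROGRAM DS (S48) / G1 — GENERIC KUMMER GLUE (helper162).

The generic twin of `S30/Producer/Glue.lean` + `S30/KummerChar/Root.lean`: NO level, NO concrete
function field and NO `Γ₀(N)` / `Γ₁(M)` in the types.  For an arbitrary subgroup
`Γ ≤ SL(2, ℤ)`, a field `F` with an action `gal` of `G_ℚ`, and an analytic `Model` of `F`
(a ring `A0` of "good" functions with `ι : A0 →+* F`, `θ : A0 →+* HolH`, `Γ`-invariant on `ℍ`,
every function a quotient of good ones, and an abstract divisibility predicate `Div m f`,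
"`m ∣ div f`") we define the Kummer relation

  `K.KRel m f c` : `f ≠ 0`, `Div m f`, and `f = a / b` has a holomorphic `m`-th root `H` of
                   `θ a · θ b ^ (m - 1)` on `ℍ` whose multiplier under `Γ` is `chi Γ m c`,
                   `c : AG Γ →+ ℤ/m`  (`AG Γ = Γ^ab / ⟨parabolic, elliptic⟩`, `S48/Betti1/AG`),

and prove every field of `KummerPairing p F gal` (`S48/G1/Pairing.lean`) for
`R n f c := K.KRel (p ^ n) f c` from five brick `Prop`s (`Root`, `ParEll`, `Inj`, `Surj`,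
`Cont`), stated per exponent `m`.

Exits:
* `Model.pairing`        : the `KummerPairing` (with `A = AG Γ`, `R n f c = K.KRel (p ^ n) f c`
                           by `rfl`);
* `Model.krel_transfer`  : operator pairs `(T, ω)` of transfer type (Hecke operators):
                           `K.KRel m f c → K.KRel m (T f) (c.comp ω)`;
* `Model.exists_isRoot_hecke`, `compSL_prod_comp` : the root input of `krel_transfer` from a
                           multiplicative operator on holomorphic functions;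
* `Model.krel_conj`      : operator pairs of conjugation type (diamond operators), no root brick.
-/
import Mathlib
import Fermat.Agent.S48.G1.Pairing
import Fermat.Agent.S48.Betti1.AG
import Fermat.Agent.S30.KummerChar.Basic

set_option autoImplicit false
set_option linter.dupNamespace false

noncomputable section

open scoped MatrixGroups
open UpperHalfPlane
open Fermat.Agent.S24.HolH
open Fermat.Agent.S30 Fermat.Agent.S30.KummerChar
open Fermat.Agent.S48.Betti1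

namespace Fermat.Agent.S48.G1.Glue1

/-! ### Roots of unity and the standard additive character -/

/-- Every `m`-th root of unity of `ℂ` is a value of the standard additive character. -/
theorem exists_stdAddChar_eq {m : ℕ} [NeZero m] {ζ : ℂ} (hζ : ζ ^ m = 1) :
    ∃ k : ZMod m, ZMod.stdAddChar k = ζ := by
  have hm : m ≠ 0 := NeZero.ne m
  have hprim := Complex.isPrimitiveRoot_exp m hm
  obtain ⟨i, -, hi⟩ := hprim.eq_pow_of_pow_eq_one hζ
  refine ⟨((i : ℤ) : ZMod m), ?_⟩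
  rw [ZMod.stdAddChar_coe, ← hi, ← Complex.exp_nat_mul]
  congr 1
  push_cast
  ring

/-- Reduction `ℤ/p^(n+1) → ℤ/p^n` corresponds to the `p`-th power of the standard character. -/
theorem stdAddChar_pow_castHom (p n : ℕ) [Fact p.Prime] (k : ZMod (p ^ (n + 1))) :
    (ZMod.stdAddChar k : ℂ) ^ p =
      ZMod.stdAddChar (ZMod.castHom (pow_dvd_pow p (Nat.le_succ n)) (ZMod (p ^ n)) k) := by
  obtain ⟨j, rfl⟩ := ZMod.intCast_surjective k
  have h1 : ZMod.castHom (pow_dvd_pow p (Nat.le_succ n)) (ZMod (p ^ n))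
      ((j : ℤ) : ZMod (p ^ (n + 1))) = ((j : ℤ) : ZMod (p ^ n)) := map_intCast _ j
  rw [h1, ZMod.stdAddChar_coe, ZMod.stdAddChar_coe, ← Complex.exp_nat_mul]
  congr 1
  have hp : (p : ℂ) ≠ 0 := Nat.cast_ne_zero.mpr (Fact.out : p.Prime).ne_zero
  push_cast
  field_simp
  ring

theorem stdAddChar_pow_self {m : ℕ} [NeZero m] (k : ZMod m) : (ZMod.stdAddChar k : ℂ) ^ m = 1 := by
  rw [← AddChar.map_nsmul_eq_pow]
  have : m • k = 0 := by
    rw [nsmul_eq_mul, ZMod.natCast_self, zero_mul]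
  rw [this, AddChar.map_zero_eq_one]

theorem stdAddChar_ne_zero {m : ℕ} [NeZero m] (k : ZMod m) : (ZMod.stdAddChar k : ℂ) ≠ 0 := by
  intro h
  have h1 := stdAddChar_pow_self k
  rw [h, zero_pow (NeZero.ne m)] at h1
  exact zero_ne_one h1

theorem addChar_sum {A M κ : Type*} [AddCommMonoid A] [CommMonoid M] (ψ : AddChar A M)
    (s : Finset κ) (f : κ → A) : ψ (∑ i ∈ s, f i) = ∏ i ∈ s, ψ (f i) := by
  classical
  induction s using Finset.induction_on with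
  | empty => simp
  | insert i s hi ih =>
    rw [Finset.sum_insert hi, Finset.prod_insert hi, AddChar.map_add_eq_mul, ih]

/-! ### Characters of `Γ` with values in `μ_m` -/

section Chi

variable (Γ : Subgroup SL(2, ℤ))

/-- The `μ_m`-valued character of `Γ` attached to `c : A_Γ →+ ℤ/m`
(`γ ↦ exp(2πi · c(γ) / m)`). -/
def chi (m : ℕ) [NeZero m] (c : AG Γ →+ ZMod m) (γ : Γ) : ℂ :=
  ZMod.stdAddChar (c (proj Γ (Additive.ofMul γ)))

theorem chi_zero (m : ℕ) [NeZero m] (γ : Γ) : chi Γ m 0 γ = 1 := by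
  simp [chi]

theorem chi_add (m : ℕ) [NeZero m] (c d : AG Γ →+ ZMod m) (γ : Γ) :
    chi Γ m (c + d) γ = chi Γ m c γ * chi Γ m d γ := by
  simp [chi, AddChar.map_add_eq_mul]

theorem chi_mul (m : ℕ) [NeZero m] (c : AG Γ →+ ZMod m) (γ δ : Γ) :
    chi Γ m c (γ * δ) = chi Γ m c γ * chi Γ m c δ := by
  simp [chi, AddChar.map_add_eq_mul]

theorem chi_injective (m : ℕ) [NeZero m] {c d : AG Γ →+ ZMod m}
    (h : ∀ γ : Γ, chi Γ m c γ = chi Γ m d γ) : c = d :=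
  hom_ext fun γ => ZMod.injective_stdAddChar (h γ)

theorem chi_parEll (m : ℕ) [NeZero m] (c : AG Γ →+ ZMod m) {γ : Γ} (hγ : γ ∈ parEll Γ) :
    chi Γ m c γ = 1 := by
  simp [chi, proj_parEll hγ]

theorem chi_pow (m : ℕ) [NeZero m] (c : AG Γ →+ ZMod m) (γ : Γ) : chi Γ m c γ ^ m = 1 :=
  stdAddChar_pow_self _

theorem chi_ne_zero (m : ℕ) [NeZero m] (c : AG Γ →+ ZMod m) (γ : Γ) : chi Γ m c γ ≠ 0 :=
  stdAddChar_ne_zero _

theorem chi_one (m : ℕ) [NeZero m] (c : AG Γ →+ ZMod m) : chi Γ m c 1 = 1 := by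
  have h := chi_mul Γ m c 1 1
  rw [mul_one] at h
  have h0 := chi_ne_zero Γ m c 1
  exact (mul_right_cancel₀ h0 (by rw [one_mul]; exact h)).symm

/-- The `ℂˣ`-valued character attached to `c`. -/
def chiHom (m : ℕ) [NeZero m] (c : AG Γ →+ ZMod m) : Γ →* ℂˣ where
  toFun γ := Units.mk0 (chi Γ m c γ) (chi_ne_zero Γ m c γ)
  map_one' := Units.ext (chi_one Γ m c)
  map_mul' γ δ := Units.ext (chi_mul Γ m c γ δ)

@[simp] theorem chiHom_apply (m : ℕ) [NeZero m] (c : AG Γ →+ ZMod m) (γ : Γ) :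
    ((chiHom Γ m c γ : ℂˣ) : ℂ) = chi Γ m c γ := rfl

/-- Every `μ_m`-valued character of `Γ` which is trivial on `parEll` is `chi Γ m c` for a
(unique) `c : A_Γ →+ ℤ/m`. -/
theorem exists_chi (m : ℕ) [NeZero m] (φ : Γ →* ℂˣ) (hφ : ∀ γ, φ γ ^ m = 1)
    (hpe : ∀ γ ∈ parEll Γ, φ γ = 1) :
    ∃ c : AG Γ →+ ZMod m, ∀ γ : Γ, chi Γ m c γ = (φ γ : ℂ) := by
  have hex : ∀ γ : Γ, ∃ k : ZMod m, ZMod.stdAddChar k = (φ γ : ℂ) := fun γ =>
    exists_stdAddChar_eq (by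
      rw [← Units.val_pow_eq_pow_val, hφ γ, Units.val_one])
  choose k hk using hex
  let ψ : Additive Γ →+ ZMod m := AddMonoidHom.mk' (fun γ => k (Additive.toMul γ))
    (fun γ δ => by
      apply ZMod.injective_stdAddChar
      show ZMod.stdAddChar (k (Additive.toMul γ * Additive.toMul δ)) = _
      rw [AddChar.map_add_eq_mul, hk, hk, hk, map_mul, Units.val_mul])
  have hψ : ∀ γ ∈ parEll Γ, ψ (Additive.ofMul γ) = 0 := by
    intro γ hγ
    apply ZMod.injective_stdAddChar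
    show ZMod.stdAddChar (k γ) = _
    rw [hk, hpe γ hγ, AddChar.map_zero_eq_one, Units.val_one]
  refine ⟨lift ψ hψ, fun γ => ?_⟩
  show ZMod.stdAddChar (lift ψ hψ (proj Γ (Additive.ofMul γ))) = _
  rw [lift_proj]
  exact hk γ

/-- Compatibility of `chi` with the transition maps. -/
theorem chi_red (p n : ℕ) [Fact p.Prime] (c : AG Γ →+ ZMod (p ^ (n + 1))) (γ : Γ) :
    chi Γ (p ^ (n + 1)) c γ ^ p = chi Γ (p ^ n) (BettiLimit.red (AG Γ) p n c) γ :=
  stdAddChar_pow_castHom p n _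

/-- If `ω` is a transfer (`ω [γ] = ∑ₓ [coc γ x]`), the character `c ∘ ω` is the transfer of the
character `c`. -/
theorem chi_comp_transfer (m : ℕ) [NeZero m] {X : Type*} [Fintype X] (coc : Γ → X → Γ)
    (ω : AG Γ →+ AG Γ)
    (hω : ∀ γ : Γ, ω (proj Γ (Additive.ofMul γ)) = ∑ x, proj Γ (Additive.ofMul (coc γ x)))
    (c : AG Γ →+ ZMod m) (γ : Γ) :
    chi Γ m (c.comp ω) γ = ∏ x, chi Γ m c (coc γ x) := by
  show ZMod.stdAddChar (c (ω (proj Γ (Additive.ofMul γ)))) = _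
  rw [hω, map_sum, addChar_sum]
  rfl

/-- If `ω` is induced by a self-map `cj` of `Γ` (`ω [γ] = [cj γ]`), then
`chi (c ∘ ω) γ = chi c (cj γ)`. -/
theorem chi_comp_map (m : ℕ) [NeZero m] (cj : Γ → Γ) (ω : AG Γ →+ AG Γ)
    (hω : ∀ γ : Γ, ω (proj Γ (Additive.ofMul γ)) = proj Γ (Additive.ofMul (cj γ)))
    (c : AG Γ →+ ZMod m) (γ : Γ) :
    chi Γ m (c.comp ω) γ = chi Γ m c (cj γ) := by
  show ZMod.stdAddChar (c (ω (proj Γ (Additive.ofMul γ)))) = _
  rw [hω]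
  rfl

end Chi

/-! ### Multiplier law for products of compositions -/

/-- **Multiplier law.**  Let `cmp x` (`x : X`) be multiplicative operators on holomorphic
functions (compositions with the representatives `t_x` of a coset system) such that
`(cmp x H) ∘ γ = cmp (perm γ x) (H ∘ coc γ x)` (i.e. `t_x γ = coc γ x · t_{perm γ x}`).  If `H` is
an eigenfunction of all of `Γ`, then `∏ₓ cmp x H` is one, with multiplier the transfer
`∏ₓ mult (coc γ x) H`. -/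
theorem compSL_prod_comp {Γ : Subgroup SL(2, ℤ)} {X : Type*} [Fintype X]
    (cmp : X → HolH →* HolH) (perm : Γ → Equiv.Perm X) (coc : Γ → X → Γ)
    (hcmp : ∀ (γ : Γ) (x : X) (H : HolH),
      compSL (γ : SL(2, ℤ)) (cmp x H) = cmp (perm γ x) (compSL ((coc γ x : Γ) : SL(2, ℤ)) H))
    (hconst : ∀ (x : X) (c : ℂ) (H : HolH),
      cmp x (algebraMap ℂ HolH c * H) = algebraMap ℂ HolH c * cmp x H)
    {H : HolH} (heig : ∀ γ ∈ Γ, IsEig γ H) (γ : Γ) :
    compSL (γ : SL(2, ℤ)) (∏ x, cmp x H)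
      = algebraMap ℂ HolH (∏ x, mult ((coc γ x : Γ) : SL(2, ℤ)) H) * ∏ x, cmp x H := by
  rw [map_prod, map_prod, ← Finset.prod_mul_distrib]
  have h1 : ∀ x : X, compSL (γ : SL(2, ℤ)) (cmp x H)
      = algebraMap ℂ HolH (mult ((coc γ x : Γ) : SL(2, ℤ)) H) * cmp (perm γ x) H := by
    intro x
    rw [hcmp, (heig _ (coc γ x).2).compSL_eq, hconst]
  rw [Finset.prod_congr rfl fun x _ => h1 x, Finset.prod_mul_distrib, Finset.prod_mul_distrib]
  congr 1
  exact Equiv.prod_comp (perm γ) fun x => cmp x H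

/-! ### The analytic model of a function field -/

/-- An **analytic Kummer model** of a field `F` with `G_ℚ`-action, for the group `Γ`:
a ring `A0` of good functions, embedded in `F` and in the holomorphic functions on `ℍ`
(`Γ`-invariantly), such that every element of `F` is a quotient of good functions; and an abstract
divisibility predicate `Div m f` ("the divisor of `f` is divisible by `m`"), stable under
products, `m`-th powers, divisors of `m` and the Galois action. -/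
structure Model (Γ : Subgroup SL(2, ℤ)) (F : Type) [Field F] (gal : GQ → F ≃+* F) where
  /-- the ring of good functions -/
  A0 : Type
  [instA0 : CommRing A0]
  /-- good functions as elements of the function field -/
  ι : A0 →+* F
  /-- good functions as holomorphic functions on `ℍ` -/
  θ : A0 →+* HolH
  ι_inj : Function.Injective ι
  θ_inj : Function.Injective θ
  /-- every function is a quotient of good functions -/
  frac : ∀ f : F, ∃ a b : A0, b ≠ 0 ∧ f * ι b = ι a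
  /-- good functions are `Γ`-invariant on `ℍ` -/
  inv : ∀ γ : SL(2, ℤ), γ ∈ Γ → ∀ x : A0, compSL γ (θ x) = θ x
  /-- `Div m f`: the divisor of `f` is divisible by `m` -/
  Div : ℕ → F → Prop
  div_mul : ∀ {m : ℕ} {f g : F}, f ≠ 0 → g ≠ 0 → Div m f → Div m g → Div m (f * g)
  div_pow : ∀ (m : ℕ) {g : F}, g ≠ 0 → Div m (g ^ m)
  div_dvd : ∀ {m k : ℕ} {f : F}, k ∣ m → Div m f → Div k f
  div_gal : ∀ (σ : GQ) {m : ℕ} {f : F}, Div m f → Div m (gal σ f)
  gal_one : ∀ f : F, gal 1 f = f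
  gal_mul : ∀ (σ τ : GQ) (f : F), gal (σ * τ) f = gal σ (gal τ f)

attribute [instance] Model.instA0

namespace Model

variable {Γ : Subgroup SL(2, ℤ)} {F : Type} [Field F] {gal : GQ → F ≃+* F} (K : Model Γ F gal)

instance instNoZeroDivisorsA0 : NoZeroDivisors K.A0 :=
  K.ι_inj.noZeroDivisors K.ι (map_zero _) (map_mul _)

theorem theta_ne_zero {x : K.A0} (hx : x ≠ 0) : K.θ x ≠ 0 :=
  (map_ne_zero_iff _ K.θ_inj).mpr hx

theorem iota_ne_zero {x : K.A0} (hx : x ≠ 0) : K.ι x ≠ 0 :=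
  (map_ne_zero_iff _ K.ι_inj).mpr hx

/-- Numerator of a nonzero function is nonzero. -/
theorem num_ne_zero {f : F} (hf : f ≠ 0) {a b : K.A0} (hb : b ≠ 0) (e : f * K.ι b = K.ι a) :
    a ≠ 0 := by
  rintro rfl
  rw [map_zero] at e
  rcases mul_eq_zero.mp e with h | h
  · exact hf h
  · exact K.iota_ne_zero hb h

/-- Every nonzero function is a quotient of nonzero good functions. -/
theorem exists_frac {f : F} (hf : f ≠ 0) :
    ∃ a b : K.A0, a ≠ 0 ∧ b ≠ 0 ∧ f * K.ι b = K.ι a := by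
  obtain ⟨a, b, hb, e⟩ := K.frac f
  exact ⟨a, b, K.num_ne_zero hf hb e, hb, e⟩

/-! ### Holomorphic roots -/

/-- `H` is a holomorphic `m`-th root of `θ a * θ b ^ (m - 1)` (so `H / θ b` is an `m`-th root of
`a / b` on `ℍ`). -/
def IsRoot (m : ℕ) (a b : K.A0) (H : HolH) : Prop :=
  H ^ m = K.θ a * K.θ b ^ (m - 1)

variable {K}

theorem IsRoot.pow_ne_zero {m : ℕ} {a b : K.A0} {H : HolH} (h : K.IsRoot m a b H)
    (ha : a ≠ 0) (hb : b ≠ 0) : H ^ m ≠ 0 := by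
  rw [h]
  exact mul_ne_zero (K.theta_ne_zero ha) (_root_.pow_ne_zero _ (K.theta_ne_zero hb))

theorem IsRoot.ne_zero {m : ℕ} {a b : K.A0} {H : HolH} (h : K.IsRoot m a b H)
    (hm : 0 < m) (ha : a ≠ 0) (hb : b ≠ 0) : H ≠ 0 := by
  rintro rfl
  exact h.pow_ne_zero ha hb (zero_pow hm.ne')

theorem IsRoot.compSL_pow {m : ℕ} {a b : K.A0} {H : HolH} (h : K.IsRoot m a b H)
    {γ : SL(2, ℤ)} (hγ : γ ∈ Γ) : compSL γ (H ^ m) = H ^ m := by
  rw [h, map_mul, map_pow, K.inv γ hγ, K.inv γ hγ]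

theorem IsRoot.isEig {m : ℕ} {a b : K.A0} {H : HolH} (h : K.IsRoot m a b H) (hm : 0 < m)
    {γ : SL(2, ℤ)} (hγ : γ ∈ Γ) : IsEig γ H :=
  isEig_of_pow hm (h.compSL_pow hγ)

theorem IsRoot.mult_pow {m : ℕ} {a b : K.A0} {H : HolH} (h : K.IsRoot m a b H) (hm : 0 < m)
    (ha : a ≠ 0) (hb : b ≠ 0) {γ : SL(2, ℤ)} (hγ : γ ∈ Γ) : mult γ H ^ m = 1 :=
  mult_pow_eq_one hm (h.ne_zero hm ha hb) (h.compSL_pow hγ)

/-- The Kummer character of `f = a / b` attached to the root `H`. -/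
def rootChar {m : ℕ} {a b : K.A0} {H : HolH} (h : K.IsRoot m a b H) (hm : 0 < m)
    (ha : a ≠ 0) (hb : b ≠ 0) : Γ →* ℂˣ :=
  eigChar Γ H (h.ne_zero hm ha hb) (fun _ hγ => h.isEig hm hγ)

theorem rootChar_apply {m : ℕ} {a b : K.A0} {H : HolH} (h : K.IsRoot m a b H) (hm : 0 < m)
    (ha : a ≠ 0) (hb : b ≠ 0) (γ : Γ) :
    ((rootChar h hm ha hb γ : ℂˣ) : ℂ) = mult (γ : SL(2, ℤ)) H := rfl

theorem rootChar_pow {m : ℕ} {a b : K.A0} {H : HolH} (h : K.IsRoot m a b H) (hm : 0 < m)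
    (ha : a ≠ 0) (hb : b ≠ 0) (γ : Γ) : rootChar h hm ha hb γ ^ m = 1 :=
  Units.ext (by
    rw [Units.val_pow_eq_pow_val, rootChar_apply]
    exact h.mult_pow hm ha hb γ.2)

/-- Products of roots. -/
theorem IsRoot.mul {m : ℕ} {a₁ b₁ a₂ b₂ : K.A0} {H₁ H₂ : HolH} (h₁ : K.IsRoot m a₁ b₁ H₁)
    (h₂ : K.IsRoot m a₂ b₂ H₂) : K.IsRoot m (a₁ * a₂) (b₁ * b₂) (H₁ * H₂) := by
  unfold IsRoot at *
  rw [mul_pow, h₁, h₂, map_mul, map_mul, mul_pow]
  ring

/-- The root of an `m`-th power `g ^ m = (a / b) ^ m`. -/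
theorem isRoot_pow (m : ℕ) (a b : K.A0) :
    K.IsRoot m (a ^ m) (b ^ m) (K.θ (a * b ^ (m - 1))) := by
  unfold IsRoot
  rw [map_mul, map_pow, map_pow, map_pow, mul_pow, ← pow_mul, ← pow_mul, mul_comm (m - 1) m]

/-- The multiplier does not depend on the root nor on the representation `a / b` of `f`. -/
theorem IsRoot.mult_eq {m : ℕ} {a b a' b' : K.A0} {H H' : HolH} (h : K.IsRoot m a b H)
    (h' : K.IsRoot m a' b' H') (hm : 0 < m) (ha : a ≠ 0) (hb : b ≠ 0) (ha' : a' ≠ 0)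
    (hb' : b' ≠ 0) (hab : a * b' = a' * b) {γ : SL(2, ℤ)} (hγ : γ ∈ Γ) :
    mult γ H = mult γ H' := by
  have hH := h.ne_zero hm ha hb
  have hH' := h'.ne_zero hm ha' hb'
  have hθb := K.theta_ne_zero hb
  have hθb' := K.theta_ne_zero hb'
  have hpow : (H * K.θ b') ^ m = (H' * K.θ b) ^ m := by
    have e1 : K.θ a * K.θ b' = K.θ a' * K.θ b := by
      rw [← map_mul, ← map_mul, hab]
    have hm' : m = (m - 1) + 1 := (Nat.sub_add_cancel hm).symm
    have e2 : K.θ b' ^ m = K.θ b' ^ (m - 1) * K.θ b' := by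
      conv_lhs => rw [hm', pow_succ]
    have e3 : K.θ b ^ m = K.θ b ^ (m - 1) * K.θ b := by
      conv_lhs => rw [hm', pow_succ]
    have h0 : H ^ m = K.θ a * K.θ b ^ (m - 1) := h
    have h0' : H' ^ m = K.θ a' * K.θ b' ^ (m - 1) := h'
    rw [mul_pow, mul_pow, h0, h0', e2, e3]
    linear_combination (K.θ b ^ (m - 1) * K.θ b' ^ (m - 1)) * e1
  obtain ⟨c, hc1, hc⟩ := exists_const_of_pow_eq hm hpow
  have hc0 : c ≠ 0 := by
    rintro rfl
    rw [zero_pow hm.ne'] at hc1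
    exact zero_ne_one hc1
  have e1 : IsEig γ H := h.isEig hm hγ
  have e2 : IsEig γ H' := h'.isEig hm hγ
  have i1 : IsEig γ (K.θ b') := isEig_of_compSL_eq (K.inv γ hγ b')
  have i2 : IsEig γ (K.θ b) := isEig_of_compSL_eq (K.inv γ hγ b)
  have m1 : mult γ (K.θ b') = 1 := mult_eq_one_of_compSL_eq hθb' (K.inv γ hγ b')
  have m2 : mult γ (K.θ b) = 1 := mult_eq_one_of_compSL_eq hθb (K.inv γ hγ b)
  have l1 : mult γ (H * K.θ b') = mult γ H := by
    rw [e1.mult_mul_fun i1 hH hθb', m1, mul_one]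
  have l2 : mult γ (algebraMap ℂ HolH c * (H' * K.θ b)) = mult γ H' := by
    rw [(e2.mul_fun i2).mult_smul_fun (mul_ne_zero hH' hθb) hc0, e2.mult_mul_fun i2 hH' hθb, m2,
      mul_one]
  rw [← l1, hc, l2]

variable (K)

/-! ### The Kummer relation and the bricks -/

/-- `K.KRel m f c`: `f ≠ 0`, `m ∣ div f`, and `f = a / b` has a holomorphic `m`-th root `H` of
`θ a · θ b ^ (m - 1)` on `ℍ` whose multiplier under `Γ` is `chi Γ m c`. -/
def KRel (m : ℕ) [NeZero m] (f : F) (c : AG Γ →+ ZMod m) : Prop :=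
  f ≠ 0 ∧ K.Div m f ∧
    ∃ (a b : K.A0) (H : HolH), a ≠ 0 ∧ b ≠ 0 ∧ f * K.ι b = K.ι a ∧ K.IsRoot m a b H ∧
      ∀ γ : Γ, mult (γ : SL(2, ℤ)) H = chi Γ m c γ

/-- (Root) Every function with `m ∣ div f` has a holomorphic `m`-th root on `ℍ`. -/
def Root (m : ℕ) : Prop :=
  ∀ f : F, f ≠ 0 → K.Div m f →
    ∃ (a b : K.A0) (H : HolH), a ≠ 0 ∧ b ≠ 0 ∧ f * K.ι b = K.ι a ∧ K.IsRoot m a b H

/-- (ParEll) The multiplier of the root of a function with `m ∣ div f` is trivial on parabolic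
and elliptic elements. -/
def ParEll (m : ℕ) : Prop :=
  ∀ (f : F) (a b : K.A0) (H : HolH), f ≠ 0 → K.Div m f → a ≠ 0 → b ≠ 0 →
    f * K.ι b = K.ι a → K.IsRoot m a b H →
      ∀ γ : Γ, γ ∈ parEll Γ → mult (γ : SL(2, ℤ)) H = 1

/-- (Inj) A `Γ`-invariant holomorphic `m`-th root of a good function lies in `F`. -/
def Inj (m : ℕ) : Prop :=
  ∀ (x : K.A0) (H : HolH), H ^ m = K.θ x →
    (∀ γ : SL(2, ℤ), γ ∈ Γ → compSL γ H = H) → ∃ y : F, y ^ m = K.ι x

/-- (Surj) Every `μ_m`-valued character of `Γ` trivial on parabolic and elliptic elements is the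
Kummer character of a function of `F` with `m ∣ div f`. -/
def Surj (m : ℕ) : Prop :=
  ∀ φ : Γ →* ℂˣ, (∀ γ, φ γ ^ m = 1) → (∀ γ ∈ parEll Γ, φ γ = 1) →
    ∃ (f : F) (a b : K.A0) (H : HolH), f ≠ 0 ∧ K.Div m f ∧ a ≠ 0 ∧ b ≠ 0 ∧
      f * K.ι b = K.ι a ∧ K.IsRoot m a b H ∧
      ∀ γ : Γ, mult (γ : SL(2, ℤ)) H = (φ γ : ℂ)

/-- (Cont) Every function of `F` is fixed by an open subgroup of `G_ℚ`. -/
def Cont (_K : Model Γ F gal) : Prop :=
  ∀ f : F, ∃ L : IntermediateField ℚ (AlgebraicClosure ℚ), FiniteDimensional ℚ L ∧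
    ∀ σ : GQ, (∀ x ∈ L, σ x = x) → gal σ f = f

variable {K}

/-! ### Fields that need no brick -/

section Basic

variable {m : ℕ} [NeZero m]

theorem krel_ne_zero {f : F} {c : AG Γ →+ ZMod m} (h : K.KRel m f c) : f ≠ 0 := h.1

theorem krel_div {f : F} {c : AG Γ →+ ZMod m} (h : K.KRel m f c) : K.Div m f := h.2.1

theorem krel_mul {f g : F} {c d : AG Γ →+ ZMod m} (hf : K.KRel m f c) (hg : K.KRel m g d) :
    K.KRel m (f * g) (c + d) := by
  have hm : 0 < m := Nat.pos_of_ne_zero (NeZero.ne m)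
  obtain ⟨hf0, hfd, a₁, b₁, H₁, ha₁, hb₁, e₁, r₁, χ₁⟩ := hf
  obtain ⟨hg0, hgd, a₂, b₂, H₂, ha₂, hb₂, e₂, r₂, χ₂⟩ := hg
  refine ⟨mul_ne_zero hf0 hg0, K.div_mul hf0 hg0 hfd hgd, a₁ * a₂, b₁ * b₂, H₁ * H₂,
    mul_ne_zero ha₁ ha₂, mul_ne_zero hb₁ hb₂, ?_, r₁.mul r₂, fun γ => ?_⟩
  · rw [map_mul, map_mul, ← e₁, ← e₂]
    ring
  · rw [(r₁.isEig hm γ.2).mult_mul_fun (r₂.isEig hm γ.2) (r₁.ne_zero hm ha₁ hb₁)
      (r₂.ne_zero hm ha₂ hb₂), χ₁, χ₂, chi_add]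

theorem krel_uniq {f : F} {c d : AG Γ →+ ZMod m} (hc : K.KRel m f c) (hd : K.KRel m f d) :
    c = d := by
  have hm : 0 < m := Nat.pos_of_ne_zero (NeZero.ne m)
  obtain ⟨hf0, -, a, b, H, ha, hb, e, r, χ⟩ := hc
  obtain ⟨-, -, a', b', H', ha', hb', e', r', χ'⟩ := hd
  refine chi_injective Γ m fun γ => ?_
  rw [← χ, ← χ']
  refine r.mult_eq r' hm ha hb ha' hb' ?_ γ.2
  apply K.ι_inj
  rw [map_mul, map_mul, ← e, ← e']
  ring

theorem krel_pow {g : F} (hg : g ≠ 0) : K.KRel m (g ^ m) 0 := by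
  obtain ⟨a, b, ha, hb, e⟩ := K.exists_frac hg
  refine ⟨pow_ne_zero _ hg, K.div_pow m hg, a ^ m, b ^ m, K.θ (a * b ^ (m - 1)),
    pow_ne_zero _ ha, pow_ne_zero _ hb, ?_, isRoot_pow m a b, fun γ => ?_⟩
  · rw [map_pow, map_pow, ← e, mul_pow]
  · rw [chi_zero]
    exact mult_eq_one_of_compSL_eq (K.theta_ne_zero (mul_ne_zero ha (pow_ne_zero _ hb)))
      (K.inv γ γ.2 _)

theorem krel_inj (hInj : K.Inj m) {f : F} (h : K.KRel m f 0) : ∃ g : F, f = g ^ m := by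
  have hm : 0 < m := Nat.pos_of_ne_zero (NeZero.ne m)
  obtain ⟨hf0, -, a, b, H, ha, hb, e, r, χ⟩ := h
  have hr : H ^ m = K.θ (a * b ^ (m - 1)) := by
    rw [map_mul, map_pow]
    exact r
  obtain ⟨y, hy⟩ := hInj (a * b ^ (m - 1)) H hr (fun γ hγ => by
    have h1 := (r.isEig hm hγ).compSL_eq
    have h2 := χ ⟨γ, hγ⟩
    rw [chi_zero] at h2
    rw [h2, map_one, one_mul] at h1
    exact h1)
  have hb0 : K.ι b ≠ 0 := K.iota_ne_zero hb
  refine ⟨y / K.ι b, ?_⟩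
  rw [_root_.div_pow, hy, map_mul, map_pow, ← e, eq_div_iff (pow_ne_zero _ hb0)]
  have hm' : m = (m - 1) + 1 := (Nat.sub_add_cancel hm).symm
  conv_lhs => rw [hm', pow_succ]
  ring

end Basic

theorem krel_red {p n : ℕ} [Fact p.Prime] {f : F} {c : AG Γ →+ ZMod (p ^ (n + 1))}
    (h : K.KRel (p ^ (n + 1)) f c) : K.KRel (p ^ n) f (BettiLimit.red (AG Γ) p n c) := by
  have hp : p.Prime := Fact.out
  have hm1 : 0 < p ^ (n + 1) := pow_pos hp.pos _
  have hm : 0 < p ^ n := pow_pos hp.pos _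
  obtain ⟨hf0, hfd, a, b, H, ha, hb, e, r, χ⟩ := h
  have key : p ^ (n + 1) - 1 = (p - 1) + p * (p ^ n - 1) := by
    have h1 : 1 ≤ p := hp.pos
    have h2 : 1 ≤ p ^ n := hm
    have h3 : 1 ≤ p ^ (n + 1) := hm1
    zify [h1, h2, h3]
    ring
  refine ⟨hf0, K.div_dvd (pow_dvd_pow p (Nat.le_succ n)) hfd, a * b ^ (p - 1), b ^ p, H ^ p,
    mul_ne_zero ha (pow_ne_zero _ hb), pow_ne_zero _ hb, ?_, ?_, fun γ => ?_⟩
  · rw [map_mul, map_pow, map_pow, ← e]
    have h1 : p = (p - 1) + 1 := (Nat.sub_add_cancel hp.pos).symm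
    conv_lhs => rw [h1, pow_succ]
    ring
  · have r0 : H ^ p ^ (n + 1) = K.θ a * K.θ b ^ (p ^ (n + 1) - 1) := r
    show (H ^ p) ^ p ^ n = K.θ (a * b ^ (p - 1)) * K.θ (b ^ p) ^ (p ^ n - 1)
    rw [← pow_mul, ← pow_succ', r0, map_mul, map_pow, map_pow, mul_assoc, ← pow_mul, ← pow_add,
      key]
  · rw [(r.isEig hm1 γ.2).mult_pow_fun (r.ne_zero hm1 ha hb), χ, chi_red]

/-! ### Fields that use the bricks -/

section Bricks

variable {m : ℕ} [NeZero m]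

/-- Field `stable`: Galois conjugates of Kummer functions are Kummer functions. -/
theorem krel_gal (hRoot : K.Root m) (hParEll : K.ParEll m) (σ : GQ) {f : F}
    {c : AG Γ →+ ZMod m} (h : K.KRel m f c) : ∃ d : AG Γ →+ ZMod m, K.KRel m (gal σ f) d := by
  have hm : 0 < m := Nat.pos_of_ne_zero (NeZero.ne m)
  have hg0 : gal σ f ≠ 0 := (map_ne_zero_iff _ (gal σ).injective).mpr h.1
  have hgd : K.Div m (gal σ f) := K.div_gal σ h.2.1
  obtain ⟨a, b, H, ha, hb, e, hH⟩ := hRoot (gal σ f) hg0 hgd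
  obtain ⟨d, hd⟩ := exists_chi Γ m (rootChar hH hm ha hb) (rootChar_pow hH hm ha hb)
    (fun γ hγ => Units.ext (by
      rw [rootChar_apply, Units.val_one]
      exact hParEll (gal σ f) a b H hg0 hgd ha hb e hH γ hγ))
  exact ⟨d, hg0, hgd, a, b, H, ha, hb, e, hH, fun γ => by rw [hd γ, rootChar_apply]⟩

/-- Field `ex`: every character is the Kummer character of a function. -/
theorem krel_ex (hSurj : K.Surj m) (c : AG Γ →+ ZMod m) : ∃ f : F, K.KRel m f c := by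
  obtain ⟨f, a, b, H, hf0, hfd, ha, hb, e, hH, hχ⟩ := hSurj (chiHom Γ m c)
    (fun γ => Units.ext (by
      rw [Units.val_pow_eq_pow_val, chiHom_apply, chi_pow, Units.val_one]))
    (fun γ hγ => Units.ext (by rw [chiHom_apply, chi_parEll Γ m c hγ, Units.val_one]))
  exact ⟨f, hf0, hfd, a, b, H, ha, hb, e, hH, fun γ => by rw [hχ γ, chiHom_apply]⟩

/-! ### Operator pairs -/

/-- **Operator pairs of transfer type** (Hecke operators).  Let `ω` be a transfer on `A_Γ`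
(`ω [γ] = ∑ₓ [coc γ x]`) and `T` an operator on `F` preserving `m ∣ div` such that the root of
`T f` has multiplier `γ ↦ ∏ₓ mult (coc γ x) H` (`H` the root of `f`).  Then
`K.KRel m f c → K.KRel m (T f) (c ∘ ω)`. -/
theorem krel_transfer {X : Type*} [Fintype X] (coc : Γ → X → Γ) (ω : AG Γ →+ AG Γ)
    (hω : ∀ γ : Γ, ω (proj Γ (Additive.ofMul γ)) = ∑ x, proj Γ (Additive.ofMul (coc γ x)))
    (T : F → F) (hdiv : ∀ f : F, f ≠ 0 → K.Div m f → K.Div m (T f))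
    (hroot : ∀ (f : F) (a b : K.A0) (H : HolH), a ≠ 0 → b ≠ 0 → f * K.ι b = K.ι a →
      K.IsRoot m a b H →
      ∃ (a' b' : K.A0) (H' : HolH), a' ≠ 0 ∧ b' ≠ 0 ∧ T f * K.ι b' = K.ι a' ∧
        K.IsRoot m a' b' H' ∧
        ∀ γ : Γ, mult (γ : SL(2, ℤ)) H' = ∏ x, mult ((coc γ x : Γ) : SL(2, ℤ)) H)
    {f : F} {c : AG Γ →+ ZMod m} (h : K.KRel m f c) : K.KRel m (T f) (c.comp ω) := by
  obtain ⟨hf0, hfd, a, b, H, ha, hb, e, r, χ⟩ := h
  obtain ⟨a', b', H', ha', hb', e', r', χ'⟩ := hroot f a b H ha hb e r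
  have hT0 : T f ≠ 0 := by
    intro h0
    rw [h0, zero_mul] at e'
    exact K.iota_ne_zero ha' e'.symm
  refine ⟨hT0, hdiv f hf0 hfd, a', b', H', ha', hb', e', r', fun γ => ?_⟩
  rw [χ' γ, chi_comp_transfer Γ m coc ω hω c γ]
  exact Finset.prod_congr rfl fun x _ => χ _

/-- **The root of `T f`** for a multiplicative operator `T` on `F` which is computed on `ℍ` by a
multiplicative operator `hk` on holomorphic functions satisfying the multiplier law
(`compSL_prod_comp`): the input `hroot` of `krel_transfer`. -/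
theorem exists_isRoot_hecke {X : Type*} [Fintype X] (coc : Γ → X → Γ)
    (T : F → F) (hT1 : T 1 = 1) (hTmul : ∀ f g : F, T (f * g) = T f * T g)
    (hk : HolH →* HolH)
    (hmult : ∀ H : HolH, (∀ γ ∈ Γ, IsEig γ H) → ∀ γ : Γ,
      compSL (γ : SL(2, ℤ)) (hk H)
        = algebraMap ℂ HolH (∏ x, mult ((coc γ x : Γ) : SL(2, ℤ)) H) * hk H)
    (hθ : ∀ a a₁ b₁ : K.A0, K.ι a₁ = T (K.ι a) * K.ι b₁ → K.θ a₁ = hk (K.θ a) * K.θ b₁)
    (f : F) (a b : K.A0) (H : HolH) (ha : a ≠ 0) (hb : b ≠ 0) (e : f * K.ι b = K.ι a)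
    (h : K.IsRoot m a b H) :
    ∃ (a' b' : K.A0) (H' : HolH), a' ≠ 0 ∧ b' ≠ 0 ∧ T f * K.ι b' = K.ι a' ∧
      K.IsRoot m a' b' H' ∧
      ∀ γ : Γ, mult (γ : SL(2, ℤ)) H' = ∏ x, mult ((coc γ x : Γ) : SL(2, ℤ)) H := by
  have hm : 0 < m := Nat.pos_of_ne_zero (NeZero.ne m)
  have hTne : ∀ g : F, g ≠ 0 → T g ≠ 0 := by
    intro g hg h0
    have h1 : T g * T g⁻¹ = 1 := by rw [← hTmul, mul_inv_cancel₀ hg, hT1]
    rw [h0, zero_mul] at h1
    exact zero_ne_one h1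
  have hTa := hTne _ (K.iota_ne_zero ha)
  have hTb := hTne _ (K.iota_ne_zero hb)
  obtain ⟨a₁, b₁, ha₁, hb₁, e₁⟩ := K.exists_frac hTa
  obtain ⟨a₂, b₂, ha₂, hb₂, e₂⟩ := K.exists_frac hTb
  have t₁ : K.θ a₁ = hk (K.θ a) * K.θ b₁ := hθ a a₁ b₁ e₁.symm
  have t₂ : K.θ a₂ = hk (K.θ b) * K.θ b₂ := hθ b a₂ b₂ e₂.symm
  have hne1 : a₁ * b₂ ≠ 0 := mul_ne_zero ha₁ hb₂
  have hne2 : b₁ * a₂ ≠ 0 := mul_ne_zero hb₁ ha₂
  have hroot : K.IsRoot m (a₁ * b₂) (b₁ * a₂) (hk H * K.θ b₁ * K.θ b₂) := by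
    have h0 : H ^ m = K.θ a * K.θ b ^ (m - 1) := h
    have hX : hk H ^ m = hk (K.θ a) * hk (K.θ b) ^ (m - 1) := by
      rw [← map_pow, h0, map_mul, map_pow]
    show (hk H * K.θ b₁ * K.θ b₂) ^ m = K.θ (a₁ * b₂) * K.θ (b₁ * a₂) ^ (m - 1)
    obtain ⟨k, rfl⟩ : ∃ k, m = k + 1 := ⟨m - 1, (Nat.sub_add_cancel hm).symm⟩
    rw [Nat.add_sub_cancel] at hX ⊢
    rw [map_mul, map_mul, t₁, t₂]
    linear_combination (K.θ b₁ * K.θ b₂) ^ (k + 1) * hX
  refine ⟨a₁ * b₂, b₁ * a₂, hk H * K.θ b₁ * K.θ b₂, hne1, hne2, ?_, hroot, fun γ => ?_⟩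
  · have e3 : T f * T (K.ι b) = T (K.ι a) := by rw [← hTmul, e]
    rw [map_mul, map_mul, ← e₁, ← e₂, ← e3]
    ring
  · have hH' : hk H * K.θ b₁ * K.θ b₂ ≠ 0 := hroot.ne_zero hm hne1 hne2
    apply mult_eq_of_eq hH'
    rw [map_mul, map_mul, K.inv γ γ.2, K.inv γ γ.2,
      hmult H (fun γ' hγ' => h.isEig hm hγ') γ]
    ring

/-- **Operator pairs of conjugation type** (diamond operators).  Let `s ∈ SL(2, ℤ)` normalise
`Γ` (`cj γ = s γ s⁻¹`), let `ω` be induced by `cj` on `A_Γ`, and let `D` be a multiplicative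
operator on `F` which on good functions is composition with `s` (`D0`).  Then
`K.KRel m f c → K.KRel m (D f) (c ∘ ω)`: the root of `D f` is `H ∘ s`, with multiplier
`γ ↦ mult (s γ s⁻¹) H`.  No root brick is needed. -/
theorem krel_conj (s : SL(2, ℤ)) (cj : Γ → Γ)
    (hcj : ∀ γ : Γ, ((cj γ : Γ) : SL(2, ℤ)) = s * (γ : SL(2, ℤ)) * s⁻¹)
    (ω : AG Γ →+ AG Γ)
    (hω : ∀ γ : Γ, ω (proj Γ (Additive.ofMul γ)) = proj Γ (Additive.ofMul (cj γ)))
    (D : F → F) (hDmul : ∀ f g : F, D (f * g) = D f * D g)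
    (D0 : K.A0 → K.A0) (hDι : ∀ x : K.A0, K.ι (D0 x) = D (K.ι x))
    (hDθ : ∀ x : K.A0, K.θ (D0 x) = compSL s (K.θ x))
    (hdiv : ∀ f : F, f ≠ 0 → K.Div m f → K.Div m (D f))
    {f : F} {c : AG Γ →+ ZMod m} (h : K.KRel m f c) : K.KRel m (D f) (c.comp ω) := by
  have hm : 0 < m := Nat.pos_of_ne_zero (NeZero.ne m)
  obtain ⟨hf0, hfd, a, b, H, ha, hb, e, r, χ⟩ := h
  have hD0 : ∀ x : K.A0, x ≠ 0 → D0 x ≠ 0 := by
    intro x hx h0
    have h1 := hDθ x
    rw [h0, map_zero] at h1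
    exact compSL_ne_zero s (K.theta_ne_zero hx) h1.symm
  have e' : D f * K.ι (D0 b) = K.ι (D0 a) := by
    rw [hDι, hDι, ← hDmul, e]
  have hDf0 : D f ≠ 0 := by
    intro h0
    rw [h0, zero_mul] at e'
    exact K.iota_ne_zero (hD0 a ha) e'.symm
  have r' : K.IsRoot m (D0 a) (D0 b) (compSL s H) := by
    have r0 : H ^ m = K.θ a * K.θ b ^ (m - 1) := r
    show compSL s H ^ m = K.θ (D0 a) * K.θ (D0 b) ^ (m - 1)
    rw [hDθ, hDθ, ← map_pow, ← map_pow, ← map_mul, r0]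
  refine ⟨hDf0, hdiv f hf0 hfd, D0 a, D0 b, compSL s H, hD0 a ha, hD0 b hb, e', r',
    fun γ => ?_⟩
  have hH : H ≠ 0 := r.ne_zero hm ha hb
  have hmem : s * (γ : SL(2, ℤ)) * s⁻¹ ∈ Γ := by
    rw [← hcj γ]
    exact (cj γ).2
  rw [mult_conj s (γ : SL(2, ℤ)) hH (r.isEig hm hmem), chi_comp_map Γ m cj ω hω c γ, ← χ (cj γ),
    hcj γ]

end Bricks

/-! ### The Kummer pairing -/

variable (K)

/-- **The Kummer pairing of an analytic model**, from the bricks `Root`, `ParEll`, `Inj`, `Surj`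
(at the exponents `p ^ n`) and `Cont`.  By construction `A = AG Γ` and
`R n f c = K.KRel (p ^ n) f c`. -/
def pairing [Γ.FiniteIndex] (p : ℕ) [Fact p.Prime]
    (hRoot : ∀ n : ℕ, K.Root (p ^ n)) (hParEll : ∀ n : ℕ, K.ParEll (p ^ n))
    (hInj : ∀ n : ℕ, K.Inj (p ^ n)) (hSurj : ∀ n : ℕ, K.Surj (p ^ n)) (hCont : K.Cont) :
    KummerPairing p F gal where
  A := AG Γ
  fg := fg_AG Γ
  R n f c := K.KRel (p ^ n) f c
  ne_zero h := h.1
  ex n c := krel_ex (hSurj n) c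
  mul hf hg := krel_mul hf hg
  uniq hc hd := krel_uniq hc hd
  inj h := krel_inj (hInj _) h
  pow _ _ hg := krel_pow hg
  red h := krel_red h
  gal_one := K.gal_one
  gal_mul := K.gal_mul
  stable σ _ _ _ h := krel_gal (hRoot _) (hParEll _) σ h
  cont := hCont

@[simp] theorem pairing_A [Γ.FiniteIndex] (p : ℕ) [Fact p.Prime]
    (hRoot : ∀ n : ℕ, K.Root (p ^ n)) (hParEll : ∀ n : ℕ, K.ParEll (p ^ n))
    (hInj : ∀ n : ℕ, K.Inj (p ^ n)) (hSurj : ∀ n : ℕ, K.Surj (p ^ n)) (hCont : K.Cont) :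
    (K.pairing p hRoot hParEll hInj hSurj hCont).A = AG Γ := rfl

theorem pairing_R [Γ.FiniteIndex] (p : ℕ) [Fact p.Prime]
    (hRoot : ∀ n : ℕ, K.Root (p ^ n)) (hParEll : ∀ n : ℕ, K.ParEll (p ^ n))
    (hInj : ∀ n : ℕ, K.Inj (p ^ n)) (hSurj : ∀ n : ℕ, K.Surj (p ^ n)) (hCont : K.Cont)
    (n : ℕ) (f : F) (c : AG Γ →+ ZMod (p ^ n)) :
    (K.pairing p hRoot hParEll hInj hSurj hCont).R n f c ↔ K.KRel (p ^ n) f c := Iff.rfl

end Model

end Fermat.Agent.S48.G1.Glue1
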