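/-
PROGRAM DS (S48), part G1 — THE DEGENERATE LEVELS (helper200).

`G1/Contract.lean` asks `ProducerExit` at EVERY level `M ≥ 1`.  The function field `F1 M` of
ruling R1 (`G1/F1/Defs.lean`) is the field of `Γ₁(M)`-invariant functions only for `M ≥ 2`:
for `M = 1` the only unit is `b = 0`, `eeSeries 1 0 = ∑ σ₃(n) qⁿ = (E₄ - 1) / 240` has the
"constant term" of `E₄` missing and `gq 1 0 = (E₄³ - E₄²) / (240 Δ)` is NOT a modular function
(`E₄² / Δ` has weight `-4`), so `F1Q 1 = ℚ(j, E₄²/Δ)` has transcendence degree `2`.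
Every brick about `F1 M` therefore needs `2 ≤ M` (or `1 < M`), and the producer has to treat
`M = 1` separately.  This file makes that case (and `M = 2`) a one-liner:

* `nonempty_es1Data_of_forall_eq_zero` : if `V = 0` then `ES1Data M p T Dm` is inhabited
  (rank `r = 0`), for ANY operator families `T`, `Dm`;
* `cuspForm_gamma1_one_eq_zero` : `S₂(Γ₁(1)) = 0` (from `S08`);
* `cuspForm_gamma1_two_eq_zero` : `S₂(Γ₁(2)) = 0` (from `S07`, `Γ₁(2) = Γ₀(2)`);
* `nonempty_es1Data_one`, `nonempty_es1Data_two` : the two instances, for any `T`, `Dm`.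
-/
import Mathlib
import Fermat.Agent.S48.G1.Contract
import Fermat.Agent.S07
import Fermat.Agent.S08

set_option autoImplicit false

open CongruenceSubgroup
open scoped MatrixGroups

namespace Fermat.Agent.S48.G1.SmallLevel

/-- **Trivial Eichler–Shimura data**: if the space `V` is zero, the rank-`0` lattice works,
whatever the operator families are. -/
theorem nonempty_es1Data_of_forall_eq_zero (M p : ℕ) [NeZero M] [Fact p.Prime]
    {V : Type} [AddCommGroup V] [Module ℂ V] (T : ℕ → Module.End ℂ V)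
    (Dm : (ZMod M)ˣ → Module.End ℂ V) (hV : ∀ v : V, v = 0) :
    Nonempty (ES1Data M p T Dm) := by
  refine ⟨{
    r := 0
    t := fun _ => 0
    d := 1
    ρ := 1
    t_comm := fun _ _ => Subsingleton.elim _ _
    td_comm := fun _ _ => Subsingleton.elim _ _
    d_neg_one := rfl
    ρ_comm_t := fun _ _ => Subsingleton.elim _ _
    ρ_comm_d := fun _ _ => Subsingleton.elim _ _
    cont := fun _ => ⟨⊥, inferInstance, fun _ _ i => Fin.elim0 i⟩
    unr := fun _ _ _ _ _ _ _ _ => rfl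
    es := fun _ _ _ _ _ _ _ _ _ _ => Subsingleton.elim _ _
    occ := ⟨0, ?_, fun _ _ _ _ _ => Subsingleton.elim _ _, fun _ _ => Subsingleton.elim _ _⟩ }⟩
  intro v w _
  rw [hV v, hV w]

theorem gamma1_one_eq_top : (Gamma1 1 : Subgroup SL(2, ℤ)) = ⊤ := by
  ext A
  simp only [Gamma1_mem, Subgroup.mem_top, iff_true]
  exact ⟨Subsingleton.elim _ _, Subsingleton.elim _ _, Subsingleton.elim _ _⟩

theorem gamma1_one_eq :
    ((Gamma1 1 : Subgroup SL(2, ℤ)) : Subgroup (GL (Fin 2) ℝ)) = 𝒮ℒ := by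
  rw [gamma1_one_eq_top, MonoidHom.range_eq_map]

/-- `S₂(Γ₁(1)) = 0`. -/
theorem cuspForm_gamma1_one_eq_zero (f : CuspForm (Gamma1 1) 2) : f = 0 :=
  Fermat.Agent.S08.cuspForm_eq_zero_of_eq gamma1_one_eq f

theorem gamma1_two_eq_gamma0_two : (Gamma1 2 : Subgroup SL(2, ℤ)) = Gamma0 2 := by
  refine le_antisymm (Gamma1_in_Gamma0 2) ?_
  intro A hA
  rw [Gamma0_mem] at hA
  rw [Gamma1_mem]
  have hdet : A.1 0 0 * A.1 1 1 - A.1 0 1 * A.1 1 0 = 1 := by
    have h := A.2
    rw [Matrix.det_fin_two] at h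
    exact h
  have hdet2 : ((A.1 0 0 : ℤ) : ZMod 2) * ((A.1 1 1 : ℤ) : ZMod 2) = 1 := by
    have h := congrArg (Int.cast : ℤ → ZMod 2) hdet
    push_cast at h
    rw [hA, mul_zero, sub_zero] at h
    exact h
  have key : ∀ x y : ZMod 2, x * y = 1 → x = 1 ∧ y = 1 := by decide
  obtain ⟨h1, h2⟩ := key _ _ hdet2
  exact ⟨h1, h2, hA⟩

/-- `S₂(Γ₁(2)) = 0`. -/
theorem cuspForm_gamma1_two_eq_zero (f : CuspForm (Gamma1 2) 2) : f = 0 := by
  have key : ∀ (Γ : Subgroup SL(2, ℤ)), Γ = Gamma0 2 → ∀ g : CuspForm Γ 2, g = 0 := by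
    intro Γ hΓ g
    subst hΓ
    exact Fermat.Agent.S07.result g
  exact key _ gamma1_two_eq_gamma0_two f

/-- The producer exit at level `1`, for any operator families. -/
theorem nonempty_es1Data_one (p : ℕ) [Fact p.Prime]
    (T : ℕ → Module.End ℂ (CuspForm (Gamma1 1) 2))
    (Dm : (ZMod 1)ˣ → Module.End ℂ (CuspForm (Gamma1 1) 2)) :
    Nonempty (ES1Data 1 p T Dm) :=
  nonempty_es1Data_of_forall_eq_zero 1 p T Dm cuspForm_gamma1_one_eq_zero

/-- The producer exit at level `2`, for any operator families. -/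
theorem nonempty_es1Data_two (p : ℕ) [Fact p.Prime]
    (T : ℕ → Module.End ℂ (CuspForm (Gamma1 2) 2))
    (Dm : (ZMod 2)ˣ → Module.End ℂ (CuspForm (Gamma1 2) 2)) :
    Nonempty (ES1Data 2 p T Dm) :=
  nonempty_es1Data_of_forall_eq_zero 2 p T Dm cuspForm_gamma1_two_eq_zero

end Fermat.Agent.S48.G1.SmallLevel
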