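/-
PROGRAM DS (S48) / G1 — THE `Inj` BRICK FROM THE RATIONALITY PRINCIPLE (helper162).

`Inj`: a `Γ`-invariant holomorphic `m`-th root of a good function lies in the function field.
Generic twin of `S30/RootGood.{root_good, exists_pow_eq_of_invariant}`; the only input about the
function field is the RATIONALITY PRINCIPLE (exit (I4) `mem_F1_of_invariant` of area F.2):

  `hmem` : every `Γ`-invariant holomorphic function of moderate growth at the cusps
           (`S24.Degree.cuspMod`) with a `q`-expansion over `L` has its `q`-expansion in `F`.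

No expansion at any other cusp and no `QExpSys` is needed: the root `H` of `φ`
* is `1`-periodic (`T ∈ Γ`), hence has a `q`-expansion over `L` (`S30.RootQExp.hasQExpK_root`,
  `L` algebraically closed), whose `m`-th power is the expansion of `φ`;
* has moderate growth at every cusp because `H ^ m = φ` has (`mem_cuspMod_of_pow`).

Exits:
* `mem_cuspMod_of_pow` : `H ^ k ∈ cuspMod → H ∈ cuspMod`;
* `exists_pow_eq`      : generic statement (any `Γ ∋ T`, any subset `F` of `L((q))`);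
* `inj_of_mem`         : the brick `K.Inj m` of a `Glue1.Model` over a field
                         `F ⊆ L((q))` whose good functions have `q`-expansions;
* `inj1_of_mem`        : the brick `Bricks1.Inj1 O` at level `Γ₁(M)`.
-/
import Mathlib
import Fermat.Agent.S30.RootQExp
import Fermat.Agent.S24.Degree.Growth
import Fermat.Agent.S24.Theta
import Fermat.Agent.S48.G1.Glue1
import Fermat.Agent.S48.G1.Producer1.Bricks1

set_option autoImplicit false
set_option linter.dupNamespace false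

noncomputable section

open scoped MatrixGroups Manifold
open UpperHalfPlane CongruenceSubgroup
open Fermat.Agent.S24.HolH Fermat.Agent.S24.Theta Fermat.Agent.S24.Degree

namespace Fermat.Agent.S48.G1.InjGen

local notation "𝕢" => Function.Periodic.qParam

/-! ### Moderate growth passes to roots -/

theorem modAt_of_pow {f : ℍ → ℂ} {k : ℕ} (hk : 0 < k) (h : ModAt (fun τ => f τ ^ k)) :
    ModAt f := by
  obtain ⟨n, hn⟩ := h
  rw [UpperHalfPlane.isBoundedAtImInfty_iff] at hn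
  obtain ⟨C, A, hCA⟩ := hn
  refine ⟨n, ?_⟩
  rw [UpperHalfPlane.isBoundedAtImInfty_iff]
  refine ⟨max C 1, A, fun z hz => ?_⟩
  have h1 : ‖𝕢 1 (z : ℂ) ^ n * f z ^ k‖ ≤ C := hCA z hz
  have hq : ‖𝕢 1 (z : ℂ)‖ ≤ 1 := norm_qParam_le_one z
  have hak : ‖𝕢 1 (z : ℂ) ^ n * f z‖ ^ k ≤ C := by
    have e : (𝕢 1 (z : ℂ) ^ n * f z) ^ k
        = (𝕢 1 (z : ℂ) ^ n) ^ (k - 1) * (𝕢 1 (z : ℂ) ^ n * f z ^ k) := by
      obtain ⟨j, rfl⟩ : ∃ j, k = j + 1 := ⟨k - 1, (Nat.sub_add_cancel hk).symm⟩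
      rw [Nat.add_sub_cancel]
      ring
    have h2 : ‖(𝕢 1 (z : ℂ) ^ n) ^ (k - 1)‖ ≤ 1 := by
      rw [norm_pow, norm_pow]
      exact pow_le_one₀ (pow_nonneg (norm_nonneg _) _) (pow_le_one₀ (norm_nonneg _) hq)
    calc ‖𝕢 1 (z : ℂ) ^ n * f z‖ ^ k = ‖(𝕢 1 (z : ℂ) ^ n * f z) ^ k‖ := (norm_pow _ _).symm
      _ = ‖(𝕢 1 (z : ℂ) ^ n) ^ (k - 1)‖ * ‖𝕢 1 (z : ℂ) ^ n * f z ^ k‖ := by rw [e, norm_mul]
      _ ≤ 1 * C := mul_le_mul h2 h1 (norm_nonneg _) zero_le_one
      _ = C := one_mul _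
  by_contra hlt
  rw [not_le] at hlt
  have h1a : 1 < ‖𝕢 1 (z : ℂ) ^ n * f z‖ := lt_of_le_of_lt (le_max_right C 1) hlt
  have hCa : C < ‖𝕢 1 (z : ℂ) ^ n * f z‖ := lt_of_le_of_lt (le_max_left C 1) hlt
  have h3 : ‖𝕢 1 (z : ℂ) ^ n * f z‖ ≤ ‖𝕢 1 (z : ℂ) ^ n * f z‖ ^ k :=
    le_self_pow₀ h1a.le hk.ne'
  linarith

theorem coe_pow_apply' (H : HolH) (k : ℕ) (τ : ℍ) :
    ((H ^ k : HolH) : ℍ → ℂ) τ = (H : ℍ → ℂ) τ ^ k := by
  rw [SubmonoidClass.coe_pow, Pi.pow_apply]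

/-- A holomorphic function one of whose powers has moderate growth at all cusps has moderate
growth at all cusps. -/
theorem mem_cuspMod_of_pow {H : HolH} {k : ℕ} (hk : 0 < k) (h : H ^ k ∈ cuspMod) :
    H ∈ cuspMod := by
  intro g
  refine modAt_of_pow hk ((h g).congr fun τ => ?_)
  rw [coe_pow_apply']

/-- `T`-invariance is `1`-periodicity. -/
theorem apply_vadd_of_compSL_T {H : HolH} (h : compSL ModularGroup.T H = H) (τ : ℍ) :
    (H : ℍ → ℂ) ((1 : ℝ) +ᵥ τ) = (H : ℍ → ℂ) τ := by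
  have h1 := congrArg (fun φ : HolH => (φ : ℍ → ℂ) τ) h
  rw [← UpperHalfPlane.modular_T_smul]
  simpa using h1

/-! ### The generic statement -/

/-- **Invariant holomorphic roots are rational.**  Let `Γ ∋ T`, and let `F` be a set of Laurent
series over an algebraically closed field `L` containing the `q`-expansion of every
`Γ`-invariant holomorphic function of moderate growth with an expansion over `L`.  If `φ` has the
expansion `x`, moderate growth, and a `Γ`-invariant holomorphic `m`-th root `H`, then `H` has an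
expansion `y ∈ F` with `y ^ m = x`. -/
theorem exists_pow_eq {L : Type*} [Field L] [IsAlgClosed L] [CharZero L] (ι : L →+* ℂ)
    (Γ : Subgroup SL(2, ℤ)) (hT : ModularGroup.T ∈ Γ) (F : Set (LaurentSeries L))
    (hmem : ∀ (f : LaurentSeries L) (φ : HolH), HasQ ι f (φ : ℍ → ℂ) →
      (∀ γ : SL(2, ℤ), γ ∈ Γ → compSL γ φ = φ) → φ ∈ cuspMod → f ∈ F)
    {m : ℕ} (hm : 0 < m) {x : LaurentSeries L} {φ : HolH} (hx : HasQ ι x (φ : ℍ → ℂ))
    (hφ : φ ∈ cuspMod) {H : HolH} (hH : H ^ m = φ)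
    (hinv : ∀ γ : SL(2, ℤ), γ ∈ Γ → compSL γ H = H) :
    ∃ y : LaurentSeries L, y ∈ F ∧ y ^ m = x ∧ HasQ ι y (H : ℍ → ℂ) := by
  have hper : ∀ τ : ℍ, (H : ℍ → ℂ) (((1 : ℕ) : ℝ) +ᵥ τ) = (H : ℍ → ℂ) τ := by
    intro τ
    rw [Nat.cast_one]
    exact apply_vadd_of_compSL_T (hinv _ hT) τ
  have hB : Fermat.Agent.S24.QB.HasQExpK ι 1 x (fun τ => (H : ℍ → ℂ) τ ^ m) := by
    refine (hasQ_iff_hasQExpK.mp hx).congr fun τ => ?_
    rw [← hH, coe_pow_apply']
  obtain ⟨y, hy, hym⟩ := Fermat.Agent.S30.RootQExp.hasQExpK_root ι one_ne_zero hm.ne' H.2 hper hB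
  have hyQ : HasQ ι y (H : ℍ → ℂ) := hasQ_iff_hasQExpK.mpr hy
  have hHc : H ∈ cuspMod := mem_cuspMod_of_pow hm (by rw [hH]; exact hφ)
  exact ⟨y, hmem y H hyQ hinv hHc, hym, hyQ⟩

/-! ### The brick `Inj` of a model -/

open Fermat.Agent.S30 Fermat.Agent.S48.G1.Glue1

/-- **The brick `K.Inj m`** for an analytic model of a field `F ⊆ L((q))` whose good functions
have `q`-expansions and moderate growth, from the rationality principle `hmem`. -/
theorem inj_of_mem {L : Type} [Field L] [IsAlgClosed L] [CharZero L] (ι : L →+* ℂ)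
    {Γ : Subgroup SL(2, ℤ)} (hT : ModularGroup.T ∈ Γ)
    {F : IntermediateField L (LaurentSeries L)} {gal : GQ → F ≃+* F} (K : Model Γ F gal)
    (hq : ∀ x : K.A0, HasQ ι ((K.ι x : F) : LaurentSeries L) ((K.θ x : HolH) : ℍ → ℂ))
    (hcusp : ∀ x : K.A0, K.θ x ∈ cuspMod)
    (hmem : ∀ (f : LaurentSeries L) (φ : HolH), HasQ ι f (φ : ℍ → ℂ) →
      (∀ γ : SL(2, ℤ), γ ∈ Γ → compSL γ φ = φ) → φ ∈ cuspMod → f ∈ F)
    (m : ℕ) (hm : 0 < m) : K.Inj m := by
  intro x H hH hinv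
  obtain ⟨y, hyF, hym, -⟩ := exists_pow_eq ι Γ hT (F : Set (LaurentSeries L)) hmem hm (hq x)
    (hcusp x) hH hinv
  exact ⟨⟨y, hyF⟩, Subtype.ext hym⟩

/-! ### The brick `Inj1` at level `Γ₁(M)` -/

open Fermat.Agent.S48.G1.F1 Fermat.Agent.S48.G1.Producer1

/-- `T ∈ Γ₁(M)`. -/
theorem T_mem_Gamma1 (M : ℕ) : ModularGroup.T ∈ Gamma1 M := by
  rw [Gamma1_mem]
  simp [ModularGroup.T]

/-- **The brick `Bricks1.Inj1`** from the rationality principle for `F1 M` (exit (I4) of area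
F.2) and moderate growth of the avatars (exit (I2)). -/
theorem inj1_of_mem {M : ℕ} (O : Objs M)
    (hcusp : ∀ x : A01 M, O.θ x ∈ cuspMod)
    (hmem : ∀ (f : LaurentSeries Qb) (φ : HolH), HasQ iotaBar f (φ : ℍ → ℂ) →
      (∀ γ : SL(2, ℤ), γ ∈ Gamma1 M → compSL γ φ = φ) → φ ∈ cuspMod → f ∈ F1 M) :
    Bricks1.Inj1 O := by
  intro m hm x H hH hinv
  obtain ⟨y, hyF, hym, -⟩ := exists_pow_eq iotaBar (Gamma1 M) (T_mem_Gamma1 M)
    ((F1 M : IntermediateField Qb (LaurentSeries Qb)) : Set (LaurentSeries Qb)) hmem hm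
    (O.hasQ x) (hcusp x) hH hinv
  exact ⟨⟨y, hyF⟩, Subtype.ext hym⟩

end Fermat.Agent.S48.G1.InjGen
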