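import Fermat.Agent.S48.G1.XRootGen

set_option autoImplicit false
set_option linter.dupNamespace false

/-!
# G1 (S48): the function field of a generic subgroup is `ℂ(j, θ)` for a separating good `θ`

`G ≤ SL(2, ℤ)` with `Γ(M) ≤ G`, in the vocabulary of `S48/G1/DescentGen.lean`.

A good series `θ` is *separating* if every `γ ∈ SL(2, ℤ)` fixing its avatar fixes the avatars of
all good series (`Sep`).  Then, by Lagrange interpolation over the finite set of
`SL(2, ℤ)`-translates of the avatar of `θ` (the coefficients of the interpolation polynomials are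
`SL(2, ℤ)`-invariant with expansions, hence polynomials in `j`):

* `exists_frac_of_sep`: every good `f` is `p / q` with `p, q ∈ ℂ[j, θ]`;
* `fracG_eq_adjoin_pair`: `FracG G M = ℂ(j, θ)`;
* `exists_monic_root`: `θ` is a root of a monic polynomial over `ℂ[j]` of degree the number of
  translates;
* `finite_fracG`, `finrank_fracG_le`: `FracG G M` is finite over `ℂ(j)` of degree at most the
  number of translates.
-/

noncomputable section

open UpperHalfPlane ModularCurve CongruenceSubgroup IntermediateField Polynomial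
open Fermat.Agent.S24.HolH Fermat.Agent.S24 Fermat.Agent.Lib
open Fermat.Agent.S24.JFun Fermat.Agent.S24.JHol
open Fermat.Agent.S48.G1.DescentGen Fermat.Agent.S48.G1.XRootGen
open scoped MatrixGroups Manifold

namespace Fermat.Agent.S48.G1.PrimGen

/-! ### Lagrange interpolation over a finite set of elements of a commutative ring -/

section Interp

variable {R : Type*} [CommRing R] [DecidableEq R]

/-- The interpolation polynomial `∑ t ∈ Θ, F t · ∏ s ∈ Θ \ {t}, (X - s)`. -/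
def interp (Θ : Finset R) (F : R → R) : R[X] :=
  ∑ t ∈ Θ, C (F t) * ∏ s ∈ Θ.erase t, (X - C s)

theorem interp_eval (Θ : Finset R) (F : R → R) {W : R} (hW : W ∈ Θ) :
    (interp Θ F).eval W = F W * ∏ s ∈ Θ.erase W, (W - s) := by
  unfold interp
  rw [eval_finsetSum, Finset.sum_eq_single W]
  · simp [eval_prod]
  · intro t _ htW
    rw [eval_mul, eval_prod]
    have h : W ∈ Θ.erase t := Finset.mem_erase.mpr ⟨Ne.symm htW, hW⟩
    rw [Finset.prod_eq_zero h (by simp), mul_zero]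
  · intro h
    exact absurd hW h

theorem interp_map (Θ : Finset R) (F : R → R) (σ : R →+* R) (hσ : Function.Injective σ)
    (hΘ : Θ.image σ = Θ) (hF : ∀ t ∈ Θ, σ (F t) = F (σ t)) :
    (interp Θ F).map σ = interp Θ F := by
  set g : R → R[X] := fun u => C (F u) * ∏ s ∈ Θ.erase u, (X - C s) with hg
  have key : ∀ t ∈ Θ, (C (F t) * ∏ s ∈ Θ.erase t, (X - C s)).map σ = g (σ t) := by
    intro t ht
    rw [hg]
    simp only
    rw [Polynomial.map_mul, map_C, Polynomial.map_prod, hF t ht]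
    congr 1
    have h1 : Θ.erase (σ t) = (Θ.erase t).image σ := by
      rw [Finset.image_erase hσ, hΘ]
    rw [h1, Finset.prod_image (fun a _ b _ h => hσ h)]
    refine Finset.prod_congr rfl fun s _ => ?_
    rw [Polynomial.map_sub, map_X, map_C]
  have h2 : interp Θ F = ∑ u ∈ Θ, g u := rfl
  rw [h2, Polynomial.map_sum, Finset.sum_congr rfl key]
  conv_rhs => rw [← hΘ]
  rw [Finset.sum_image (fun a _ b _ h => hσ h)]

theorem interp_coeff_mem (S : Subring R) (Θ : Finset R) (F : R → R) (hΘ : ∀ t ∈ Θ, t ∈ S)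
    (hF : ∀ t ∈ Θ, F t ∈ S) (k : ℕ) : (interp Θ F).coeff k ∈ S := by
  have hC : ∀ s ∈ S, (C s : R[X]) ∈ liftsRing S.subtype := by
    intro s hs
    rw [← lifts_iff_liftsRing]
    exact C'_mem_lifts ⟨⟨s, hs⟩, rfl⟩
  have hX : (X : R[X]) ∈ liftsRing S.subtype := by
    rw [← lifts_iff_liftsRing]
    exact X_mem_lifts _
  have h : interp Θ F ∈ liftsRing S.subtype := by
    unfold interp
    refine Subring.sum_mem _ fun t ht => Subring.mul_mem _ (hC _ (hF t ht)) ?_
    refine Subring.prod_mem _ fun s hs => Subring.sub_mem _ hX (hC _ (hΘ s ?_))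
    exact Finset.mem_of_mem_erase hs
  rw [← lifts_iff_liftsRing, lifts_iff_coeff_lifts] at h
  obtain ⟨x, hx⟩ := h k
  rw [← hx]
  exact x.2

theorem interp_monic (Θ : Finset R) [Nontrivial R] :
    (∏ t ∈ Θ, (X - C t) : R[X]).Monic ∧ (∏ t ∈ Θ, (X - C t) : R[X]).natDegree = Θ.card := by
  refine ⟨monic_prod_of_monic _ _ fun t _ => monic_X_sub_C t, ?_⟩
  rw [natDegree_prod_of_monic _ _ fun t _ => monic_X_sub_C t]
  simp

theorem prod_X_sub_C_map (Θ : Finset R) (σ : R →+* R) (hσ : Function.Injective σ)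
    (hΘ : Θ.image σ = Θ) : (∏ t ∈ Θ, (X - C t) : R[X]).map σ = ∏ t ∈ Θ, (X - C t) := by
  rw [Polynomial.map_prod]
  conv_rhs => rw [← hΘ]
  rw [Finset.prod_image (fun a _ b _ h => hσ h)]
  refine Finset.prod_congr rfl fun s _ => ?_
  rw [Polynomial.map_sub, map_X, map_C]

theorem prod_X_sub_C_coeff_mem (S : Subring R) (Θ : Finset R) (hΘ : ∀ t ∈ Θ, t ∈ S) (k : ℕ) :
    (∏ t ∈ Θ, (X - C t) : R[X]).coeff k ∈ S := by
  have hC : ∀ s ∈ S, (C s : R[X]) ∈ liftsRing S.subtype := by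
    intro s hs
    rw [← lifts_iff_liftsRing]
    exact C'_mem_lifts ⟨⟨s, hs⟩, rfl⟩
  have hX : (X : R[X]) ∈ liftsRing S.subtype := by
    rw [← lifts_iff_liftsRing]
    exact X_mem_lifts _
  have h : (∏ t ∈ Θ, (X - C t) : R[X]) ∈ liftsRing S.subtype :=
    Subring.prod_mem _ fun s hs => Subring.sub_mem _ hX (hC _ (hΘ s hs))
  rw [← lifts_iff_liftsRing, lifts_iff_coeff_lifts] at h
  obtain ⟨x, hx⟩ := h k
  rw [← hx]
  exact x.2

theorem prod_X_sub_C_eval (Θ : Finset R) {W : R} (hW : W ∈ Θ) :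
    (∏ t ∈ Θ, (X - C t) : R[X]).eval W = 0 := by
  rw [eval_prod]
  exact Finset.prod_eq_zero hW (by simp)

end Interp

/-! ### Evaluation of bivariate polynomials -/

section Ev2

variable {A B : Type*} [CommRing A] [Algebra ℂ A] [CommRing B] [Algebra ℂ B]

/-- Evaluation of `P ∈ ℂ[X][Y]` at `(x, y)`. -/
def ev2 (x y : A) (P : ℂ[X][X]) : A :=
  P.eval₂ ((aeval x : ℂ[X] →ₐ[ℂ] A) : ℂ[X] →+* A) y

theorem map_ev2 (φ : A →ₐ[ℂ] B) (x y : A) (P : ℂ[X][X]) :
    φ (ev2 x y P) = ev2 (φ x) (φ y) P := by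
  unfold ev2
  have h : (φ : A →+* B).comp ((aeval x : ℂ[X] →ₐ[ℂ] A) : ℂ[X] →+* A)
      = ((aeval (φ x) : ℂ[X] →ₐ[ℂ] B) : ℂ[X] →+* B) :=
    RingHom.ext fun p => (aeval_algHom_apply φ x p).symm
  rw [← h]
  exact hom_eval₂ P _ (φ : A →+* B) y

theorem ev2_mem_adjoin (x y : A) (P : ℂ[X][X]) : ev2 x y P ∈ Algebra.adjoin ℂ {x, y} := by
  unfold ev2
  rw [eval₂_eq_sum_range]
  refine Subalgebra.sum_mem _ fun k _ => Subalgebra.mul_mem _ ?_ (Subalgebra.pow_mem _ ?_ _)
  · have h1 : aeval x (P.coeff k) ∈ Algebra.adjoin ℂ {x} := aeval_mem_adjoin_singleton ℂ x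
    exact Algebra.adjoin_mono (by simp) h1
  · exact Algebra.subset_adjoin (by simp)

theorem ev2_eq_eval_map (x y : A) (P : ℂ[X][X]) :
    ev2 x y P = (P.map ((aeval x : ℂ[X] →ₐ[ℂ] A) : ℂ[X] →+* A)).eval y := by
  rw [eval_map]
  rfl

end Ev2

/-! ### Holomorphic functions all of whose translates have expansions -/

section Tr

variable (M : ℕ) [NeZero M]

/-- The holomorphic functions on `ℍ` all of whose `SL(2, ℤ)`-translates have
`q^(1/M)`-expansions. -/
def TrAlg : Subalgebra ℂ HolH where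
  carrier := {W | ∀ γ : SL(2, ℤ), ∃ B : LaurentSeries ℂ,
    QB.HasQExpK (RingHom.id ℂ) M B ((compSL γ W : HolH) : ℍ → ℂ)}
  mul_mem' := by
    intro W V hW hV γ
    obtain ⟨B, hB⟩ := hW γ
    obtain ⟨C, hC⟩ := hV γ
    refine ⟨B * C, ?_⟩
    rw [map_mul]
    exact (hB.mul hC).congr fun τ => rfl
  add_mem' := by
    intro W V hW hV γ
    obtain ⟨B, hB⟩ := hW γ
    obtain ⟨C, hC⟩ := hV γ
    refine ⟨B + C, ?_⟩
    rw [map_add]
    exact (hB.add hC).congr fun τ => rfl
  algebraMap_mem' := by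
    intro c γ
    refine ⟨algebraMap ℂ (LaurentSeries ℂ) c, ?_⟩
    rw [AlgHom.commutes]
    exact (QB.hasQExpK_algebraMap (RingHom.id ℂ) M c).congr fun τ => rfl

variable {M}

theorem mem_trAlg {W : HolH} : W ∈ TrAlg M ↔ ∀ γ : SL(2, ℤ), ∃ B : LaurentSeries ℂ,
    QB.HasQExpK (RingHom.id ℂ) M B ((compSL γ W : HolH) : ℍ → ℂ) := Iff.rfl

theorem compSL_mem_trAlg {W : HolH} (hW : W ∈ TrAlg M) (γ : SL(2, ℤ)) :
    compSL γ W ∈ TrAlg M := by
  intro δ
  obtain ⟨B, hB⟩ := hW (γ * δ)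
  refine ⟨B, ?_⟩
  rw [← compSL_mul]
  exact hB

theorem thetaG_mem_trAlg {G : Subgroup SL(2, ℤ)} (f : GoodG G M) : thetaG G M f ∈ TrAlg M :=
  fun γ => exists_has_compSL_thetaG G M γ f

/-- Evaluation at a point of `ℍ`. -/
def evalAt (τ : ℍ) : HolH →ₐ[ℂ] ℂ := (Pi.evalAlgHom ℂ (fun _ : ℍ => ℂ) τ).comp HolH.val

theorem evalAt_apply (τ : ℍ) (W : HolH) : evalAt τ W = (W : ℍ → ℂ) τ := rfl

/-- An `SL(2, ℤ)`-invariant holomorphic function with an expansion is a polynomial in `j`. -/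
theorem exists_aeval_of_inv {W : HolH} (hW : W ∈ TrAlg M)
    (hinv : ∀ γ : SL(2, ℤ), compSL γ W = W) : ∃ Q : ℂ[X], aeval jHol Q = W := by
  obtain ⟨B, hB⟩ := hW 1
  rw [compSL_one] at hB
  obtain ⟨Q, hQ, -⟩ := PolyJQExpK.exists_polynomial hB (fun γ τ =>
    congrArg (fun F : HolH => (F : ℍ → ℂ) τ) (hinv γ))
  refine ⟨Q, Subtype.ext (funext fun τ => ?_)⟩
  rw [hQ τ, Polynomial.map_id]
  have h := aeval_algHom_apply (evalAt τ) jHol Q
  rw [evalAt_apply, evalAt_apply] at h
  rw [← h]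
  rfl

end Tr

/-! ### The finite set of translates -/

section Orbit

variable {M : ℕ} [NeZero M]

/-- The set of `SL(2, ℤ)`-translates of `W`. -/
def orbitSet (W : HolH) : Set HolH := Set.range fun γ : SL(2, ℤ) => compSL γ W

theorem compSL_mem_orbitSet (W : HolH) (γ : SL(2, ℤ)) : compSL γ W ∈ orbitSet W := ⟨γ, rfl⟩

theorem self_mem_orbitSet (W : HolH) : W ∈ orbitSet W := ⟨1, compSL_one W⟩

/-- A `Γ(M)`-invariant function has finitely many translates. -/
theorem finite_orbitSet {W : HolH} (hinv : ∀ γ ∈ Gamma M, compSL γ W = W) :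
    (orbitSet W).Finite := by
  haveI : Finite (SL(2, ℤ) ⧸ Gamma M) := Subgroup.finite_quotient_of_finiteIndex
  have hfac : ∀ γ : SL(2, ℤ),
      compSL γ W = compSL (Quotient.out (QuotientGroup.mk γ : SL(2, ℤ) ⧸ Gamma M)) W := by
    intro γ
    set γ' := Quotient.out (QuotientGroup.mk γ : SL(2, ℤ) ⧸ Gamma M) with hγ'
    have h1 : (QuotientGroup.mk γ' : SL(2, ℤ) ⧸ Gamma M) = QuotientGroup.mk γ :=
      QuotientGroup.out_eq' _
    have h2 : γ'⁻¹ * γ ∈ Gamma M := QuotientGroup.eq.mp h1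
    have h3 : γ * γ'⁻¹ ∈ Gamma M := by
      have := (Gamma_normal M).conj_mem _ h2 γ'
      simpa [mul_assoc] using this
    have h4 : γ = (γ * γ'⁻¹) * γ' := by group
    conv_lhs => rw [h4]
    rw [compSL_mul, hinv _ h3]
  refine Set.Finite.subset
    (Set.finite_range fun q : SL(2, ℤ) ⧸ Gamma M => compSL (Quotient.out q) W) ?_
  rintro _ ⟨γ, rfl⟩
  exact ⟨QuotientGroup.mk γ, (hfac γ).symm⟩

/-- If every `γ` fixing `W` fixes `V`, then the translate of `V` is determined by the translate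
of `W`. -/
theorem compSL_eq_of_sep {W V : HolH} (hsep : ∀ γ : SL(2, ℤ), compSL γ W = W → compSL γ V = V)
    {γ γ' : SL(2, ℤ)} (h : compSL γ' W = compSL γ W) : compSL γ' V = compSL γ V := by
  have h1 : compSL (γ' * γ⁻¹) W = W := by
    rw [compSL_mul, h, compSL_inv_compSL]
  have h2 := hsep _ h1
  have h3 : γ' = (γ' * γ⁻¹) * γ := by group
  conv_lhs => rw [h3]
  rw [compSL_mul, h2]

/-- The translates of `W` permute a finite set `Θ` consisting of all translates. -/
theorem image_compSL_eq [DecidableEq HolH] {W : HolH} (Θ : Finset HolH)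
    (hmemΘ : ∀ t : HolH, t ∈ Θ ↔ ∃ γ : SL(2, ℤ), compSL γ W = t) (γ : SL(2, ℤ)) :
    Θ.image (compSL γ) = Θ := by
  ext t
  rw [Finset.mem_image]
  constructor
  · rintro ⟨s, hs, rfl⟩
    obtain ⟨δ, rfl⟩ := (hmemΘ s).mp hs
    exact (hmemΘ _).mpr ⟨δ * γ, compSL_mul δ γ W⟩
  · intro ht
    obtain ⟨δ, rfl⟩ := (hmemΘ t).mp ht
    refine ⟨compSL (δ * γ⁻¹) W, (hmemΘ _).mpr ⟨_, rfl⟩, ?_⟩
    rw [← compSL_mul, inv_mul_cancel_right]

theorem exists_interp_aux [DecidableEq HolH] {W V : HolH} (hW : W ∈ TrAlg M)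
    (hV : V ∈ TrAlg M) (Θ : Finset HolH)
    (hmemΘ : ∀ t : HolH, t ∈ Θ ↔ ∃ γ : SL(2, ℤ), compSL γ W = t)
    (hsep : ∀ γ : SL(2, ℤ), compSL γ W = W → compSL γ V = V) :
    ∃ P Q : ℂ[X][X], ev2 jHol W Q ≠ 0 ∧ V * ev2 jHol W Q = ev2 jHol W P := by
  have hWΘ : W ∈ Θ := (hmemΘ W).mpr ⟨1, compSL_one W⟩
  have himage := image_compSL_eq Θ hmemΘ
  -- the translate of `V` attached to a translate of `W`
  let F : HolH → HolH := fun t =>
    @dite _ (∃ γ : SL(2, ℤ), compSL γ W = t) (Classical.propDecidable _)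
      (fun h => compSL h.choose V) (fun _ => 0)
  have hF : ∀ γ : SL(2, ℤ), F (compSL γ W) = compSL γ V := by
    intro γ
    have h : ∃ γ' : SL(2, ℤ), compSL γ' W = compSL γ W := ⟨γ, rfl⟩
    have h1 : F (compSL γ W) = compSL h.choose V := dif_pos h
    rw [h1]
    exact compSL_eq_of_sep hsep h.choose_spec
  have hFW : F W = V := by
    have h := hF 1
    rwa [compSL_one, compSL_one] at h
  have hΘmem : ∀ t ∈ Θ, t ∈ (TrAlg M).toSubring := by
    intro t ht
    obtain ⟨δ, rfl⟩ := (hmemΘ t).mp ht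
    exact compSL_mem_trAlg hW δ
  have hFmem : ∀ t ∈ Θ, F t ∈ (TrAlg M).toSubring := by
    intro t ht
    obtain ⟨δ, rfl⟩ := (hmemΘ t).mp ht
    rw [hF]
    exact compSL_mem_trAlg hV δ
  have hFequiv : ∀ (γ : SL(2, ℤ)), ∀ t ∈ Θ, compSL γ (F t) = F (compSL γ t) := by
    intro γ t ht
    obtain ⟨δ, rfl⟩ := (hmemΘ t).mp ht
    rw [hF, ← compSL_mul, ← compSL_mul, hF]
  -- coefficients of interpolation polynomials are polynomials in `j`
  have hlift : ∀ F' : HolH → HolH, (∀ t ∈ Θ, F' t ∈ (TrAlg M).toSubring) →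
      (∀ (γ : SL(2, ℤ)), ∀ t ∈ Θ, compSL γ (F' t) = F' (compSL γ t)) →
      interp Θ F' ∈ lifts ((aeval jHol : ℂ[X] →ₐ[ℂ] HolH) : ℂ[X] →+* HolH) := by
    intro F' hF'mem hF'equiv
    rw [lifts_iff_coeff_lifts]
    intro k
    have hk : (interp Θ F').coeff k ∈ TrAlg M := interp_coeff_mem _ Θ F' hΘmem hF'mem k
    have hinv : ∀ γ : SL(2, ℤ), compSL γ ((interp Θ F').coeff k) = (interp Θ F').coeff k := by
      intro γ
      have h1 := interp_map Θ F' ((compSL γ : HolH →ₐ[ℂ] HolH) : HolH →+* HolH)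
        (compSL_injective γ) (himage γ) (hF'equiv γ)
      have h2 := congrArg (fun p : HolH[X] => p.coeff k) h1
      simp only [coeff_map] at h2
      exact h2
    obtain ⟨Q, hQ⟩ := exists_aeval_of_inv hk hinv
    exact ⟨Q, hQ⟩
  obtain ⟨P, hP⟩ := (mem_lifts _).mp (hlift F hFmem hFequiv)
  obtain ⟨Q, hQ⟩ := (mem_lifts _).mp (hlift (fun _ => 1) (fun _ _ => Subring.one_mem _)
    (fun γ _ _ => map_one _))
  have hd : ∏ s ∈ Θ.erase W, (W - s) ≠ 0 := by
    rw [Finset.prod_ne_zero_iff]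
    intro s hs
    exact sub_ne_zero.mpr (Ne.symm (Finset.ne_of_mem_erase hs))
  refine ⟨P, Q, ?_, ?_⟩
  · rw [ev2_eq_eval_map, hQ, interp_eval Θ _ hWΘ, one_mul]
    exact hd
  · rw [ev2_eq_eval_map, ev2_eq_eval_map, hQ, hP, interp_eval Θ _ hWΘ, interp_eval Θ _ hWΘ,
      one_mul, hFW]

theorem exists_monic_root_aux [DecidableEq HolH] {W : HolH} (hW : W ∈ TrAlg M)
    (Θ : Finset HolH) (hmemΘ : ∀ t : HolH, t ∈ Θ ↔ ∃ γ : SL(2, ℤ), compSL γ W = t) :
    ∃ Φ : ℂ[X][X], Φ.Monic ∧ Φ.natDegree = Θ.card ∧ ev2 jHol W Φ = 0 := by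
  have hWΘ : W ∈ Θ := (hmemΘ W).mpr ⟨1, compSL_one W⟩
  have himage := image_compSL_eq Θ hmemΘ
  have hΘmem : ∀ t ∈ Θ, t ∈ (TrAlg M).toSubring := by
    intro t ht
    obtain ⟨δ, rfl⟩ := (hmemΘ t).mp ht
    exact compSL_mem_trAlg hW δ
  have hlift : (∏ t ∈ Θ, (X - C t) : HolH[X])
      ∈ lifts ((aeval jHol : ℂ[X] →ₐ[ℂ] HolH) : ℂ[X] →+* HolH) := by
    rw [lifts_iff_coeff_lifts]
    intro k
    have hk : (∏ t ∈ Θ, (X - C t) : HolH[X]).coeff k ∈ TrAlg M :=
      prod_X_sub_C_coeff_mem _ Θ hΘmem k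
    have hinv : ∀ γ : SL(2, ℤ), compSL γ ((∏ t ∈ Θ, (X - C t) : HolH[X]).coeff k)
        = (∏ t ∈ Θ, (X - C t) : HolH[X]).coeff k := by
      intro γ
      have h1 := prod_X_sub_C_map Θ ((compSL γ : HolH →ₐ[ℂ] HolH) : HolH →+* HolH)
        (compSL_injective γ) (himage γ)
      have h2 := congrArg (fun p : HolH[X] => p.coeff k) h1
      simp only [coeff_map] at h2
      exact h2
    obtain ⟨Q, hQ⟩ := exists_aeval_of_inv hk hinv
    exact ⟨Q, hQ⟩
  obtain ⟨hmonic, hdeg⟩ := interp_monic Θ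
  obtain ⟨Φ, hΦ, hΦdeg, hΦmonic⟩ := lifts_and_natDegree_eq_and_monic hlift hmonic
  refine ⟨Φ, hΦmonic, by rw [hΦdeg, hdeg], ?_⟩
  rw [ev2_eq_eval_map, hΦ]
  exact prod_X_sub_C_eval Θ hWΘ

open Classical in
/-- The finite set of translates, as a `Finset`. -/
def orbitFinset {W : HolH} (hfin : (orbitSet W).Finite) : Finset HolH := hfin.toFinset

theorem mem_orbitFinset {W : HolH} (hfin : (orbitSet W).Finite) (t : HolH) :
    t ∈ orbitFinset hfin ↔ ∃ γ : SL(2, ℤ), compSL γ W = t := by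
  unfold orbitFinset
  rw [Set.Finite.mem_toFinset]
  rfl

/-- **Interpolation.**  If `W`, `V` are holomorphic functions all of whose translates have
expansions, `W` has finitely many translates and every `γ` fixing `W` fixes `V`, then
`V = P(j, W) / Q(j, W)` for bivariate polynomials `P, Q` over `ℂ` with `Q(j, W) ≠ 0`. -/
theorem exists_interp {W V : HolH} (hW : W ∈ TrAlg M) (hV : V ∈ TrAlg M)
    (hfin : (orbitSet W).Finite)
    (hsep : ∀ γ : SL(2, ℤ), compSL γ W = W → compSL γ V = V) :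
    ∃ P Q : ℂ[X][X], ev2 jHol W Q ≠ 0 ∧ V * ev2 jHol W Q = ev2 jHol W P := by
  classical
  exact exists_interp_aux hW hV (orbitFinset hfin) (mem_orbitFinset hfin) hsep

/-- **The characteristic polynomial.**  `W` is a root of a monic polynomial over `ℂ[j]` whose
degree is the number of translates of `W`. -/
theorem exists_monic_root {W : HolH} (hW : W ∈ TrAlg M) (hfin : (orbitSet W).Finite) :
    ∃ Φ : ℂ[X][X], Φ.Monic ∧ Φ.natDegree = (orbitFinset hfin).card ∧ ev2 jHol W Φ = 0 := by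
  classical
  exact exists_monic_root_aux hW (orbitFinset hfin) (mem_orbitFinset hfin)

end Orbit

/-! ### Separating linear combinations -/

section Comb

/-- A finite family of functions, each with finitely many translates, has a `ℂ`-linear
combination whose stabiliser is the joint stabiliser of the family. -/
theorem exists_combination_sep {ι : Type*} [Fintype ι] (t : ι → HolH)
    (hfin : ∀ i, (orbitSet (t i)).Finite) :
    ∃ c : ι → ℂ, ∀ γ : SL(2, ℤ), compSL γ (∑ i, c i • t i) = ∑ i, c i • t i →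
      ∀ i, compSL γ (t i) = t i := by
  classical
  -- the finite set of tuples of translates
  have hU : (Set.range fun γ : SL(2, ℤ) => fun i => compSL γ (t i)).Finite := by
    refine Set.Finite.subset (Set.Finite.pi fun i => hfin i) ?_
    rintro _ ⟨γ, rfl⟩ i _
    exact ⟨γ, rfl⟩
  set U : Finset (ι → HolH) := hU.toFinset.erase t with hUdef
  set s : Finset (Submodule ℂ (ι → ℂ)) :=
    U.image fun u => LinearMap.ker (Fintype.linearCombination ℂ (u - t)) with hsdef
  have htop : ⊤ ∉ s := by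
    intro h
    obtain ⟨u, hu, hker⟩ := Finset.mem_image.mp h
    apply Finset.ne_of_mem_erase hu
    funext i
    have h1 : Pi.single i (1 : ℂ) ∈ LinearMap.ker (Fintype.linearCombination ℂ (u - t)) := by
      rw [hker]
      trivial
    rw [LinearMap.mem_ker, Fintype.linearCombination_apply_single, one_smul] at h1
    exact sub_eq_zero.mp h1
  have hne := Subspace.biUnion_ne_univ_of_top_notMem htop
  obtain ⟨c, hc⟩ : ∃ c, c ∉ ⋃ p ∈ s, (p : Set (ι → ℂ)) := by
    by_contra hcon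
    exact hne (Set.eq_univ_of_forall fun c => by_contra fun hc => hcon ⟨c, hc⟩)
  refine ⟨c, fun γ hγ i => ?_⟩
  by_contra hi
  apply hc
  have hu : (fun i => compSL γ (t i)) ∈ U := by
    refine Finset.mem_erase.mpr ⟨?_, hU.mem_toFinset.mpr ⟨γ, rfl⟩⟩
    intro h
    exact hi (congrFun h i)
  refine Set.mem_biUnion (Finset.mem_image_of_mem _ hu) ?_
  show c ∈ LinearMap.ker (Fintype.linearCombination ℂ ((fun i => compSL γ (t i)) - t))
  rw [LinearMap.mem_ker, Fintype.linearCombination_apply]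
  simp only [Pi.sub_apply, smul_sub, Finset.sum_sub_distrib]
  rw [sub_eq_zero, ← hγ, map_sum]
  refine Finset.sum_congr rfl fun i _ => ?_
  rw [map_smul]

end Comb

/-! ### A finiteness lemma for fields generated by two elements -/

section Pair

variable {k F : Type*} [Field k] [Field F] [Algebra k F]

/-- If `F = k(x, θ)` and `θ` is a root of a monic polynomial `p` over `k(x)`, then `F` is finite
over `k(x)` of degree at most `deg p`. -/
theorem finite_of_adjoin_pair (x θ : F) (htop : IntermediateField.adjoin k {x, θ} = ⊤)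
    (p : Polynomial k⟮x⟯) (hp : p.Monic) (hroot : Polynomial.aeval θ p = 0) :
    Module.Finite k⟮x⟯ F ∧ Module.finrank k⟮x⟯ F ≤ p.natDegree := by
  have hint : IsIntegral k⟮x⟯ θ := ⟨p, hp, hroot⟩
  have h1 : (k⟮x⟯⟮θ⟯ : IntermediateField k⟮x⟯ F) = ⊤ := by
    rw [← IntermediateField.restrictScalars_eq_top_iff (K := k),
      IntermediateField.adjoin_simple_adjoin_simple, htop]
  haveI := IntermediateField.adjoin.finiteDimensional hint
  have hfin : Module.Finite k⟮x⟯ (⊤ : IntermediateField k⟮x⟯ F) := by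
    rw [← h1]
    infer_instance
  have e : (⊤ : IntermediateField k⟮x⟯ F) ≃ₐ[k⟮x⟯] F := IntermediateField.topEquiv
  refine ⟨Module.Finite.equiv e.toLinearEquiv, ?_⟩
  rw [← e.toLinearEquiv.finrank_eq, ← h1, IntermediateField.adjoin.finrank hint]
  exact natDegree_le_of_dvd (minpoly.dvd _ _ hroot) hp.ne_zero

end Pair

/-! ### The function field of `G` is `ℂ(j, θ)` -/

section Field

variable (G : Subgroup SL(2, ℤ)) (M : ℕ) [NeZero M]

/-- `θ` is *separating*: every `γ ∈ SL(2, ℤ)` fixing the avatar of `θ` fixes the avatars of all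
good series. -/
def Sep (θ : GoodG G M) : Prop :=
  ∀ γ : SL(2, ℤ), compSL γ (thetaG G M θ) = thetaG G M θ →
    ∀ f : GoodG G M, compSL γ (thetaG G M f) = thetaG G M f

/-- Good series as elements of the function field. -/
def toF : GoodG G M →ₐ[ℂ] FracG G M where
  toFun a := ⟨(a : LaurentSeries ℂ), coe_mem_fracG G M a⟩
  map_one' := rfl
  map_mul' _ _ := rfl
  map_zero' := rfl
  map_add' _ _ := rfl
  commutes' _ := rfl

theorem coe_toF (a : GoodG G M) : ((toF G M a : FracG G M) : LaurentSeries ℂ) = a := rfl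

theorem toF_injective : Function.Injective (toF G M) := by
  intro a b h
  exact Subtype.ext (congrArg (fun x : FracG G M => (x : LaurentSeries ℂ)) h)

/-- `j` as an element of the function field. -/
def jF : FracG G M := toF G M (jG G M)

theorem coe_jF : ((jF G M : FracG G M) : LaurentSeries ℂ) = coeffEmb ℂ jq := rfl

variable {G M}

theorem finite_orbit_thetaG (hM : Gamma M ≤ G) (θ : GoodG G M) :
    (orbitSet (thetaG G M θ)).Finite :=
  finite_orbitSet (M := M) fun γ hγ => compSL_thetaG G M (hM hγ) θ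

/-- **Every good series is a rational function of `j` and a separating `θ`.** -/
theorem exists_frac_of_sep (hM : Gamma M ≤ G) {θ : GoodG G M} (hθ : Sep G M θ) (f : GoodG G M) :
    ∃ P Q : ℂ[X][X], ev2 (jG G M) θ Q ≠ 0 ∧ f * ev2 (jG G M) θ Q = ev2 (jG G M) θ P := by
  obtain ⟨P, Q, hQ, hPQ⟩ := exists_interp (thetaG_mem_trAlg θ) (thetaG_mem_trAlg f)
    (finite_orbit_thetaG hM θ) (fun _ h => hθ _ h f)
  have hev : ∀ P : ℂ[X][X], thetaG G M (ev2 (jG G M) θ P) = ev2 jHol (thetaG G M θ) P := by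
    intro P
    have h := map_ev2 (thetaG G M) (jG G M) θ P
    rw [thetaG_jG] at h
    exact h
  refine ⟨P, Q, ?_, ?_⟩
  · intro h
    apply hQ
    rw [← hev, h, map_zero]
  · apply thetaG_injective G M
    rw [map_mul, hev, hev, hPQ]

/-- **The characteristic polynomial of a good series over `ℂ[j]`.** -/
theorem exists_monic_of_good (hM : Gamma M ≤ G) (θ : GoodG G M) :
    ∃ Φ : ℂ[X][X], Φ.Monic ∧ Φ.natDegree = (orbitFinset (finite_orbit_thetaG hM θ)).card ∧
      ev2 (jG G M) θ Φ = 0 := by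
  obtain ⟨Φ, hmonic, hdeg, hΦ⟩ :=
    exists_monic_root (thetaG_mem_trAlg θ) (finite_orbit_thetaG hM θ)
  refine ⟨Φ, hmonic, hdeg, ?_⟩
  apply thetaG_injective G M
  have h := map_ev2 (thetaG G M) (jG G M) θ Φ
  rw [thetaG_jG, hΦ] at h
  rw [h, map_zero]

/-- **`FracG G M = ℂ(j, θ)`** for a separating `θ`. -/
theorem fracG_eq_adjoin_pair (hM : Gamma M ≤ G) {θ : GoodG G M} (hθ : Sep G M θ) :
    FracG G M = IntermediateField.adjoin ℂ {coeffEmb ℂ jq, (θ : LaurentSeries ℂ)} := by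
  apply le_antisymm
  · intro z hz
    have key : ∀ f : GoodG G M, (f : LaurentSeries ℂ)
        ∈ IntermediateField.adjoin ℂ {coeffEmb ℂ jq, (θ : LaurentSeries ℂ)} := by
      intro f
      obtain ⟨P, Q, hQ, hPQ⟩ := exists_frac_of_sep hM hθ f
      have hmem : ∀ P : ℂ[X][X], ((ev2 (jG G M) θ P : GoodG G M) : LaurentSeries ℂ)
          ∈ IntermediateField.adjoin ℂ {coeffEmb ℂ jq, (θ : LaurentSeries ℂ)} := by
        intro P
        have hval : ((ev2 (jG G M) θ P : GoodG G M) : LaurentSeries ℂ)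
            = ev2 (coeffEmb ℂ jq) (θ : LaurentSeries ℂ) P :=
          map_ev2 (GoodG G M).val (jG G M) θ P
        rw [hval]
        exact IntermediateField.algebra_adjoin_le_adjoin ℂ _ (ev2_mem_adjoin _ _ P)
      have hQ' : ((ev2 (jG G M) θ Q : GoodG G M) : LaurentSeries ℂ) ≠ 0 :=
        fun h => hQ (Subtype.ext h)
      have h1 : (f : LaurentSeries ℂ)
          = ((ev2 (jG G M) θ P : GoodG G M) : LaurentSeries ℂ)
            / ((ev2 (jG G M) θ Q : GoodG G M) : LaurentSeries ℂ) := by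
        rw [eq_div_iff hQ']
        exact congrArg Subtype.val hPQ
      rw [h1]
      exact div_mem (hmem P) (hmem Q)
    obtain ⟨a, b, hb, hab⟩ := exists_good_frac hz
    have hb' : (b : LaurentSeries ℂ) ≠ 0 := fun h => hb (Subtype.ext h)
    have hz' : z = (a : LaurentSeries ℂ) / b := by rw [eq_div_iff hb', hab]
    rw [hz']
    exact div_mem (key a) (key b)
  · rw [IntermediateField.adjoin_le_iff]
    rintro x (rfl | rfl)
    · exact coe_mem_fracG G M (jG G M)
    · exact coe_mem_fracG G M θ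

/-- Inside the field `FracG G M`: it is generated over `ℂ` by `j` and `θ`. -/
theorem adjoin_pair_eq_top (hM : Gamma M ≤ G) {θ : GoodG G M} (hθ : Sep G M θ) :
    IntermediateField.adjoin ℂ {jF G M, toF G M θ} = ⊤ := by
  rw [eq_top_iff]
  intro z _
  have hz : (z : LaurentSeries ℂ)
      ∈ IntermediateField.adjoin ℂ {coeffEmb ℂ jq, (θ : LaurentSeries ℂ)} :=
    (fracG_eq_adjoin_pair hM hθ).le z.2
  have himg : (FracG G M).val '' {jF G M, toF G M θ}
      = {coeffEmb ℂ jq, (θ : LaurentSeries ℂ)} := by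
    rw [Set.image_pair]
    rfl
  rw [← himg, ← IntermediateField.adjoin_map] at hz
  obtain ⟨e, he, hez⟩ := hz
  have : e = z := Subtype.ext hez
  rw [← this]
  exact he

/-- **Finiteness.**  For a separating `θ`, `FracG G M` is finite over `ℂ(j)`, of degree at most
the number of translates of the avatar of `θ`. -/
theorem finite_fracG (hM : Gamma M ≤ G) {θ : GoodG G M} (hθ : Sep G M θ) :
    Module.Finite ℂ⟮jF G M⟯ (FracG G M) ∧
      Module.finrank ℂ⟮jF G M⟯ (FracG G M) ≤ (orbitFinset (finite_orbit_thetaG hM θ)).card := by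
  obtain ⟨Φ, hmonic, hdeg, hΦ⟩ := exists_monic_of_good hM θ
  set g : ℂ[X] →+* ℂ⟮jF G M⟯ :=
    ((aeval (IntermediateField.AdjoinSimple.gen ℂ (jF G M)) : ℂ[X] →ₐ[ℂ] ℂ⟮jF G M⟯) :
      ℂ[X] →+* ℂ⟮jF G M⟯) with hg
  have hcomp : (algebraMap ℂ⟮jF G M⟯ (FracG G M)).comp g
      = ((aeval (jF G M) : ℂ[X] →ₐ[ℂ] FracG G M) : ℂ[X] →+* FracG G M) := by
    apply RingHom.ext
    intro p
    have h := aeval_algHom_apply (IsScalarTower.toAlgHom ℂ ℂ⟮jF G M⟯ (FracG G M))
      (IntermediateField.AdjoinSimple.gen ℂ (jF G M)) p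
    rw [IsScalarTower.coe_toAlgHom', IntermediateField.AdjoinSimple.algebraMap_gen] at h
    exact h.symm
  have hroot : Polynomial.aeval (toF G M θ) (Φ.map g) = 0 := by
    rw [aeval_def, eval₂_map, hcomp]
    have h := map_ev2 (toF G M) (jG G M) θ Φ
    rw [hΦ, map_zero] at h
    exact h.symm
  have h := finite_of_adjoin_pair (jF G M) (toF G M θ) (adjoin_pair_eq_top hM hθ) (Φ.map g)
    (hmonic.map g) hroot
  rw [(hmonic.natDegree_map g), hdeg] at h
  exact h

/-- **A separating element from a jointly separating finite family**: some `ℂ`-linear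
combination of the family is separating. -/
theorem exists_sep_of_family (hM : Gamma M ≤ G) {ι : Type*} [Fintype ι] (s : ι → GoodG G M)
    (hsep : ∀ γ : SL(2, ℤ), (∀ i, compSL γ (thetaG G M (s i)) = thetaG G M (s i)) →
      ∀ f : GoodG G M, compSL γ (thetaG G M f) = thetaG G M f) :
    ∃ c : ι → ℂ, Sep G M (∑ i, c i • s i) := by
  obtain ⟨c, hc⟩ := exists_combination_sep (fun i => thetaG G M (s i))
    (fun i => finite_orbit_thetaG hM (s i))
  refine ⟨c, fun γ hγ => hsep γ (hc γ ?_)⟩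
  rw [map_sum] at hγ
  simp only [map_smul] at hγ
  exact hγ

/-- **Generation.**  A set `S` of good series containing `j` whose field `ℂ(S)` contains a
separating good series generates the function field. -/
theorem adjoin_eq_fracG (hM : Gamma M ≤ G) (S : Set (LaurentSeries ℂ))
    (hS : ∀ x ∈ S, x ∈ GoodG G M) (hj : coeffEmb ℂ jq ∈ S) {θ : GoodG G M}
    (hθS : (θ : LaurentSeries ℂ) ∈ IntermediateField.adjoin ℂ S) (hθ : Sep G M θ) :
    IntermediateField.adjoin ℂ S = FracG G M := by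
  apply le_antisymm
  · rw [IntermediateField.adjoin_le_iff]
    intro x hx
    exact coe_mem_fracG G M ⟨x, hS x hx⟩
  · rw [fracG_eq_adjoin_pair hM hθ, IntermediateField.adjoin_le_iff]
    rintro x (rfl | rfl)
    · exact IntermediateField.subset_adjoin ℂ S hj
    · exact hθS

/-- **Finiteness, in the shape of `DescentGen.exists_descent_hasChar`.** -/
theorem hfin_of_sep (hM : Gamma M ≤ G) {θ : GoodG G M} (hθ : Sep G M θ) :
    ∀ z ∈ FracG G M, ∃ p : Polynomial ↥(ℂ⟮coeffEmb ℂ jq⟯), p.Monic ∧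
      p.natDegree ≤ (orbitFinset (finite_orbit_thetaG hM θ)).card ∧
      Polynomial.aeval z p = 0 := by
  have hJ : coeffEmb ℂ jq ∈ FracG G M := coe_mem_fracG G M (jG G M)
  obtain ⟨hfinI, hrank⟩ := finite_fracG hM hθ
  haveI hfinI' : Module.Finite ↥(ℂ⟮(⟨coeffEmb ℂ jq, hJ⟩ : ↥(FracG G M))⟯) ↥(FracG G M) := hfinI
  intro z hz
  obtain ⟨p, hp, hdeg, hroot⟩ :=
    Fermat.Agent.S30.KummerDescent.hfin_of_finite (FracG G M) (coeffEmb ℂ jq) hJ z hz
  exact ⟨p, hp, hdeg.trans hrank, hroot⟩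

end Field

end Fermat.Agent.S48.G1.PrimGen

end
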