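import Fermat.Agent.S30.AutStable
import Fermat.Agent.S48.G1.PrimGen

set_option autoImplicit false
set_option linter.dupNamespace false

/-!
# G1 (S48): stability of `m`-divisibility under `Aut(ℂ)`, generic subgroup

Generic twin of `S30/AutStable.lean` + `S30/DescentInst/AutStable.lean` (helper29).

* `CDataG F`: analytic uniformisation data for a function field `F ⊇ ℂ(j)` with NO reference to a
  level: the exact-stabiliser and index hypotheses of `S30/AutStable.CData` are replaced by a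
  finite set `T ⊆ SL(2, ℤ)` inducing pairwise distinct twisted evaluations with
  `[F : ℂ(j)] ≤ #T`.
* `exists_ord_eq` (uniformisation: every order function on `F` with the right values at `j - a`
  is the order at a point of `ℍ`) and `dvd_ord_of_ringEquiv` (Aut-stability).
-/

noncomputable section

namespace Fermat.Agent.S48.G1.AutStableGen

open UpperHalfPlane CongruenceSubgroup IntermediateField AlgebraicCurve
open Fermat.Agent.S24.HolH Fermat.Agent.S24.JHol Fermat.Agent.S24.JFun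
open Fermat.Agent.S24.FibreCount.ValPlace Fermat.Agent.S24.FibreCount.Main
open Fermat.Agent.S24
open Fermat.Agent.S30.AutStable (sExp sExp_pos sExp_ringEquiv ordZ_jHol_sub exists_emb_field_of_le)
open scoped MatrixGroups

/-! ### The data -/

/-- Analytic uniformisation data over `ℂ` for a function field `F ⊇ ℂ(j)`: a generating
subalgebra `F₀` with an injective evaluation `θ : F₀ → HolH`, `θ j = jHol`, and a finite set `T`
of elements of `SL(2, ℤ)` inducing pairwise distinct twisted evaluations, with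
`[F : ℂ(j)] ≤ #T`. -/
structure CDataG (F : Type*) [Field F] [Algebra ℂ F] where
  /-- the element `j` -/
  jF : F
  /-- a generating subalgebra -/
  F₀ : Subalgebra ℂ F
  hF₀ : ∀ f : F, ∃ a b : F₀, (b : F) ≠ 0 ∧ f * b = a
  hj : jF ∈ F₀
  /-- evaluation on the upper half plane -/
  θ : F₀ →+* HolH
  θ_inj : Function.Injective θ
  θ_const : ∀ c : ℂ, θ (algebraMap ℂ F₀ c) = algebraMap ℂ HolH c
  θ_j : θ ⟨jF, hj⟩ = jHol
  trans : Transcendental ℂ jF
  fin : FiniteDimensional ℂ⟮jF⟯ F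
  /-- representatives of the conjugates -/
  T : Finset SL(2, ℤ)
  T_inj : ∀ γ ∈ T, ∀ γ' ∈ T, (∀ f : F₀, compSL γ (θ f) = compSL γ' (θ f)) → γ = γ'
  deg_le : Module.finrank ℂ⟮jF⟯ F ≤ T.card

namespace CDataG

variable {F : Type*} [Field F] [Algebra ℂ F] (D : CDataG F)

theorem isFractionRing : IsFractionRing D.F₀ F := by
  apply IsFractionRing.of_field
  intro f
  obtain ⟨a, b, hb, hab⟩ := D.hF₀ f
  refine ⟨a, b, ?_⟩
  show f = (a : F) / (b : F)
  rw [eq_div_iff hb]
  exact hab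

/-- The twisted evaluation `f ↦ θ f ∘ γ`. -/
def ρ (γ : SL(2, ℤ)) : D.F₀ →+* HolH :=
  ((compSL γ : HolH →ₐ[ℂ] HolH) : HolH →+* HolH).comp D.θ

theorem ρ_apply (γ : SL(2, ℤ)) (f : D.F₀) : D.ρ γ f = compSL γ (D.θ f) := rfl

theorem ρ_injective (γ : SL(2, ℤ)) : Function.Injective (D.ρ γ) :=
  (compSL_injective _).comp D.θ_inj

theorem ρ_const (γ : SL(2, ℤ)) (c : ℂ) :
    D.ρ γ (algebraMap ℂ D.F₀ c) = algebraMap ℂ HolH c := by
  rw [ρ_apply, D.θ_const, AlgHom.commutes]

/-- The element `j - a` of `F₀`. -/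
def num (a : ℂ) : D.F₀ :=
  ⟨D.jF - algebraMap ℂ F a, sub_mem D.hj (Subalgebra.algebraMap_mem _ a)⟩

theorem coe_num (a : ℂ) : ((D.num a : D.F₀) : F) = D.jF - algebraMap ℂ F a := rfl

theorem θ_num (a : ℂ) : D.θ (D.num a) = jHol - algebraMap ℂ HolH a := by
  have h : D.num a = ⟨D.jF, D.hj⟩ - algebraMap ℂ D.F₀ a := rfl
  rw [h, map_sub, D.θ_j, D.θ_const]

theorem ρ_num (γ : SL(2, ℤ)) (a : ℂ) : D.ρ γ (D.num a) = jHol - algebraMap ℂ HolH a := by
  rw [ρ_apply, θ_num, compSL_jHol_sub]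

theorem num_ne_zero (a : ℂ) : D.num a ≠ 0 := by
  intro h
  have h1 := congrArg D.θ h
  rw [θ_num, map_zero] at h1
  exact jHol_sub_ne_zero a h1

/-- `ρ γ` followed by the inclusion into the fraction field. -/
def ρFrac (γ : SL(2, ℤ)) : D.F₀ →+* FractionRing HolH :=
  (algebraMap HolH (FractionRing HolH)).comp (D.ρ γ)

theorem ρFrac_apply (γ : SL(2, ℤ)) (a : D.F₀) :
    D.ρFrac γ a = algebraMap HolH (FractionRing HolH) (D.ρ γ a) := rfl

theorem ρFrac_injective (γ : SL(2, ℤ)) : Function.Injective (D.ρFrac γ) := by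
  intro a b h
  rw [ρFrac_apply, ρFrac_apply] at h
  exact D.ρ_injective γ (IsFractionRing.injective HolH (FractionRing HolH) h)

/-- The field embedding `F → Frac HolH` induced by `ρ γ`. -/
def emb (γ : SL(2, ℤ)) : F →+* FractionRing HolH :=
  @IsFractionRing.lift D.F₀ _ F _ (FractionRing HolH) _ _ D.isFractionRing (D.ρFrac γ)
    (D.ρFrac_injective γ)

theorem emb_coe (γ : SL(2, ℤ)) (a : D.F₀) :
    D.emb γ (a : F) = algebraMap HolH (FractionRing HolH) (D.ρ γ a) :=
  @IsFractionRing.lift_algebraMap D.F₀ _ F _ (FractionRing HolH) _ _ D.isFractionRing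
    (D.ρFrac γ) (D.ρFrac_injective γ) a

theorem exists_frac {f : F} (hf : f ≠ 0) :
    ∃ a b : D.F₀, a ≠ 0 ∧ b ≠ 0 ∧ f = (a : F) / (b : F) := by
  obtain ⟨a, b, hb, hab⟩ := D.hF₀ f
  refine ⟨a, b, ?_, ?_, by rw [eq_div_iff hb]; exact hab⟩
  · rintro rfl
    rw [ZeroMemClass.coe_zero] at hab
    exact mul_ne_zero hf hb hab
  · rintro rfl
    exact hb rfl

theorem coe_ne_zero {a : D.F₀} (ha : a ≠ 0) : (a : F) ≠ 0 := fun h => ha (Subtype.ext h)

/-- The order function at `τ` of the `γ`-twisted evaluation. -/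
def ordG (γ : SL(2, ℤ)) (τ : ℍ) (f : F) : ℤ := ordFrac (ordZ τ) (D.emb γ f)

/-- The order at `τ ∈ ℍ` of an element of `F`. -/
def ord (τ : ℍ) (f : F) : ℤ := D.ordG 1 τ f

theorem isOrd_ordFrac (τ : ℍ) : IsOrd (ordFrac (R := HolH) (ordZ τ)) :=
  Fermat.Agent.S24.FibreCount.Main.isOrd_ordFrac (fun _ _ ha hb => ordZ_mul τ ha hb)
    (fun _ _ ha hb hab => min_le_ordZ_add τ ha hb hab)

theorem isOrd_ordG (γ : SL(2, ℤ)) (τ : ℍ) : IsOrd (D.ordG γ τ) :=
  (isOrd_ordFrac τ).comp (D.emb γ)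

theorem isOrd_ord (τ : ℍ) : IsOrd (D.ord τ) := D.isOrd_ordG 1 τ

theorem ordG_coe (γ : SL(2, ℤ)) (τ : ℍ) {a : D.F₀} (ha : a ≠ 0) :
    D.ordG γ τ (a : F) = ordZ τ (D.ρ γ a) := by
  rw [ordG, emb_coe]
  exact ordFrac_algebraMap (fun _ _ ha hb => ordZ_mul τ ha hb)
    ((map_ne_zero_iff _ (D.ρ_injective γ)).mpr ha)

theorem ordG_div (γ : SL(2, ℤ)) (τ : ℍ) {a b : D.F₀} (ha : a ≠ 0) (hb : b ≠ 0) :
    D.ordG γ τ ((a : F) / (b : F)) = ordZ τ (D.ρ γ a) - ordZ τ (D.ρ γ b) := by
  rw [(D.isOrd_ordG γ τ).map_div (D.coe_ne_zero ha) (D.coe_ne_zero hb), ordG_coe D γ τ ha,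
    ordG_coe D γ τ hb]

theorem ρ_one (f : D.F₀) : D.ρ 1 f = D.θ f := by
  rw [ρ_apply, compSL_one]

/-- `D.ord τ (a / b) = ord_τ (θ a) - ord_τ (θ b)`. -/
theorem ord_div (τ : ℍ) {a b : D.F₀} (ha : a ≠ 0) (hb : b ≠ 0) :
    D.ord τ ((a : F) / (b : F)) = ordZ τ (D.θ a) - ordZ τ (D.θ b) := by
  rw [ord, ordG_div D 1 τ ha hb, ρ_one, ρ_one]

theorem ord_coe (τ : ℍ) {a : D.F₀} (ha : a ≠ 0) : D.ord τ (a : F) = ordZ τ (D.θ a) := by
  rw [ord, ordG_coe D 1 τ ha, ρ_one]

/-- The twisted order at `τ` is the order at `γ • τ`. -/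
theorem ordG_eq_ord (γ : SL(2, ℤ)) (τ : ℍ) {f : F} (hf : f ≠ 0) :
    D.ordG γ τ f = D.ord (γ • τ) f := by
  obtain ⟨a, b, ha, hb, rfl⟩ := D.exists_frac hf
  rw [ordG_div D γ τ ha hb, ord_div D (γ • τ) ha hb, ρ_apply, ρ_apply, ordZ_compSL, ordZ_compSL]

theorem ordG_algebraMap (γ : SL(2, ℤ)) (τ : ℍ) {c : ℂ} (hc : c ≠ 0) :
    D.ordG γ τ (algebraMap ℂ F c) = 0 := by
  have h0 : algebraMap ℂ D.F₀ c ≠ 0 := by
    intro h
    have h1 := congrArg D.θ h
    rw [D.θ_const, map_zero] at h1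
    have h2 := congrArg (fun φ : HolH => (φ : ℍ → ℂ) τ) h1
    exact hc h2
  have h1 : algebraMap ℂ F c = ((algebraMap ℂ D.F₀ c : D.F₀) : F) := rfl
  rw [h1, ordG_coe D γ τ h0, ρ_const]
  exact ordZ_algebraMap hc

theorem ord_algebraMap (τ : ℍ) {c : ℂ} (hc : c ≠ 0) : D.ord τ (algebraMap ℂ F c) = 0 :=
  D.ordG_algebraMap 1 τ hc

theorem ordG_num (γ : SL(2, ℤ)) (τ : ℍ) (a : ℂ) :
    D.ordG γ τ (D.jF - algebraMap ℂ F a) = ordZ τ (jHol - algebraMap ℂ HolH a) := by
  rw [← coe_num, ordG_coe D γ τ (D.num_ne_zero a), ρ_num]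

/-- `D.ord τ (j - j(τ)) = sExp (j τ)`. -/
theorem ord_num_self (τ : ℍ) :
    D.ord τ (D.jF - algebraMap ℂ F (jFun τ)) = sExp (jFun τ) := by
  rw [ord, ordG_num, ordZ_jHol_sub]

theorem emb_injective_of_mem_T {γ γ' : SL(2, ℤ)} (hγ : γ ∈ D.T) (hγ' : γ' ∈ D.T)
    (h : D.emb γ = D.emb γ') : γ = γ' := by
  refine D.T_inj γ hγ γ' hγ' fun f => ?_
  have h1 : D.ρ γ f = D.ρ γ' f := by
    apply IsFractionRing.injective HolH (FractionRing HolH)
    rw [← emb_coe, ← emb_coe, h]
  exact h1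

end CDataG

/-! ### Uniformisation and the main theorem -/

section Main

variable {F : Type*} [Field F] [Algebra ℂ F] (D : CDataG F)

/-- **Uniformisation.**  Every order function on `F`, trivial on the constants, whose value at
`j - a` is the local exponent `sExp a`, is the order function of a point of `ℍ`. -/
theorem exists_ord_eq (u : F → ℤ) (hu : IsOrd u)
    (hK : ∀ c : ℂ, c ≠ 0 → u (algebraMap ℂ F c) = 0) (a : ℂ)
    (hua : u (D.jF - algebraMap ℂ F a) = sExp a) :
    ∃ τ' : ℍ, ∀ f : F, f ≠ 0 → u f = D.ord τ' f := by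
  classical
  have hfinF : FiniteDimensional ℂ⟮D.jF⟯ F := D.fin
  have hTne : Nonempty ↥D.T := by
    have h1 : 0 < Module.finrank ℂ⟮D.jF⟯ F := Module.finrank_pos
    have h2 : 0 < D.T.card := lt_of_lt_of_le h1 D.deg_le
    obtain ⟨γ, hγ⟩ := Finset.card_pos.mp h2
    exact ⟨⟨γ, hγ⟩⟩
  set x : F := D.jF - algebraMap ℂ F a with hxdef
  have hx : Transcendental ℂ x :=
    Fermat.Agent.S24.AdjoinShift.transcendental_sub_algebraMap D.trans a
  have hx0 : x ≠ 0 := by
    intro h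
    rw [h] at hx
    exact hx isAlgebraic_zero
  have hfin : FiniteDimensional ℂ⟮x⟯ F :=
    Fermat.Agent.S24.AdjoinShift.finiteDimensional_sub_algebraMap D.jF a D.fin
  have hspos : (0 : ℤ) < sExp a := by exact_mod_cast sExp_pos a
  -- the place of `u`
  have hnt : ∃ t : F, t ≠ 0 ∧ 0 < u t := ⟨x, hx0, by rw [hua]; exact hspos⟩
  obtain ⟨κu, hκu, -, huv⟩ := exists_ramification_placeOfOrd hu hK hnt
  set v : Place ℂ F := placeOfOrd hu hK hnt with hvdef
  have hv : 0 < v.ord x := by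
    have h := huv x hx0
    rw [hua] at h
    rw [h] at hspos
    exact (mul_pos_iff_of_pos_left hκu).mp hspos
  -- a point above `a` and the embeddings
  obtain ⟨τa, hτa⟩ := jFun_surjective a
  let ι : ↥D.T → F →+* FractionRing HolH := fun i => D.emb (i : SL(2, ℤ))
  have hι : Function.Injective ι := by
    intro i i' h
    exact Subtype.ext (D.emb_injective_of_mem_T i.2 i'.2 h)
  have hw := CDataG.isOrd_ordFrac τa
  have hord : ∀ i (f : F), ordFrac (ordZ τa) (ι i f) = D.ordG (i : SL(2, ℤ)) τa f :=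
    fun i f => rfl
  have hcard : Module.finrank ℂ⟮x⟯ F ≤ Fintype.card ↥D.T := by
    rw [hxdef, Fermat.Agent.S24.AdjoinShift.finrank_sub_algebraMap, Fintype.card_coe]
    exact D.deg_le
  have hemb : ∀ (γ : SL(2, ℤ)) (c : ℂ),
      D.emb γ (algebraMap ℂ F c) = algebraMap HolH (FractionRing HolH) (algebraMap ℂ HolH c) := by
    intro γ c
    have h1 : algebraMap ℂ F c = ((algebraMap ℂ D.F₀ c : D.F₀) : F) := rfl
    rw [h1, CDataG.emb_coe, CDataG.ρ_const]
  have hembx : ∀ γ : SL(2, ℤ),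
      D.emb γ x = algebraMap HolH (FractionRing HolH) (jHol - algebraMap ℂ HolH a) := by
    intro γ
    rw [hxdef, ← CDataG.coe_num, CDataG.emb_coe, CDataG.ρ_num]
  have hxval : ∀ i, ordFrac (ordZ τa) (ι i x) = sExp a := by
    intro i
    rw [hord, hxdef, CDataG.ordG_num]
    have h := ordZ_jHol_sub τa
    rw [hτa] at h
    exact h
  obtain ⟨i, κ, hκ, hi⟩ := exists_emb_field_of_le x hx hfin (ordFrac (ordZ τa)) hw ι hι hcard
    (fun i j c => by show D.emb _ _ = D.emb _ _; rw [hemb, hemb])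
    (fun i j => by show D.emb _ _ = D.emb _ _; rw [hembx, hembx])
    (fun i c hc => by rw [hord]; exact D.ordG_algebraMap _ τa hc)
    (fun i => by rw [hxval]; exact hspos) v hv
  -- comparison of the two multiples at `x`
  have h1 := hi x hx0
  rw [hxval] at h1
  have h2 := huv x hx0
  rw [hua] at h2
  have hκeq : κ = κu := by
    have h3 : κ * v.ord x = κu * v.ord x := by rw [← h1, ← h2]
    exact mul_right_cancel₀ hv.ne' h3
  refine ⟨(i : SL(2, ℤ)) • τa, fun f hf => ?_⟩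
  rw [← D.ordG_eq_ord _ τa hf, ← hord, hi f hf, huv f hf, hκeq]

/-- **Aut-stability.**  If a ring automorphism `s` of `F` fixes `j` and acts on the constants
through a ring automorphism `σ` of `ℂ`, then divisibility by `m` of all orders on `ℍ` is
preserved by `s`. -/
theorem dvd_ord_of_ringEquiv (σ : ℂ ≃+* ℂ) (s : F ≃+* F)
    (hs : ∀ c : ℂ, s (algebraMap ℂ F c) = algebraMap ℂ F (σ c)) (hsj : s D.jF = D.jF)
    (m : ℤ) {f : F} (hf : f ≠ 0) (h : ∀ τ : ℍ, m ∣ D.ord τ f) (τ : ℍ) :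
    m ∣ D.ord τ (s f) := by
  -- the order function `u = ord_τ ∘ s`
  have hu : IsOrd (fun g : F => D.ord τ (s g)) := (D.isOrd_ord τ).comp (s : F →+* F)
  have hK : ∀ c : ℂ, c ≠ 0 → D.ord τ (s (algebraMap ℂ F c)) = 0 := by
    intro c hc
    rw [hs]
    exact D.ord_algebraMap τ ((map_ne_zero σ).mpr hc)
  have hua : D.ord τ (s (D.jF - algebraMap ℂ F (σ.symm (jFun τ)))) = sExp (σ.symm (jFun τ)) := by
    rw [map_sub, hsj, hs, RingEquiv.apply_symm_apply, D.ord_num_self,
      ← sExp_ringEquiv σ (σ.symm (jFun τ)), RingEquiv.apply_symm_apply]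
  obtain ⟨τ', hτ'⟩ := exists_ord_eq D (fun g : F => D.ord τ (s g)) hu hK _ hua
  have h1 : D.ord τ (s f) = D.ord τ' f := hτ' f hf
  rw [h1]
  exact h τ'

end Main

/-! ### The instance: the function field of a generic subgroup with a separating good series -/

section Inst

open Fermat.Agent.S48.G1.DescentGen Fermat.Agent.S48.G1.XRootGen Fermat.Agent.S48.G1.PrimGen
open ModularCurve

variable (G : Subgroup SL(2, ℤ)) (M : ℕ) [NeZero M]

/-- The good series, as a subalgebra of the function field. -/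
def goodF : Subalgebra ℂ (FracG G M) := (toF G M).range

/-- `GoodG G M ≃ goodF G M`. -/
def goodEquiv : GoodG G M ≃ₐ[ℂ] goodF G M :=
  AlgEquiv.ofInjective (toF G M) (toF_injective G M)

variable {G M}

theorem coe_goodEquiv (a : GoodG G M) :
    ((goodEquiv G M a : goodF G M) : FracG G M) = toF G M a := rfl

theorem goodEquiv_ne_zero {a : GoodG G M} (ha : a ≠ 0) : goodEquiv G M a ≠ 0 :=
  (map_ne_zero_iff _ (goodEquiv G M).injective).mpr ha

theorem toF_ne_zero {a : GoodG G M} (ha : a ≠ 0) : toF G M a ≠ 0 :=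
  (map_ne_zero_iff _ (toF_injective G M)).mpr ha

variable (G M)

/-- The evaluation on `goodF`. -/
def thetaF : goodF G M →+* HolH :=
  (thetaG G M : GoodG G M →+* HolH).comp ((goodEquiv G M).symm : goodF G M →+* GoodG G M)

variable {G M}

theorem thetaF_goodEquiv (a : GoodG G M) : thetaF G M (goodEquiv G M a) = thetaG G M a := by
  show thetaG G M ((goodEquiv G M).symm (goodEquiv G M a)) = _
  rw [AlgEquiv.symm_apply_apply]

theorem transcendental_jF : Transcendental ℂ (jF G M) := by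
  apply Fermat.Agent.S24.FF.transcendental_of_not_mem_range
  rintro ⟨c, hc⟩
  have h := congrArg (fun x : FracG G M => (x : LaurentSeries ℂ).coeff (-1)) hc
  have h1 : ((algebraMap ℂ (FracG G M) c : FracG G M) : LaurentSeries ℂ)
      = algebraMap ℂ (LaurentSeries ℂ) c := rfl
  simp only [h1, coe_jF, algebraMap_laurentSeries_eq_single, coeffEmb_coeff, coeff_jq_neg_one,
    map_one] at h
  rw [HahnSeries.coeff_single_of_ne (by norm_num)] at h
  exact zero_ne_one h

/-- A choice of `γ` with `W ∘ γ = t`. -/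
def rep (W t : HolH) : SL(2, ℤ) :=
  @dite _ (∃ γ : SL(2, ℤ), compSL γ W = t) (Classical.propDecidable _)
    (fun h => h.choose) (fun _ => 1)

theorem compSL_rep {W t : HolH} (h : ∃ γ : SL(2, ℤ), compSL γ W = t) :
    compSL (rep W t) W = t := by
  have h1 : rep W t = h.choose := dif_pos h
  rw [h1]
  exact h.choose_spec

open Classical in
/-- Representatives in `SL(2, ℤ)` of the translates of `W`. -/
def repFinset {W : HolH} (hfin : (orbitSet W).Finite) : Finset SL(2, ℤ) :=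
  (orbitFinset hfin).image (rep W)

theorem card_repFinset {W : HolH} (hfin : (orbitSet W).Finite) :
    (repFinset hfin).card = (orbitFinset hfin).card := by
  classical
  unfold repFinset
  apply Finset.card_image_of_injOn
  intro t ht t' ht' h
  rw [Finset.mem_coe, mem_orbitFinset] at ht ht'
  rw [← compSL_rep ht, ← compSL_rep ht', h]

theorem eq_of_mem_repFinset {W : HolH} (hfin : (orbitSet W).Finite) {γ γ' : SL(2, ℤ)}
    (hγ : γ ∈ repFinset hfin) (hγ' : γ' ∈ repFinset hfin) (h : compSL γ W = compSL γ' W) :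
    γ = γ' := by
  classical
  unfold repFinset at hγ hγ'
  obtain ⟨t, ht, rfl⟩ := Finset.mem_image.mp hγ
  obtain ⟨t', ht', rfl⟩ := Finset.mem_image.mp hγ'
  rw [mem_orbitFinset] at ht ht'
  rw [compSL_rep ht, compSL_rep ht'] at h
  rw [h]

/-- **The uniformisation data of `FracG G M`**, for a separating good series `θ`. -/
def cdataG (hM : Gamma M ≤ G) {θ : GoodG G M} (hθ : Sep G M θ) : CDataG (FracG G M) where
  jF := jF G M
  F₀ := goodF G M
  hF₀ := by
    intro f
    obtain ⟨a, b, hb, hab⟩ := exists_good_frac f.2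
    exact ⟨goodEquiv G M a, goodEquiv G M b, toF_ne_zero hb, Subtype.ext hab⟩
  hj := ⟨jG G M, rfl⟩
  θ := thetaF G M
  θ_inj := (thetaG_injective G M).comp (goodEquiv G M).symm.injective
  θ_const := fun c => by
    have h : algebraMap ℂ (goodF G M) c = goodEquiv G M (algebraMap ℂ (GoodG G M) c) :=
      ((goodEquiv G M).commutes c).symm
    rw [h, thetaF_goodEquiv, AlgHom.commutes]
  θ_j := by
    have h : (⟨jF G M, ⟨jG G M, rfl⟩⟩ : goodF G M) = goodEquiv G M (jG G M) := rfl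
    rw [h, thetaF_goodEquiv, thetaG_jG]
  trans := transcendental_jF
  fin := (finite_fracG hM hθ).1
  T := repFinset (finite_orbit_thetaG hM θ)
  T_inj := by
    intro γ hγ γ' hγ' h
    have h1 := h (goodEquiv G M θ)
    rw [thetaF_goodEquiv] at h1
    exact eq_of_mem_repFinset _ hγ hγ' h1
  deg_le := (finite_fracG hM hθ).2.trans (card_repFinset _).ge

variable (hM : Gamma M ≤ G) {θ : GoodG G M} (hθ : Sep G M θ)

theorem cdataG_θ (a : GoodG G M) : (cdataG hM hθ).θ (goodEquiv G M a) = thetaG G M a :=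
  thetaF_goodEquiv a

/-- The order at `τ` of a good series, computed in the function field. -/
theorem ord_toF {a : GoodG G M} (ha : a ≠ 0) (τ : ℍ) :
    (cdataG hM hθ).ord τ (toF G M a) = ordZ τ (thetaG G M a) := by
  have h := (cdataG hM hθ).ord_coe τ (a := goodEquiv G M a) (goodEquiv_ne_zero ha)
  rw [cdataG_θ] at h
  exact h

/-- The order at `τ` of a quotient of good series. -/
theorem ord_eq_sub {f : FracG G M} {a b : GoodG G M} (ha : a ≠ 0) (hb : b ≠ 0)
    (hab : (f : LaurentSeries ℂ) * (b : LaurentSeries ℂ) = a) (τ : ℍ) :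
    (cdataG hM hθ).ord τ f = ordZ τ (thetaG G M a) - ordZ τ (thetaG G M b) := by
  have hF : f * toF G M b = toF G M a := Subtype.ext hab
  have hf0 : f ≠ 0 := by
    rintro rfl
    rw [zero_mul] at hF
    exact toF_ne_zero ha hF.symm
  have h1 := ((cdataG hM hθ).isOrd_ord τ).map_mul hf0 (toF_ne_zero hb)
  rw [hF, ord_toF hM hθ ha, ord_toF hM hθ hb] at h1
  omega

/-- `DivH` in terms of the order functions of the function field. -/
theorem divH_iff_ord (m : ℕ) (f : LaurentSeries ℂ) :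
    DivH G M m f ↔ ∃ hf : f ∈ FracG G M, f ≠ 0 ∧
      ∀ τ : ℍ, (m : ℤ) ∣ (cdataG hM hθ).ord τ ⟨f, hf⟩ := by
  constructor
  · intro h
    have hmem := h.mem_fracG
    refine ⟨hmem, h.ne_zero, fun τ => ?_⟩
    obtain ⟨a, b, ha, hb, hab, hdiv⟩ := h
    rw [ord_eq_sub hM hθ (f := ⟨f, hmem⟩) ha hb hab τ]
    exact hdiv τ
  · rintro ⟨hf, hf0, hdiv⟩
    obtain ⟨a, b, hb, hab⟩ := exists_good_frac hf
    have hb' : (b : LaurentSeries ℂ) ≠ 0 := fun h => hb (Subtype.ext h)
    have ha : a ≠ 0 := by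
      rintro rfl
      exact mul_ne_zero hf0 hb' hab
    refine ⟨a, b, ha, hb, hab, fun τ => ?_⟩
    rw [← ord_eq_sub hM hθ (f := ⟨f, hf⟩) ha hb hab τ]
    exact hdiv τ

/-! ### The coefficientwise action on the function field -/

/-- A field generated over `ℂ` by series with rational coefficients is stable under the
coefficientwise action of `Aut(ℂ)`. -/
theorem coeffMap_mem_fracG (S₀ : Set (LaurentSeries ℚ))
    (hS : IntermediateField.adjoin ℂ (coeffEmb ℂ '' S₀) = FracG G M) (σ : ℂ ≃+* ℂ)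
    (f : LaurentSeries ℂ) (hf : f ∈ FracG G M) : coeffMap (σ : ℂ →+* ℂ) f ∈ FracG G M := by
  rw [← hS] at hf ⊢
  have hgen : ∀ y ∈ coeffEmb ℂ '' S₀, coeffMap (σ : ℂ →+* ℂ) y = y := by
    rintro _ ⟨x, -, rfl⟩
    rw [coeffEmb, coeffMap_coeffMap]
    exact coeffMap_congr (RingHom.ext fun c => by simp) x
  induction hf using IntermediateField.adjoin_induction with
  | mem y hy => rw [hgen y hy]; exact IntermediateField.subset_adjoin ℂ _ hy
  | algebraMap c => rw [coeffMap_algebraMap]; exact IntermediateField.algebraMap_mem _ _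
  | add x y _ _ hx hy => rw [map_add]; exact add_mem hx hy
  | inv x _ hx => rw [map_inv₀]; exact inv_mem hx
  | mul x y _ _ hx hy => rw [map_mul]; exact mul_mem hx hy

variable (hF : ∀ (σ : ℂ ≃+* ℂ) (f : LaurentSeries ℂ), f ∈ FracG G M →
  coeffMap (σ : ℂ →+* ℂ) f ∈ FracG G M)

/-- The coefficientwise action of `σ` on `FracG G M`. -/
def coeffHomF (σ : ℂ ≃+* ℂ) : FracG G M →+* FracG G M where
  toFun x := ⟨coeffMap (σ : ℂ →+* ℂ) (x : LaurentSeries ℂ), hF σ _ x.2⟩
  map_one' := Subtype.ext (map_one _)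
  map_mul' _ _ := Subtype.ext (map_mul _ _ _)
  map_zero' := Subtype.ext (map_zero _)
  map_add' _ _ := Subtype.ext (map_add _ _ _)

theorem coeffHomF_comp_symm (σ : ℂ ≃+* ℂ) :
    (coeffHomF hF σ).comp (coeffHomF hF σ.symm) = RingHom.id (FracG G M) := by
  apply RingHom.ext
  intro x
  apply Subtype.ext
  show coeffMap (σ : ℂ →+* ℂ) (coeffMap (σ.symm : ℂ →+* ℂ) (x : LaurentSeries ℂ)) = x
  rw [coeffMap_coeffMap]
  have h : (σ : ℂ →+* ℂ).comp (σ.symm : ℂ →+* ℂ) = RingHom.id ℂ :=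
    RingHom.ext fun c => σ.apply_symm_apply c
  rw [coeffMap_congr h, coeffMap_id]

/-- The coefficientwise action of `σ` on `FracG G M`, as a ring automorphism. -/
def coeffEquivF (σ : ℂ ≃+* ℂ) : FracG G M ≃+* FracG G M :=
  RingEquiv.ofRingHom (coeffHomF hF σ) (coeffHomF hF σ.symm) (coeffHomF_comp_symm hF σ)
    (by
      have h := coeffHomF_comp_symm hF σ.symm
      rwa [RingEquiv.symm_symm] at h)

theorem coe_coeffEquivF (σ : ℂ ≃+* ℂ) (x : FracG G M) :
    ((coeffEquivF hF σ x : FracG G M) : LaurentSeries ℂ)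
      = coeffMap (σ : ℂ →+* ℂ) (x : LaurentSeries ℂ) := rfl

theorem coeffEquivF_algebraMap (σ : ℂ ≃+* ℂ) (c : ℂ) :
    coeffEquivF hF σ (algebraMap ℂ (FracG G M) c) = algebraMap ℂ (FracG G M) (σ c) := by
  apply Subtype.ext
  rw [coe_coeffEquivF]
  exact coeffMap_algebraMap (σ : ℂ →+* ℂ) c

theorem coeffEquivF_jF (σ : ℂ ≃+* ℂ) : coeffEquivF hF σ (jF G M) = jF G M := by
  apply Subtype.ext
  rw [coe_coeffEquivF, coe_jF, coeffEmb, coeffMap_coeffMap]
  exact coeffMap_congr (RingHom.ext fun c => by simp) jq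

include hM hθ hF in
/-- **Aut-stability of `DivH`, generic subgroup.**  If the function field `FracG G M` has a
separating good series and is stable under the coefficientwise action of `Aut(ℂ)`, then the set
of `m`-divisible functions is stable under that action. -/
theorem divH_coeffMap (m : ℕ) (σ : ℂ ≃+* ℂ) {f : LaurentSeries ℂ} (hf : DivH G M m f) :
    DivH G M m (coeffMap (σ : ℂ →+* ℂ) f) := by
  obtain ⟨hfm, hf0, hdiv⟩ := (divH_iff_ord hM hθ m f).mp hf
  have hne : (⟨f, hfm⟩ : FracG G M) ≠ 0 := by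
    intro h
    exact hf0 (congrArg (fun x : FracG G M => (x : LaurentSeries ℂ)) h)
  refine (divH_iff_ord hM hθ m _).mpr ⟨hF σ f hfm, ?_, fun τ => ?_⟩
  · intro h
    exact hf0 ((map_eq_zero (coeffMap (σ : ℂ →+* ℂ))).mp h)
  · exact dvd_ord_of_ringEquiv (cdataG hM hθ) σ (coeffEquivF hF σ) (coeffEquivF_algebraMap hF σ)
      (coeffEquivF_jF hF σ) (m : ℤ) hne hdiv τ

end Inst

end Fermat.Agent.S48.G1.AutStableGen

end
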