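import Mathlib
import Fermat.Agent.S30.RootQExp
import Fermat.Agent.Lib.HolRootH
import Fermat.Agent.S24.QB.Conv
import Fermat.Agent.S24.HolHOrd
import Fermat.Agent.S30.KummerDescentFN

set_option autoImplicit false
set_option linter.dupNamespace false
set_option linter.unusedSectionVars false
set_option linter.style.haveILetI false

/-!
# PROGRAM DS (S48) / G1: the descent `ℂ → ℚ̄` of Kummer roots, for a GENERIC subgroup

Generic-`Γ` twin of `S30/DescentInst/{Defs,Horb,Glue}` (helper29).  `G ≤ SL(2, ℤ)` is any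
subgroup with `Γ(M) ≤ G` and `T ∈ G` (e.g. `Γ₁(M)`, `Γ₁(M) ∩ Γ₀(r)`, `Γ₀(M)`); no function
field is fixed in advance.

* `IsAvatar G M f W` : the holomorphic function `W` on `ℍ` is `G`-invariant, has the
  `q`-expansion `f`, and all its `SL(2, ℤ)`-translates have `q^(1/M)`-expansions.
* `GoodG G M` : the subalgebra of `ℂ((q))` of series having an avatar; `thetaG` the avatar map.
* `FracG G M` : its field of fractions inside `ℂ((q))` (the function field over `ℂ`).
* `DivH G M m f` : `f = a / b` with all orders on `ℍ` of `θ a / θ b` divisible by `m`.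
* `HasChar G M m y φ` : `y ^ m = a / b` and a holomorphic `m`-th root of `θ a · θ b ^ (m-1)` has
  the multiplier character `φ : G → μ_m`.
* `exists_good_root`, `exists_hasChar`, `HasChar.exists_mul`, `HasChar.mul`, `HasChar.unique`,
  `HasChar.exists_root_of_repr`, `horb_of_stab` : as in `S30/DescentInst`.
* `exists_descent_hasChar` : **the descent**.  If the function field `FracG G M` is generated
  over `ℂ` by a set `S₀` of series with RATIONAL coefficients, is finite over `ℂ(J₀)`, and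
  `m`-divisibility is stable under `Aut(ℂ)`, then for every `x₀` with character `φ` there is
  `y ∈ K((q))` (`K` algebraically closed, e.g. `ℚ̄`), `y ^ m ∈ K(S₀)`, whose base change to `ℂ`
  has the character `φ`.
-/

noncomputable section

open UpperHalfPlane ModularCurve HahnSeries CongruenceSubgroup IntermediateField
open Fermat.Agent.S24.HolH Fermat.Agent.S24 Fermat.Agent.Lib
open scoped MatrixGroups Manifold

namespace Fermat.Agent.S48.G1.DescentGen

/-! ### Avatars and good series -/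

section Good

variable (G : Subgroup SL(2, ℤ)) (M : ℕ) [NeZero M]

/-- `W` is an analytic avatar of the `q`-series `f` for `(G, M)`: it has the expansion `f`, is
invariant under `G`, and all its `SL(2, ℤ)`-translates have `q^(1/M)`-expansions. -/
def IsAvatar (f : LaurentSeries ℂ) (W : HolH) : Prop :=
  QB.HasQExpK (RingHom.id ℂ) M (qExpand ℂ M f) (W : ℍ → ℂ) ∧
    (∀ γ ∈ G, compSL γ W = W) ∧
    ∀ γ : SL(2, ℤ), ∃ B : LaurentSeries ℂ,
      QB.HasQExpK (RingHom.id ℂ) M B ((compSL γ W : HolH) : ℍ → ℂ)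

variable {G M}

theorem IsAvatar.unique {f : LaurentSeries ℂ} {W W' : HolH} (h : IsAvatar G M f W)
    (h' : IsAvatar G M f W') : W = W' :=
  Subtype.ext (h.1.fun_unique h'.1)

theorem IsAvatar.series_unique {f f' : LaurentSeries ℂ} {W : HolH} (h : IsAvatar G M f W)
    (h' : IsAvatar G M f' W) : f = f' :=
  qExpand_injective M (h.1.unique (NeZero.ne M) h'.1)

theorem IsAvatar.add {f g : LaurentSeries ℂ} {W V : HolH} (h : IsAvatar G M f W)
    (h' : IsAvatar G M g V) : IsAvatar G M (f + g) (W + V) := by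
  refine ⟨?_, fun γ hγ => ?_, fun γ => ?_⟩
  · rw [map_add]
    exact (h.1.add h'.1).congr fun τ => rfl
  · rw [map_add, h.2.1 γ hγ, h'.2.1 γ hγ]
  · obtain ⟨B, hB⟩ := h.2.2 γ
    obtain ⟨C, hC⟩ := h'.2.2 γ
    refine ⟨B + C, ?_⟩
    rw [map_add]
    exact (hB.add hC).congr fun τ => rfl

theorem IsAvatar.mul {f g : LaurentSeries ℂ} {W V : HolH} (h : IsAvatar G M f W)
    (h' : IsAvatar G M g V) : IsAvatar G M (f * g) (W * V) := by
  refine ⟨?_, fun γ hγ => ?_, fun γ => ?_⟩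
  · rw [map_mul]
    exact (h.1.mul h'.1).congr fun τ => rfl
  · rw [map_mul, h.2.1 γ hγ, h'.2.1 γ hγ]
  · obtain ⟨B, hB⟩ := h.2.2 γ
    obtain ⟨C, hC⟩ := h'.2.2 γ
    refine ⟨B * C, ?_⟩
    rw [map_mul]
    exact (hB.mul hC).congr fun τ => rfl

variable (G M)

theorem isAvatar_algebraMap (c : ℂ) :
    IsAvatar G M (algebraMap ℂ (LaurentSeries ℂ) c) (algebraMap ℂ HolH c) := by
  have hq : qExpand ℂ M (algebraMap ℂ (LaurentSeries ℂ) c) = algebraMap ℂ (LaurentSeries ℂ) c := by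
    rw [algebraMap_laurentSeries_eq_single, qExpand_single, mul_zero]
  have hc : ∀ γ : SL(2, ℤ), compSL γ (algebraMap ℂ HolH c) = algebraMap ℂ HolH c :=
    fun γ => AlgHom.commutes _ c
  refine ⟨?_, fun γ _ => hc γ, fun γ => ⟨algebraMap ℂ (LaurentSeries ℂ) c, ?_⟩⟩
  · rw [hq]
    exact (QB.hasQExpK_algebraMap (RingHom.id ℂ) M c).congr fun τ => rfl
  · rw [hc γ]
    exact (QB.hasQExpK_algebraMap (RingHom.id ℂ) M c).congr fun τ => rfl

/-- The subalgebra of good Laurent series over `ℂ` for `(G, M)`. -/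
def GoodG : Subalgebra ℂ (LaurentSeries ℂ) where
  carrier := {f | ∃ W : HolH, IsAvatar G M f W}
  mul_mem' := by
    rintro f g ⟨W, hW⟩ ⟨V, hV⟩
    exact ⟨W * V, hW.mul hV⟩
  add_mem' := by
    rintro f g ⟨W, hW⟩ ⟨V, hV⟩
    exact ⟨W + V, hW.add hV⟩
  algebraMap_mem' := fun c => ⟨algebraMap ℂ HolH c, isAvatar_algebraMap G M c⟩

theorem mem_goodG {f : LaurentSeries ℂ} : f ∈ GoodG G M ↔ ∃ W : HolH, IsAvatar G M f W :=
  Iff.rfl

/-- The analytic avatar of a good series. -/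
def avatar (f : GoodG G M) : HolH := f.2.choose

theorem isAvatar_avatar (f : GoodG G M) : IsAvatar G M (f : LaurentSeries ℂ) (avatar G M f) :=
  f.2.choose_spec

variable {G M}

theorem avatar_eq {f : GoodG G M} {W : HolH} (h : IsAvatar G M (f : LaurentSeries ℂ) W) :
    avatar G M f = W :=
  (isAvatar_avatar G M f).unique h

variable (G M)

/-- The analytic avatar, as an algebra homomorphism. -/
def thetaG : GoodG G M →ₐ[ℂ] HolH where
  toFun f := avatar G M f
  map_one' := by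
    have h := isAvatar_algebraMap G M 1
    rw [map_one, map_one] at h
    exact avatar_eq h
  map_mul' f g := avatar_eq ((isAvatar_avatar G M f).mul (isAvatar_avatar G M g))
  map_zero' := by
    have h := isAvatar_algebraMap G M 0
    rw [map_zero, map_zero] at h
    exact avatar_eq h
  map_add' f g := avatar_eq ((isAvatar_avatar G M f).add (isAvatar_avatar G M g))
  commutes' c := avatar_eq (isAvatar_algebraMap G M c)

theorem isAvatar_thetaG (f : GoodG G M) : IsAvatar G M (f : LaurentSeries ℂ) (thetaG G M f) :=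
  isAvatar_avatar G M f

variable {G M}

theorem thetaG_eq {f : GoodG G M} {W : HolH} (h : IsAvatar G M (f : LaurentSeries ℂ) W) :
    thetaG G M f = W :=
  avatar_eq h

variable (G M)

theorem hasQExpK_thetaG (f : GoodG G M) :
    QB.HasQExpK (RingHom.id ℂ) M (qExpand ℂ M (f : LaurentSeries ℂ))
      ((thetaG G M f : HolH) : ℍ → ℂ) :=
  (isAvatar_thetaG G M f).1

theorem thetaG_injective : Function.Injective (thetaG G M) := by
  intro f g h
  have h1 := isAvatar_thetaG G M f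
  rw [h] at h1
  exact Subtype.ext (h1.series_unique (isAvatar_thetaG G M g))

theorem thetaG_ne_zero {f : GoodG G M} (hf : f ≠ 0) : thetaG G M f ≠ 0 :=
  (map_ne_zero_iff _ (thetaG_injective G M)).mpr hf

theorem compSL_thetaG {γ : SL(2, ℤ)} (hγ : γ ∈ G) (f : GoodG G M) :
    compSL γ (thetaG G M f) = thetaG G M f :=
  (isAvatar_thetaG G M f).2.1 γ hγ

theorem exists_has_compSL_thetaG (γ : SL(2, ℤ)) (f : GoodG G M) :
    ∃ B : LaurentSeries ℂ, QB.HasQExpK (RingHom.id ℂ) M B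
      ((compSL γ (thetaG G M f) : HolH) : ℍ → ℂ) :=
  (isAvatar_thetaG G M f).2.2 γ

/-! ### The function field over `ℂ` -/

/-- The field of fractions of the good series, inside `ℂ((q))`: the function field of `G`
over `ℂ`. -/
def FracG : IntermediateField ℂ (LaurentSeries ℂ) where
  carrier := {f | ∃ a b : GoodG G M, b ≠ 0 ∧ f * (b : LaurentSeries ℂ) = a}
  mul_mem' := by
    rintro f g ⟨a, b, hb, hab⟩ ⟨c, d, hd, hcd⟩
    refine ⟨a * c, b * d, mul_ne_zero hb hd, ?_⟩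
    push_cast
    rw [← hab, ← hcd]
    ring
  one_mem' := ⟨1, 1, one_ne_zero, by simp⟩
  add_mem' := by
    rintro f g ⟨a, b, hb, hab⟩ ⟨c, d, hd, hcd⟩
    refine ⟨a * d + c * b, b * d, mul_ne_zero hb hd, ?_⟩
    push_cast
    rw [← hab, ← hcd]
    ring
  zero_mem' := ⟨0, 1, one_ne_zero, by simp⟩
  algebraMap_mem' := fun c => ⟨algebraMap ℂ (GoodG G M) c, 1, one_ne_zero, by simp⟩
  inv_mem' := by
    rintro f ⟨a, b, hb, hab⟩
    by_cases ha : a = 0
    · have hb' : (b : LaurentSeries ℂ) ≠ 0 := fun h => hb (Subtype.ext h)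
      have hf0 : f = 0 := by
        rw [ha] at hab
        exact (mul_eq_zero.mp hab).resolve_right hb'
      rw [hf0, inv_zero]
      exact ⟨0, 1, one_ne_zero, by simp⟩
    · refine ⟨b, a, ha, ?_⟩
      have hb' : (b : LaurentSeries ℂ) ≠ 0 := fun h => hb (Subtype.ext h)
      have ha' : (a : LaurentSeries ℂ) ≠ 0 := fun h => ha (Subtype.ext h)
      have hf0 : f ≠ 0 := by
        rintro rfl
        rw [zero_mul] at hab
        exact ha' hab.symm
      rw [← hab]
      field_simp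

variable {G M}

theorem mem_fracG {f : LaurentSeries ℂ} :
    f ∈ FracG G M ↔ ∃ a b : GoodG G M, b ≠ 0 ∧ f * (b : LaurentSeries ℂ) = a := Iff.rfl

theorem exists_good_frac {f : LaurentSeries ℂ} (hf : f ∈ FracG G M) :
    ∃ a b : GoodG G M, b ≠ 0 ∧ f * (b : LaurentSeries ℂ) = a := hf

variable (G M)

/-- Good series lie in the function field. -/
theorem coe_mem_fracG (f : GoodG G M) : (f : LaurentSeries ℂ) ∈ FracG G M :=
  ⟨f, 1, one_ne_zero, by simp⟩

/-! ### `m`-divisible functions -/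

/-- `f` is an `m`-divisible function for `(G, M)`: a quotient `a / b` of good series such that
all orders on `ℍ` of `θ a / θ b` are divisible by `m`. -/
def DivH (m : ℕ) (f : LaurentSeries ℂ) : Prop :=
  ∃ a b : GoodG G M, a ≠ 0 ∧ b ≠ 0 ∧ f * (b : LaurentSeries ℂ) = a ∧
    ∀ τ : ℍ, (m : ℤ) ∣ ordZ τ (thetaG G M a) - ordZ τ (thetaG G M b)

variable {G M}

theorem DivH.ne_zero {m : ℕ} {f : LaurentSeries ℂ} (h : DivH G M m f) : f ≠ 0 := by
  obtain ⟨a, b, ha, hb, hab, -⟩ := h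
  rintro rfl
  rw [zero_mul] at hab
  exact ha (Subtype.ext hab.symm)

theorem DivH.mem_fracG {m : ℕ} {f : LaurentSeries ℂ} (h : DivH G M m f) : f ∈ FracG G M := by
  obtain ⟨a, b, ha, hb, hab, -⟩ := h
  exact ⟨a, b, hb, hab⟩

/-- `DivH` does not depend on the representation as a quotient. -/
theorem DivH.dvd_of_eq {m : ℕ} {f : LaurentSeries ℂ} (h : DivH G M m f) {a b : GoodG G M}
    (ha : a ≠ 0) (hb : b ≠ 0) (hab : f * (b : LaurentSeries ℂ) = a) (τ : ℍ) :
    (m : ℤ) ∣ ordZ τ (thetaG G M a) - ordZ τ (thetaG G M b) := by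
  obtain ⟨a', b', ha', hb', hab', hdiv⟩ := h
  have hcross : a * b' = a' * b := by
    apply Subtype.ext
    push_cast
    rw [← hab, ← hab']
    ring
  have h1 := congrArg (fun x => ordZ τ (thetaG G M x)) hcross
  simp only [map_mul] at h1
  rw [ordZ_mul τ (thetaG_ne_zero G M ha) (thetaG_ne_zero G M hb'),
    ordZ_mul τ (thetaG_ne_zero G M ha') (thetaG_ne_zero G M hb)] at h1
  have h2 := hdiv τ
  have h3 : ordZ τ (thetaG G M a) - ordZ τ (thetaG G M b)
      = ordZ τ (thetaG G M a') - ordZ τ (thetaG G M b') := by omega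
  rw [h3]
  exact h2

end Good

/-! ### Roots of good series -/

section Root

variable {G : Subgroup SL(2, ℤ)} {M : ℕ} [NeZero M]

/-- Conjugates of `T ^ M` lie in `G ⊇ Γ(M)`. -/
theorem conj_T_zpow_mem (hM : Gamma M ≤ G) (γ : SL(2, ℤ)) :
    γ * ModularGroup.T ^ (M : ℤ) * γ⁻¹ ∈ G := by
  apply hM
  have hT : ModularGroup.T ^ (M : ℤ) ∈ Gamma M := by
    have h := ModularGroup_T_pow_mem_Gamma (M : ℤ) (M : ℤ) dvd_rfl
    simpa using h
  exact (Gamma_normal M).conj_mem _ hT γ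

theorem periodic_of_compSL_T_zpow {k : ℕ} {f : HolH}
    (h : compSL (ModularGroup.T ^ (k : ℤ)) f = f) (τ : ℍ) :
    (f : ℍ → ℂ) ((k : ℝ) +ᵥ τ) = (f : ℍ → ℂ) τ := by
  have h3 := congrArg (fun F : HolH => (F : ℍ → ℂ) τ) h
  simp only [compSL_apply] at h3
  rw [UpperHalfPlane.modular_T_zpow_smul] at h3
  simpa using h3

theorem apply_vadd_of_inv (hT : ModularGroup.T ∈ G) {W : HolH}
    (hinv : ∀ γ ∈ G, compSL γ W = W) (τ : ℍ) :
    (W : ℍ → ℂ) ((1 : ℝ) +ᵥ τ) = (W : ℍ → ℂ) τ := by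
  have h3 := congrArg (fun F : HolH => (F : ℍ → ℂ) τ) (hinv _ hT)
  simp only [compSL_apply] at h3
  rw [UpperHalfPlane.modular_T_smul] at h3
  exact h3

/-- The avatar of a good series has the series itself as its `q`-expansion. -/
theorem hasQExpK_one_thetaG (hT : ModularGroup.T ∈ G) (f : GoodG G M) :
    QB.HasQExpK (RingHom.id ℂ) 1 (f : LaurentSeries ℂ) ((thetaG G M f : HolH) : ℍ → ℂ) := by
  have hζ : (RingHom.id ℂ) ((Units.mk0 (Complex.exp (2 * Real.pi * Complex.I / M))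
      (Complex.exp_ne_zero _) : ℂˣ) : ℂ) = Complex.exp (2 * Real.pi * Complex.I / M) := rfl
  obtain ⟨A', hA', hA'1⟩ := QB.HasQExpK.exists_qExpand_of_periodic _ hζ (hasQExpK_thetaG G M f)
    (apply_vadd_of_inv hT (fun γ hγ => compSL_thetaG G M hγ f))
  have h : (f : LaurentSeries ℂ) = A' := qExpand_injective M hA'
  rw [h]
  exact hA'1

/-- **Roots of good series are good.**  A `G`-invariant holomorphic `m`-th root of the avatar
of a good series is the avatar of a good series. -/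
theorem exists_good_root (hM : Gamma M ≤ G) (hT : ModularGroup.T ∈ G) {m : ℕ} (hm : m ≠ 0)
    (c : GoodG G M) (W : HolH) (hW : W ^ m = thetaG G M c)
    (hinv : ∀ γ ∈ G, compSL γ W = W) :
    ∃ w : GoodG G M, thetaG G M w = W ∧ w ^ m = c := by
  have hper1 : ∀ τ : ℍ, (W : ℍ → ℂ) (((1 : ℕ) : ℝ) +ᵥ τ) = (W : ℍ → ℂ) τ := by
    intro τ
    rw [Nat.cast_one]
    exact apply_vadd_of_inv hT hinv τ
  have hB : QB.HasQExpK (RingHom.id ℂ) 1 (c : LaurentSeries ℂ)
      (fun τ => (W : ℍ → ℂ) τ ^ m) := by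
    refine (hasQExpK_one_thetaG hT c).congr fun τ => ?_
    rw [← hW, HolRootH.coe_pow_apply]
  obtain ⟨A, hA, hAm⟩ := Fermat.Agent.S30.RootQExp.hasQExpK_root (RingHom.id ℂ) one_ne_zero hm
    W.2 hper1 hB
  have hav : IsAvatar G M A W := by
    refine ⟨hA.qExpand_one M, hinv, fun γ => ?_⟩
    obtain ⟨B, hB⟩ := exists_has_compSL_thetaG G M γ c
    have hperN : ∀ τ : ℍ, ((compSL γ W : HolH) : ℍ → ℂ) ((M : ℝ) +ᵥ τ)
        = ((compSL γ W : HolH) : ℍ → ℂ) τ := by
      apply periodic_of_compSL_T_zpow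
      rw [← compSL_mul]
      have e : γ * ModularGroup.T ^ (M : ℤ)
          = (γ * ModularGroup.T ^ (M : ℤ) * γ⁻¹) * γ := by group
      rw [e, compSL_mul, hinv _ (conj_T_zpow_mem hM γ)]
    have hB' : QB.HasQExpK (RingHom.id ℂ) M B
        (fun τ => ((compSL γ W : HolH) : ℍ → ℂ) τ ^ m) := by
      refine hB.congr fun τ => ?_
      rw [← hW, map_pow, HolRootH.coe_pow_apply]
    obtain ⟨A2, hA2, -⟩ := Fermat.Agent.S30.RootQExp.hasQExpK_root (RingHom.id ℂ) (NeZero.ne M) hm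
      (compSL γ W).2 hperN hB'
    exact ⟨A2, hA2⟩
  refine ⟨⟨A, W, hav⟩, thetaG_eq hav, Subtype.ext hAm⟩

end Root

/-! ### Characters -/

section Char

variable (G : Subgroup SL(2, ℤ)) (M : ℕ) [NeZero M]

/-- `y ∈ ℂ((q))` is an `m`-th root of a quotient `a / b` of good series and a holomorphic
`m`-th root of `θ a · θ b ^ (m - 1)` has the multiplier character `φ`. -/
def HasChar (m : ℕ) (y : LaurentSeries ℂ) (φ : G →* rootsOfUnity m ℂ) : Prop :=
  ∃ (a b : GoodG G M) (H : HolH), a ≠ 0 ∧ b ≠ 0 ∧ y ^ m * (b : LaurentSeries ℂ) = a ∧ H ≠ 0 ∧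
    H ^ m = thetaG G M a * thetaG G M b ^ (m - 1) ∧
    ∀ γ : G, compSL (γ : SL(2, ℤ)) H = (((φ γ : rootsOfUnity m ℂ) : ℂˣ) : ℂ) • H

variable {G M}

/-- There are only finitely many characters `G → μ_m`. -/
theorem finite_hom (hM : Gamma M ≤ G) (m : ℕ) [NeZero m] :
    Finite (G →* rootsOfUnity m ℂ) := by
  haveI : G.FiniteIndex := Subgroup.finiteIndex_of_le hM
  have hfg : Group.FG G := by
    have : Group.FG SL(2, ℤ) := by
      rw [Group.fg_iff]
      exact ⟨{ModularGroup.S, ModularGroup.T}, SpecialLinearGroup.SL2Z_generators,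
        Set.toFinite _⟩
    exact Subgroup.fg_of_index_ne_zero _
  obtain ⟨S, hS, hSfin⟩ := Group.fg_iff.mp hfg
  have : Finite S := hSfin
  refine Finite.of_injective
    (fun (φ : G →* rootsOfUnity m ℂ) (s : S) => φ (s : G)) ?_
  intro φ ψ h
  apply MonoidHom.eq_of_eqOn_dense hS
  intro s hs
  exact congrFun h ⟨s, hs⟩

/-- Every `m`-th root of an `m`-divisible function has a character. -/
theorem exists_hasChar {m : ℕ} [NeZero m] {y : LaurentSeries ℂ} (h : DivH G M m (y ^ m)) :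
    ∃ φ : G →* rootsOfUnity m ℂ, HasChar G M m y φ := by
  obtain ⟨a, b, ha, hb, hab, hdiv⟩ := h
  obtain ⟨H, hH, hHm, -⟩ := HolRootH.exists_root_frac m (NeZero.ne m) (thetaG G M a)
    (thetaG G M b) (thetaG_ne_zero G M ha) (thetaG_ne_zero G M hb) hdiv
  have hinv : ∀ γ ∈ G, compSL γ (H ^ m) = H ^ m := by
    intro γ hγ
    rw [hHm, map_mul, map_pow, compSL_thetaG G M hγ, compSL_thetaG G M hγ]
  obtain ⟨φ, hφ⟩ := HolRootH.exists_character m G H hH hinv
  exact ⟨φ, a, b, H, ha, hb, hab, hH, hHm, hφ⟩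

/-- **Same character ⇒ same class.**  Two series with the same character differ by a nonzero
factor in the function field. -/
theorem HasChar.exists_mul (hM : Gamma M ≤ G) (hT : ModularGroup.T ∈ G) {m : ℕ} (hm : 0 < m)
    {y₁ y₂ : LaurentSeries ℂ} {φ : G →* rootsOfUnity m ℂ}
    (h₁ : HasChar G M m y₁ φ) (h₂ : HasChar G M m y₂ φ) :
    ∃ u ∈ FracG G M, u ≠ 0 ∧ y₁ = u * y₂ := by
  obtain ⟨k, rfl⟩ : ∃ k, m = k + 1 := ⟨m - 1, by omega⟩
  obtain ⟨a₁, b₁, H₁, ha₁, hb₁, hab₁, hH₁, hHm₁, hφ₁⟩ := h₁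
  obtain ⟨a₂, b₂, H₂, ha₂, hb₂, hab₂, hH₂, hHm₂, hφ₂⟩ := h₂
  rw [Nat.add_sub_cancel] at hHm₁ hHm₂
  set W : HolH := H₁ * H₂ ^ k with hW
  set c : GoodG G M := (a₁ * b₁ ^ k) * (a₂ * b₂ ^ k) ^ k with hc
  have hWm : W ^ (k + 1) = thetaG G M c := by
    rw [hW, hc, mul_pow, ← pow_mul, mul_comm k (k + 1), pow_mul, hHm₁, hHm₂]
    simp only [map_mul, map_pow]
  have hinv : ∀ γ ∈ G, compSL γ W = W := by
    intro γ hγ
    have e₁ := hφ₁ ⟨γ, hγ⟩
    have e₂ := hφ₂ ⟨γ, hγ⟩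
    have hζ : (((φ ⟨γ, hγ⟩ : rootsOfUnity (k + 1) ℂ) : ℂˣ) : ℂ) ^ (k + 1) = 1 := by
      have h := (mem_rootsOfUnity _ _).mp (φ ⟨γ, hγ⟩).2
      have h' := congrArg Units.val h
      simpa using h'
    simp only [] at e₁ e₂
    rw [hW, map_mul, map_pow, e₁, e₂, smul_pow, smul_mul_smul_comm, ← pow_succ', hζ, one_smul]
  obtain ⟨w, -, hwm⟩ := exists_good_root hM hT (Nat.succ_ne_zero k) c W hWm hinv
  have hb₁' : (b₁ : LaurentSeries ℂ) ≠ 0 := fun h => hb₁ (Subtype.ext h)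
  have hb₂' : (b₂ : LaurentSeries ℂ) ≠ 0 := fun h => hb₂ (Subtype.ext h)
  have ha₁' : (a₁ : LaurentSeries ℂ) ≠ 0 := fun h => ha₁ (Subtype.ext h)
  have ha₂' : (a₂ : LaurentSeries ℂ) ≠ 0 := fun h => ha₂ (Subtype.ext h)
  have hc0 : (c : LaurentSeries ℂ) ≠ 0 := by
    rw [hc]
    push_cast
    exact mul_ne_zero (mul_ne_zero ha₁' (pow_ne_zero _ hb₁'))
      (pow_ne_zero _ (mul_ne_zero ha₂' (pow_ne_zero _ hb₂')))
  have hwc : (w : LaurentSeries ℂ) ^ (k + 1) = (c : LaurentSeries ℂ) := by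
    have h := congrArg Subtype.val hwm
    simpa using h
  have hw0 : (w : LaurentSeries ℂ) ≠ 0 := by
    intro h
    rw [h, zero_pow (Nat.succ_ne_zero k)] at hwc
    exact hc0 hwc.symm
  set z : LaurentSeries ℂ := y₁ * y₂ ^ k * b₁ * b₂ ^ k with hz
  have hzm : z ^ (k + 1) = (w : LaurentSeries ℂ) ^ (k + 1) := by
    rw [hwc, hc, hz]
    push_cast
    rw [← hab₁, ← hab₂]
    ring
  -- `z / w` is a constant root of unity
  have hu1 : (z / (w : LaurentSeries ℂ)) ^ (k + 1) = 1 := by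
    rw [div_pow, hzm, div_self (pow_ne_zero _ hw0)]
  have hζ0 := Complex.isPrimitiveRoot_exp (k + 1) (Nat.succ_ne_zero k)
  have hζ : IsPrimitiveRoot (algebraMap ℂ (LaurentSeries ℂ)
      (Complex.exp (2 * Real.pi * Complex.I / ((k + 1 : ℕ) : ℂ)))) (k + 1) :=
    hζ0.map_of_injective (algebraMap ℂ (LaurentSeries ℂ)).injective
  obtain ⟨i, -, hi⟩ := hζ.eq_pow_of_pow_eq_one hu1
  have huF : z / (w : LaurentSeries ℂ) ∈ FracG G M := by
    rw [← hi]
    exact pow_mem ((FracG G M).algebraMap_mem _) i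
  have hzF : z ∈ FracG G M := by
    have h : z = z / (w : LaurentSeries ℂ) * w := by
      rw [div_mul_cancel₀ _ hw0]
    rw [h]
    exact mul_mem huF (coe_mem_fracG G M w)
  have hz0 : z ≠ 0 := by
    intro h
    rw [h, zero_pow (Nat.succ_ne_zero k)] at hzm
    exact pow_ne_zero _ hw0 hzm.symm
  -- the factor
  set den : LaurentSeries ℂ := (a₂ : LaurentSeries ℂ) / b₂ * b₁ * (b₂ : LaurentSeries ℂ) ^ k
    with hden
  have hdenF : den ∈ FracG G M :=
    mul_mem (mul_mem (div_mem (coe_mem_fracG G M a₂) (coe_mem_fracG G M b₂))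
      (coe_mem_fracG G M b₁)) (pow_mem (coe_mem_fracG G M b₂) k)
  have hden0 : den ≠ 0 :=
    mul_ne_zero (mul_ne_zero (div_ne_zero ha₂' hb₂') hb₁') (pow_ne_zero _ hb₂')
  refine ⟨z / den, div_mem hzF hdenF, div_ne_zero hz0 hden0, ?_⟩
  rw [div_mul_eq_mul_div, eq_div_iff hden0, hden, hz, ← hab₂]
  field_simp
  ring

/-- **The finite-orbit hypothesis.**  If `m`-divisibility is stable under `Aut(ℂ)`, the orbit of
an `m`-th root of an `m`-divisible function meets only finitely many classes modulo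
`(FracG G M)ˣ`. -/
theorem horb_of_stab (hM : Gamma M ≤ G) (hT : ModularGroup.T ∈ G) {m : ℕ} (hm : 0 < m)
    (hstab : ∀ (σ : ℂ ≃+* ℂ) (f : LaurentSeries ℂ), DivH G M m f →
      DivH G M m (coeffMap (σ : ℂ →+* ℂ) f))
    (x0 : LaurentSeries ℂ) (hD : DivH G M m (x0 ^ m)) :
    ∃ T : Finset (LaurentSeries ℂ), ∀ σ : ℂ ≃+* ℂ, ∃ t ∈ T, ∃ u ∈ FracG G M,
      u ≠ 0 ∧ coeffMap (σ : ℂ →+* ℂ) x0 = u * t := by
  classical
  have : NeZero m := ⟨hm.ne'⟩
  have := finite_hom hM m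
  have hchar : ∀ σ : ℂ ≃+* ℂ, ∃ φ : G →* rootsOfUnity m ℂ,
      HasChar G M m (coeffMap (σ : ℂ →+* ℂ) x0) φ := by
    intro σ
    apply exists_hasChar
    rw [← map_pow]
    exact hstab σ _ hD
  let Φ : Set (G →* rootsOfUnity m ℂ) :=
    {φ | ∃ σ : ℂ ≃+* ℂ, HasChar G M m (coeffMap (σ : ℂ →+* ℂ) x0) φ}
  have hΦ : Φ.Finite := Set.toFinite Φ
  have hsel : ∀ φ : G →* rootsOfUnity m ℂ, ∃ σ : ℂ ≃+* ℂ,
      φ ∈ Φ → HasChar G M m (coeffMap (σ : ℂ →+* ℂ) x0) φ := by
    intro φ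
    by_cases hφ : φ ∈ Φ
    · obtain ⟨σ, hσ⟩ := hφ
      exact ⟨σ, fun _ => hσ⟩
    · exact ⟨RingEquiv.refl ℂ, fun h => absurd h hφ⟩
  choose s hs using hsel
  refine ⟨hΦ.toFinset.image (fun φ => coeffMap ((s φ : ℂ ≃+* ℂ) : ℂ →+* ℂ) x0), fun σ => ?_⟩
  obtain ⟨φ, hφ⟩ := hchar σ
  have hmem : φ ∈ Φ := ⟨σ, hφ⟩
  refine ⟨_, Finset.mem_image.mpr ⟨φ, hΦ.mem_toFinset.mpr hmem, rfl⟩, ?_⟩
  exact HasChar.exists_mul hM hT hm hφ (hs φ hmem)

/-- A series with a character is an `m`-th root of an `m`-divisible function. -/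
theorem HasChar.divH {m : ℕ} {y : LaurentSeries ℂ} {φ : G →* rootsOfUnity m ℂ}
    (h : HasChar G M m y φ) (hm : 0 < m) : DivH G M m (y ^ m) := by
  obtain ⟨a, b, H, ha, hb, hab, hH, hHm, -⟩ := h
  refine ⟨a, b, ha, hb, hab, fun τ => ?_⟩
  have h1 := congrArg (ordZ τ) hHm
  rw [HolRootH.ordZ_pow τ hH, ordZ_mul τ (thetaG_ne_zero G M ha)
    (pow_ne_zero _ (thetaG_ne_zero G M hb)), HolRootH.ordZ_pow τ (thetaG_ne_zero G M hb)] at h1
  refine ⟨ordZ τ H - ordZ τ (thetaG G M b), ?_⟩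
  have hm1 : ((m - 1 : ℕ) : ℤ) = (m : ℤ) - 1 := by
    rw [Nat.cast_sub hm]
    simp
  rw [hm1] at h1
  linear_combination (-1 : ℤ) * h1

/-- Nonzero elements of the function field have the trivial character. -/
theorem hasChar_of_mem_fracG (m : ℕ) {u : LaurentSeries ℂ} (hu : u ∈ FracG G M) (hu0 : u ≠ 0) :
    HasChar G M m u 1 := by
  obtain ⟨u1, u2, hu2, h12⟩ := exists_good_frac hu
  have hu2' : (u2 : LaurentSeries ℂ) ≠ 0 := fun h => hu2 (Subtype.ext h)
  have hu1 : u1 ≠ 0 := by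
    rintro rfl
    exact mul_ne_zero hu0 hu2' h12
  refine ⟨u1 ^ m, u2 ^ m, thetaG G M u1 * thetaG G M u2 ^ (m - 1), pow_ne_zero _ hu1,
    pow_ne_zero _ hu2, ?_, ?_, ?_, ?_⟩
  · push_cast
    rw [← mul_pow, h12]
  · exact mul_ne_zero (thetaG_ne_zero G M hu1) (pow_ne_zero _ (thetaG_ne_zero G M hu2))
  · rw [map_pow, map_pow, mul_pow, ← pow_mul, ← pow_mul, mul_comm (m - 1) m]
  · intro γ
    rw [map_mul, map_pow, compSL_thetaG G M γ.2, compSL_thetaG G M γ.2]
    simp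

/-- Characters multiply. -/
theorem HasChar.mul {m : ℕ} {y y' : LaurentSeries ℂ} {φ φ' : G →* rootsOfUnity m ℂ}
    (h : HasChar G M m y φ) (h' : HasChar G M m y' φ') : HasChar G M m (y * y') (φ * φ') := by
  obtain ⟨a, b, H, ha, hb, hab, hH, hHm, hφ⟩ := h
  obtain ⟨a', b', H', ha', hb', hab', hH', hHm', hφ'⟩ := h'
  refine ⟨a * a', b * b', H * H', mul_ne_zero ha ha', mul_ne_zero hb hb', ?_,
    mul_ne_zero hH hH', ?_, ?_⟩
  · push_cast
    rw [← hab, ← hab']
    ring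
  · rw [mul_pow, hHm, hHm', map_mul, map_mul, mul_pow]
    ring
  · intro γ
    rw [map_mul, hφ γ, hφ' γ, smul_mul_smul_comm]
    simp [MonoidHom.mul_apply]

/-- The character is determined by the series. -/
theorem HasChar.unique {m : ℕ} (hm : 0 < m) {y : LaurentSeries ℂ}
    {φ φ' : G →* rootsOfUnity m ℂ}
    (h : HasChar G M m y φ) (h' : HasChar G M m y φ') : φ = φ' := by
  obtain ⟨a, b, H, ha, hb, hab, hH, hHm, hφ⟩ := h
  obtain ⟨a', b', H', ha', hb', hab', hH', hHm', hφ'⟩ := h'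
  have hcross : a * b' = a' * b := by
    apply Subtype.ext
    push_cast
    rw [← hab, ← hab']
    ring
  obtain ⟨k, rfl⟩ : ∃ k, m = k + 1 := ⟨m - 1, by omega⟩
  rw [Nat.add_sub_cancel] at hHm hHm'
  have h1 : thetaG G M a * thetaG G M b' = thetaG G M a' * thetaG G M b := by
    have h := congrArg (thetaG G M) hcross
    simpa only [map_mul] using h
  have hpow : (H * thetaG G M b') ^ (k + 1) = (H' * thetaG G M b) ^ (k + 1) := by
    rw [mul_pow, mul_pow, hHm, hHm']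
    calc thetaG G M a * thetaG G M b ^ k * thetaG G M b' ^ (k + 1)
        = (thetaG G M a * thetaG G M b') * (thetaG G M b ^ k * thetaG G M b' ^ k) := by ring
      _ = (thetaG G M a' * thetaG G M b) * (thetaG G M b ^ k * thetaG G M b' ^ k) := by rw [h1]
      _ = thetaG G M a' * thetaG G M b' ^ k * thetaG G M b ^ (k + 1) := by ring
  have hne : H' * thetaG G M b ≠ 0 := mul_ne_zero hH' (thetaG_ne_zero G M hb)
  obtain ⟨ζ, hζ1, hζ⟩ := HolRootH.exists_rootOfUnity_of_pow_eq (k + 1) (Nat.succ_ne_zero k) _ _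
    hpow hne
  have hζ0 : ζ ≠ 0 := by
    rintro rfl
    rw [zero_pow (Nat.succ_ne_zero k)] at hζ1
    exact zero_ne_one hζ1
  refine MonoidHom.ext fun γ => Subtype.ext (Units.ext ?_)
  have e1 := congrArg (compSL (γ : SL(2, ℤ))) hζ
  rw [map_mul, map_smul, map_mul, hφ γ, hφ' γ, compSL_thetaG G M γ.2, compSL_thetaG G M γ.2,
    smul_mul_assoc, smul_mul_assoc, hζ, smul_smul, smul_smul] at e1
  have e2 := HolRootH.smul_left_cancel_of_ne_zero hne e1
  exact mul_right_cancel₀ hζ0 (by rw [e2, mul_comm])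

/-- **Independence of the representation.**  A series with character `φ` has, for every
representation of its `m`-th power as a quotient of good series, a holomorphic root with
multiplier `φ`. -/
theorem HasChar.exists_root_of_repr {m : ℕ} (hm : 0 < m) {y : LaurentSeries ℂ}
    {φ : G →* rootsOfUnity m ℂ} (h : HasChar G M m y φ) {a b : GoodG G M} (ha : a ≠ 0)
    (hb : b ≠ 0) (hab : y ^ m * (b : LaurentSeries ℂ) = a) :
    ∃ H : HolH, H ≠ 0 ∧ H ^ m = thetaG G M a * thetaG G M b ^ (m - 1) ∧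
      ∀ γ : G, compSL (γ : SL(2, ℤ)) H = (((φ γ : rootsOfUnity m ℂ) : ℂˣ) : ℂ) • H := by
  have : NeZero m := ⟨hm.ne'⟩
  have hd := (h.divH hm).dvd_of_eq ha hb hab
  obtain ⟨H, hH, hHm, -⟩ := HolRootH.exists_root_frac m hm.ne' (thetaG G M a) (thetaG G M b)
    (thetaG_ne_zero G M ha) (thetaG_ne_zero G M hb) hd
  have hinv : ∀ γ ∈ G, compSL γ (H ^ m) = H ^ m := by
    intro γ hγ
    rw [hHm, map_mul, map_pow, compSL_thetaG G M hγ, compSL_thetaG G M hγ]
  obtain ⟨φ'', hφ''⟩ := HolRootH.exists_character m G H hH hinv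
  have h'' : HasChar G M m y φ'' := ⟨a, b, H, ha, hb, hab, hH, hHm, hφ''⟩
  have e := HasChar.unique hm h'' h
  subst e
  exact ⟨H, hH, hHm, hφ''⟩

end Char

/-! ### The descent -/

section Descent

variable {G : Subgroup SL(2, ℤ)} {M : ℕ} [NeZero M]
  {K : Type*} [Field K] [Algebra ℚ K] [CharZero K] [IsAlgClosed K]

/-- **Descent `ℂ → K` of a Kummer root with character** (`K ⊆ ℂ` algebraically closed, e.g.
`K = ℚ̄`).  `S₀` is a set of `q`-series with rational coefficients generating the function field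
`FracG G M` over `ℂ`, `J₀ ∈ S₀` has a pole, the function field is finite over `ℂ(J₀)`, and
`m`-divisibility is stable under `Aut(ℂ)`.  Then for every `x₀` with character `φ` there is
`y ∈ K((q))`, `y ≠ 0`, with `y ^ m ∈ K(S₀)` whose base change to `ℂ` has the character `φ`. -/
theorem exists_descent_hasChar (hM : Gamma M ≤ G) (hT : ModularGroup.T ∈ G) (ι : K →+* ℂ)
    (S₀ : Set (LaurentSeries ℚ)) (J₀ : LaurentSeries ℚ) (hJ₀ : J₀ ∈ S₀)
    (hJord : ∃ i < 0, J₀.coeff i ≠ 0)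
    (hS : IntermediateField.adjoin ℂ (coeffEmb ℂ '' S₀) = FracG G M)
    (D : ℕ) (hfin : ∀ z ∈ FracG G M,
      ∃ p : Polynomial ↥(ℂ⟮coeffEmb ℂ J₀⟯), p.Monic ∧ p.natDegree ≤ D ∧ Polynomial.aeval z p = 0)
    {m : ℕ} (hm : 0 < m)
    (hstab : ∀ (σ : ℂ ≃+* ℂ) (f : LaurentSeries ℂ), DivH G M m f →
      DivH G M m (coeffMap (σ : ℂ →+* ℂ) f))
    (φ : G →* rootsOfUnity m ℂ) {x₀ : LaurentSeries ℂ} (hx₀ : HasChar G M m x₀ φ) :
    ∃ y : LaurentSeries K, y ≠ 0 ∧ y ^ m ∈ IntermediateField.adjoin K (coeffEmb K '' S₀) ∧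
      HasChar G M m (coeffMap ι y) φ := by
  have hD : DivH G M m (x₀ ^ m) := hx₀.divH hm
  have hx0 : x₀ ≠ 0 := by
    intro h
    have h1 := hD.ne_zero
    rw [h, zero_pow hm.ne'] at h1
    exact h1 rfl
  have horb := horb_of_stab hM hT hm hstab x₀ hD
  rw [← hS] at hfin horb
  obtain ⟨y, hy, hym, u, hu, hu0, hyu⟩ :=
    Fermat.Agent.S30.KummerDescent.exists_descent_rat ι S₀ J₀ hJ₀ hJord D hfin m hm x₀ hx0
      (by rw [hS]; exact hD.mem_fracG) horb
  refine ⟨y, hy, hym, ?_⟩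
  rw [hS] at hu
  have h := (hasChar_of_mem_fracG m hu hu0).mul hx₀
  rw [one_mul, ← hyu] at h
  exact h

end Descent

end Fermat.Agent.S48.G1.DescentGen

end
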