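/-
PROGRAM DS (S48) / G1, AREA P / F.4 (M1) — HECKE WITH DIAMOND PRESERVES AVATARS (helper206).
Level-free twin of `S30/HeckeGood.heckeMul_good`, in the generic-`Γ` vocabulary of
`S48/G1/DescentGen` (`IsAvatar G M f W`: `W` is `G`-invariant, has the `q`-expansion `f`, and all
its `SL(2, ℤ)`-translates have `q^(1/M)`-expansions).

* `heckeFun2_smul`                 : every `SL(2, ℤ)`-translate of
  `heckeFun2 ℓ φ ψ τ = ψ (ℓ τ) · ∏_{j < ℓ} φ ((τ + j) / ℓ)` is a product, over the Hecke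
  representatives, of `SL(2, ℤ)`-translates of `φ` and `ψ`;
* `exists_hasQExpK_heckeFun2_smul` : hence it has a `q^(1/M)`-expansion if all translates of
  `φ`, `ψ` have one and the translate is `M`-periodic;
* `isAvatar_hecke2`                : if `W`, `V` are avatars of `x`, `y` for `(G, M)`
  (`Γ(M) ≤ G ∋ T`) and `Wk = heckeFun2 ℓ W V` is `G`-invariant, then `Wk` is an avatar of
  `CongrD.heckeMul2 ℓ z x y`.  (For `G = Γ₁(M)`: `V = W ∘ σ_ℓ`, `Wk = heckeHol1 W`.)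
-/
import Fermat.Agent.S48.G1.Avatar2
import Fermat.Agent.S48.G1.DescentGen

set_option autoImplicit false

noncomputable section

open scoped MatrixGroups
open UpperHalfPlane ModularForm ModularCurve HahnSeries CongruenceSubgroup
open Fermat.Agent.S24.Puiseux Fermat.Agent.S24.QB Fermat.Agent.S24.Cusp Fermat.Agent.S24.HolH
open Fermat.Agent.S30 Fermat.Agent.S30.HeckeGood Fermat.Agent.S22.HeckePerm
open Fermat.Agent.S48.G1.Avatar2 Fermat.Agent.S48.G1.DescentGen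

namespace Fermat.Agent.S48.G1.AvatarCusp2

/-- The family `ψ` (at `∞`), `φ` (at the finite points) over the Hecke representatives. -/
def fam2 (ℓ : ℕ) (φ ψ : ℍ → ℂ) (t : OnePoint (ZMod ℓ)) : ℍ → ℂ := t.elim ψ (fun _ => φ)

theorem heckeFun2_eq_prod_fam2 (ℓ : ℕ) [NeZero ℓ] (φ ψ : ℍ → ℂ) (τ : ℍ) :
    heckeFun2 ℓ φ ψ τ = ∏ t : OnePoint (ZMod ℓ), fam2 ℓ φ ψ t (tRep ℓ t • τ) :=
  heckeFun2_eq_prod ℓ φ ψ τ

/-- Every `SL(2, ℤ)`-translate of the avatar is again a product over the Hecke representatives,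
of `SL(2, ℤ)`-translates of `φ` and `ψ`. -/
theorem heckeFun2_smul {ℓ : ℕ} [NeZero ℓ] (hℓ : ℓ.Prime) (φ ψ : ℍ → ℂ) (γ : SL(2, ℤ)) :
    ∃ (e : Equiv.Perm (OnePoint (ZMod ℓ))) (g : OnePoint (ZMod ℓ) → SL(2, ℤ)), ∀ τ : ℍ,
      heckeFun2 ℓ φ ψ (γ • τ)
        = ∏ y : OnePoint (ZMod ℓ), fam2 ℓ φ ψ (e y) (g y • tRep ℓ y • τ) := by
  have hγ : γ ∈ CongruenceSubgroup.Gamma0 1 := by
    rw [CongruenceSubgroup.Gamma0_mem]
    exact Subsingleton.elim _ _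
  obtain ⟨σ, g', -, hmul⟩ := exists_perm_T (N := 1) hℓ hℓ.not_dvd_one γ hγ
  refine ⟨σ.symm, fun y => g' (σ.symm y), fun τ => ?_⟩
  rw [heckeFun2_eq_prod_fam2,
    ← Equiv.prod_comp σ (fun y => fam2 ℓ φ ψ (σ.symm y) (g' (σ.symm y) • tRep ℓ y • τ))]
  refine Finset.prod_congr rfl fun x _ => ?_
  rw [Equiv.symm_apply_apply]
  have h1 : tRep ℓ x • γ • τ = g' x • tRep ℓ (σ x) • τ := by
    show tRep ℓ x • (Matrix.SpecialLinearGroup.mapGL ℝ γ) • τ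
      = (Matrix.SpecialLinearGroup.mapGL ℝ (g' x)) • tRep ℓ (σ x) • τ
    rw [← mul_smul, ← mul_smul, hmul x]
  rw [h1]

section Main

variable {L : Type} [Field L] [IsAlgClosed L] [CharZero L] (ι : L →+* ℂ)

/-- **All translates of the avatar have expansions**: if all `SL(2, ℤ)`-translates of `φ` and
`ψ` have `q^(1/M)`-expansions and the `γ`-translate of `heckeFun2 ℓ φ ψ` is `M`-periodic, then it
has a `q^(1/M)`-expansion. -/
theorem exists_hasQExpK_heckeFun2_smul {M ℓ : ℕ} [NeZero M] [NeZero ℓ] (hℓ : ℓ.Prime)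
    {φ ψ : ℍ → ℂ}
    (hφ : ∀ γ : SL(2, ℤ), ∃ B : LaurentSeries L, HasQExpK ι M B (fun τ => φ (γ • τ)))
    (hψ : ∀ γ : SL(2, ℤ), ∃ B : LaurentSeries L, HasQExpK ι M B (fun τ => ψ (γ • τ)))
    (γ : SL(2, ℤ))
    (hper : ∀ τ : ℍ, heckeFun2 ℓ φ ψ (γ • ((M : ℝ) +ᵥ τ)) = heckeFun2 ℓ φ ψ (γ • τ)) :
    ∃ B : LaurentSeries L, HasQExpK ι M B (fun τ => heckeFun2 ℓ φ ψ (γ • τ)) := by
  obtain ⟨ζ, -, hζ⟩ := exists_unit_map_eq_exp ι (Nat.mul_ne_zero (NeZero.ne M) (NeZero.ne ℓ))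
  obtain ⟨e, g, hg⟩ := heckeFun2_smul hℓ φ ψ γ
  have hfam : ∀ (t : OnePoint (ZMod ℓ)) (δ : SL(2, ℤ)),
      ∃ B : LaurentSeries L, HasQExpK ι M B (fun τ => fam2 ℓ φ ψ t (δ • τ)) := by
    intro t δ
    induction t using OnePoint.rec with
    | infty => exact hψ δ
    | coe j => exact hφ δ
  choose B hB using fun y => hfam (e y) (g y)
  have h1 := hasQExpK_prod_tRep (ℓ := ℓ) (NeZero.ne M) ζ hζ B
    (fun y τ => fam2 ℓ φ ψ (e y) (g y • τ)) (fun y => hB y)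
  have h2 : HasQExpK ι (M * ℓ) _ (fun τ => heckeFun2 ℓ φ ψ (γ • τ)) :=
    h1.congr fun τ => (hg τ).symm
  obtain ⟨A'', -, hA''⟩ := exists_hasQExpK_of_periodic (NeZero.ne M) ζ hζ h2 hper
  exact ⟨A'', hA''⟩

end Main

/-- A function invariant under `G ⊇ Γ(M)` has all its `SL(2, ℤ)`-translates `M`-periodic. -/
theorem smul_vadd_of_inv {G : Subgroup SL(2, ℤ)} {M : ℕ} [NeZero M] (hM : Gamma M ≤ G)
    {Wk : HolH} (hinv : ∀ γ ∈ G, compSL γ Wk = Wk) (γ : SL(2, ℤ)) (τ : ℍ) :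
    (Wk : ℍ → ℂ) (γ • ((M : ℝ) +ᵥ τ)) = (Wk : ℍ → ℂ) (γ • τ) := by
  have h1 : ((M : ℝ) +ᵥ τ : ℍ) = ModularGroup.T ^ (M : ℤ) • τ := by
    rw [UpperHalfPlane.modular_T_zpow_smul, Int.cast_natCast]
  have h2 : γ • ModularGroup.T ^ (M : ℤ) • τ
      = (γ * ModularGroup.T ^ (M : ℤ) * γ⁻¹) • γ • τ := by
    rw [mul_smul, mul_smul, inv_smul_smul]
  rw [h1, h2]
  have h3 := congrArg (fun F : HolH => (F : ℍ → ℂ) (γ • τ))
    (hinv _ (conj_T_zpow_mem hM γ))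
  simpa only [compSL_apply] using h3

/-- The level-one expansion of an avatar. -/
theorem hasQExpK_one_of_isAvatar {G : Subgroup SL(2, ℤ)} {M : ℕ} [NeZero M]
    (hT : ModularGroup.T ∈ G) {x : LaurentSeries ℂ} {W : HolH} (hW : IsAvatar G M x W) :
    HasQExpK (RingHom.id ℂ) 1 x (W : ℍ → ℂ) := by
  have hζ : (RingHom.id ℂ) ((Units.mk0 (Complex.exp (2 * Real.pi * Complex.I / M))
      (Complex.exp_ne_zero _) : ℂˣ) : ℂ) = Complex.exp (2 * Real.pi * Complex.I / M) := rfl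
  obtain ⟨A', hA', hA'1⟩ := HasQExpK.exists_qExpand_of_periodic _ hζ hW.1
    (apply_vadd_of_inv hT hW.2.1)
  have h : x = A' := qExpand_injective M hA'
  rw [h]
  exact hA'1

/-- **Hecke with diamond preserves avatars.**  If `W`, `V` are avatars of `x`, `y` for `(G, M)`
and the holomorphic function `Wk = (τ ↦ V (ℓ τ) · ∏_{j < ℓ} W ((τ + j) / ℓ))` is `G`-invariant,
then `Wk` is an avatar of `heckeMul2 ℓ z x y`. -/
theorem isAvatar_hecke2 {G : Subgroup SL(2, ℤ)} {M : ℕ} [NeZero M] (hM : Gamma M ≤ G)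
    (hT : ModularGroup.T ∈ G) {ℓ : ℕ} [NeZero ℓ] (hℓ : ℓ.Prime) {z : ℂˣ}
    (hz : IsPrimitiveRoot z ℓ) {x y : LaurentSeries ℂ} {W V Wk : HolH}
    (hW : IsAvatar G M x W) (hV : IsAvatar G M y V)
    (hk : ∀ τ : ℍ, (Wk : ℍ → ℂ) τ = heckeFun2 ℓ (W : ℍ → ℂ) (V : ℍ → ℂ) τ)
    (hinv : ∀ γ ∈ G, compSL γ Wk = Wk) :
    IsAvatar G M (CongrD.heckeMul2 ℓ hℓ.pos z x y) Wk := by
  have hfun : heckeFun2 ℓ (W : ℍ → ℂ) (V : ℍ → ℂ) = (Wk : ℍ → ℂ) := funext fun τ => (hk τ).symm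
  have hper1 : ∀ τ : ℍ, heckeFun2 ℓ (W : ℍ → ℂ) (V : ℍ → ℂ) ((1 : ℝ) +ᵥ τ)
      = heckeFun2 ℓ (W : ℍ → ℂ) (V : ℍ → ℂ) τ := fun τ => by
    rw [hfun]
    exact apply_vadd_of_inv hT hinv τ
  have h1 := hasQExpK_heckeMul2 (RingHom.id ℂ) hℓ.pos hz (hasQExpK_one_of_isAvatar hT hW)
    (hasQExpK_one_of_isAvatar hT hV) hper1
  refine ⟨?_, hinv, fun γ => ?_⟩
  · exact (h1.qExpand_one M).congr fun τ => (hk τ).symm
  · have hperM : ∀ τ : ℍ, heckeFun2 ℓ (W : ℍ → ℂ) (V : ℍ → ℂ) (γ • ((M : ℝ) +ᵥ τ))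
        = heckeFun2 ℓ (W : ℍ → ℂ) (V : ℍ → ℂ) (γ • τ) := fun τ => by
      rw [hfun]
      exact smul_vadd_of_inv hM hinv γ τ
    obtain ⟨B, hB⟩ := exists_hasQExpK_heckeFun2_smul (RingHom.id ℂ) (M := M) hℓ
      (φ := (W : ℍ → ℂ)) (ψ := (V : ℍ → ℂ)) (fun δ => hW.2.2 δ) (fun δ => hV.2.2 δ) γ hperM
    exact ⟨B, hB.congr fun τ => by rw [compSL_apply, hk]⟩

end Fermat.Agent.S48.G1.AvatarCusp2
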