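/-
S48 (Deligne–Serre), brick G1, Betti side (helper79): THE OPERATORS `tau1 ℓ`, `dia1 ρ`, `diaU u`
ON `A1 M = Γ₁(M)^ab / ⟨parabolic, elliptic⟩` AND THEIR RELATIONS, proved by double-coset
combinatorics (no Eichler–Shimura isomorphism, no genus formula for `X₁(M)`).

* `tau1 M hℓ hℓM`   : the Hecke correspondence `T_ℓ` (`ℓ ∤ M` prime) on `A1 M`, the transfer of
                      the coset system `Gamma1Coset.sys1` (representatives `[[1, j], [0, ℓ]]`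
                      and `σ_ℓ [[ℓ, 0], [0, 1]]`);
* `conjHom M ρ`     : conjugation `γ ↦ ρ γ ρ⁻¹` of `Γ₁(M)` by `ρ ∈ Γ₀(M)`;
* `dia1 M ρ`        : the induced endomorphism of `A1 M` (diamond operator of `ρ`);
* `diaU M u`        : `dia1` of `Hecke1.diamondRep M u`, `u ∈ (ℤ/M)ˣ`; `diaHom M` the monoid hom;
* `ver_sys1_comm`, `tau1_comm`       : `T_ℓ T_ℓ' = T_ℓ' T_ℓ` (on every `Hom(Γ₁(M), A)`, on `A1 M`);
* `ver_sys1_conj`, `tau1_dia1_comm`, `tau1_diaU_comm` : `T_ℓ ⟨ρ⟩ = ⟨ρ⟩ T_ℓ`;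
* `dia1_mul`, `dia1_one`, `dia1_of_mem`, `dia1_eq_of_entry`, `dia1_neg_one`,
  `diaU_mul`, `diaU_one`, `diaU_neg_one` : the diamond operators form an action of `(ℤ/M)ˣ`
  in which `-1` acts trivially.
-/
import Mathlib
import Fermat.Agent.S48.G1.Gamma1Coset
import Fermat.Agent.S48.G1.CycleRep

set_option autoImplicit false

noncomputable section

namespace Fermat.Agent.S48.G1.BettiHecke1

open scoped MatrixGroups
open CongruenceSubgroup Matrix.SpecialLinearGroup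
open Fermat.Agent.S48.Betti1 Fermat.Agent.S48.G1.Transfer Fermat.Agent.S48.G1.CycleGen
  Fermat.Agent.S48.G1.CycleRep Fermat.Agent.S48.G1.Gamma1Coset

local notation "Mat" => Matrix (Fin 2) (Fin 2) ℤ

/-! ### The Hecke correspondences -/

section Hecke

variable (M : ℕ) [NeZero M] {ℓ ℓ' : ℕ} (hℓ : ℓ.Prime) (hℓM : ¬ ℓ ∣ M) (hℓ' : ℓ'.Prime)
  (hℓ'M : ¬ ℓ' ∣ M)

/-- **The Hecke correspondence `T_ℓ` on `A1 M`.** -/
def tau1 : A1 M →+ A1 M :=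
  haveI : NeZero ℓ := ⟨hℓ.ne_zero⟩
  tauAG (iota_apply M) (sys1 M hℓ hℓM) (det_t1Mat_ne_zero M hℓ hℓM)

/-- Transfer formula. -/
theorem tau1_proj [NeZero ℓ] (g : Gamma1 M) :
    tau1 M hℓ hℓM (proj (Gamma1 M) (Additive.ofMul g)) =
      ∑ x : OnePoint (ZMod ℓ),
        proj (Gamma1 M) (Additive.ofMul ((sys1 M hℓ hℓM).coc g x)) := rfl

/-- On `Hom(A1 M, B)` the transfer is `c ↦ c ∘ tau1`. -/
theorem comp_tau1 [NeZero ℓ] (B : Type) [AddCommGroup B] (c : A1 M →+ B) :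
    (c.comp (tau1 M hℓ hℓM)).comp (proj (Gamma1 M)) =
      (sys1 M hℓ hℓM).toCocSys.ver B (c.comp (proj (Gamma1 M))) :=
  comp_tauAG (iota_apply M) (sys1 M hℓ hℓM) (det_t1Mat_ne_zero M hℓ hℓM) B c

/-- **`T_ℓ T_ℓ' = T_ℓ' T_ℓ` on `Hom(Γ₁(M), A)`**, for every abelian group `A` and every
homomorphism. -/
theorem ver_sys1_comm [NeZero ℓ] [NeZero ℓ'] {A : Type*} [AddCommGroup A]
    (φ : Additive (Gamma1 M) →+ A) :
    (sys1 M hℓ hℓM).toCocSys.ver A ((sys1 M hℓ' hℓ'M).toCocSys.ver A φ) =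
      (sys1 M hℓ' hℓ'M).toCocSys.ver A ((sys1 M hℓ hℓM).toCocSys.ver A φ) := by
  by_cases hne : ℓ = ℓ'
  · subst hne
    rfl
  · refine RepSys.ver_comm (sys1 M hℓ hℓM) (sys1 M hℓ' hℓ'M)
      (prod_unique M hℓ hℓM hℓ' hℓ'M hne)
      (prod_unique M hℓ' hℓ'M hℓ hℓM (Ne.symm hne)) (fun x y => ?_) φ
    obtain ⟨x', y', h, hm⟩ := exists_decomp₂ M hℓ hℓM hℓ' hℓ'M
      (t1Mat M hℓ' hℓ'M y * t1Mat M hℓ hℓM x)
      (by rw [Matrix.det_mul, det_t1Mat, det_t1Mat, mul_comm])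
      ((isD1_t1Mat M hℓ' hℓ'M y).mul (isD1_t1Mat M hℓ hℓM x))
    refine ⟨y', x', h⁻¹, ?_⟩
    show t1Mat M hℓ hℓM x' * t1Mat M hℓ' hℓ'M y' =
      iota M h⁻¹ * (t1Mat M hℓ' hℓ'M y * t1Mat M hℓ hℓM x)
    rw [hm, ← Matrix.mul_assoc, ← Matrix.mul_assoc, ← map_mul, inv_mul_cancel, map_one,
      Matrix.one_mul]

/-- **`T_ℓ T_ℓ' = T_ℓ' T_ℓ` on `A1 M`.** -/
theorem tau1_comm :
    (tau1 M hℓ hℓM).comp (tau1 M hℓ' hℓ'M) = (tau1 M hℓ' hℓ'M).comp (tau1 M hℓ hℓM) := by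
  haveI : NeZero ℓ := ⟨hℓ.ne_zero⟩
  haveI : NeZero ℓ' := ⟨hℓ'.ne_zero⟩
  exact tauAG_comm (iota_apply M) (sys1 M hℓ hℓM) (det_t1Mat_ne_zero M hℓ hℓM)
    (sys1 M hℓ' hℓ'M) (det_t1Mat_ne_zero M hℓ' hℓ'M)
    (ver_sys1_comm M hℓ hℓM hℓ' hℓ'M (proj (Gamma1 M)))

theorem tau1_comm_apply (a : A1 M) :
    tau1 M hℓ hℓM (tau1 M hℓ' hℓ'M a) = tau1 M hℓ' hℓ'M (tau1 M hℓ hℓM a) :=
  DFunLike.congr_fun (tau1_comm M hℓ hℓM hℓ' hℓ'M) a

end Hecke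

/-! ### Conjugation by `Γ₀(M)` -/

section Conj

variable (M : ℕ)

/-- Conjugation `γ ↦ ρ γ ρ⁻¹` of `Γ₁(M)` by `ρ ∈ Γ₀(M)`. -/
def conjHom (ρ : Gamma0 M) : Gamma1 M →* Gamma1 M where
  toFun γ := ⟨(ρ : SL(2, ℤ)) * (γ : SL(2, ℤ)) * (ρ : SL(2, ℤ))⁻¹, by
    apply mem_gamma1_of_isD1
    rw [Matrix.SpecialLinearGroup.coe_mul, Matrix.SpecialLinearGroup.coe_mul]
    exact (isD1_of_mem_gamma1 γ.2).conj ρ.2⟩
  map_one' := by
    apply Subtype.ext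
    simp
  map_mul' γ δ := by
    apply Subtype.ext
    simp [mul_assoc]

theorem conjHom_coe (ρ : Gamma0 M) (γ : Gamma1 M) :
    ((conjHom M ρ γ : Gamma1 M) : SL(2, ℤ)) =
      (ρ : SL(2, ℤ)) * (γ : SL(2, ℤ)) * (ρ : SL(2, ℤ))⁻¹ := rfl

theorem conjHom_mul (ρ ρ' : Gamma0 M) :
    conjHom M (ρ * ρ') = (conjHom M ρ).comp (conjHom M ρ') := by
  refine MonoidHom.ext fun γ => Subtype.ext ?_
  rw [MonoidHom.comp_apply, conjHom_coe, conjHom_coe, conjHom_coe, Subgroup.coe_mul,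
    mul_inv_rev]
  simp only [mul_assoc]

theorem conjHom_one : conjHom M 1 = MonoidHom.id (Gamma1 M) := by
  refine MonoidHom.ext fun γ => Subtype.ext ?_
  rw [conjHom_coe]
  simp

/-- Conjugation by `ρ ∈ Γ₀(M)` as an automorphism of `Γ₁(M)`. -/
def conjEquiv (ρ : Gamma0 M) : Gamma1 M ≃* Gamma1 M :=
  MonoidHom.toMulEquiv (conjHom M ρ) (conjHom M ρ⁻¹)
    (by rw [← conjHom_mul, inv_mul_cancel, conjHom_one])
    (by rw [← conjHom_mul, mul_inv_cancel, conjHom_one])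

theorem conjEquiv_apply (ρ : Gamma0 M) (γ : Gamma1 M) : conjEquiv M ρ γ = conjHom M ρ γ := rfl

theorem conjEquiv_symm_apply (ρ : Gamma0 M) (γ : Gamma1 M) :
    (conjEquiv M ρ).symm γ = conjHom M ρ⁻¹ γ := rfl

theorem trace_conjHom (ρ : Gamma0 M) (γ : Gamma1 M) :
    (((conjHom M ρ γ : Gamma1 M) : SL(2, ℤ)) : Mat).trace = ((γ : SL(2, ℤ)) : Mat).trace :=
  trace_conj (ρ : SL(2, ℤ)) (γ : SL(2, ℤ))

theorem iota_conjHom (ρ : Gamma0 M) (γ : Gamma1 M) :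
    iota M (conjHom M ρ γ) =
      ((ρ : SL(2, ℤ)) : Mat) * iota M γ * (((ρ : SL(2, ℤ))⁻¹ : SL(2, ℤ)) : Mat) := by
  rw [iota_apply, iota_apply, conjHom_coe, Matrix.SpecialLinearGroup.coe_mul,
    Matrix.SpecialLinearGroup.coe_mul]

/-! ### The diamond operators on `A1 M` -/

/-- **The diamond operator of `ρ ∈ Γ₀(M)` on `A1 M`**: `[γ] ↦ [ρ γ ρ⁻¹]`. -/
def dia1 (ρ : Gamma0 M) : A1 M →+ A1 M := autAG (conjHom M ρ) (trace_conjHom M ρ)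

theorem dia1_proj (ρ : Gamma0 M) (γ : Gamma1 M) :
    dia1 M ρ (proj (Gamma1 M) (Additive.ofMul γ)) =
      proj (Gamma1 M) (Additive.ofMul (conjHom M ρ γ)) := rfl

theorem dia1_mul (ρ ρ' : Gamma0 M) : dia1 M (ρ * ρ') = (dia1 M ρ).comp (dia1 M ρ') := by
  refine hom_ext fun γ => ?_
  rw [AddMonoidHom.comp_apply, dia1_proj, dia1_proj, dia1_proj, conjHom_mul]
  rfl

/-- Elements of `Γ₁(M)` act trivially. -/
theorem dia1_of_mem (ρ : Gamma0 M) (h : (ρ : SL(2, ℤ)) ∈ Gamma1 M) :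
    dia1 M ρ = AddMonoidHom.id (A1 M) :=
  autAG_eq_id_of_conj (conjHom M ρ) (trace_conjHom M ρ)
    (fun _ => ⟨⟨(ρ : SL(2, ℤ)), h⟩, Subtype.ext rfl⟩)

theorem dia1_one : dia1 M 1 = AddMonoidHom.id (A1 M) := dia1_of_mem M 1 (one_mem _)

/-- The diamond operator depends only on the lower right entry modulo `M`. -/
theorem dia1_eq_of_entry (ρ ρ' : Gamma0 M)
    (h : ((((ρ : SL(2, ℤ)) 1 1 : ℤ)) : ZMod M) = ((((ρ' : SL(2, ℤ)) 1 1 : ℤ)) : ZMod M)) :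
    dia1 M ρ = dia1 M ρ' := by
  have hmem : ((ρ' * ρ⁻¹ : Gamma0 M) : SL(2, ℤ)) ∈ Gamma1 M := by
    apply Fermat.Agent.S48.Hecke1.mem_Gamma1_of_mem_Gamma0 (ρ' * ρ⁻¹).2
    have e1 := Fermat.Agent.S48.Hecke1.gamma0_mul_entry ρ'.2 ((ρ : SL(2, ℤ))⁻¹)
    have e2 := Fermat.Agent.S48.Hecke1.gamma0_mul_entry ρ.2 ((ρ : SL(2, ℤ))⁻¹)
    rw [mul_inv_cancel] at e2
    have e3 : (((1 : SL(2, ℤ)) 1 1 : ℤ) : ZMod M) = 1 := by simp
    rw [e3] at e2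
    rw [Subgroup.coe_mul, Subgroup.coe_inv, e1, ← h, ← e2]
  have h1 := dia1_mul M (ρ' * ρ⁻¹) ρ
  rw [inv_mul_cancel_right] at h1
  rw [h1, dia1_of_mem M _ hmem]
  rfl

theorem neg_one_mem_gamma0 : (-1 : SL(2, ℤ)) ∈ Gamma0 M := by
  rw [Gamma0_mem]
  simp

/-- **`⟨-1⟩ = 1`.** -/
theorem dia1_neg_one (h : (-1 : SL(2, ℤ)) ∈ Gamma0 M) :
    dia1 M ⟨-1, h⟩ = AddMonoidHom.id (A1 M) := by
  refine autAG_eq_id_of_conj _ (trace_conjHom M _) (fun g => ⟨1, Subtype.ext ?_⟩)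
  rw [conjHom_coe]
  simp

end Conj

/-! ### Hecke correspondences commute with the diamond operators -/

section HeckeDia

variable (M : ℕ) [NeZero M] {ℓ : ℕ} (hℓ : ℓ.Prime) (hℓM : ¬ ℓ ∣ M)

/-- **`T_ℓ` commutes with conjugation by `Γ₀(M)` on `Hom(Γ₁(M), A)`**, for every abelian group
`A` and every homomorphism: the conjugates `ρ⁻¹ t_x ρ` of the representatives are again
representatives of the same cosets. -/
theorem ver_sys1_conj [NeZero ℓ] (ρ : Gamma0 M) {A : Type*} [AddCommGroup A]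
    (φ : Additive (Gamma1 M) →+ A) :
    (sys1 M hℓ hℓM).toCocSys.ver A (φ.comp (MonoidHom.toAdditive (conjHom M ρ))) =
      ((sys1 M hℓ hℓM).toCocSys.ver A φ).comp (MonoidHom.toAdditive (conjHom M ρ)) := by
  have hs : ((ρ : SL(2, ℤ)) : Mat) * (((ρ : SL(2, ℤ))⁻¹ : SL(2, ℤ)) : Mat) = 1 := by
    rw [← Matrix.SpecialLinearGroup.coe_mul, mul_inv_cancel, Matrix.SpecialLinearGroup.coe_one]
  have hs' : (((ρ : SL(2, ℤ))⁻¹ : SL(2, ℤ)) : Mat) * ((ρ : SL(2, ℤ)) : Mat) = 1 := by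
    rw [← Matrix.SpecialLinearGroup.coe_mul, inv_mul_cancel, Matrix.SpecialLinearGroup.coe_one]
  have key : (sys1 M hℓ hℓM).toCocSys.ver A =
      ((sys1 M hℓ hℓM).twist (conjEquiv M ρ) ((ρ : SL(2, ℤ)) : Mat)
        (((ρ : SL(2, ℤ))⁻¹ : SL(2, ℤ)) : Mat) hs hs' (iota_conjHom M ρ)).toCocSys.ver A := by
    refine RepSys.ver_eq_of_exists _ (sys1 M hℓ hℓM) rfl (fun x => ?_) A
    have hρ' : ((ρ : SL(2, ℤ))⁻¹ : SL(2, ℤ)) ∈ Gamma0 M := inv_mem ρ.2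
    have hD := (isD1_t1Mat M hℓ hℓM x).conj hρ'
    rw [inv_inv] at hD
    obtain ⟨y, h, hm⟩ := exists_decomp M hℓ hℓM _
      (by rw [Matrix.det_mul, Matrix.det_mul, Matrix.SpecialLinearGroup.det_coe,
        Matrix.SpecialLinearGroup.det_coe, det_t1Mat, one_mul, mul_one]) hD
    refine ⟨y, h⁻¹, ?_⟩
    show t1Mat M hℓ hℓM y = iota M h⁻¹ *
      ((((ρ : SL(2, ℤ))⁻¹ : SL(2, ℤ)) : Mat) * t1Mat M hℓ hℓM x * ((ρ : SL(2, ℤ)) : Mat))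
    rw [hm, ← Matrix.mul_assoc, ← map_mul, inv_mul_cancel, map_one, Matrix.one_mul]
  refine AddMonoidHom.ext fun γ' => ?_
  suffices hγ : ∀ γ : Gamma1 M,
      (sys1 M hℓ hℓM).toCocSys.ver A (φ.comp (MonoidHom.toAdditive (conjHom M ρ)))
        (Additive.ofMul γ) =
      ((sys1 M hℓ hℓM).toCocSys.ver A φ).comp (MonoidHom.toAdditive (conjHom M ρ))
        (Additive.ofMul γ) from hγ (Additive.toMul γ')
  intro γ
  have e : (φ.comp (MonoidHom.toAdditive (conjHom M ρ))).comp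
      (MonoidHom.toAdditive (conjEquiv M ρ).symm.toMonoidHom) = φ := by
    refine AddMonoidHom.ext fun g' => ?_
    show φ (Additive.ofMul (conjEquiv M ρ ((conjEquiv M ρ).symm (Additive.toMul g')))) = φ g'
    rw [MulEquiv.apply_symm_apply]
    rfl
  have h1 := DFunLike.congr_fun (DFunLike.congr_fun key
    (φ.comp (MonoidHom.toAdditive (conjHom M ρ)))) (Additive.ofMul γ)
  rw [h1, RepSys.twist_toCocSys, CocSys.ver_twist, e]
  rfl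

/-- **`T_ℓ ⟨ρ⟩ = ⟨ρ⟩ T_ℓ` on `A1 M`.** -/
theorem tau1_dia1_comm (ρ : Gamma0 M) :
    (tau1 M hℓ hℓM).comp (dia1 M ρ) = (dia1 M ρ).comp (tau1 M hℓ hℓM) := by
  haveI : NeZero ℓ := ⟨hℓ.ne_zero⟩
  exact tauAG_autAG_comm (iota_apply M) (sys1 M hℓ hℓM) (det_t1Mat_ne_zero M hℓ hℓM)
    (conjHom M ρ) (trace_conjHom M ρ) (ver_sys1_conj M hℓ hℓM ρ (proj (Gamma1 M)))

/-! ### The diamond operators indexed by `(ℤ/M)ˣ` -/

/-- helper170's representative of `u ∈ (ℤ/M)ˣ` in `Γ₀(M)`. -/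
def diaRho (u : (ZMod M)ˣ) : Gamma0 M :=
  ⟨Fermat.Agent.S48.Hecke1.diamondRep M u, Fermat.Agent.S48.Hecke1.diamondRep_mem M u⟩

theorem diaRho_entry (u : (ZMod M)ˣ) :
    ((((diaRho M u : Gamma0 M) : SL(2, ℤ)) 1 1 : ℤ) : ZMod M) = (u : ZMod M) :=
  Fermat.Agent.S48.Hecke1.diamondRep_entry M u

/-- **The diamond operator `⟨u⟩` on `A1 M`.** -/
def diaU (u : (ZMod M)ˣ) : A1 M →+ A1 M := dia1 M (diaRho M u)

theorem diaU_proj (u : (ZMod M)ˣ) (γ : Gamma1 M) :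
    diaU M u (proj (Gamma1 M) (Additive.ofMul γ)) =
      proj (Gamma1 M) (Additive.ofMul (conjHom M (diaRho M u) γ)) := rfl

/-- Every `ρ ∈ Γ₀(M)` with lower right entry `≡ u` induces `⟨u⟩`. -/
theorem dia1_eq_diaU (ρ : Gamma0 M) (u : (ZMod M)ˣ)
    (h : ((((ρ : SL(2, ℤ)) 1 1 : ℤ)) : ZMod M) = (u : ZMod M)) : dia1 M ρ = diaU M u :=
  dia1_eq_of_entry M ρ (diaRho M u) (h.trans (diaRho_entry M u).symm)

theorem diaU_mul (u v : (ZMod M)ˣ) : diaU M (u * v) = (diaU M u).comp (diaU M v) := by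
  show diaU M (u * v) = (dia1 M (diaRho M u)).comp (dia1 M (diaRho M v))
  rw [← dia1_mul]
  refine (dia1_eq_diaU M _ _ ?_).symm
  rw [Subgroup.coe_mul, Fermat.Agent.S48.Hecke1.gamma0_mul_entry (diaRho M u).2, diaRho_entry,
    diaRho_entry, Units.val_mul]

theorem diaU_one : diaU M 1 = AddMonoidHom.id (A1 M) := by
  rw [← dia1_eq_diaU M 1 1 (by simp), dia1_one]

/-- **`⟨-1⟩ = 1`.** -/
theorem diaU_neg_one : diaU M (-1) = AddMonoidHom.id (A1 M) := by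
  rw [← dia1_eq_diaU M ⟨-1, neg_one_mem_gamma0 M⟩ (-1) (by simp), dia1_neg_one]

theorem tau1_diaU_comm (u : (ZMod M)ˣ) :
    (tau1 M hℓ hℓM).comp (diaU M u) = (diaU M u).comp (tau1 M hℓ hℓM) :=
  tau1_dia1_comm M hℓ hℓM (diaRho M u)

theorem diaU_comm (u v : (ZMod M)ˣ) :
    (diaU M u).comp (diaU M v) = (diaU M v).comp (diaU M u) := by
  rw [← diaU_mul, ← diaU_mul, mul_comm]

/-- The diamond operators as a monoid homomorphism `(ℤ/M)ˣ → End(A1 M)`. -/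
def diaHom : (ZMod M)ˣ →* AddMonoid.End (A1 M) where
  toFun := diaU M
  map_one' := diaU_one M
  map_mul' := diaU_mul M

theorem diaHom_apply (u : (ZMod M)ˣ) : diaHom M u = diaU M u := rfl

theorem diaHom_neg_one : diaHom M (-1) = 1 := diaU_neg_one M

end HeckeDia

end Fermat.Agent.S48.G1.BettiHecke1
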