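/-
S48 (Deligne–Serre), brick G1, Betti side (helper79): THE RELATIONS OF AREA B in the vocabulary
of helper191's `Betti1/Gamma1Adj.lean` (`Betti1.tau1`, `Betti1.dia1`, `Betti1.diaS`), i.e. for
the very operators that are adjoint to `Hecke1.heckeT1`, `Hecke1.diamond` under the period map.

`Betti1.tau1 = BettiHecke1.tau1`, `Betti1.diaS M s hs = BettiHecke1.dia1 M ⟨s, hs⟩`,
`Betti1.dia1 = BettiHecke1.diaU` hold by `rfl`; hence

* `tau1_comm`        : `τ_ℓ τ_ℓ' = τ_ℓ' τ_ℓ`                         (`t_comm`);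
* `tau1_dia1_comm`   : `τ_ℓ δ_u = δ_u τ_ℓ`                           (`td_comm`);
* `dia1_mul`, `dia1_one`, `dia1_neg_one`, `dia1_comm`, `dia1Hom`     (`d` is a monoid hom,
                                                                      `d (-1) = 1`);
* `diaS_eq_dia1`     : conjugation by ANY `s ∈ Γ₀(M)` with lower right entry `≡ u` is `δ_u`;
* `comp_tau1_comm`, `comp_tau1_dia1_comm`, `comp_dia1_mul`, `comp_dia1_one`,
  `comp_dia1_neg_one` : the same in the shape of the hypotheses of `Limit.emat_commute`,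
  `Limit.emat_congr` (for every character `c : A1 M →+ B`);
* `diamond_neg_one`  : `⟨-1⟩ f = f` on `S₂(Γ₁(M))` (through the injectivity of the period map).
-/
import Mathlib
import Fermat.Agent.S48.G1.BettiHecke1
import Fermat.Agent.S48.Betti1.Gamma1Adj

set_option autoImplicit false

noncomputable section

namespace Fermat.Agent.S48.G1.BettiRel1

open scoped MatrixGroups
open CongruenceSubgroup Matrix.SpecialLinearGroup
open Fermat.Agent.S48.Betti1

variable (M : ℕ) [NeZero M] {ℓ ℓ' : ℕ} (hℓ : ℓ.Prime) (hℓM : ¬ ℓ ∣ M) (hℓ' : ℓ'.Prime)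
  (hℓ'M : ¬ ℓ' ∣ M)

/-! ### The two vocabularies agree -/

theorem tau1_eq : Betti1.tau1 M hℓ hℓM = BettiHecke1.tau1 M hℓ hℓM := rfl

theorem diaS_eq (s : SL(2, ℤ)) (hs : s ∈ Gamma0 M) :
    Betti1.diaS M s hs = BettiHecke1.dia1 M ⟨s, hs⟩ := rfl

theorem dia1_eq (u : (ZMod M)ˣ) : Betti1.dia1 M u = BettiHecke1.diaU M u := rfl

/-! ### The relations -/

/-- **`t_comm`**: the Hecke correspondences commute on `A1 M`. -/
theorem tau1_comm :
    (Betti1.tau1 M hℓ hℓM).comp (Betti1.tau1 M hℓ' hℓ'M) =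
      (Betti1.tau1 M hℓ' hℓ'M).comp (Betti1.tau1 M hℓ hℓM) :=
  BettiHecke1.tau1_comm M hℓ hℓM hℓ' hℓ'M

/-- The Hecke correspondences commute with conjugation by any `s ∈ Γ₀(M)`. -/
theorem tau1_diaS_comm (s : SL(2, ℤ)) (hs : s ∈ Gamma0 M) :
    (Betti1.tau1 M hℓ hℓM).comp (Betti1.diaS M s hs) =
      (Betti1.diaS M s hs).comp (Betti1.tau1 M hℓ hℓM) :=
  BettiHecke1.tau1_dia1_comm M hℓ hℓM ⟨s, hs⟩

/-- **`td_comm`**: the Hecke correspondences commute with the diamond automorphisms. -/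
theorem tau1_dia1_comm (u : (ZMod M)ˣ) :
    (Betti1.tau1 M hℓ hℓM).comp (Betti1.dia1 M u) =
      (Betti1.dia1 M u).comp (Betti1.tau1 M hℓ hℓM) :=
  BettiHecke1.tau1_diaU_comm M hℓ hℓM u

/-- Conjugation by ANY `s ∈ Γ₀(M)` with lower right entry `≡ u` induces `δ_u`. -/
theorem diaS_eq_dia1 (s : SL(2, ℤ)) (hs : s ∈ Gamma0 M) (u : (ZMod M)ˣ)
    (h : ((s 1 1 : ℤ) : ZMod M) = (u : ZMod M)) : Betti1.diaS M s hs = Betti1.dia1 M u :=
  BettiHecke1.dia1_eq_diaU M ⟨s, hs⟩ u h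

/-- Conjugation by an element of `Γ₁(M)` acts trivially on `A1 M`. -/
theorem diaS_of_mem (s : SL(2, ℤ)) (hs : s ∈ Gamma0 M) (h1 : s ∈ Gamma1 M) :
    Betti1.diaS M s hs = AddMonoidHom.id (A1 M) :=
  BettiHecke1.dia1_of_mem M ⟨s, hs⟩ h1

theorem diaS_mul (s s' : SL(2, ℤ)) (hs : s ∈ Gamma0 M) (hs' : s' ∈ Gamma0 M) :
    Betti1.diaS M (s * s') (mul_mem hs hs') =
      (Betti1.diaS M s hs).comp (Betti1.diaS M s' hs') :=
  BettiHecke1.dia1_mul M ⟨s, hs⟩ ⟨s', hs'⟩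

/-- **`d` is multiplicative.** -/
theorem dia1_mul (u v : (ZMod M)ˣ) :
    Betti1.dia1 M (u * v) = (Betti1.dia1 M u).comp (Betti1.dia1 M v) :=
  BettiHecke1.diaU_mul M u v

theorem dia1_one : Betti1.dia1 M 1 = AddMonoidHom.id (A1 M) := BettiHecke1.diaU_one M

/-- **`d (-1) = 1`.** -/
theorem dia1_neg_one : Betti1.dia1 M (-1) = AddMonoidHom.id (A1 M) :=
  BettiHecke1.diaU_neg_one M

theorem dia1_comm (u v : (ZMod M)ˣ) :
    (Betti1.dia1 M u).comp (Betti1.dia1 M v) = (Betti1.dia1 M v).comp (Betti1.dia1 M u) :=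
  BettiHecke1.diaU_comm M u v

/-- The diamond automorphisms as a monoid homomorphism `(ℤ/M)ˣ → End(A1 M)`. -/
def dia1Hom : (ZMod M)ˣ →* AddMonoid.End (A1 M) where
  toFun := Betti1.dia1 M
  map_one' := dia1_one M
  map_mul' := dia1_mul M

theorem dia1Hom_apply (u : (ZMod M)ˣ) : dia1Hom M u = Betti1.dia1 M u := rfl

theorem dia1Hom_neg_one : dia1Hom M (-1) = 1 := dia1_neg_one M

/-! ### Pointwise / character forms -/

theorem tau1_comm_apply (a : A1 M) :
    Betti1.tau1 M hℓ hℓM (Betti1.tau1 M hℓ' hℓ'M a) =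
      Betti1.tau1 M hℓ' hℓ'M (Betti1.tau1 M hℓ hℓM a) :=
  DFunLike.congr_fun (tau1_comm M hℓ hℓM hℓ' hℓ'M) a

theorem tau1_dia1_comm_apply (u : (ZMod M)ˣ) (a : A1 M) :
    Betti1.tau1 M hℓ hℓM (Betti1.dia1 M u a) = Betti1.dia1 M u (Betti1.tau1 M hℓ hℓM a) :=
  DFunLike.congr_fun (tau1_dia1_comm M hℓ hℓM u) a

theorem dia1_mul_apply (u v : (ZMod M)ˣ) (a : A1 M) :
    Betti1.dia1 M (u * v) a = Betti1.dia1 M u (Betti1.dia1 M v a) :=
  DFunLike.congr_fun (dia1_mul M u v) a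

theorem dia1_one_apply (a : A1 M) : Betti1.dia1 M 1 a = a :=
  DFunLike.congr_fun (dia1_one M) a

theorem dia1_neg_one_apply (a : A1 M) : Betti1.dia1 M (-1) a = a :=
  DFunLike.congr_fun (dia1_neg_one M) a

/-- `t_comm` in the shape of `Limit.emat_commute`. -/
theorem comp_tau1_comm {B : Type*} [AddCommGroup B] (c : A1 M →+ B) :
    (c.comp (Betti1.tau1 M hℓ hℓM)).comp (Betti1.tau1 M hℓ' hℓ'M) =
      (c.comp (Betti1.tau1 M hℓ' hℓ'M)).comp (Betti1.tau1 M hℓ hℓM) := by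
  rw [AddMonoidHom.comp_assoc, AddMonoidHom.comp_assoc, tau1_comm]

/-- `td_comm` in the shape of `Limit.emat_commute`. -/
theorem comp_tau1_dia1_comm (u : (ZMod M)ˣ) {B : Type*} [AddCommGroup B] (c : A1 M →+ B) :
    (c.comp (Betti1.tau1 M hℓ hℓM)).comp (Betti1.dia1 M u) =
      (c.comp (Betti1.dia1 M u)).comp (Betti1.tau1 M hℓ hℓM) := by
  rw [AddMonoidHom.comp_assoc, AddMonoidHom.comp_assoc, tau1_dia1_comm]

theorem comp_dia1_comm (u v : (ZMod M)ˣ) {B : Type*} [AddCommGroup B] (c : A1 M →+ B) :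
    (c.comp (Betti1.dia1 M u)).comp (Betti1.dia1 M v) =
      (c.comp (Betti1.dia1 M v)).comp (Betti1.dia1 M u) := by
  rw [AddMonoidHom.comp_assoc, AddMonoidHom.comp_assoc, dia1_comm]

/-- multiplicativity of `d` in the shape of `Limit.emat_congr`. -/
theorem comp_dia1_mul (u v : (ZMod M)ˣ) {B : Type*} [AddCommGroup B] (c : A1 M →+ B) :
    c.comp (Betti1.dia1 M (u * v)) = (c.comp (Betti1.dia1 M u)).comp (Betti1.dia1 M v) := by
  rw [AddMonoidHom.comp_assoc, dia1_mul]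

theorem comp_dia1_one {B : Type*} [AddCommGroup B] (c : A1 M →+ B) :
    c.comp (Betti1.dia1 M 1) = c := by
  rw [dia1_one, AddMonoidHom.comp_id]

theorem comp_dia1_neg_one {B : Type*} [AddCommGroup B] (c : A1 M →+ B) :
    c.comp (Betti1.dia1 M (-1)) = c := by
  rw [dia1_neg_one, AddMonoidHom.comp_id]

/-! ### A consequence on forms -/

/-- **`⟨-1⟩ = 1` on `S₂(Γ₁(M))`**, through the injectivity of the period map. -/
theorem diamond_neg_one (f : CuspForm (Gamma1 M) 2) :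
    Fermat.Agent.S48.Hecke1.diamond M 2 (-1) f = f := by
  apply period1_injective M
  funext a
  rw [period1_diamond, dia1_neg_one_apply]

end Fermat.Agent.S48.G1.BettiRel1
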