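import Mathlib
import Fermat.Agent.Lib.CycMod
import Fermat.Agent.Lib.CycloChar
import Fermat.Prelude.Def_GaloisRep_Residual

/-!
# The determinant character of the `Γ₁(M)` Eichler–Shimura representations (helper56)

Leaf of the residual engine `S48/G1` (layer LE): the character
`ε = (cyclotomic character at p) · (ψ ∘ cycMod M)` of `G_ℚ`, for a character `ψ` of `(ℤ/M)ˣ`
(in the application `ψ(u)` is the eigenvalue of the diamond operator `⟨u⟩`).

* `O`-variant (`ι : ℤ_[p] →+* O`, `ψ : (ZMod M)ˣ →* Oˣ`): `epsD p M ι ψ : GQ →* Oˣ`, with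
  `epsD_frobenius`, `epsD_inertia`, `epsD_complexConjugation`, `epsD_cont`,
  `epsD_sub_pow_mem` (congruence modulo `p ^ n` along `g = s ^ b` on `detField p M n`).
* field variant (`k` a field of characteristic `p`, `ψ : (ZMod M)ˣ →* kˣ`):
  `epsK p M ψ : GQ →* kˣ`, with `epsK_frobenius`, `epsK_inertia`, `epsK_complexConjugation`,
  `epsK_finiteLevel`, `epsK_eq_of_eqOn`, `epsK_pow_frobenius` (exact).
-/

set_option autoImplicit false

namespace Fermat.Agent.S48.G1.DetChar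

open Fermat.Agent.Lib.CycloChar Fermat.Agent.Lib.CycMod

local notation "Qb" => AlgebraicClosure ℚ
local notation "GQ" => (AlgebraicClosure ℚ ≃ₐ[ℚ] AlgebraicClosure ℚ)

/-! ### Frobenius values of `cycMod` in the shape of the `ES1Data` contract -/

/-- `cycMod M` at a Frobenius element over `ℓ ∤ M` is ANY unit `u` with `u = ℓ` in `ZMod M`. -/
theorem cycMod_frobenius_eq (M : ℕ) [NeZero M] {ℓ : ℕ} (hℓ : ℓ.Prime) (hℓM : ¬ ℓ ∣ M)
    (u : (ZMod M)ˣ) (hu : (u : ZMod M) = (ℓ : ZMod M)) (A : ValuationSubring Qb)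
    (hA : A.LiesOverPrime ℓ) (s : GQ) (hs : A.IsFrobeniusAt s ℓ) : cycMod M s = u := by
  apply Units.ext
  rw [cycMod_frobenius M hℓ hℓM A hA s hs, hu]

/-- `cycMod M g = u ^ b` if `g` agrees with `s ^ b` on `ℚ(ζ_M)`, `s` a Frobenius over `ℓ ∤ M`. -/
theorem cycMod_pow_frobenius (M : ℕ) [NeZero M] {ℓ : ℕ} (hℓ : ℓ.Prime) (hℓM : ¬ ℓ ∣ M)
    (u : (ZMod M)ˣ) (hu : (u : ZMod M) = (ℓ : ZMod M)) (A : ValuationSubring Qb)
    (hA : A.LiesOverPrime ℓ) (s : GQ) (hs : A.IsFrobeniusAt s ℓ) (b : ℕ) (g : GQ)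
    (h : ∀ x ∈ cycloField M, (s ^ b) x = g x) : cycMod M g = u ^ b := by
  rw [← cycMod_eq_of_eqOn M (s ^ b) g h, map_pow, cycMod_frobenius_eq M hℓ hℓM u hu A hA s hs]

variable (p M : ℕ) [Fact p.Prime] [NeZero M]

/-- `p ^ n ≠ 0` as a `NeZero` fact (a local instance in this file; consumers may use any
instance, `NeZero` being a proposition). -/
theorem neZero_pow_aux (n : ℕ) : NeZero (p ^ n) :=
  ⟨(pow_pos (Fact.out : p.Prime).pos n).ne'⟩

attribute [local instance] neZero_pow_aux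

/-- The field `ℚ(ζ_{p^n}, ζ_M)`. -/
noncomputable def detField (n : ℕ) : IntermediateField ℚ Qb :=
  cycloField (p ^ n) ⊔ cycloField M

theorem finiteDimensional_detField (n : ℕ) : FiniteDimensional ℚ (detField p M n) := by
  have h1 := finiteDimensional_cycloField (p ^ n)
  have h2 := finiteDimensional_cycloField M
  exact IntermediateField.finiteDimensional_sup _ _

theorem cycloField_pow_le_detField (n : ℕ) : cycloField (p ^ n) ≤ detField p M n := le_sup_left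

theorem cycloField_le_detField (n : ℕ) : cycloField M ≤ detField p M n := le_sup_right

/-- The `p`-adic cyclotomic character modulo `p ^ n` only depends on the restriction to
`ℚ(ζ_{p^n})`. -/
theorem cyclo_sub_mem_of_eqOn (n : ℕ) (σ τ : GQ) (h : ∀ x ∈ cycloField (p ^ n), σ x = τ x) :
    (cyclo p σ : ℤ_[p]) - (cyclo p τ : ℤ_[p]) ∈ Ideal.span {(p : ℤ_[p]) ^ n} := by
  rw [← PadicInt.ker_toZModPow, RingHom.mem_ker, map_sub, toZModPow_cyclo, toZModPow_cyclo,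
    cycMod_eq_of_eqOn (p ^ n) σ τ h, sub_self]

/-! ### The `O`-variant -/

section OVariant

variable {O : Type*} [CommRing O] (ι : ℤ_[p] →+* O) (ψ : (ZMod M)ˣ →* Oˣ)

/-- The determinant character `ε = cyclo_p · (ψ ∘ cycMod M)` with values in `Oˣ`. -/
noncomputable def epsD : GQ →* Oˣ := cycloTo p ι * chi M ψ

theorem epsD_apply (σ : GQ) : epsD p M ι ψ σ = cycloTo p ι σ * ψ (cycMod M σ) := rfl

theorem epsD_val (σ : GQ) :
    (epsD p M ι ψ σ : O) = ι (cyclo p σ : ℤ_[p]) * (ψ (cycMod M σ) : O) := rfl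

/-- `ε(Frob_ℓ) = ℓ · ψ(ℓ)` for `ℓ ∤ M p`. -/
theorem epsD_frobenius {ℓ : ℕ} (hℓ : ℓ.Prime) (hℓM : ¬ ℓ ∣ M) (hℓp : ℓ ≠ p)
    (u : (ZMod M)ˣ) (hu : (u : ZMod M) = (ℓ : ZMod M)) (A : ValuationSubring Qb)
    (hA : A.LiesOverPrime ℓ) (s : GQ) (hs : A.IsFrobeniusAt s ℓ) :
    (epsD p M ι ψ s : O) = (ℓ : O) * (ψ u : O) := by
  rw [epsD_val, cyclo_frobenius p hℓ hℓp A hA s hs, map_natCast,
    cycMod_frobenius_eq M hℓ hℓM u hu A hA s hs]

/-- `ε(Frob_ℓ) = ℓ · ψ(ℓ)`, with the unit `ZMod.unitOfCoprime`. -/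
theorem epsD_frobenius_unit {ℓ : ℕ} (hℓ : ℓ.Prime) (hℓM : ¬ ℓ ∣ M) (hℓp : ℓ ≠ p)
    (A : ValuationSubring Qb) (hA : A.LiesOverPrime ℓ) (s : GQ) (hs : A.IsFrobeniusAt s ℓ) :
    (epsD p M ι ψ s : O) =
      (ℓ : O) * (ψ (ZMod.unitOfCoprime ℓ ((Nat.Prime.coprime_iff_not_dvd hℓ).mpr hℓM)) : O) :=
  epsD_frobenius p M ι ψ hℓ hℓM hℓp _ (ZMod.coe_unitOfCoprime ℓ _) A hA s hs

/-- `ε` is trivial on inertia at `q ∤ M p`. -/
theorem epsD_inertia {q : ℕ} (hq : q.Prime) (hqM : ¬ q ∣ M) (hqp : q ≠ p)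
    (P : ValuationSubring Qb) (hP : P.LiesOverPrime q) (σ : GQ)
    (hσ : σ ∈ P.inertiaSubgroupIn ℚ) : epsD p M ι ψ σ = 1 := by
  rw [epsD_apply, cycloTo_inertia p ι hq hqp P hP σ hσ, cycMod_inertia M hq hqM P hP σ hσ,
    map_one, mul_one]

/-- `ε(c) = -1` at complex conjugation when `ψ(-1) = 1`. -/
theorem epsD_complexConjugation (hψ : ψ (-1) = 1) : epsD p M ι ψ complexConjugation = -1 := by
  rw [epsD_apply, cycloTo_complexConjugation, cycMod_complexConjugation, hψ, mul_one]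

/-- Continuity: modulo `p ^ n`, `ε` only depends on the restriction to `ℚ(ζ_{p^n}, ζ_M)`. -/
theorem epsD_sub_mem_of_eqOn (n : ℕ) (σ τ : GQ) (h : ∀ x ∈ detField p M n, σ x = τ x) :
    (epsD p M ι ψ σ : O) - (epsD p M ι ψ τ : O) ∈ Ideal.span {(p : O) ^ n} := by
  have h1 : cycMod M σ = cycMod M τ :=
    cycMod_eq_of_eqOn M σ τ fun x hx => h x (cycloField_le_detField p M n hx)
  have h2 := map_sub_mem_span p ι _ _ n
    (cyclo_sub_mem_of_eqOn p n σ τ fun x hx => h x (cycloField_pow_le_detField p M n hx))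
  rw [epsD_val, epsD_val, h1, ← sub_mul]
  exact Ideal.mul_mem_right _ _ h2

/-- Continuity in the `ESData` shape. -/
theorem epsD_cont (n : ℕ) : ∃ L : IntermediateField ℚ Qb, FiniteDimensional ℚ L ∧
    ∀ σ τ : GQ, (∀ x ∈ L, σ x = τ x) →
      (epsD p M ι ψ σ : O) - (epsD p M ι ψ τ : O) ∈ Ideal.span {(p : O) ^ n} :=
  ⟨detField p M n, finiteDimensional_detField p M n, epsD_sub_mem_of_eqOn p M ι ψ n⟩

/-- The Frobenius-power congruence: if `g` agrees with `s ^ b` on `ℚ(ζ_{p^n}, ζ_M)`, `s` a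
Frobenius element over `ℓ ∤ M p`, then `ε(g) ≡ (ℓ · ψ(ℓ)) ^ b` modulo `p ^ n`. -/
theorem epsD_sub_pow_mem {ℓ : ℕ} (hℓ : ℓ.Prime) (hℓM : ¬ ℓ ∣ M) (hℓp : ℓ ≠ p)
    (u : (ZMod M)ˣ) (hu : (u : ZMod M) = (ℓ : ZMod M)) (A : ValuationSubring Qb)
    (hA : A.LiesOverPrime ℓ) (s : GQ) (hs : A.IsFrobeniusAt s ℓ) (n b : ℕ) (g : GQ)
    (h : ∀ x ∈ detField p M n, (s ^ b) x = g x) :
    (epsD p M ι ψ g : O) - ((ℓ : O) * (ψ u : O)) ^ b ∈ Ideal.span {(p : O) ^ n} := by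
  have h1 := epsD_sub_mem_of_eqOn p M ι ψ n g (s ^ b) fun x hx => (h x hx).symm
  rwa [map_pow, Units.val_pow_eq_pow_val, epsD_frobenius p M ι ψ hℓ hℓM hℓp u hu A hA s hs]
    at h1

end OVariant

/-! ### The field variant (residual characteristic `p`) -/

section KVariant

variable {k : Type*} [Field k] [CharP k p] (ψ : (ZMod M)ˣ →* kˣ)

/-- The mod-`p` cyclotomic character with values in a field of characteristic `p`. -/
noncomputable def cycK (k : Type*) [Field k] [CharP k p] : GQ →* kˣ :=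
  (Units.map ((ZMod.castHom (dvd_refl p) k : ZMod p →+* k) : ZMod p →* k)).comp (cycMod p)

theorem cycK_val (σ : GQ) :
    (cycK p k σ : k) = ZMod.castHom (dvd_refl p) k ((cycMod p σ : (ZMod p)ˣ) : ZMod p) := rfl

theorem cycK_frobenius {ℓ : ℕ} (hℓ : ℓ.Prime) (hℓp : ℓ ≠ p) (A : ValuationSubring Qb)
    (hA : A.LiesOverPrime ℓ) (s : GQ) (hs : A.IsFrobeniusAt s ℓ) : (cycK p k s : k) = (ℓ : k) := by
  have hℓp' : ¬ ℓ ∣ p := fun h =>
    hℓp ((Nat.prime_dvd_prime_iff_eq hℓ (Fact.out : p.Prime)).mp h)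
  rw [cycK_val, cycMod_frobenius p hℓ hℓp' A hA s hs, map_natCast]

theorem cycK_inertia {q : ℕ} (hq : q.Prime) (hqp : q ≠ p) (P : ValuationSubring Qb)
    (hP : P.LiesOverPrime q) (σ : GQ) (hσ : σ ∈ P.inertiaSubgroupIn ℚ) : cycK p k σ = 1 := by
  have hqp' : ¬ q ∣ p := fun h =>
    hqp ((Nat.prime_dvd_prime_iff_eq hq (Fact.out : p.Prime)).mp h)
  unfold cycK
  rw [MonoidHom.comp_apply, cycMod_inertia p hq hqp' P hP σ hσ, map_one]

theorem cycK_complexConjugation : cycK p k complexConjugation = -1 := by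
  apply Units.ext
  rw [cycK_val, cycMod_complexConjugation, Units.val_neg, Units.val_one, map_neg, map_one,
    Units.val_neg, Units.val_one]

theorem cycK_eq_of_eqOn (σ τ : GQ) (h : ∀ x ∈ cycloField p, σ x = τ x) :
    cycK p k σ = cycK p k τ := by
  unfold cycK
  rw [MonoidHom.comp_apply, MonoidHom.comp_apply, cycMod_eq_of_eqOn p σ τ h]

/-- The field `ℚ(ζ_p, ζ_M)`. -/
noncomputable def detFieldK : IntermediateField ℚ Qb := cycloField p ⊔ cycloField M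

theorem finiteDimensional_detFieldK : FiniteDimensional ℚ (detFieldK p M) := by
  have h1 := finiteDimensional_cycloField p
  have h2 := finiteDimensional_cycloField M
  exact IntermediateField.finiteDimensional_sup _ _

/-- The residual determinant character `ε = cyclo_p · (ψ ∘ cycMod M)` with values in `kˣ`. -/
noncomputable def epsK : GQ →* kˣ := cycK p k * chi M ψ

theorem epsK_apply (σ : GQ) : epsK p M ψ σ = cycK p k σ * ψ (cycMod M σ) := rfl

theorem epsK_val (σ : GQ) :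
    (epsK p M ψ σ : k) = (cycK p k σ : k) * (ψ (cycMod M σ) : k) := rfl

/-- `ε(Frob_ℓ) = ℓ · ψ(ℓ)` for `ℓ ∤ M p`. -/
theorem epsK_frobenius {ℓ : ℕ} (hℓ : ℓ.Prime) (hℓM : ¬ ℓ ∣ M) (hℓp : ℓ ≠ p)
    (u : (ZMod M)ˣ) (hu : (u : ZMod M) = (ℓ : ZMod M)) (A : ValuationSubring Qb)
    (hA : A.LiesOverPrime ℓ) (s : GQ) (hs : A.IsFrobeniusAt s ℓ) :
    (epsK p M ψ s : k) = (ℓ : k) * (ψ u : k) := by
  rw [epsK_val, cycK_frobenius p hℓ hℓp A hA s hs, cycMod_frobenius_eq M hℓ hℓM u hu A hA s hs]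

/-- `ε(Frob_ℓ) = ℓ · ψ(ℓ)`, with the unit `ZMod.unitOfCoprime`. -/
theorem epsK_frobenius_unit {ℓ : ℕ} (hℓ : ℓ.Prime) (hℓM : ¬ ℓ ∣ M) (hℓp : ℓ ≠ p)
    (A : ValuationSubring Qb) (hA : A.LiesOverPrime ℓ) (s : GQ) (hs : A.IsFrobeniusAt s ℓ) :
    (epsK p M ψ s : k) =
      (ℓ : k) * (ψ (ZMod.unitOfCoprime ℓ ((Nat.Prime.coprime_iff_not_dvd hℓ).mpr hℓM)) : k) :=
  epsK_frobenius p M ψ hℓ hℓM hℓp _ (ZMod.coe_unitOfCoprime ℓ _) A hA s hs

/-- `ε` is trivial on inertia at `q ∤ M p`. -/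
theorem epsK_inertia {q : ℕ} (hq : q.Prime) (hqM : ¬ q ∣ M) (hqp : q ≠ p)
    (P : ValuationSubring Qb) (hP : P.LiesOverPrime q) (σ : GQ)
    (hσ : σ ∈ P.inertiaSubgroupIn ℚ) : epsK p M ψ σ = 1 := by
  rw [epsK_apply, cycK_inertia p hq hqp P hP σ hσ, cycMod_inertia M hq hqM P hP σ hσ,
    map_one, mul_one]

/-- `ε(c) = -1` at complex conjugation when `ψ(-1) = 1`. -/
theorem epsK_complexConjugation (hψ : ψ (-1) = 1) : epsK p M ψ complexConjugation = -1 := by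
  rw [epsK_apply, cycK_complexConjugation, cycMod_complexConjugation, hψ, mul_one]

/-- `ε` only depends on the restriction to `ℚ(ζ_p, ζ_M)`. -/
theorem epsK_eq_of_eqOn (σ τ : GQ) (h : ∀ x ∈ detFieldK p M, σ x = τ x) :
    epsK p M ψ σ = epsK p M ψ τ := by
  rw [epsK_apply, epsK_apply,
    cycK_eq_of_eqOn p σ τ fun x hx => h x ((le_sup_left : cycloField p ≤ detFieldK p M) hx),
    cycMod_eq_of_eqOn M σ τ fun x hx => h x ((le_sup_right : cycloField M ≤ detFieldK p M) hx)]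

/-- `ε` is trivial on automorphisms fixing `ℚ(ζ_p, ζ_M)`. -/
theorem epsK_eq_one_of_fix (σ : GQ) (h : ∀ x ∈ detFieldK p M, σ x = x) : epsK p M ψ σ = 1 := by
  rw [epsK_eq_of_eqOn p M ψ σ 1 h, map_one]

/-- `ε` factors through a finite level (explicit form, any universe). -/
theorem epsK_finiteLevel' : ∃ L : IntermediateField ℚ Qb, FiniteDimensional ℚ L ∧
    ∀ σ : GQ, (∀ x ∈ L, σ x = x) → epsK p M ψ σ = 1 :=
  ⟨detFieldK p M, finiteDimensional_detFieldK p M, epsK_eq_one_of_fix p M ψ⟩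

/-- The Frobenius-power identity (exact): if `g` agrees with `s ^ b` on `ℚ(ζ_p, ζ_M)`, `s` a
Frobenius element over `ℓ ∤ M p`, then `ε(g) = (ℓ · ψ(ℓ)) ^ b`. -/
theorem epsK_pow_frobenius {ℓ : ℕ} (hℓ : ℓ.Prime) (hℓM : ¬ ℓ ∣ M) (hℓp : ℓ ≠ p)
    (u : (ZMod M)ˣ) (hu : (u : ZMod M) = (ℓ : ZMod M)) (A : ValuationSubring Qb)
    (hA : A.LiesOverPrime ℓ) (s : GQ) (hs : A.IsFrobeniusAt s ℓ) (b : ℕ) (g : GQ)
    (h : ∀ x ∈ detFieldK p M, (s ^ b) x = g x) :
    (epsK p M ψ g : k) = ((ℓ : k) * (ψ u : k)) ^ b := by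
  rw [← epsK_eq_of_eqOn p M ψ (s ^ b) g h, map_pow, Units.val_pow_eq_pow_val,
    epsK_frobenius p M ψ hℓ hℓM hℓp u hu A hA s hs]

end KVariant

/-- `ε` factors through a finite level (Prelude predicate; `k : Type`). -/
theorem epsK_finiteLevel {k : Type} [Field k] [CharP k p] (ψ : (ZMod M)ˣ →* kˣ) :
    GaloisFactorsThroughFiniteLevel (epsK p M ψ) :=
  epsK_finiteLevel' p M ψ

/-- The mod-`p` cyclotomic character factors through a finite level. -/
theorem cycK_finiteLevel {k : Type} [Field k] [CharP k p] :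
    GaloisFactorsThroughFiniteLevel (cycK p k) :=
  ⟨cycloField p, finiteDimensional_cycloField p, fun σ h => by
    rw [cycK_eq_of_eqOn p σ 1 h, map_one]⟩

end Fermat.Agent.S48.G1.DetChar
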