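import Mathlib
import Fermat.Agent.Lib.EisCharGen
import Fermat.Agent.S30.EisRoot

/-!
# G1 (S48), Surj analytic input for a GENERIC subgroup of `SL(2,ℤ)` (helper249)

Generic-subgroup twin of `S30/EisGood` + `S30/EisRoot` (which are typed to `Γ₀(N)`), built on the
generic character Eisenstein series `Lib.EisCharGen.eisChar` (helper1).

For a subgroup `G ≤ SL(2,ℤ)` and a character `φ : G →* ℂˣ` with `φ^m = 1`, trivial on the
elements of `G` with lower-left entry `0`: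

* `eisK G φ` : the weight-4 Eisenstein series with character, normalised to tend to `1` at `i∞`
  (`mdifferentiable_eisK`, `eisK_smul`, `tendsto_eis`, `isBoundedAtImInfty_slash`);
* `gFun G φ m = E^m E₄^(2m) / Δ^m` : holomorphic, `G`-invariant (`gFun_invariant`), and if
  `Γ(M) ≤ G` every `SL(2,ℤ)`-translate has a `q^(1/M)`-expansion (`exists_hasQExpK_gFun_smul`);
  if moreover `T ∈ G` it has a `q`-expansion `f` (`exists_qExpand_gFun`);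
* `eisQ G φ` (the `q`-expansion of `E`, constant term `1`), `xRoot G φ = eisQ / e₄ ≠ 0` and
  `xRoot^m * j^m = f` (`xRoot_pow_mul`).

`exists_root_series_gen` packages everything.  Instances: `Γ₁(M)`, `Γ₁(M) ∩ Γ₀(r)`, `Γ_H(M)`.
-/

set_option autoImplicit false

open UpperHalfPlane ModularForm Complex Filter Topology Function CongruenceSubgroup
open scoped MatrixGroups Manifold

noncomputable section

namespace Fermat.Agent.S48.G1.EisGen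

open Fermat.Agent.S24.QB Fermat.Agent.S24.JFun Fermat.Agent.S24.Puiseux ModularCurve
open Fermat.Agent.S30.EisGood (exists_hasQExpK_of_bounded T_zpow_smul_eq denom_T_zpow
  exists_hasQExpK_E4 exists_hasQExpK_disc_inv)
open Fermat.Agent.S30.EisRoot (hasQExpK_qExpansion_one coeff_zero_qExpansion_of_tendsto
  hasQExpK_E4 qExpansion_E4_ne_zero)

local notation "𝕢" => Periodic.qParam
local notation "Δ" => ModularForm.discriminant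

variable (G : Subgroup SL(2, ℤ)) (φ : G →* ℂˣ)

/-! ### The normalised Eisenstein series -/

/-- the weight-4 Eisenstein series with character `φ`, normalised by its value at `i∞` -/
def eisK (τ : ℍ) : ℂ :=
  (Lib.EisCharGen.cuspVal (Lib.EisCharGen.charWeight G φ) 4)⁻¹ * Lib.EisCharGen.eisChar G φ 4 τ

variable {G φ}

theorem mdifferentiable_eisK (hunit : ∀ γ, ‖(φ γ : ℂ)‖ = 1) :
    MDifferentiable 𝓘(ℂ) 𝓘(ℂ) (eisK G φ) :=
  (mdifferentiable_const (c := ((Lib.EisCharGen.cuspVal (Lib.EisCharGen.charWeight G φ) 4)⁻¹ : ℂ))).mul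
    (Lib.EisCharGen.eisChar_mdifferentiable hunit (by norm_num))

theorem eisK_eq_smul :
    eisK G φ = (Lib.EisCharGen.cuspVal (Lib.EisCharGen.charWeight G φ) 4)⁻¹
      • Lib.EisCharGen.eisChar G φ 4 := by
  funext τ
  simp [eisK]

/-- the slash law on `G` -/
theorem slash_G
    (hpar : ∀ γ : G, ((γ : SL(2, ℤ)) : Matrix (Fin 2) (Fin 2) ℤ) 1 0 = 0 → φ γ = 1)
    (δ : G) : eisK G φ ∣[(4 : ℤ)] (δ : SL(2, ℤ)) = (φ δ : ℂ) • eisK G φ := by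
  rw [eisK_eq_smul, SL_smul_slash, Lib.EisCharGen.eisChar_slash hpar 4 δ, smul_comm]

/-- the transformation law -/
theorem eisK_smul
    (hpar : ∀ γ : G, ((γ : SL(2, ℤ)) : Matrix (Fin 2) (Fin 2) ℤ) 1 0 = 0 → φ γ = 1)
    (γ : G) (τ : ℍ) :
    eisK G φ ((γ : SL(2, ℤ)) • τ)
      = (φ γ : ℂ) * denom (γ : SL(2, ℤ)) τ ^ (4 : ℤ) * eisK G φ τ := by
  have h := congrFun (slash_G hpar γ) τ
  have hd : denom (γ : SL(2, ℤ)) τ ≠ 0 := denom_ne_zero _ τ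
  rw [SL_slash_apply, zpow_neg, Pi.smul_apply, smul_eq_mul] at h
  have hd4 : denom (γ : SL(2, ℤ)) τ ^ (4 : ℤ) ≠ 0 := zpow_ne_zero _ hd
  rw [mul_inv_eq_iff_eq_mul₀ hd4] at h
  rw [h]
  ring

theorem tendsto_eis (hunit : ∀ γ, ‖(φ γ : ℂ)‖ = 1)
    (hpar : ∀ γ : G, ((γ : SL(2, ℤ)) : Matrix (Fin 2) (Fin 2) ℤ) 1 0 = 0 → φ γ = 1) :
    Tendsto (eisK G φ) atImInfty (𝓝 1) := by
  have hc : Lib.EisCharGen.cuspVal (Lib.EisCharGen.charWeight G φ) 4 ≠ 0 :=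
    Lib.EisCharGen.cuspVal_charWeight_ne_zero hpar (by decide)
  have h := (Lib.EisCharGen.tendsto_eisChar_atImInfty (Γ := G) (φ := φ) hunit
    (k := 4) (by norm_num)).const_mul
    ((Lib.EisCharGen.cuspVal (Lib.EisCharGen.charWeight G φ) 4)⁻¹)
  rw [inv_mul_cancel₀ hc] at h
  exact h

theorem isBoundedAtImInfty_slash (hunit : ∀ γ, ‖(φ γ : ℂ)‖ = 1) (σ : SL(2, ℤ)) :
    IsBoundedAtImInfty (eisK G φ ∣[(4 : ℤ)] σ) := by
  rw [eisK_eq_smul, SL_smul_slash]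
  have hb := Lib.EisCharGen.isBoundedAtImInfty_eisChar_slash (Γ := G) (φ := φ) hunit
    (k := 4) (by norm_num) σ
  rw [UpperHalfPlane.isBoundedAtImInfty_iff] at hb ⊢
  obtain ⟨M, A, hMA⟩ := hb
  refine ⟨‖(Lib.EisCharGen.cuspVal (Lib.EisCharGen.charWeight G φ) 4)⁻¹‖ * M, A, fun z hz => ?_⟩
  rw [Pi.smul_apply, smul_eq_mul, norm_mul]
  exact mul_le_mul_of_nonneg_left (hMA z hz) (norm_nonneg _)

/-! ### Translation by `M` -/

theorem conj_T_mem {M : ℕ} (hM : CongruenceSubgroup.Gamma M ≤ G) (γ : SL(2, ℤ)) :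
    γ * ModularGroup.T ^ (M : ℤ) * γ⁻¹ ∈ G := by
  have h1 : ModularGroup.T ^ (M : ℤ) ∈ CongruenceSubgroup.Gamma M := by
    simpa using ModularGroup_T_pow_mem_Gamma (M : ℤ) (M : ℤ) dvd_rfl
  exact hM ((Gamma_normal M).conj_mem _ h1 γ)

theorem slash_vadd {M : ℕ} (hM : CongruenceSubgroup.Gamma M ≤ G)
    (hpar : ∀ γ : G, ((γ : SL(2, ℤ)) : Matrix (Fin 2) (Fin 2) ℤ) 1 0 = 0 → φ γ = 1)
    (γ : SL(2, ℤ)) (τ : ℍ) :
    (eisK G φ ∣[(4 : ℤ)] γ) ((M : ℝ) +ᵥ τ)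
      = (φ ⟨γ * ModularGroup.T ^ (M : ℤ) * γ⁻¹, conj_T_mem hM γ⟩ : ℂ)
        * (eisK G φ ∣[(4 : ℤ)] γ) τ := by
  set δ : G := ⟨γ * ModularGroup.T ^ (M : ℤ) * γ⁻¹, conj_T_mem hM γ⟩ with hδ
  have h1 : (eisK G φ ∣[(4 : ℤ)] γ) ∣[(4 : ℤ)] (ModularGroup.T ^ (M : ℤ))
      = (φ δ : ℂ) • (eisK G φ ∣[(4 : ℤ)] γ) := by
    rw [← SlashAction.slash_mul,
      show γ * ModularGroup.T ^ (M : ℤ) = (δ : SL(2, ℤ)) * γ by rw [hδ]; group,
      SlashAction.slash_mul, slash_G hpar δ, SL_smul_slash]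
  have h2 := congrFun h1 τ
  rw [SL_slash_apply, denom_T_zpow, T_zpow_smul_eq] at h2
  simpa using h2

/-! ### The good function `g = E^m E₄^(2m) / Δ^m` -/

theorem norm_phi_eq_one {m : ℕ} (hm : 0 < m) (hφm : ∀ γ, φ γ ^ m = 1) (γ : G) :
    ‖(φ γ : ℂ)‖ = 1 := by
  have h : ((φ γ : ℂ)) ^ m = 1 := by
    have h1 := congrArg (fun u : ℂˣ => (u : ℂ)) (hφm γ)
    simpa using h1
  exact Complex.norm_eq_one_of_pow_eq_one h hm.ne'

theorem phi_pow_eq_one {m : ℕ} (hφm : ∀ γ, φ γ ^ m = 1) (γ : G) :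
    ((φ γ : ℂ)) ^ m = 1 := by
  have h1 := congrArg (fun u : ℂˣ => (u : ℂ)) (hφm γ)
  simpa using h1

variable (G φ) in
/-- the function `g = E_φ^m E₄^(2m) / Δ^m` (`= (E_φ/E₄)^m j^m`) -/
def gFun (m : ℕ) (τ : ℍ) : ℂ := eisK G φ τ ^ m * E₄ τ ^ (2 * m) / Δ τ ^ m

theorem gFun_smul (m : ℕ) (γ : SL(2, ℤ)) (τ : ℍ) :
    gFun G φ m (γ • τ)
      = (eisK G φ ∣[(4 : ℤ)] γ) τ ^ m * E₄ τ ^ (2 * m) * ((Δ τ)⁻¹) ^ m := by
  have hd : denom γ τ ≠ 0 := denom_ne_zero γ τ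
  have hΔ := discriminant_ne_zero τ
  have hE : eisK G φ (γ • τ) = (eisK G φ ∣[(4 : ℤ)] γ) τ * denom γ τ ^ 4 := by
    rw [SL_slash_apply, zpow_neg]
    have : denom γ τ ^ (4 : ℤ) = denom γ τ ^ 4 := by norm_cast
    rw [this]
    field_simp
  have h4 : denom γ τ ^ (4 : ℤ) = denom γ τ ^ 4 := by norm_cast
  have h12 : denom γ τ ^ (12 : ℤ) = denom γ τ ^ 12 := by norm_cast
  unfold gFun
  rw [hE, E4_smul, disc_smul, h4, h12]
  have hdm : (denom γ τ ^ 12 * Δ τ) ^ m ≠ 0 := pow_ne_zero _ (mul_ne_zero (pow_ne_zero _ hd) hΔ)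
  rw [div_eq_iff hdm, inv_pow]
  have hΔm : Δ τ ^ m ≠ 0 := pow_ne_zero _ hΔ
  field_simp
  ring

theorem gFun_invariant
    (hpar : ∀ γ : G, ((γ : SL(2, ℤ)) : Matrix (Fin 2) (Fin 2) ℤ) 1 0 = 0 → φ γ = 1)
    {m : ℕ} (hφm : ∀ γ, φ γ ^ m = 1) (γ : SL(2, ℤ)) (hγ : γ ∈ G) (τ : ℍ) :
    gFun G φ m (γ • τ) = gFun G φ m τ := by
  have h := slash_G hpar (⟨γ, hγ⟩ : G)
  simp only at h
  rw [gFun_smul, h]
  simp only [Pi.smul_apply, smul_eq_mul, mul_pow]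
  rw [phi_pow_eq_one hφm, one_mul]
  unfold gFun
  rw [inv_pow, div_eq_mul_inv]

theorem exists_hasQExpK_gFun_smul {M : ℕ} [NeZero M] (hM : CongruenceSubgroup.Gamma M ≤ G)
    (hpar : ∀ γ : G, ((γ : SL(2, ℤ)) : Matrix (Fin 2) (Fin 2) ℤ) 1 0 = 0 → φ γ = 1)
    {m : ℕ} (hm : 0 < m) (hφm : ∀ γ, φ γ ^ m = 1) (γ : SL(2, ℤ)) :
    ∃ B : LaurentSeries ℂ, HasQExpK (RingHom.id ℂ) M B (fun τ => gFun G φ m (γ • τ)) := by
  have hunit := norm_phi_eq_one hm hφm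
  have hFhol : MDiff (eisK G φ ∣[(4 : ℤ)] γ) := by
    rw [SL_slash]
    exact (mdifferentiable_eisK hunit).slash 4 _
  have hFm_hol : MDiff (fun τ => (eisK G φ ∣[(4 : ℤ)] γ) τ ^ m) := hFhol.pow m
  have hFm_per : ∀ τ : ℍ, (eisK G φ ∣[(4 : ℤ)] γ) ((M : ℝ) +ᵥ τ) ^ m
      = (eisK G φ ∣[(4 : ℤ)] γ) τ ^ m := by
    intro τ
    rw [slash_vadd hM hpar γ τ, mul_pow, phi_pow_eq_one hφm, one_mul]
  have hFm_bdd : IsBoundedAtImInfty (fun τ => (eisK G φ ∣[(4 : ℤ)] γ) τ ^ m) := by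
    have hb := isBoundedAtImInfty_slash (G := G) (φ := φ) hunit γ
    rw [UpperHalfPlane.isBoundedAtImInfty_iff] at hb ⊢
    obtain ⟨C, A, hCA⟩ := hb
    exact ⟨C ^ m, A, fun z hz => by
      rw [norm_pow]
      exact pow_le_pow_left₀ (norm_nonneg _) (hCA z hz) m⟩
  obtain ⟨P, hP⟩ := exists_hasQExpK_of_bounded M hFm_hol hFm_per hFm_bdd
  obtain ⟨B4, hB4⟩ := exists_hasQExpK_E4 M
  obtain ⟨BΔ, hBΔ⟩ := exists_hasQExpK_disc_inv M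
  refine ⟨_, ((hP.mul (hB4.pow (2 * m))).mul (hBΔ.pow m)).congr fun τ => ?_⟩
  rw [gFun_smul]
  rfl

theorem gFun_vadd_one (hT : ModularGroup.T ∈ G)
    (hpar : ∀ γ : G, ((γ : SL(2, ℤ)) : Matrix (Fin 2) (Fin 2) ℤ) 1 0 = 0 → φ γ = 1)
    {m : ℕ} (hφm : ∀ γ, φ γ ^ m = 1) (τ : ℍ) : gFun G φ m ((1 : ℝ) +ᵥ τ) = gFun G φ m τ := by
  have h := gFun_invariant hpar hφm ModularGroup.T hT τ
  rwa [modular_T_smul] at h

theorem exists_qExpand_gFun {M : ℕ} [NeZero M] (hM : CongruenceSubgroup.Gamma M ≤ G)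
    (hT : ModularGroup.T ∈ G)
    (hpar : ∀ γ : G, ((γ : SL(2, ℤ)) : Matrix (Fin 2) (Fin 2) ℤ) 1 0 = 0 → φ γ = 1)
    {m : ℕ} (hm : 0 < m) (hφm : ∀ γ, φ γ ^ m = 1) :
    ∃ f : LaurentSeries ℂ,
      HasQExpK (RingHom.id ℂ) M (ModularCurve.qExpand ℂ M f) (gFun G φ m) := by
  obtain ⟨B, hB⟩ := exists_hasQExpK_gFun_smul hM hpar hm hφm 1
  have hB' : HasQExpK (RingHom.id ℂ) M B (gFun G φ m) := hB.congr (fun τ => by rw [one_smul])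
  let ζ : ℂˣ := Units.mk0 (Complex.exp (2 * Real.pi * Complex.I / M)) (Complex.exp_ne_zero _)
  obtain ⟨A', hA', -⟩ := hB'.exists_qExpand_of_periodic ζ rfl (gFun_vadd_one hT hpar hφm)
  exact ⟨A', hA' ▸ hB'⟩

/-! ### The formal root -/

variable (G φ) in
/-- the `q`-expansion of `E_φ` -/
def eisQ : PowerSeries ℂ := qExpansion 1 (eisK G φ)

theorem eisK_vadd_one (hT : ModularGroup.T ∈ G)
    (hpar : ∀ γ : G, ((γ : SL(2, ℤ)) : Matrix (Fin 2) (Fin 2) ℤ) 1 0 = 0 → φ γ = 1)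
    (τ : ℍ) : eisK G φ ((1 : ℝ) +ᵥ τ) = eisK G φ τ := by
  have h := eisK_smul hpar (⟨ModularGroup.T, hT⟩ : G) τ
  have h1 : φ ⟨ModularGroup.T, hT⟩ = 1 := hpar _ (by simp [ModularGroup.T])
  have h2 : denom (ModularGroup.T : SL(2, ℤ)) τ = 1 := by
    rw [ModularGroup.denom_apply]
    simp [ModularGroup.T]
  rw [h1, h2] at h
  simp only [Units.val_one, one_zpow, mul_one, one_mul] at h
  rwa [modular_T_smul] at h

theorem hasQExpK_eisQ (hT : ModularGroup.T ∈ G) (hunit : ∀ γ, ‖(φ γ : ℂ)‖ = 1)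
    (hpar : ∀ γ : G, ((γ : SL(2, ℤ)) : Matrix (Fin 2) (Fin 2) ℤ) 1 0 = 0 → φ γ = 1) :
    HasQExpK (RingHom.id ℂ) 1 (HahnSeries.ofPowerSeries ℤ ℂ (eisQ G φ)) (eisK G φ) :=
  hasQExpK_qExpansion_one (mdifferentiable_eisK hunit) (eisK_vadd_one hT hpar)
    ((tendsto_eis hunit hpar).isBigO_one ℝ)

theorem eisQ_coeff_zero (hT : ModularGroup.T ∈ G) (hunit : ∀ γ, ‖(φ γ : ℂ)‖ = 1)
    (hpar : ∀ γ : G, ((γ : SL(2, ℤ)) : Matrix (Fin 2) (Fin 2) ℤ) 1 0 = 0 → φ γ = 1) :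
    (eisQ G φ).coeff 0 = 1 :=
  coeff_zero_qExpansion_of_tendsto (mdifferentiable_eisK hunit)
    (eisK_vadd_one hT hpar) (tendsto_eis hunit hpar)

theorem eisQ_ne_zero (hT : ModularGroup.T ∈ G) (hunit : ∀ γ, ‖(φ γ : ℂ)‖ = 1)
    (hpar : ∀ γ : G, ((γ : SL(2, ℤ)) : Matrix (Fin 2) (Fin 2) ℤ) 1 0 = 0 → φ γ = 1) :
    eisQ G φ ≠ 0 := by
  intro h
  have h1 := eisQ_coeff_zero hT hunit hpar
  rw [h] at h1
  simp at h1

variable (G φ) in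
/-- the formal root `x_φ = eisQ φ / e₄ ∈ ℂ((q))`, the `q`-expansion of `E_φ / E₄` -/
def xRoot : LaurentSeries ℂ :=
  HahnSeries.ofPowerSeries ℤ ℂ (eisQ G φ) * (HahnSeries.ofPowerSeries ℤ ℂ (qExpansion 1 E₄))⁻¹

theorem xRoot_ne_zero (hT : ModularGroup.T ∈ G) (hunit : ∀ γ, ‖(φ γ : ℂ)‖ = 1)
    (hpar : ∀ γ : G, ((γ : SL(2, ℤ)) : Matrix (Fin 2) (Fin 2) ℤ) 1 0 = 0 → φ γ = 1) :
    xRoot G φ ≠ 0 := by
  unfold xRoot
  refine mul_ne_zero ?_ (inv_ne_zero ?_)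
  · exact (map_ne_zero_iff _ HahnSeries.ofPowerSeries_injective).mpr (eisQ_ne_zero hT hunit hpar)
  · exact (map_ne_zero_iff _ HahnSeries.ofPowerSeries_injective).mpr qExpansion_E4_ne_zero

theorem xRoot_mul_E4 :
    xRoot G φ * HahnSeries.ofPowerSeries ℤ ℂ (qExpansion 1 E₄)
      = HahnSeries.ofPowerSeries ℤ ℂ (eisQ G φ) := by
  have hB0 : HahnSeries.ofPowerSeries ℤ ℂ (qExpansion 1 E₄) ≠ 0 :=
    (map_ne_zero_iff _ HahnSeries.ofPowerSeries_injective).mpr qExpansion_E4_ne_zero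
  unfold xRoot
  field_simp

/-- `x_φ^m · j^m = f`, for the `q`-expansion `f` of the good function `g = E^m E₄^(2m)/Δ^m`. -/
theorem xRoot_pow_mul {M : ℕ} [NeZero M] (hT : ModularGroup.T ∈ G)
    (hpar : ∀ γ : G, ((γ : SL(2, ℤ)) : Matrix (Fin 2) (Fin 2) ℤ) 1 0 = 0 → φ γ = 1)
    {m : ℕ} (hm : 0 < m) (hφm : ∀ γ, φ γ ^ m = 1) (f : LaurentSeries ℂ)
    (hf : HasQExpK (RingHom.id ℂ) M (qExpand ℂ M f) (gFun G φ m)) :
    xRoot G φ ^ m * (coeffEmb ℂ jq) ^ m = f := by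
  have hunit := norm_phi_eq_one hm hφm
  have hA : HasQExpK (RingHom.id ℂ) (1 * M)
      (qExpand ℂ M (HahnSeries.ofPowerSeries ℤ ℂ (eisQ G φ))) (eisK G φ) :=
    (hasQExpK_eisQ hT hunit hpar).qExpand one_ne_zero M
  have hB : HasQExpK (RingHom.id ℂ) (1 * M)
      (qExpand ℂ M (HahnSeries.ofPowerSeries ℤ ℂ (qExpansion 1 E₄))) (fun τ : ℍ => E₄ τ) :=
    hasQExpK_E4.qExpand one_ne_zero M
  have hJ : HasQExpK (RingHom.id ℂ) M (qExpand ℂ M (coeffEmb ℂ jq)) jFun :=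
    Fermat.Agent.S24.PolyJQExpK.hasQExpK_jFun (RingHom.id ℂ) M
  rw [one_mul] at hA hB
  have h1 : HasQExpK (RingHom.id ℂ) M
      (qExpand ℂ M (f * HahnSeries.ofPowerSeries ℤ ℂ (qExpansion 1 E₄) ^ m))
      (gFun G φ m * (fun τ : ℍ => E₄ τ) ^ m) := by
    rw [map_mul, map_pow]
    exact hf.mul (hB.pow m)
  have h2 : HasQExpK (RingHom.id ℂ) M
      (qExpand ℂ M (HahnSeries.ofPowerSeries ℤ ℂ (eisQ G φ) ^ m * coeffEmb ℂ jq ^ m))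
      (eisK G φ ^ m * jFun ^ m) := by
    rw [map_mul, map_pow, map_pow]
    exact (hA.pow m).mul (hJ.pow m)
  have hfun : gFun G φ m * (fun τ : ℍ => E₄ τ) ^ m = eisK G φ ^ m * jFun ^ m := by
    funext τ
    have hΔ := discriminant_ne_zero τ
    have hΔm : Δ τ ^ m ≠ 0 := pow_ne_zero _ hΔ
    simp only [Pi.mul_apply, Pi.pow_apply, gFun, jFun_def]
    rw [div_pow, ← pow_mul, div_mul_eq_mul_div, mul_div_assoc', div_left_inj' hΔm, mul_assoc,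
      ← pow_add]
    congr 2
    ring
  rw [hfun] at h1
  have h3 := h1.unique (NeZero.ne M) h2
  have h4 : f * HahnSeries.ofPowerSeries ℤ ℂ (qExpansion 1 E₄) ^ m
      = HahnSeries.ofPowerSeries ℤ ℂ (eisQ G φ) ^ m * coeffEmb ℂ jq ^ m :=
    (qExpand ℂ M).injective h3
  have hB0 : HahnSeries.ofPowerSeries ℤ ℂ (qExpansion 1 E₄) ≠ 0 :=
    (map_ne_zero_iff _ HahnSeries.ofPowerSeries_injective).mpr qExpansion_E4_ne_zero
  have hBm : HahnSeries.ofPowerSeries ℤ ℂ (qExpansion 1 E₄) ^ m ≠ 0 := pow_ne_zero _ hB0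
  apply mul_right_cancel₀ hBm
  rw [h4, mul_right_comm, ← mul_pow, xRoot_mul_E4]

/-- **(B2) for a generic subgroup.** For a subgroup `G ≤ SL(2,ℤ)` with `Γ(M) ≤ G`, `T ∈ G`, and a
character `φ` of `G` with `φ^m = 1`, trivial on the elements with lower-left entry `0`: there are
a holomorphic `E` with `E(γτ) = φ(γ)(cτ+d)⁴E(τ)`, `E → 1` at `i∞`, and a Laurent series
`f ∈ ℂ((q))` which is the `q`-expansion of `g = E^m E₄^(2m)/Δ^m`, such that `g` is `G`-invariant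
and all `SL(2,ℤ)`-translates of `g` have `q^(1/M)`-expansions. -/
theorem exists_good_of_char_gen (G : Subgroup SL(2, ℤ)) (M : ℕ) [NeZero M]
    (hM : CongruenceSubgroup.Gamma M ≤ G) (hT : ModularGroup.T ∈ G)
    (m : ℕ) (hm : 0 < m) (φ : G →* ℂˣ) (hφm : ∀ γ, φ γ ^ m = 1)
    (hpar : ∀ γ : G, ((γ : SL(2, ℤ)) : Matrix (Fin 2) (Fin 2) ℤ) 1 0 = 0 → φ γ = 1) :
    ∃ (E g : ℍ → ℂ) (f : LaurentSeries ℂ),
      MDifferentiable 𝓘(ℂ) 𝓘(ℂ) E ∧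
      (∀ (γ : G) (τ : ℍ), E ((γ : SL(2, ℤ)) • τ)
        = (φ γ : ℂ) * denom (γ : SL(2, ℤ)) τ ^ (4 : ℤ) * E τ) ∧
      Tendsto E atImInfty (𝓝 1) ∧
      (∀ τ, g τ = E τ ^ m * E₄ τ ^ (2 * m) / Δ τ ^ m) ∧
      HasQExpK (RingHom.id ℂ) M (ModularCurve.qExpand ℂ M f) g ∧
      (∀ γ ∈ G, ∀ τ : ℍ, g (γ • τ) = g τ) ∧
      (∀ γ : SL(2, ℤ), ∃ B : LaurentSeries ℂ,
        HasQExpK (RingHom.id ℂ) M B (fun τ => g (γ • τ))) := by
  have hunit := norm_phi_eq_one hm hφm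
  obtain ⟨f, hf⟩ := exists_qExpand_gFun hM hT hpar hm hφm
  exact ⟨eisK G φ, gFun G φ m, f, mdifferentiable_eisK hunit, eisK_smul hpar,
    tendsto_eis hunit hpar, fun _ => rfl, hf, fun γ hγ τ => gFun_invariant hpar hφm γ hγ τ,
    fun γ => exists_hasQExpK_gFun_smul hM hpar hm hφm γ⟩

/-- **The formal root, packaged, generic subgroup.**  The good series `f` (the `q`-expansion of
`g = E_φ^m E₄^(2m)/Δ^m`) equals `x^m j^m` with `x = xRoot G φ = eisQ G φ / e₄ ≠ 0`, and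
`eisQ G φ` has constant term `1`. -/
theorem exists_root_series_gen (G : Subgroup SL(2, ℤ)) (M : ℕ) [NeZero M]
    (hM : CongruenceSubgroup.Gamma M ≤ G) (hT : ModularGroup.T ∈ G)
    (m : ℕ) (hm : 0 < m) (φ : G →* ℂˣ) (hφm : ∀ γ, φ γ ^ m = 1)
    (hpar : ∀ γ : G, ((γ : SL(2, ℤ)) : Matrix (Fin 2) (Fin 2) ℤ) 1 0 = 0 → φ γ = 1) :
    ∃ f : LaurentSeries ℂ,
      HasQExpK (RingHom.id ℂ) M (qExpand ℂ M f) (gFun G φ m) ∧
      (∀ γ ∈ G, ∀ τ : ℍ, gFun G φ m (γ • τ) = gFun G φ m τ) ∧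
      (∀ γ : SL(2, ℤ), ∃ B : LaurentSeries ℂ,
        HasQExpK (RingHom.id ℂ) M B (fun τ => gFun G φ m (γ • τ))) ∧
      xRoot G φ ≠ 0 ∧ xRoot G φ ^ m * (coeffEmb ℂ jq) ^ m = f ∧
      (eisQ G φ).coeff 0 = 1 ∧
      HasQExpK (RingHom.id ℂ) 1 (HahnSeries.ofPowerSeries ℤ ℂ (eisQ G φ)) (eisK G φ) := by
  have hunit := norm_phi_eq_one hm hφm
  obtain ⟨f, hf⟩ := exists_qExpand_gFun hM hT hpar hm hφm
  exact ⟨f, hf, fun γ hγ τ => gFun_invariant hpar hφm γ hγ τ,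
    fun γ => exists_hasQExpK_gFun_smul hM hpar hm hφm γ, xRoot_ne_zero hT hunit hpar,
    xRoot_pow_mul hT hpar hm hφm f hf, eisQ_coeff_zero hT hunit hpar, hasQExpK_eisQ hT hunit hpar⟩

/-! ### The instance `Γ₁(M)` -/

theorem Gamma_le_Gamma1 (M : ℕ) : CongruenceSubgroup.Gamma M ≤ Gamma1 M := by
  intro γ hγ
  rw [Gamma_mem] at hγ
  rw [Gamma1_mem]
  exact ⟨hγ.1, hγ.2.2.2, hγ.2.2.1⟩

theorem T_mem_Gamma1 (M : ℕ) : ModularGroup.T ∈ Gamma1 M := by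
  rw [Gamma1_mem]
  simp [ModularGroup.T]

end Fermat.Agent.S48.G1.EisGen

end
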