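import Fermat.Agent.S48.G1.DescentGen
import Fermat.Agent.S48.G1.EisGen
import Fermat.Agent.S24.JHol
import Fermat.Agent.S24.PolyJQExpK

set_option autoImplicit false
set_option linter.dupNamespace false

/-!
# G1 (S48), Surj brick, generic subgroup: the Eisenstein root `x_φ = E_φ / E₄` has character `φ`

Generic-subgroup twin of `S30/DescentInst/XRoot.lean` (helper29).  `G ≤ SL(2, ℤ)` is any subgroup
with `Γ(M) ≤ G` and `T ∈ G` (so `Γ₁(M)`, `Γ₁(M) ∩ Γ₀(r)`, `Γ_H(M)` are instances), in the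
vocabulary of `S48/G1/DescentGen.lean` (`GoodG`, `thetaG`, `DivH`, `HasChar`) and with the generic
Eisenstein series of `S48/G1/EisGen.lean` (helper249).

* `isAvatar_j`, `jG`, `thetaG_jG`, `jG_ne_zero`: the `j`-invariant is a good series for every
  `(G, M)`, with avatar `jHol`.
* For `φ : G →* ℂˣ` with `φ ^ m = 1`, trivial on the elements of `G` with lower-left entry `0`,
  put `E = E_φ · E₄² / Δ ∈ HolH` (`gRoot`); `E ∘ γ = φ γ • E` on `G` and `E ^ m` is the avatar of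
  the good series `a = x_φ ^ m · j ^ m` (`exists_xRoot_data`).  Hence with `b = j ^ m`:
  * `divH_xRoot`: `x_φ ^ m = a / b` is `m`-divisible;
  * `hasChar_xRoot`: `x_φ` has the character `φ`.
-/

noncomputable section

open UpperHalfPlane ModularCurve HahnSeries CongruenceSubgroup ModularForm
open Fermat.Agent.S24.HolH Fermat.Agent.S24 Fermat.Agent.Lib
open Fermat.Agent.S24.JFun Fermat.Agent.S24.JHol
open Fermat.Agent.S48.G1.DescentGen
open scoped MatrixGroups Manifold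

namespace Fermat.Agent.S48.G1.XRootGen

local notation "Δ" => ModularForm.discriminant

/-! ### `j` is good -/

section J

variable (G : Subgroup SL(2, ℤ)) (M : ℕ) [NeZero M]

theorem isAvatar_j : IsAvatar G M (coeffEmb ℂ jq) jHol := by
  have h : QB.HasQExpK (RingHom.id ℂ) M (qExpand ℂ M (coeffEmb ℂ jq)) (jHol : ℍ → ℂ) :=
    PolyJQExpK.hasQExpK_jFun (RingHom.id ℂ) M
  refine ⟨h, fun γ _ => compSL_jHol γ, fun γ => ⟨qExpand ℂ M (coeffEmb ℂ jq), ?_⟩⟩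
  rw [compSL_jHol]
  exact h

/-- The `j`-invariant as a good series for `(G, M)`. -/
def jG : GoodG G M := ⟨coeffEmb ℂ jq, (mem_goodG G M).mpr ⟨jHol, isAvatar_j G M⟩⟩

theorem coe_jG : ((jG G M : GoodG G M) : LaurentSeries ℂ) = coeffEmb ℂ jq := rfl

theorem thetaG_jG : thetaG G M (jG G M) = jHol :=
  thetaG_eq (isAvatar_j G M)

theorem jG_ne_zero : jG G M ≠ 0 := by
  intro h
  have h1 := thetaG_jG G M
  rw [h, map_zero] at h1
  exact jHol_ne_zero h1.symm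

end J

/-! ### The holomorphic function `E_φ · E₄² / Δ` -/

section Fun

variable {G : Subgroup SL(2, ℤ)} (φ : G →* ℂˣ)

/-- The function `E_φ · E₄² / Δ` on `ℍ`. -/
def gRootFun (τ : ℍ) : ℂ := EisGen.eisK G φ τ * E₄ τ ^ 2 / Δ τ

theorem gRootFun_mdiff (hunit : ∀ γ, ‖(φ γ : ℂ)‖ = 1) :
    MDifferentiable 𝓘(ℂ) 𝓘(ℂ) (gRootFun φ) :=
  ((EisGen.mdifferentiable_eisK hunit).mul (E₄.holo'.pow 2)).div
    CuspForm.discriminant.holo' discriminant_ne_zero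

theorem gRootFun_pow (m : ℕ) (τ : ℍ) : gRootFun φ τ ^ m = EisGen.gFun G φ m τ := by
  unfold gRootFun EisGen.gFun
  rw [div_pow, mul_pow, ← pow_mul]

theorem gRootFun_smul
    (hpar : ∀ γ : G, ((γ : SL(2, ℤ)) : Matrix (Fin 2) (Fin 2) ℤ) 1 0 = 0 → φ γ = 1)
    (γ : G) (τ : ℍ) :
    gRootFun φ ((γ : SL(2, ℤ)) • τ) = (φ γ : ℂ) * gRootFun φ τ := by
  have hd : denom (γ : SL(2, ℤ)) τ ≠ 0 := denom_ne_zero _ τ
  have hΔ := discriminant_ne_zero τ
  have h4 : denom (γ : SL(2, ℤ)) τ ^ (4 : ℤ) = denom (γ : SL(2, ℤ)) τ ^ 4 := by norm_cast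
  have h12 : denom (γ : SL(2, ℤ)) τ ^ (12 : ℤ) = denom (γ : SL(2, ℤ)) τ ^ 12 := by norm_cast
  unfold gRootFun
  rw [EisGen.eisK_smul hpar, E4_smul, disc_smul, h4, h12]
  field_simp

/-- `E_φ · E₄² / Δ` as a holomorphic function on `ℍ`. -/
def gRoot (hunit : ∀ γ, ‖(φ γ : ℂ)‖ = 1) : HolH := ⟨gRootFun φ, gRootFun_mdiff φ hunit⟩

end Fun

/-! ### The Eisenstein root -/

section Root

variable {G : Subgroup SL(2, ℤ)} {M : ℕ} [NeZero M]

/-- **The Eisenstein data.**  The good series `a = x_φ ^ m · j ^ m` and the holomorphic function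
`E = E_φ E₄² / Δ` with `θ a = E ^ m` and `E ∘ γ = φ γ • E`. -/
theorem exists_xRoot_data (hM : Gamma M ≤ G) (hT : ModularGroup.T ∈ G) {m : ℕ} (hm : 0 < m)
    (φ : G →* ℂˣ) (hφm : ∀ γ, φ γ ^ m = 1)
    (hpar : ∀ γ : G, ((γ : SL(2, ℤ)) : Matrix (Fin 2) (Fin 2) ℤ) 1 0 = 0 → φ γ = 1) :
    ∃ (a : GoodG G M) (E : HolH), a ≠ 0 ∧
      EisGen.xRoot G φ ^ m * ((jG G M ^ m : GoodG G M) : LaurentSeries ℂ) = a ∧ E ≠ 0 ∧
      thetaG G M a = E ^ m ∧
      ∀ γ : G, compSL (γ : SL(2, ℤ)) E = (φ γ : ℂ) • E := by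
  have hunit := EisGen.norm_phi_eq_one hm hφm
  obtain ⟨f, hf, hinv, htr, hx0, hxf, -, -⟩ :=
    EisGen.exists_root_series_gen G M hM hT m hm φ hφm hpar
  have hcoe : ∀ τ : ℍ, ((gRoot φ hunit ^ m : HolH) : ℍ → ℂ) τ = EisGen.gFun G φ m τ := by
    intro τ
    rw [HolRootH.coe_pow_apply]
    exact gRootFun_pow φ m τ
  have hav : IsAvatar G M f (gRoot φ hunit ^ m) := by
    refine ⟨hf.congr fun τ => (hcoe τ).symm, fun γ hγ => ?_, fun γ => ?_⟩
    · apply Subtype.ext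
      funext τ
      rw [compSL_apply, hcoe, hcoe]
      exact hinv γ hγ τ
    · obtain ⟨B, hB⟩ := htr γ
      refine ⟨B, hB.congr fun τ => ?_⟩
      rw [compSL_apply, hcoe]
  have hgood : f ∈ GoodG G M := (mem_goodG G M).mpr ⟨_, hav⟩
  have hj0 : (coeffEmb ℂ jq : LaurentSeries ℂ) ≠ 0 := by
    rw [← coe_jG G M]
    intro h
    exact jG_ne_zero G M (Subtype.ext h)
  have hf0 : f ≠ 0 := by
    rw [← hxf]
    exact mul_ne_zero (pow_ne_zero _ hx0) (pow_ne_zero _ hj0)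
  have hθ : thetaG G M ⟨f, hgood⟩ = gRoot φ hunit ^ m := thetaG_eq hav
  have hG0 : gRoot φ hunit ≠ 0 := by
    intro h
    rw [h, zero_pow hm.ne'] at hθ
    have h1 : (⟨f, hgood⟩ : GoodG G M) = 0 := thetaG_injective G M (by rw [hθ, map_zero])
    exact hf0 (congrArg Subtype.val h1)
  refine ⟨⟨f, hgood⟩, gRoot φ hunit, fun h => hf0 (congrArg Subtype.val h), ?_, hG0, hθ,
    fun γ => ?_⟩
  · push_cast
    rw [coe_jG]
    exact hxf
  · apply Subtype.ext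
    funext τ
    rw [compSL_apply, HolRootH.coe_smul_apply]
    exact gRootFun_smul φ hpar γ τ

/-- **`x_φ ^ m` is `m`-divisible.** -/
theorem divH_xRoot (hM : Gamma M ≤ G) (hT : ModularGroup.T ∈ G) {m : ℕ} (hm : 0 < m)
    (φ : G →* ℂˣ) (hφm : ∀ γ, φ γ ^ m = 1)
    (hpar : ∀ γ : G, ((γ : SL(2, ℤ)) : Matrix (Fin 2) (Fin 2) ℤ) 1 0 = 0 → φ γ = 1) :
    DivH G M m (EisGen.xRoot G φ ^ m) := by
  obtain ⟨a, E, ha, hab, hE, hθ, -⟩ := exists_xRoot_data (M := M) hM hT hm φ hφm hpar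
  refine ⟨a, jG G M ^ m, ha, pow_ne_zero _ (jG_ne_zero G M), hab, fun τ => ?_⟩
  rw [hθ, map_pow, thetaG_jG, HolRootH.ordZ_pow τ hE, HolRootH.ordZ_pow τ jHol_ne_zero,
    ← mul_sub]
  exact dvd_mul_right _ _

/-- **`x_φ` has the character `φ`.** -/
theorem hasChar_xRoot (hM : Gamma M ≤ G) (hT : ModularGroup.T ∈ G) {m : ℕ} (hm : 0 < m)
    (φ : G →* ℂˣ) (hφm : ∀ γ, φ γ ^ m = 1)
    (hpar : ∀ γ : G, ((γ : SL(2, ℤ)) : Matrix (Fin 2) (Fin 2) ℤ) 1 0 = 0 → φ γ = 1)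
    (φ' : G →* rootsOfUnity m ℂ)
    (h : ∀ γ, (((φ' γ : rootsOfUnity m ℂ) : ℂˣ) : ℂ) = (φ γ : ℂ)) :
    HasChar G M m (EisGen.xRoot G φ) φ' := by
  obtain ⟨a, E, ha, hab, hE, hθ, hchar⟩ := exists_xRoot_data (M := M) hM hT hm φ hφm hpar
  refine ⟨a, jG G M ^ m, E * jHol ^ (m - 1), ha, pow_ne_zero _ (jG_ne_zero G M), hab,
    mul_ne_zero hE (pow_ne_zero _ jHol_ne_zero), ?_, fun γ => ?_⟩
  · rw [hθ, map_pow, thetaG_jG, mul_pow, ← pow_mul, ← pow_mul, mul_comm (m - 1) m]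
  · rw [map_mul, map_pow, compSL_jHol, hchar γ, h γ, smul_mul_assoc]

/-- The `rootsOfUnity`-valued version of a character of exponent `m`. -/
def toRoots {m : ℕ} [NeZero m] (φ : G →* ℂˣ) (hφm : ∀ γ, φ γ ^ m = 1) : G →* rootsOfUnity m ℂ where
  toFun γ := ⟨φ γ, (mem_rootsOfUnity m (φ γ)).mpr (hφm γ)⟩
  map_one' := Subtype.ext (map_one φ)
  map_mul' γ δ := Subtype.ext (map_mul φ γ δ)

theorem coe_toRoots {m : ℕ} [NeZero m] (φ : G →* ℂˣ) (hφm : ∀ γ, φ γ ^ m = 1) (γ : G) :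
    (((toRoots φ hφm γ : rootsOfUnity m ℂ) : ℂˣ) : ℂ) = (φ γ : ℂ) := rfl

end Root

end Fermat.Agent.S48.G1.XRootGen

end
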