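/-
PROGRAM DS (S48) / G1 — WORKED INSTANCE of the generic Kummer glue (helper162).

`Glue1.Model` + the five bricks, instantiated with the landed S30 objects for `Γ₀(N)`
(`FN N`, `A0 N`, `theta`, `E4.DivBy`, `galF`) and the landed S30 bricks.  Purpose:
(1) truth check of the interface of `S48/G1/Glue1.lean` (it is satisfiable by a real example,
    and recovers the S30 Kummer pairing as a `KummerPairing`);
(2) a template for the `Γ₁(M)` instance (`model0`, `root0`, `parEll0`, `inj0`, `surj0`, `cont0`,
    `pairing0`).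
Nothing of the S48 chain needs to import this file.
-/
import Mathlib
import Fermat.Agent.S48.G1.Glue1
import Fermat.Agent.S30.Producer.Assembly
import Fermat.Agent.S30.Producer.RootBrick
import Fermat.Agent.S30.Producer.SurjXRoot

set_option autoImplicit false
noncomputable section

open scoped MatrixGroups
open CongruenceSubgroup ModularCurve AlgebraicCurve UpperHalfPlane
open Fermat.Agent.S24.HolH Fermat.Agent.S24.Theta Fermat.Agent.S24.Modular
open Fermat.Agent.S30 Fermat.Agent.S30.KummerChar Fermat.Agent.S30.Producer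
open Fermat.Agent.S48.G1 Fermat.Agent.S48.G1.Glue1

namespace Fermat.Agent.S48.G1.Glue1Gamma0

/-- The S30 objects form a model. -/
def model0 (N : ℕ) : Model (Gamma0 N) (Producer.FN N) (galF N) where
  A0 := A0 N
  ι := (A0 N).subtype
  θ := theta iotaBar N
  ι_inj := Subtype.val_injective
  θ_inj := theta_injective iotaBar N
  frac f := by
    obtain ⟨a, b, hb, e⟩ := exists_mul_eq f
    exact ⟨a, b, fun h => hb (by rw [h]; rfl), e⟩
  inv γ hγ x := compSL_theta_of_mem_Gamma0 hγ x
  Div m f := E4.DivBy N m f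
  div_mul hf hg h1 h2 := E4.DivBy.mul hf hg h1 h2
  div_pow m g _ := E4.divBy_pow_self N m g
  div_dvd hk h P := dvd_trans (Int.natCast_dvd_natCast.mpr hk) (h P)
  div_gal σ _ _ h := E4.DivBy.gal h σ
  gal_one := galF_one N
  gal_mul := galF_mul N

theorem root0 (N m : ℕ) (hm : 0 < m) : (model0 N).Root m := by
  intro f hf hd
  exact RootBrick.root N m hm f hf hd

theorem parEll0 (N m : ℕ) [NeZero N] (hm : 0 < m) : (model0 N).ParEll m := by
  intro f (a : A0 N) (b : A0 N) H hf hd ha hb e hH γ hγ
  refine ParEllBrick.parEll N m hm a b H ha hb ?_ hH γ hγ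
  intro v
  have hb' : (b : Producer.FN N) ≠ 0 := fun h => hb (Subtype.ext h)
  have h1 := v.ord_mul hf hb'
  have e' : f * (b : Producer.FN N) = (a : Producer.FN N) := e
  rw [e'] at h1
  rw [h1, add_sub_cancel_right]
  exact hd v

theorem surj0 (N m : ℕ) [NeZero N] (hm : 0 < m) : (model0 N).Surj m := by
  intro φ h1 h2
  exact SurjXRoot.surj N m hm φ h1 h2

theorem inj0 (N m : ℕ) [NeZero N] (hm : 0 < m) : (model0 N).Inj m := by
  intro (x : A0 N) H (hH : H ^ m = theta iotaBar N x) hinv
  show ∃ y : Producer.FN N, y ^ m = (x : Producer.FN N)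
  by_cases hx : x = 0
  · exact ⟨0, by rw [hx, zero_pow hm.ne']; rfl⟩
  have hH0 : H ≠ 0 := by
    rintro rfl
    rw [zero_pow hm.ne'] at hH
    exact theta_ne_zero hx hH.symm
  have h1 : IsKummerRoot iotaBar m x 1 H := by
    unfold IsKummerRoot
    rw [map_one, one_pow, mul_one]
    exact hH
  obtain ⟨y, hy⟩ := KummerKernel.exists_pow_eq_of_mult_eq_one (ι := iotaBar) hm
    (one_ne_zero (α := A0 N)) h1 (fun γ hγ => mult_eq_one_of_compSL_eq hH0 (hinv γ hγ))
  refine ⟨y, ?_⟩
  rw [hy]
  show (x : Producer.FN N) / ((1 : A0 N) : Producer.FN N) = _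
  have : ((1 : A0 N) : Producer.FN N) = 1 := rfl
  rw [this, div_one]

theorem cont0 (N : ℕ) : (model0 N).Cont := E4.galF_eq_self_of_fixes N

/-- The S30 Kummer pairing recovered from the generic glue. -/
def pairing0 (N p : ℕ) [NeZero N] [Fact p.Prime] : KummerPairing p (Producer.FN N) (galF N) :=
  (model0 N).pairing p (fun n => root0 N _ (pow_pos (Fact.out : p.Prime).pos n))
    (fun n => parEll0 N _ (pow_pos (Fact.out : p.Prime).pos n))
    (fun n => inj0 N _ (pow_pos (Fact.out : p.Prime).pos n))
    (fun n => surj0 N _ (pow_pos (Fact.out : p.Prime).pos n)) (cont0 N)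

end Fermat.Agent.S48.G1.Glue1Gamma0
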