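/-
S48 / G1, AREA P, brick `Inj` for an analytic Kummer model (helper172).

`Glue1.Model.Inj` (helper162's brick Prop) for ANY model `K : Glue1.Model Γ F gal` whose
function field is realised inside `L((q))` (`e : F →+* LaurentSeries L`, `L` algebraically closed
of characteristic zero, `ι : L →+* ℂ`) compatibly with `θ` (`hq`), from the dictionary

  `hmem` : a holomorphic `Γ`-invariant function on `ℍ` of moderate growth at all cusps whose
           `q`-expansion has coefficients in `L` is (the avatar of) an element of `F`.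

Proof: if `H ^ m = θ x` and `H` is `Γ`-invariant, then `H` has moderate growth at all cusps
(`modAt_of_pow`), is `1`-periodic (`T ∈ Γ`), and its `m`-th power has an `L`-rational
`q`-expansion; so `H` has one (`S30.RootQExp.hasQExpK_root`), hence comes from `y : F` with
`y ^ m = ι x`.  This is the generic twin of `S30/RootGood.exists_pow_eq_of_invariant`.
-/
import Mathlib
import Fermat.Agent.S48.G1.Glue1
import Fermat.Agent.S30.RootQExp
import Fermat.Agent.S24.QB.Conv
import Fermat.Agent.S24.Theta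
import Fermat.Agent.S30.KummerChar.Cusp

set_option autoImplicit false
set_option linter.dupNamespace false

noncomputable section

open scoped MatrixGroups
open UpperHalfPlane
open Fermat.Agent.S24.HolH Fermat.Agent.S24.Degree Fermat.Agent.S24.Theta Fermat.Agent.S24.QB
open Fermat.Agent.S30 Fermat.Agent.S30.KummerChar

namespace Fermat.Agent.S48.G1.InjModel

/-- Values of a power in `HolH`. -/
theorem pow_apply (H : HolH) (m : ℕ) (τ : ℍ) :
    ((H ^ m : HolH) : ℍ → ℂ) τ = (H : ℍ → ℂ) τ ^ m := by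
  induction m with
  | zero => rfl
  | succ m ih =>
    rw [pow_succ, pow_succ, ← ih]
    rfl

/-- A holomorphic `m`-th root of a function of moderate growth at all cusps has moderate growth
at all cusps. -/
theorem mem_cuspMod_of_pow {m : ℕ} (hm : 0 < m) {H P : HolH} (hP : P ∈ cuspMod)
    (h : H ^ m = P) : H ∈ cuspMod := by
  intro g
  refine modAt_of_pow hm (hP g) fun τ => ?_
  have h1 : ((H ^ m : HolH) : ℍ → ℂ) (g • τ) = (P : ℍ → ℂ) (g • τ) :=
    congrArg (fun φ : HolH => (φ : ℍ → ℂ) (g • τ)) h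
  rw [pow_apply] at h1
  exact h1

/-- An `L`-rational `q`-expansion of a `1`-periodic holomorphic `m`-th root. -/
theorem exists_hasQ_root {L : Type*} [Field L] [IsAlgClosed L] [CharZero L] (ι : L →+* ℂ)
    {m : ℕ} (hm : 0 < m) {B : LaurentSeries L} {H P : HolH}
    (hper : compSL ModularGroup.T H = H) (hB : HasQ ι B (P : ℍ → ℂ)) (h : H ^ m = P) :
    ∃ A : LaurentSeries L, HasQ ι A (H : ℍ → ℂ) ∧ A ^ m = B := by
  have hper' : ∀ τ : ℍ, (H : ℍ → ℂ) (((1 : ℕ) : ℝ) +ᵥ τ) = (H : ℍ → ℂ) τ := by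
    intro τ
    have h1 : (H : ℍ → ℂ) (ModularGroup.T • τ) = (H : ℍ → ℂ) τ :=
      congrArg (fun φ : HolH => (φ : ℍ → ℂ) τ) hper
    rw [UpperHalfPlane.modular_T_smul] at h1
    rw [Nat.cast_one]
    exact h1
  have hB' : HasQExpK ι 1 B (fun τ => (H : ℍ → ℂ) τ ^ m) := by
    refine ((hasQExpK_one_iff ι B _).mpr hB).congr fun τ => ?_
    rw [← h, pow_apply]
  obtain ⟨A, hA, hAm⟩ := RootQExp.hasQExpK_root ι one_ne_zero hm.ne' H.2 hper' hB'
  exact ⟨A, (hasQExpK_one_iff ι A _).mp hA, hAm⟩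

variable {Γ : Subgroup SL(2, ℤ)} {F : Type} [Field F] {gal : GQ → F ≃+* F}

/-- **Brick `Inj` for a model.**  A `Γ`-invariant holomorphic `m`-th root of a good function
lies in `F`. -/
theorem inj_of_model (K : Glue1.Model Γ F gal) {L : Type*} [Field L] [IsAlgClosed L]
    [CharZero L] (ι : L →+* ℂ) (e : F →+* LaurentSeries L)
    (hq : ∀ x : K.A0, HasQ ι (e (K.ι x)) (K.θ x : ℍ → ℂ))
    (hT : ModularGroup.T ∈ Γ)
    (hcusp : ∀ x : K.A0, K.θ x ∈ cuspMod)
    (hmem : ∀ (f : LaurentSeries L) (φ : HolH), HasQ ι f (φ : ℍ → ℂ) →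
      (∀ γ : SL(2, ℤ), γ ∈ Γ → compSL γ φ = φ) → φ ∈ cuspMod → ∃ y : F, e y = f)
    {m : ℕ} (hm : 0 < m) : K.Inj m := by
  intro x H hH hinv
  have hHmod : H ∈ cuspMod := mem_cuspMod_of_pow hm (hcusp x) hH
  obtain ⟨A, hA, hAm⟩ := exists_hasQ_root ι hm (hinv _ hT) (hq x) hH
  obtain ⟨y, hy⟩ := hmem A H hA hinv hHmod
  refine ⟨y, e.injective ?_⟩
  rw [map_pow, hy, hAm]

/-- The same for all prime-power exponents at once (the `hInj` argument of
`Glue1.Model.pairing`). -/
theorem inj_of_model_all (K : Glue1.Model Γ F gal) {L : Type*} [Field L] [IsAlgClosed L]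
    [CharZero L] (ι : L →+* ℂ) (e : F →+* LaurentSeries L)
    (hq : ∀ x : K.A0, HasQ ι (e (K.ι x)) (K.θ x : ℍ → ℂ))
    (hT : ModularGroup.T ∈ Γ)
    (hcusp : ∀ x : K.A0, K.θ x ∈ cuspMod)
    (hmem : ∀ (f : LaurentSeries L) (φ : HolH), HasQ ι f (φ : ℍ → ℂ) →
      (∀ γ : SL(2, ℤ), γ ∈ Γ → compSL γ φ = φ) → φ ∈ cuspMod → ∃ y : F, e y = f)
    (p : ℕ) [Fact p.Prime] (n : ℕ) : K.Inj (p ^ n) :=
  inj_of_model K ι e hq hT hcusp hmem (pow_pos (Fact.out : p.Prime).pos n)

end Fermat.Agent.S48.G1.InjModel
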