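import Mathlib
import Fermat.Agent.S30.KummerChar.Main
import Fermat.Agent.S21.Parabolic
import Fermat.Agent.S30.Producer.ParEllBrick

set_option autoImplicit false
set_option linter.dupNamespace false
set_option linter.unusedSectionVars false

/-!
# PROGRAM DS (S48) / G1, area P: analytic Kummer characters for a GENERIC theta datum

Generic twin of `S30/KummerChar/{Main,Elliptic,Cusp}` and `S30/Producer/{RootBrick,ParEllBrick}`
(which are typed to `A0 N`, `theta ι N`, `Γ₀(N)`).  Here: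

* `K` is a field of constants with an embedding `ι : K →+* ℂ`, `F / K` a function field, `A` a
  `K`-subalgebra (abstractly: a domain with `IsFractionRing A F`);
* `θ : A →+* HolH` is an injective ring homomorphism into the holomorphic functions on `ℍ`,
  sending constants to constants.

No level, no congruence subgroup and no modular function field occurs in the types.  For
`a b : A` nonzero with `m ∣ div (a / b)` at all places of `F / K`:

* `dvd_ordZ_sub`  : `m ∣ ord_τ (θ a) - ord_τ (θ b)` at every `τ ∈ ℍ`;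
* `exists_root`   : a holomorphic `H` with `H ^ m = θ a * θ b ^ (m - 1)` exists (brick `Root`);
* `mult_eq_one_of_fixed` : the multiplier of `H` under any `σ ∈ SL(2, ℤ)` leaving all `θ x`
  invariant and having a fixed point in `ℍ` is `1`;
* `mult_eq_one_of_parabolic` : if all `θ x` have moderate growth at all cusps (`cuspMod`) and
  are invariant under `g T^N g⁻¹` and `g T^n g⁻¹`, the multiplier of `H` under `g T^n g⁻¹`
  is `1`;
* `mult_neg` : `mult (-σ) H = mult σ H` (`-1` acts trivially on `ℍ`; no hypothesis `-1 ∈ G`);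
* `mult_eq_one_of_trace_sq_le` : for a subgroup `G ⊇ Γ(N)` leaving all `θ x` invariant, the
  multiplier of `H` is trivial on every `γ ∈ G` with `tr(γ)² ≤ 4` (brick `ParEll`).
-/

noncomputable section

open scoped MatrixGroups Topology Real
open AlgebraicCurve UpperHalfPlane Filter
open Fermat.Agent.S24.HolH Fermat.Agent.S24.CuspOrd Fermat.Agent.S24.Degree
open Fermat.Agent.S30.KummerChar

namespace Fermat.Agent.S48.G1.KummerGen

/-! ### `HolH`-level preliminaries -/

/-- `-σ` and `σ` act in the same way on `HolH`. -/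
theorem compSL_neg (σ : SL(2, ℤ)) (H : HolH) : compSL (-σ) H = compSL σ H := by
  apply Subtype.ext
  funext τ
  show (H : ℍ → ℂ) ((-σ) • τ) = (H : ℍ → ℂ) (σ • τ)
  rw [ModularGroup.SL_neg_smul]

/-- The multiplier does not see the sign. -/
theorem mult_neg (σ : SL(2, ℤ)) (H : HolH) : mult (-σ) H = mult σ H := by
  unfold mult IsEig
  rw [compSL_neg]

/-- Invariance under `σ` implies invariance under its powers. -/
theorem compSL_pow_eq {σ : SL(2, ℤ)} {f : HolH} (h : compSL σ f = f) (k : ℕ) :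
    compSL (σ ^ k) f = f := by
  induction k with
  | zero => rw [pow_zero, compSL_one]
  | succ k ih => rw [pow_succ, compSL_mul, ih, h]

/-- `g T^N g⁻¹ ∈ Γ(N)`. -/
theorem conj_T_zpow_mem_Gamma (N : ℕ) (g : SL(2, ℤ)) :
    g * ModularGroup.T ^ (N : ℤ) * g⁻¹ ∈ CongruenceSubgroup.Gamma N := by
  have hT : ModularGroup.T ^ (N : ℤ) ∈ CongruenceSubgroup.Gamma N := by
    have := CongruenceSubgroup.ModularGroup_T_pow_mem_Gamma (N : ℤ) (N : ℤ) dvd_rfl
    simpa using this
  exact (CongruenceSubgroup.Gamma_normal N).conj_mem _ hT g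

section Abstract

variable {K F A : Type*} [Field K] [Field F] [Algebra K F] [CommRing A] [IsDomain A]
  [Algebra K A] [Algebra A F] [IsScalarTower K A F] [IsFractionRing A F]
  (ι : K →+* ℂ) (θ : A →+* HolH)

theorem theta_ne_zero {θ : A →+* HolH} (hθ : Function.Injective θ) {x : A} (hx : x ≠ 0) :
    θ x ≠ 0 :=
  (map_ne_zero_iff θ hθ).mpr hx

/-- A root is nonzero. -/
theorem root_ne_zero {θ : A →+* HolH} (hθ : Function.Injective θ) {m : ℕ} (hm : 0 < m)
    {a b : A} (ha : a ≠ 0) (hb : b ≠ 0) {H : HolH} (hH : H ^ m = θ a * θ b ^ (m - 1)) :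
    H ≠ 0 := by
  rintro rfl
  rw [zero_pow hm.ne'] at hH
  exact mul_ne_zero (theta_ne_zero hθ ha) (pow_ne_zero _ (theta_ne_zero hθ hb)) hH.symm

/-- The `m`-th power of a root is invariant under every `σ` leaving the `θ x` invariant. -/
theorem compSL_root_pow {θ : A →+* HolH} {m : ℕ} {a b : A} {H : HolH}
    (hH : H ^ m = θ a * θ b ^ (m - 1)) {σ : SL(2, ℤ)} (hσ : ∀ x, compSL σ (θ x) = θ x) :
    compSL σ (H ^ m) = H ^ m := by
  rw [hH, map_mul, map_pow, hσ, hσ]

/-- **Analytic divisibility.**  If `m ∣ div (a / b)` then `m` divides the order of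
`θ a / θ b` at every point of the upper half plane. -/
theorem dvd_ordZ_sub (hθ : Function.Injective θ)
    (hθK : ∀ c : K, θ (algebraMap K A c) = algebraMap ℂ HolH (ι c)) {m : ℕ} {a b : A}
    (ha : a ≠ 0) (hb : b ≠ 0)
    (hdiv : ∀ v : Place K F, (m : ℤ) ∣ v.ord (algebraMap A F a) - v.ord (algebraMap A F b))
    (τ : ℍ) : (m : ℤ) ∣ ordZ τ (θ a) - ordZ τ (θ b) := by
  let o : A → ℤ := fun x => ordZ τ (θ x)
  have hmul : ∀ x y : A, x ≠ 0 → y ≠ 0 → o (x * y) = o x + o y := by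
    intro x y hx hy
    show ordZ τ (θ (x * y)) = _
    rw [map_mul, ordZ_mul τ (theta_ne_zero hθ hx) (theta_ne_zero hθ hy)]
  have hadd : ∀ x y : A, x ≠ 0 → y ≠ 0 → x + y ≠ 0 → min (o x) (o y) ≤ o (x + y) := by
    intro x y hx hy hxy
    show _ ≤ ordZ τ (θ (x + y))
    rw [map_add]
    refine min_le_ordZ_add τ (theta_ne_zero hθ hx) (theta_ne_zero hθ hy) ?_
    rw [← map_add]
    exact theta_ne_zero hθ hxy
  have hK : ∀ c : K, c ≠ 0 → o (algebraMap K A c) = 0 := by
    intro c hc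
    show ordZ τ (θ (algebraMap K A c)) = 0
    rw [hθK]
    exact ordZ_algebraMap ((map_ne_zero ι).mpr hc)
  obtain ⟨t, -, ht⟩ := exists_eq_mul_of_dvd_ord (K := K) (F := F) o hmul hadd hK ⊤
    (fun _ _ => AddSubgroup.mem_top _) m a b ha hb hdiv
  exact ⟨t, ht⟩

/-- **Existence of the root** (brick `Root`). -/
theorem exists_root (hθ : Function.Injective θ)
    (hθK : ∀ c : K, θ (algebraMap K A c) = algebraMap ℂ HolH (ι c)) {m : ℕ} (hm : 0 < m)
    {a b : A} (ha : a ≠ 0) (hb : b ≠ 0)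
    (hdiv : ∀ v : Place K F, (m : ℤ) ∣ v.ord (algebraMap A F a) - v.ord (algebraMap A F b)) :
    ∃ H : HolH, H ^ m = θ a * θ b ^ (m - 1) := by
  obtain ⟨H, -, hH, -⟩ := Fermat.Agent.Lib.HolRootH.exists_root_frac m hm.ne' (θ a) (θ b)
    (theta_ne_zero hθ ha) (theta_ne_zero hθ hb) (dvd_ordZ_sub ι θ hθ hθK ha hb hdiv)
  exact ⟨H, hH⟩

/-- **Elliptic triviality.**  The multiplier of a root under any `σ` leaving all `θ x`
invariant and having a fixed point in `ℍ` is `1`. -/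
theorem mult_eq_one_of_fixed (hθ : Function.Injective θ)
    (hθK : ∀ c : K, θ (algebraMap K A c) = algebraMap ℂ HolH (ι c)) {m : ℕ} (hm : 0 < m)
    {a b : A} (ha : a ≠ 0) (hb : b ≠ 0)
    (hdiv : ∀ v : Place K F, (m : ℤ) ∣ v.ord (algebraMap A F a) - v.ord (algebraMap A F b))
    {H : HolH} (hH : H ^ m = θ a * θ b ^ (m - 1))
    {σ : SL(2, ℤ)} (hσ : ∀ x, compSL σ (θ x) = θ x) {τ : ℍ} (hfix : σ • τ = τ) :
    mult σ H = 1 := by
  set μ : ℂ := 1 / denom (σ : GL (Fin 2) ℝ) τ ^ 2 with hμdef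
  have hμ : μ ≠ 0 := one_div_ne_zero (pow_ne_zero 2 (denom_ne_zero _ τ))
  have hH0 : H ≠ 0 := root_ne_zero hθ hm ha hb hH
  let o : A → ℤ := fun x => ordZ τ (θ x)
  have hmul : ∀ x y : A, x ≠ 0 → y ≠ 0 → o (x * y) = o x + o y := by
    intro x y hx hy
    show ordZ τ (θ (x * y)) = _
    rw [map_mul, ordZ_mul τ (theta_ne_zero hθ hx) (theta_ne_zero hθ hy)]
  have hadd : ∀ x y : A, x ≠ 0 → y ≠ 0 → x + y ≠ 0 → min (o x) (o y) ≤ o (x + y) := by
    intro x y hx hy hxy
    show _ ≤ ordZ τ (θ (x + y))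
    rw [map_add]
    refine min_le_ordZ_add τ (theta_ne_zero hθ hx) (theta_ne_zero hθ hy) ?_
    rw [← map_add]
    exact theta_ne_zero hθ hxy
  have hK : ∀ c : K, c ≠ 0 → o (algebraMap K A c) = 0 := by
    intro c hc
    show ordZ τ (θ (algebraMap K A c)) = 0
    rw [hθK]
    exact ordZ_algebraMap ((map_ne_zero ι).mpr hc)
  have hZ : ∀ x : A, x ≠ 0 → o x ∈ zpowKer μ hμ := by
    intro x hx
    show μ ^ (ordZ τ (θ x)) = 1
    rw [ordZ, zpow_natCast]
    exact multiplier_pow_ordAt_eq_one σ τ hfix _ (theta_ne_zero hθ hx) (hσ x)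
  have hk : (m : ℤ) * ordZ τ H = o a + ((m : ℤ) - 1) * o b := by
    have h1 : ordZ τ (H ^ m) = (m : ℤ) * ordZ τ H :=
      Fermat.Agent.S30.KummerChar.ordZ_pow τ hH0 m
    have h2 : ordZ τ (θ a * θ b ^ (m - 1)) =
        ordZ τ (θ a) + ((m - 1 : ℕ) : ℤ) * ordZ τ (θ b) := by
      rw [ordZ_mul τ (theta_ne_zero hθ ha) (pow_ne_zero _ (theta_ne_zero hθ hb)),
        Fermat.Agent.S30.KummerChar.ordZ_pow τ (theta_ne_zero hθ hb)]
    have h3 : ((m - 1 : ℕ) : ℤ) = (m : ℤ) - 1 := by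
      rw [Nat.cast_sub hm]
      simp
    rw [← h1, hH, h2, h3]
  have hmem := mem_of_mul_eq (K := K) (F := F) o hmul hadd hK (zpowKer μ hμ) hZ m hm a b
    ha hb hdiv (ordZ τ H) hk
  have h1 : μ ^ (ordZ τ H) = 1 := hmem
  rw [ordZ, zpow_natCast] at h1
  have heig : IsEig σ H := isEig_of_pow hm (compSL_root_pow hH hσ)
  have h2 := multiplier_pow_ordAt_eq_mult σ τ hfix H hH0 heig.compSL_eq
  rw [← h2]
  exact h1

/-- **Parabolic triviality.**  If all `θ x` have moderate growth at all cusps and are invariant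
under `g T^N g⁻¹` and under `g T^n g⁻¹`, then the multiplier of a root under `g T^n g⁻¹`
is `1`. -/
theorem mult_eq_one_of_parabolic (hθ : Function.Injective θ)
    (hθK : ∀ c : K, θ (algebraMap K A c) = algebraMap ℂ HolH (ι c)) {m : ℕ} (hm : 0 < m)
    {a b : A} (ha : a ≠ 0) (hb : b ≠ 0)
    (hdiv : ∀ v : Place K F, (m : ℤ) ∣ v.ord (algebraMap A F a) - v.ord (algebraMap A F b))
    (hcusp : ∀ x, θ x ∈ cuspMod)
    {H : HolH} (hH : H ^ m = θ a * θ b ^ (m - 1)) (g : SL(2, ℤ)) (n : ℤ)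
    (N : ℕ) [NeZero N]
    (hN : ∀ x, compSL (g * ModularGroup.T ^ (N : ℤ) * g⁻¹) (θ x) = θ x)
    (hn : ∀ x, compSL (g * ModularGroup.T ^ n * g⁻¹) (θ x) = θ x) :
    mult (g * ModularGroup.T ^ n * g⁻¹) H = 1 := by
  have hH0 : H ≠ 0 := root_ne_zero hθ hm ha hb hH
  have hH'0 : compSL g H ≠ 0 := compSL_ne_zero g hH0
  have hNpos : 0 < N := Nat.pos_of_ne_zero (NeZero.ne N)
  set M : ℕ := N * m with hMdef
  have : NeZero M := ⟨(Nat.mul_pos hNpos hm).ne'⟩
  have e5 : (ModularGroup.T ^ (N : ℤ)) ^ m = ModularGroup.T ^ (M : ℤ) := by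
    rw [← zpow_natCast, ← zpow_mul, hMdef]
    push_cast
    rfl
  -- the translate `H' = H ∘ g`
  have hpow : compSL g H ^ m = compSL g (θ a) * compSL g (θ b) ^ (m - 1) := by
    rw [← map_pow, hH, map_mul, map_pow]
  -- the translates of the `θ x` are `N`-, `M`- and `n`-periodic
  have hxN : ∀ x, compSL (ModularGroup.T ^ (N : ℤ)) (compSL g (θ x)) = compSL g (θ x) := by
    intro x
    rw [compSL_conj, hN]
  have hxM : ∀ x, compSL (ModularGroup.T ^ (M : ℤ)) (compSL g (θ x)) = compSL g (θ x) := by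
    intro x
    rw [← e5]
    exact compSL_pow_eq (hxN x) m
  have hxn : ∀ x, compSL (ModularGroup.T ^ n) (compSL g (θ x)) = compSL g (θ x) := by
    intro x
    rw [compSL_conj, hn]
  have hmodx : ∀ x, ModAt ((compSL g (θ x) : HolH) : ℍ → ℂ) := fun x => hcusp x g
  have hmemx : ∀ x, compSL g (θ x) ∈ MerInf M := fun x =>
    mem_MerInf_of_modAt (periodic_of_compSL_T (hxM x)) (hmodx x)
  -- `H'` is `M`-periodic
  have hperT : compSL (ModularGroup.T ^ (M : ℤ)) (compSL g H) = compSL g H := by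
    have e1 : IsEig (g * ModularGroup.T ^ (N : ℤ) * g⁻¹) H :=
      isEig_of_pow hm (compSL_root_pow hH hN)
    have e2 : IsEig (ModularGroup.T ^ (N : ℤ)) (compSL g H) := (isEig_conj_iff g _ H).mp e1
    have e3 : mult (ModularGroup.T ^ (N : ℤ)) (compSL g H) ^ m = 1 := by
      rw [mult_conj g _ hH0 e1]
      exact mult_pow_eq_one hm hH0 (compSL_root_pow hH hN)
    have e4 := e2.zpow_nat hH'0 m
    rw [e5] at e4
    have e6 := e4.1.compSL_eq
    rw [e4.2, e3, map_one, one_mul] at e6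
    exact e6
  -- `H'` has moderate growth
  have hmodH : ModAt ((compSL g H : HolH) : ℍ → ℂ) := by
    have hP : ModAt ((compSL g (θ (a * b ^ (m - 1))) : HolH) : ℍ → ℂ) := hmodx _
    refine modAt_of_pow hm hP fun τ => ?_
    have := congrArg (fun F : HolH => (F : ℍ → ℂ) τ) hpow
    rw [map_mul, map_pow, map_mul, map_pow]
    exact this
  have hmemH : compSL g H ∈ MerInf M := mem_MerInf_of_modAt (periodic_of_compSL_T hperT) hmodH
  -- the order function at the cusp
  let ρ : A → MerInf M := fun x => ⟨compSL g (θ x), hmemx x⟩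
  have hρ0 : ∀ x : A, x ≠ 0 → ρ x ≠ 0 := by
    intro x hx h0
    have h1 : compSL g (θ x) = 0 := congrArg Subtype.val h0
    exact compSL_ne_zero g (theta_ne_zero hθ hx) h1
  have hρmul : ∀ x y : A, ρ (x * y) = ρ x * ρ y := by
    intro x y
    apply Subtype.ext
    show compSL g (θ (x * y)) = compSL g (θ x) * compSL g (θ y)
    rw [map_mul, map_mul]
  have hρadd : ∀ x y : A, ρ (x + y) = ρ x + ρ y := by
    intro x y
    apply Subtype.ext
    show compSL g (θ (x + y)) = compSL g (θ x) + compSL g (θ y)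
    rw [map_add, map_add]
  let o : A → ℤ := fun x => ordR (ρ x)
  have hmul : ∀ x y : A, x ≠ 0 → y ≠ 0 → o (x * y) = o x + o y := by
    intro x y hx hy
    show ordR (ρ (x * y)) = _
    rw [hρmul, ordR_mul _ _ (hρ0 x hx) (hρ0 y hy)]
  have hadd : ∀ x y : A, x ≠ 0 → y ≠ 0 → x + y ≠ 0 → min (o x) (o y) ≤ o (x + y) := by
    intro x y hx hy hxy
    show _ ≤ ordR (ρ (x + y))
    rw [hρadd]
    refine ordR_add _ _ (hρ0 x hx) (hρ0 y hy) ?_
    rw [← hρadd]
    exact hρ0 _ hxy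
  have hK : ∀ c : K, c ≠ 0 → o (algebraMap K A c) = 0 := by
    intro c hc
    have e : ρ (algebraMap K A c) = algebraMap ℂ (MerInf M) (ι c) := by
      apply Subtype.ext
      show compSL g (θ (algebraMap K A c)) = algebraMap ℂ HolH (ι c)
      rw [hθK, AlgHom.commutes]
    show ordR (ρ (algebraMap K A c)) = 0
    rw [e]
    exact ordR_algebraMap ((map_ne_zero ι).mpr hc)
  have hZ : ∀ x : A, x ≠ 0 → o x ∈ dvdMulSubgroup M n := by
    intro x hx
    show (M : ℤ) ∣ ordR (ρ x) * n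
    exact dvd_ordInf_mul_of_compSL_T_zpow_eq (hmemx x)
      (compSL_ne_zero g (theta_ne_zero hθ hx)) (hxn x)
  -- the order of `H'`
  let h' : MerInf M := ⟨compSL g H, hmemH⟩
  have hh'0 : h' ≠ 0 := by
    intro h0
    exact hH'0 (congrArg Subtype.val h0)
  have hpow' : h' ^ m = ρ a * ρ b ^ (m - 1) := by
    apply Subtype.ext
    show compSL g H ^ m = compSL g (θ a) * compSL g (θ b) ^ (m - 1)
    exact hpow
  have hk : (m : ℤ) * ordR h' = o a + ((m : ℤ) - 1) * o b := by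
    have h1 : ordR (h' ^ m) = (m : ℤ) * ordR h' := ordR_pow hh'0 m
    have h2 : ordR (ρ a * ρ b ^ (m - 1)) = ordR (ρ a) + ((m - 1 : ℕ) : ℤ) * ordR (ρ b) := by
      rw [ordR_mul _ _ (hρ0 a ha) (pow_ne_zero _ (hρ0 b hb)), ordR_pow (hρ0 b hb)]
    have h3 : ((m - 1 : ℕ) : ℤ) = (m : ℤ) - 1 := by
      rw [Nat.cast_sub hm]
      simp
    rw [← h1, hpow', h2, h3]
  have hmem := mem_of_mul_eq (K := K) (F := F) o hmul hadd hK (dvdMulSubgroup M n) hZ m hm
    a b ha hb hdiv (ordR h') hk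
  have hdvd : (M : ℤ) ∣ ordR h' * n := hmem
  -- the multiplier is `rootExp M n ^ ordR h'`
  have heig : IsEig (g * ModularGroup.T ^ n * g⁻¹) H := isEig_of_pow hm (compSL_root_pow hH hn)
  have heig' : IsEig (ModularGroup.T ^ n) (compSL g H) := (isEig_conj_iff g _ H).mp heig
  have hmult : mult (ModularGroup.T ^ n) (compSL g H) = mult (g * ModularGroup.T ^ n * g⁻¹) H :=
    mult_conj g _ hH0 heig
  obtain ⟨c, hc0, hc⟩ := exists_hasOrd_ordR h' hh'0
  have hv := hc.vadd n
  have hv' : HasOrd M (fun τ => ((h' : HolH) : ℍ → ℂ) ((n : ℝ) +ᵥ τ)) (ordR h')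
      (mult (ModularGroup.T ^ n) (compSL g H) * c) := by
    have h1 : Tendsto (fun τ => mult (ModularGroup.T ^ n) (compSL g H) *
        (((h' : HolH) : ℍ → ℂ) τ * sPar M τ ^ (-(ordR h')))) atImInfty
        (𝓝 (mult (ModularGroup.T ^ n) (compSL g H) * c)) := hc.const_mul _
    refine h1.congr fun τ => ?_
    have h2 := congrArg (fun F : HolH => (F : ℍ → ℂ) τ) heig'.compSL_eq
    simp only [compSL_apply] at h2
    rw [UpperHalfPlane.modular_T_zpow_smul] at h2
    show mult (ModularGroup.T ^ n) (compSL g H) * ((compSL g H : ℍ → ℂ) τ * _) =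
      (compSL g H : ℍ → ℂ) ((n : ℝ) +ᵥ τ) * _
    simp only [compSL_apply]
    rw [h2]
    show _ = mult (ModularGroup.T ^ n) (compSL g H) * (H : ℍ → ℂ) (g • τ) * _
    ring
  have h3 : c * rootExp M n ^ (ordR h') = mult (ModularGroup.T ^ n) (compSL g H) * c :=
    tendsto_nhds_unique hv hv'
  have h4 : rootExp M n ^ (ordR h') = 1 := (rootExp_zpow_eq_one_iff M n (ordR h')).mpr hdvd
  rw [h4, mul_one] at h3
  rw [← hmult]
  have h5 : (1 : ℂ) * c = mult (ModularGroup.T ^ n) (compSL g H) * c := by rw [one_mul]; exact h3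
  exact (mul_right_cancel₀ hc0 h5).symm

/-- **Brick `ParEll`, generic.**  Let `G ⊇ Γ(N)` leave all `θ x` invariant, and let all `θ x`
have moderate growth at all cusps.  Then the multiplier of a root is trivial on every `γ ∈ G`
with `tr(γ)² ≤ 4` (elliptic elements, `± 1`, and `± g T^n g⁻¹`; no hypothesis `-1 ∈ G`). -/
theorem mult_eq_one_of_trace_sq_le (hθ : Function.Injective θ)
    (hθK : ∀ c : K, θ (algebraMap K A c) = algebraMap ℂ HolH (ι c)) {m : ℕ} (hm : 0 < m)
    {a b : A} (ha : a ≠ 0) (hb : b ≠ 0)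
    (hdiv : ∀ v : Place K F, (m : ℤ) ∣ v.ord (algebraMap A F a) - v.ord (algebraMap A F b))
    (G : Subgroup SL(2, ℤ)) (hinv : ∀ γ ∈ G, ∀ x, compSL γ (θ x) = θ x)
    (hcusp : ∀ x, θ x ∈ cuspMod) (N : ℕ) [NeZero N] (hG : CongruenceSubgroup.Gamma N ≤ G)
    {H : HolH} (hH : H ^ m = θ a * θ b ^ (m - 1)) {γ : SL(2, ℤ)} (hγ : γ ∈ G)
    (htr : (γ : Matrix (Fin 2) (Fin 2) ℤ).trace ^ 2 ≤ 4) : mult γ H = 1 := by
  rcases lt_or_eq_of_le htr with hlt | heq
  · -- elliptic: a fixed point in `ℍ`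
    obtain ⟨τ, hτ⟩ := Fermat.Agent.S30.Producer.ParEllBrick.exists_fixed_of_trace_sq_lt γ hlt
    exact mult_eq_one_of_fixed ι θ hθ hθK hm ha hb hdiv hH (hinv γ hγ) hτ
  · -- parabolic or `± 1`
    obtain ⟨δ, hδ⟩ := Fermat.Agent.S21.exists_conj_upper γ heq
    obtain ⟨n, hn⟩ := Fermat.Agent.S21.upper_eq_T_zpow _ hδ
    have hγeq : γ = δ * (δ⁻¹ * γ * δ) * δ⁻¹ := by group
    have hNinv : ∀ x, compSL (δ * ModularGroup.T ^ (N : ℤ) * δ⁻¹) (θ x) = θ x := fun x =>
      hinv _ (hG (conj_T_zpow_mem_Gamma N δ)) x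
    rcases hn with hn | hn
    · have h1 : γ = δ * ModularGroup.T ^ n * δ⁻¹ := by
        rw [← hn]
        exact hγeq
      have hninv : ∀ x, compSL (δ * ModularGroup.T ^ n * δ⁻¹) (θ x) = θ x := by
        intro x
        rw [← h1]
        exact hinv γ hγ x
      rw [h1]
      exact mult_eq_one_of_parabolic ι θ hθ hθK hm ha hb hdiv hcusp hH δ n N hNinv hninv
    · have h1 : γ = -(δ * ModularGroup.T ^ n * δ⁻¹) := by
        have h2 : δ * (-ModularGroup.T ^ n) * δ⁻¹ = -(δ * ModularGroup.T ^ n * δ⁻¹) := by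
          rw [mul_neg, neg_mul]
        rw [← h2, ← hn]
        exact hγeq
      have hninv : ∀ x, compSL (δ * ModularGroup.T ^ n * δ⁻¹) (θ x) = θ x := by
        intro x
        rw [← compSL_neg, ← h1]
        exact hinv γ hγ x
      rw [h1, mult_neg]
      exact mult_eq_one_of_parabolic ι θ hθ hθK hm ha hb hdiv hcusp hH δ n N hNinv hninv

end Abstract

end Fermat.Agent.S48.G1.KummerGen

end
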