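/-
S48 / G1, AREA P, brick `ParEll1` for an analytic Kummer model (helper172).

`Glue1.Model.ParEll` (helper162's brick Prop) for ANY model `K : Glue1.Model Γ F gal`, from the
generic core `ParEllGen.mult_eq_one_of_trace_sq_le`.  Inputs, all on the model:

* `hDiv`   : the abstract `K.Div m f` implies `m ∣ ord_v f` at every Prelude place `v` of `F / k`;
* `hconst` : constants are constants (`const_of_algebra` when `A0` is a `k`-algebra);
* `hcusp`  : every `K.θ x` has moderate growth at all cusps (`S24.Degree.cuspMod`);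
* `hN`     : a level, `Γ(N) ≤ Γ`.

No place/point dictionary of the curve is needed.
-/
import Mathlib
import Fermat.Agent.S48.G1.Glue1
import Fermat.Agent.S48.G1.ParEllGen

set_option autoImplicit false
set_option linter.dupNamespace false

noncomputable section

open scoped MatrixGroups
open AlgebraicCurve UpperHalfPlane CongruenceSubgroup
open Fermat.Agent.S24.HolH Fermat.Agent.S24.Degree
open Fermat.Agent.S30 Fermat.Agent.S30.KummerChar
open Fermat.Agent.S48.Betti1

namespace Fermat.Agent.S48.G1.ParEllModel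

variable {Γ : Subgroup SL(2, ℤ)} {F : Type} [Field F] {gal : GQ → F ≃+* F}

/-- **Brick `ParEll` for a model.**  The multiplier of the root of a function with `m ∣ div f`
is trivial on the elements of `Γ` with `tr² ≤ 4`. -/
theorem parEll_of_model (K : Glue1.Model Γ F gal) {k : Type*} [Field k] [Algebra k F]
    (ι : k →+* ℂ)
    (hconst : ∀ (c : k) (x y : K.A0), algebraMap k F c * K.ι y = K.ι x →
      K.θ x = algebraMap ℂ HolH (ι c) * K.θ y)
    (hcusp : ∀ x : K.A0, K.θ x ∈ cuspMod)
    {N : ℕ} [NeZero N] (hN : Gamma N ≤ Γ)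
    {m : ℕ} (hm : 0 < m)
    (hDiv : ∀ f : F, f ≠ 0 → K.Div m f → ∀ v : Place k F, (m : ℤ) ∣ v.ord f) :
    K.ParEll m := by
  intro f a b H hf hfd ha hb e hH γ hγ
  refine ParEllGen.mult_eq_one_of_trace_sq_le K.ι ι K.θ K.ι_inj K.frac K.θ_inj hconst hcusp
    (fun δ hδ x => K.inv δ (hN hδ) x) hm ha hb (fun v => ?_) hH (K.inv γ γ.2) hγ
  have h1 : v.ord (K.ι a) = v.ord f + v.ord (K.ι b) := by
    rw [← e]
    exact v.ord_mul hf (K.iota_ne_zero hb)
  rw [h1, add_sub_cancel_right]
  exact hDiv f hf hfd v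

/-- The same for all exponents at once. -/
theorem parEll_of_model_all (K : Glue1.Model Γ F gal) {k : Type*} [Field k] [Algebra k F]
    (ι : k →+* ℂ)
    (hconst : ∀ (c : k) (x y : K.A0), algebraMap k F c * K.ι y = K.ι x →
      K.θ x = algebraMap ℂ HolH (ι c) * K.θ y)
    (hcusp : ∀ x : K.A0, K.θ x ∈ cuspMod)
    {N : ℕ} [NeZero N] (hN : Gamma N ≤ Γ)
    (hDiv : ∀ (m : ℕ) (f : F), f ≠ 0 → K.Div m f → ∀ v : Place k F, (m : ℤ) ∣ v.ord f)
    (p : ℕ) [Fact p.Prime] (n : ℕ) : K.ParEll (p ^ n) :=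
  parEll_of_model K ι hconst hcusp hN (pow_pos (Fact.out : p.Prime).pos n) (hDiv (p ^ n))

end Fermat.Agent.S48.G1.ParEllModel
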