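import Fermat.Agent.S48.G1.AutStableGen

set_option autoImplicit false
set_option linter.dupNamespace false

/-!
# G1 (S48), the Surj / Inj / Root bricks for a GENERIC subgroup, over `ℚ̄` (helper29)

`G ≤ SL(2, ℤ)` with `Γ(M) ≤ G` and `T ∈ G`; `K` an algebraically closed field of characteristic
zero with `ι : K →+* ℂ` (e.g. `K = ℚ̄`).  Vocabulary of `S48/G1/DescentGen.lean`.

A *generating system* `GenSys G M S₀` is a finite set `S₀` of `q`-series with RATIONAL
coefficients, containing `jq`, such that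

* (I1) every `s ∈ S₀`, read in `ℂ((q))`, is good for `(G, M)` (is the expansion of a
  `G`-invariant holomorphic function all of whose `SL(2, ℤ)`-translates have
  `q^(1/M)`-expansions), and
* (I2) every `γ ∈ SL(2, ℤ)` fixing the avatars of all `s ∈ S₀` fixes the avatars of all good
  series (e.g. the joint stabiliser is contained in `± G`: `GenSys.of_avatars_pm`).

Consequences (`F = K(S₀) ⊆ K((q))`, `A₀ = K[S₀]`, `thetaK : A₀ →+* HolH`):

* `GenSys.adjoin_eq`: `ℂ(S₀) = FracG G M`; `GenSys.divH_coeffMap`: `m`-divisibility is stable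
  under `Aut(ℂ)`;
* `GenSys.exists_root_of_char` (**descent**): for every character `φ` of `G` of exponent `m`,
  trivial on the elements with lower-left entry `0`, there is `y ∈ K((q))`, `y ≠ 0`, with
  `y ^ m ∈ F` whose base change to `ℂ` has the Kummer character `φ`;
* `GenSys.exists_kummerRoot` (**Surj**): ... and for a representation `y ^ m = a / b`,
  `a b ∈ A₀`, a holomorphic `m`-th root `H` of `θ a · θ b ^ (m - 1)` with `H ∘ γ = φ γ • H`;
* `GenSys.exists_root_of_inv` (**Inj**): if `x ∈ A₀` and `θ x` has a `G`-invariant holomorphic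
  `m`-th root, then `x` is an `m`-th power in `F`;
* `GenSys.exists_root_of_divH` (**Root**): an `m`-divisible `f ∈ F` has a representation
  `f = a / b` and a holomorphic `m`-th root of `θ a · θ b ^ (m - 1)`.
-/

noncomputable section

open UpperHalfPlane ModularCurve HahnSeries CongruenceSubgroup IntermediateField
open Fermat.Agent.S24.HolH Fermat.Agent.S24 Fermat.Agent.Lib
open Fermat.Agent.S48.G1.DescentGen Fermat.Agent.S48.G1.XRootGen Fermat.Agent.S48.G1.PrimGen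
open Fermat.Agent.S48.G1.AutStableGen
open scoped MatrixGroups Manifold

namespace Fermat.Agent.S48.G1.SurjGen

/-! ### Generating systems -/

section Sys

variable (G : Subgroup SL(2, ℤ)) (M : ℕ) [NeZero M]

/-- A generating system for `(G, M)`: a finite set of rational `q`-series containing `jq`,
good after base change to `ℂ`, whose avatars jointly separate. -/
structure GenSys (S₀ : Set (LaurentSeries ℚ)) : Prop where
  finite : S₀.Finite
  jq_mem : jq ∈ S₀
  good : ∀ s ∈ S₀, coeffEmb ℂ s ∈ GoodG G M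
  sep : ∀ γ : SL(2, ℤ),
    (∀ s (hs : s ∈ S₀), compSL γ (thetaG G M ⟨coeffEmb ℂ s, good s hs⟩)
      = thetaG G M ⟨coeffEmb ℂ s, good s hs⟩) →
    ∀ f : GoodG G M, compSL γ (thetaG G M f) = thetaG G M f

variable {G M}

/-- A generating system from explicit avatars. -/
theorem GenSys.of_avatars {S₀ : Set (LaurentSeries ℚ)} (hfin : S₀.Finite) (hj : jq ∈ S₀)
    (W : LaurentSeries ℚ → HolH) (hW : ∀ s ∈ S₀, IsAvatar G M (coeffEmb ℂ s) (W s))
    (hsep : ∀ γ : SL(2, ℤ), (∀ s ∈ S₀, compSL γ (W s) = W s) →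
      ∀ f : GoodG G M, compSL γ (thetaG G M f) = thetaG G M f) : GenSys G M S₀ where
  finite := hfin
  jq_mem := hj
  good := fun s hs => ⟨W s, hW s hs⟩
  sep := by
    intro γ h
    refine hsep γ fun s hs => ?_
    have h1 := h s hs
    rw [thetaG_eq (f := ⟨coeffEmb ℂ s, ⟨W s, hW s hs⟩⟩) (hW s hs)] at h1
    exact h1

theorem compSL_neg (γ : SL(2, ℤ)) (W : HolH) : compSL (-γ) W = compSL γ W := by
  apply Subtype.ext
  funext τ
  rw [compSL_apply, compSL_apply, ModularGroup.SL_neg_smul]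

/-- A generating system from explicit avatars whose joint stabiliser is contained in `± G`. -/
theorem GenSys.of_avatars_pm {S₀ : Set (LaurentSeries ℚ)} (hfin : S₀.Finite) (hj : jq ∈ S₀)
    (W : LaurentSeries ℚ → HolH) (hW : ∀ s ∈ S₀, IsAvatar G M (coeffEmb ℂ s) (W s))
    (hstab : ∀ γ : SL(2, ℤ), (∀ s ∈ S₀, compSL γ (W s) = W s) → γ ∈ G ∨ -γ ∈ G) :
    GenSys G M S₀ := by
  refine GenSys.of_avatars hfin hj W hW fun γ h f => ?_
  rcases hstab γ h with h1 | h1
  · exact compSL_thetaG G M h1 f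
  · rw [← compSL_neg]
    exact compSL_thetaG G M h1 f

variable {S₀ : Set (LaurentSeries ℚ)}

/-- A separating good series in the `ℂ`-span of the generators. -/
theorem GenSys.exists_sep (hM : Gamma M ≤ G) (h : GenSys G M S₀) :
    ∃ θ : GoodG G M, Sep G M θ ∧
      (θ : LaurentSeries ℂ) ∈ IntermediateField.adjoin ℂ (coeffEmb ℂ '' S₀) := by
  haveI : Fintype ↥S₀ := h.finite.fintype
  obtain ⟨c, hc⟩ := exists_sep_of_family hM
    (fun x : ↥S₀ => (⟨coeffEmb ℂ (x : LaurentSeries ℚ), h.good x.1 x.2⟩ : GoodG G M))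
    (fun γ hγ => h.sep γ fun s hs => hγ ⟨s, hs⟩)
  refine ⟨_, hc, ?_⟩
  rw [AddSubmonoidClass.coe_finsetSum]
  refine sum_mem fun x _ => ?_
  rw [Subalgebra.coe_smul]
  have hx : coeffEmb ℂ (x : LaurentSeries ℚ) ∈ coeffEmb ℂ '' S₀ := ⟨x.1, x.2, rfl⟩
  exact IntermediateField.smul_mem _ (IntermediateField.subset_adjoin ℂ _ hx)

/-- **Generation**: `ℂ(S₀)` is the function field of `G`. -/
theorem GenSys.adjoin_eq (hM : Gamma M ≤ G) (h : GenSys G M S₀) :
    IntermediateField.adjoin ℂ (coeffEmb ℂ '' S₀) = FracG G M := by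
  obtain ⟨θ, hθ, hθS⟩ := h.exists_sep hM
  refine adjoin_eq_fracG hM (coeffEmb ℂ '' S₀) ?_ ⟨jq, h.jq_mem, rfl⟩ hθS hθ
  rintro _ ⟨s, hs, rfl⟩
  exact h.good s hs

/-- **Aut-stability**: `m`-divisibility is stable under the coefficientwise action of
`Aut(ℂ)`. -/
theorem GenSys.divH_coeffMap (hM : Gamma M ≤ G) (h : GenSys G M S₀) (m : ℕ) (σ : ℂ ≃+* ℂ)
    {f : LaurentSeries ℂ} (hf : DivH G M m f) : DivH G M m (coeffMap (σ : ℂ →+* ℂ) f) := by
  obtain ⟨θ, hθ, -⟩ := h.exists_sep hM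
  exact AutStableGen.divH_coeffMap hM hθ (coeffMap_mem_fracG S₀ (h.adjoin_eq hM)) m σ hf

end Sys

/-! ### Descent of the Eisenstein root -/

section Descent

variable {G : Subgroup SL(2, ℤ)} {M : ℕ} [NeZero M] {S₀ : Set (LaurentSeries ℚ)}
  {K : Type*} [Field K] [Algebra ℚ K] [CharZero K] [IsAlgClosed K]

/-- **Descent `ℂ → K` of the Kummer root with prescribed character.**  For every character
`φ` of `G` of exponent `m`, trivial on the elements of `G` with lower-left entry `0`, there is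
`y ∈ K((q))`, `y ≠ 0`, with `y ^ m ∈ K(S₀)`, whose base change to `ℂ` has the character `φ`. -/
theorem GenSys.exists_root_of_char (hM : Gamma M ≤ G) (hT : ModularGroup.T ∈ G)
    (h : GenSys G M S₀) (ι : K →+* ℂ) {m : ℕ} (hm : 0 < m) (φ : G →* ℂˣ)
    (hφm : ∀ γ, φ γ ^ m = 1)
    (hpar : ∀ γ : G, ((γ : SL(2, ℤ)) : Matrix (Fin 2) (Fin 2) ℤ) 1 0 = 0 → φ γ = 1)
    (φ' : G →* rootsOfUnity m ℂ)
    (hφ' : ∀ γ, (((φ' γ : rootsOfUnity m ℂ) : ℂˣ) : ℂ) = (φ γ : ℂ)) :
    ∃ y : LaurentSeries K, y ≠ 0 ∧ y ^ m ∈ IntermediateField.adjoin K (coeffEmb K '' S₀) ∧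
      HasChar G M m (coeffMap ι y) φ' := by
  obtain ⟨θ, hθ, -⟩ := h.exists_sep hM
  have hx := hasChar_xRoot (M := M) hM hT hm φ hφm hpar φ' hφ'
  exact exists_descent_hasChar hM hT ι S₀ jq h.jq_mem
    ⟨-1, by norm_num, by rw [coeff_jq_neg_one]; exact one_ne_zero⟩ (h.adjoin_eq hM) _
    (hfin_of_sep hM hθ) hm (fun σ f hf => h.divH_coeffMap hM m σ hf) φ' hx

end Descent

/-! ### The `K`-rational model `A₀ = K[S₀]`, `θ : A₀ → HolH` -/

section Model

variable {G : Subgroup SL(2, ℤ)} {M : ℕ} [NeZero M] {S₀ : Set (LaurentSeries ℚ)}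
  {K : Type*} [Field K] [Algebra ℚ K]

theorem coeffMap_algebraMap_hom (ι : K →+* ℂ) (c : K) :
    coeffMap ι (algebraMap K (LaurentSeries K) c) = algebraMap ℂ (LaurentSeries ℂ) (ι c) := by
  rw [algebraMap_laurentSeries_eq_single, algebraMap_laurentSeries_eq_single, coeffMap_single]

theorem coeffMap_hom_injective (ι : K →+* ℂ) : Function.Injective (coeffMap ι) := by
  intro a b hab
  ext i
  have := congrArg (fun x : LaurentSeries ℂ => x.coeff i) hab
  simp only [coeffMap_coeff] at this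
  exact ι.injective this

/-- The base change to `ℂ` of an element of `K[S₀]` is good. -/
theorem GenSys.coeffMap_mem_goodG (h : GenSys G M S₀) (ι : K →+* ℂ) {a : LaurentSeries K}
    (ha : a ∈ Algebra.adjoin K (coeffEmb K '' S₀)) : coeffMap ι a ∈ GoodG G M := by
  induction ha using Algebra.adjoin_induction with
  | mem x hx =>
    obtain ⟨s, hs, rfl⟩ := hx
    rw [Fermat.Agent.S30.KummerDescent.coeffMap_coeffEmb_hom]
    exact h.good s hs
  | algebraMap c =>
    rw [coeffMap_algebraMap_hom]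
    exact Subalgebra.algebraMap_mem _ _
  | add x y _ _ hx hy =>
    rw [map_add]
    exact add_mem hx hy
  | mul x y _ _ hx hy =>
    rw [map_mul]
    exact mul_mem hx hy

/-- Base change `K[S₀] → GoodG G M`. -/
def GenSys.baseG (h : GenSys G M S₀) (ι : K →+* ℂ) :
    ↥(Algebra.adjoin K (coeffEmb K '' S₀)) →+* GoodG G M where
  toFun a := ⟨coeffMap ι (a : LaurentSeries K), h.coeffMap_mem_goodG ι a.2⟩
  map_one' := Subtype.ext (map_one _)
  map_mul' _ _ := Subtype.ext (map_mul _ _ _)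
  map_zero' := Subtype.ext (map_zero _)
  map_add' _ _ := Subtype.ext (map_add _ _ _)

theorem GenSys.coe_baseG (h : GenSys G M S₀) (ι : K →+* ℂ)
    (a : ↥(Algebra.adjoin K (coeffEmb K '' S₀))) :
    ((h.baseG ι a : GoodG G M) : LaurentSeries ℂ) = coeffMap ι (a : LaurentSeries K) := rfl

theorem GenSys.baseG_injective (h : GenSys G M S₀) (ι : K →+* ℂ) :
    Function.Injective (h.baseG ι) := by
  intro a b hab
  have h1 := congrArg (fun x : GoodG G M => (x : LaurentSeries ℂ)) hab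
  exact Subtype.ext (coeffMap_hom_injective ι h1)

/-- The analytic avatar of an element of `K[S₀]`. -/
def GenSys.thetaK (h : GenSys G M S₀) (ι : K →+* ℂ) :
    ↥(Algebra.adjoin K (coeffEmb K '' S₀)) →+* HolH :=
  (thetaG G M : GoodG G M →+* HolH).comp (h.baseG ι)

theorem GenSys.thetaK_apply (h : GenSys G M S₀) (ι : K →+* ℂ)
    (a : ↥(Algebra.adjoin K (coeffEmb K '' S₀))) :
    h.thetaK ι a = thetaG G M (h.baseG ι a) := rfl

theorem GenSys.thetaK_injective (h : GenSys G M S₀) (ι : K →+* ℂ) :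
    Function.Injective (h.thetaK ι) :=
  (thetaG_injective G M).comp (h.baseG_injective ι)

theorem GenSys.isAvatar_thetaK (h : GenSys G M S₀) (ι : K →+* ℂ)
    (a : ↥(Algebra.adjoin K (coeffEmb K '' S₀))) :
    IsAvatar G M (coeffMap ι (a : LaurentSeries K)) (h.thetaK ι a) :=
  isAvatar_thetaG G M (h.baseG ι a)

/-- `thetaK` is characterised by `IsAvatar`. -/
theorem GenSys.thetaK_eq (h : GenSys G M S₀) (ι : K →+* ℂ)
    {a : ↥(Algebra.adjoin K (coeffEmb K '' S₀))} {W : HolH}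
    (hW : IsAvatar G M (coeffMap ι (a : LaurentSeries K)) W) : h.thetaK ι a = W :=
  thetaG_eq (f := h.baseG ι a) hW

theorem GenSys.compSL_thetaK (h : GenSys G M S₀) (ι : K →+* ℂ) {γ : SL(2, ℤ)} (hγ : γ ∈ G)
    (a : ↥(Algebra.adjoin K (coeffEmb K '' S₀))) :
    compSL γ (h.thetaK ι a) = h.thetaK ι a :=
  compSL_thetaG G M hγ _

theorem GenSys.thetaK_algebraMap (h : GenSys G M S₀) (ι : K →+* ℂ) (c : K) :
    h.thetaK ι (algebraMap K ↥(Algebra.adjoin K (coeffEmb K '' S₀)) c)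
      = algebraMap ℂ HolH (ι c) := by
  apply h.thetaK_eq ι
  have h1 : ((algebraMap K ↥(Algebra.adjoin K (coeffEmb K '' S₀)) c :
      ↥(Algebra.adjoin K (coeffEmb K '' S₀))) : LaurentSeries K)
      = algebraMap K (LaurentSeries K) c := rfl
  rw [h1, coeffMap_algebraMap_hom]
  exact isAvatar_algebraMap G M (ι c)

/-- Elements of `K(S₀)` are quotients of elements of `K[S₀]`. -/
theorem exists_frac_adjoin {f : LaurentSeries K}
    (hf : f ∈ IntermediateField.adjoin K (coeffEmb K '' S₀)) (hf0 : f ≠ 0) :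
    ∃ a b : ↥(Algebra.adjoin K (coeffEmb K '' S₀)), a ≠ 0 ∧ b ≠ 0 ∧
      f * (b : LaurentSeries K) = a := by
  obtain ⟨r, hr, s, hs, rfl⟩ := IntermediateField.mem_adjoin_iff_div.mp hf
  have hs0 : s ≠ 0 := by
    rintro rfl
    simp at hf0
  have hr0 : r ≠ 0 := by
    rintro rfl
    simp at hf0
  exact ⟨⟨r, hr⟩, ⟨s, hs⟩, fun h => hr0 (congrArg Subtype.val h),
    fun h => hs0 (congrArg Subtype.val h), div_mul_cancel₀ r hs0⟩

/-- **Root brick, generic.**  An `m`-divisible function of `K(S₀)` has a representation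
`f = a / b` with `a b ∈ K[S₀]` and a holomorphic `m`-th root of `θ a · θ b ^ (m - 1)`. -/
theorem GenSys.exists_root_of_divH (h : GenSys G M S₀) (ι : K →+* ℂ) {m : ℕ} (hm : 0 < m)
    {f : LaurentSeries K} (hf : f ∈ IntermediateField.adjoin K (coeffEmb K '' S₀))
    (hdiv : DivH G M m (coeffMap ι f)) :
    ∃ (a b : ↥(Algebra.adjoin K (coeffEmb K '' S₀))) (H : HolH), a ≠ 0 ∧ b ≠ 0 ∧
      f * (b : LaurentSeries K) = a ∧ H ≠ 0 ∧ H ^ m = h.thetaK ι a * h.thetaK ι b ^ (m - 1) := by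
  have hf0 : f ≠ 0 := fun h0 => hdiv.ne_zero (by rw [h0, map_zero])
  obtain ⟨a, b, ha, hb, hab⟩ := exists_frac_adjoin hf hf0
  have ha' : h.baseG ι a ≠ 0 := (map_ne_zero_iff _ (h.baseG_injective ι)).mpr ha
  have hb' : h.baseG ι b ≠ 0 := (map_ne_zero_iff _ (h.baseG_injective ι)).mpr hb
  have hrepr : coeffMap ι f * ((h.baseG ι b : GoodG G M) : LaurentSeries ℂ)
      = (h.baseG ι a : GoodG G M) := by
    rw [GenSys.coe_baseG, GenSys.coe_baseG, ← map_mul, hab]
  have hd := hdiv.dvd_of_eq ha' hb' hrepr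
  obtain ⟨H, hH, hHm, -⟩ := HolRootH.exists_root_frac m hm.ne' (thetaG G M (h.baseG ι a))
    (thetaG G M (h.baseG ι b)) (thetaG_ne_zero G M ha') (thetaG_ne_zero G M hb') hd
  exact ⟨a, b, H, ha, hb, hab, hH, hHm⟩

variable [CharZero K] [IsAlgClosed K]

/-- **Surj brick, generic.**  For every character `φ` of `G` of exponent `m`, trivial on the
elements of `G` with lower-left entry `0`, there are `y ∈ K((q))`, `y ≠ 0`, with
`y ^ m = a / b ∈ K(S₀)` (`a b ∈ K[S₀]`), `m`-divisible, and a holomorphic `m`-th root `H` of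
`θ a · θ b ^ (m - 1)` with multiplier `φ`. -/
theorem GenSys.exists_kummerRoot (hM : Gamma M ≤ G) (hT : ModularGroup.T ∈ G)
    (h : GenSys G M S₀) (ι : K →+* ℂ) {m : ℕ} (hm : 0 < m) (φ : G →* ℂˣ)
    (hφm : ∀ γ, φ γ ^ m = 1)
    (hpar : ∀ γ : G, ((γ : SL(2, ℤ)) : Matrix (Fin 2) (Fin 2) ℤ) 1 0 = 0 → φ γ = 1) :
    ∃ (y : LaurentSeries K) (a b : ↥(Algebra.adjoin K (coeffEmb K '' S₀))) (H : HolH),
      y ≠ 0 ∧ y ^ m ∈ IntermediateField.adjoin K (coeffEmb K '' S₀) ∧ a ≠ 0 ∧ b ≠ 0 ∧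
      y ^ m * (b : LaurentSeries K) = a ∧ DivH G M m (coeffMap ι (y ^ m)) ∧ H ≠ 0 ∧
      H ^ m = h.thetaK ι a * h.thetaK ι b ^ (m - 1) ∧
      ∀ γ : G, compSL (γ : SL(2, ℤ)) H = (φ γ : ℂ) • H := by
  haveI : NeZero m := ⟨hm.ne'⟩
  obtain ⟨y, hy, hym, hchar⟩ := h.exists_root_of_char hM hT ι hm φ hφm hpar (toRoots φ hφm)
    (coe_toRoots φ hφm)
  obtain ⟨a, b, ha, hb, hab⟩ := exists_frac_adjoin hym (pow_ne_zero m hy)
  have ha' : h.baseG ι a ≠ 0 := (map_ne_zero_iff _ (h.baseG_injective ι)).mpr ha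
  have hb' : h.baseG ι b ≠ 0 := (map_ne_zero_iff _ (h.baseG_injective ι)).mpr hb
  have hrepr : coeffMap ι y ^ m * ((h.baseG ι b : GoodG G M) : LaurentSeries ℂ)
      = (h.baseG ι a : GoodG G M) := by
    rw [GenSys.coe_baseG, GenSys.coe_baseG, ← map_pow, ← map_mul, hab]
  obtain ⟨H, hH, hHm, hφ⟩ := hchar.exists_root_of_repr hm ha' hb' hrepr
  refine ⟨y, a, b, H, hy, hym, ha, hb, hab, ?_, hH, hHm, fun γ => ?_⟩
  · rw [map_pow]
    exact hchar.divH hm
  · rw [hφ γ, coe_toRoots]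

/-- **Inj brick, generic.**  If `x ∈ K[S₀]` and `θ x` has a `G`-invariant holomorphic `m`-th
root `H`, then `x = y ^ m` with `y ∈ K(S₀)`, and `H` is the avatar of `y`. -/
theorem GenSys.exists_root_of_inv (hM : Gamma M ≤ G) (hT : ModularGroup.T ∈ G)
    (h : GenSys G M S₀) (ι : K →+* ℂ) {m : ℕ} (hm : 0 < m)
    (x : ↥(Algebra.adjoin K (coeffEmb K '' S₀))) (H : HolH) (hH : H ^ m = h.thetaK ι x)
    (hinv : ∀ γ ∈ G, compSL γ H = H) :
    ∃ y ∈ IntermediateField.adjoin K (coeffEmb K '' S₀), y ^ m = (x : LaurentSeries K) ∧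
      IsAvatar G M (coeffMap ι y) H := by
  obtain ⟨w, hw, hwm⟩ := exists_good_root hM hT hm.ne' (h.baseG ι x) H hH hinv
  have hgF : (w : LaurentSeries ℂ)
      ∈ IntermediateField.adjoin ℂ (coeffMap ι '' (coeffEmb K '' S₀)) := by
    rw [Fermat.Agent.S30.KummerDescent.coeffMap_image_coeffEmb, h.adjoin_eq hM]
    exact coe_mem_fracG G M w
  have hg : (w : LaurentSeries ℂ) ^ m = coeffMap ι (x : LaurentSeries K) :=
    congrArg Subtype.val hwm
  obtain ⟨g₀, hg₀mem, hg₀m, hg₀⟩ :=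
    Fermat.Agent.S30.KummerDescent.exists_root_mem_adjoin ι (coeffEmb K '' S₀) hm hgF hg
  refine ⟨g₀, hg₀mem, hg₀m, ?_⟩
  rw [hg₀, ← hw]
  exact isAvatar_thetaG G M w

end Model

end Fermat.Agent.S48.G1.SurjGen

end
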