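/-
PROGRAM DS (S48) / G1 — THE GENERIC `Root` BRICK (helper162).

Generic twin of `S30/KummerKernel.{dvd_ordZ_sub, exists_isKummerRoot}` and of
`S30/Producer/RootBrick`: NO level, NO concrete function field.

Setting (UNBUNDLED, so that the fields of `Glue1.Model` plug in verbatim): a field `F` over a
field of constants `k`, a ring `A` of good functions with an injective `ιA : A →+* F` such that
every element of `F` is a quotient of good functions, and an injective `θ : A →+* HolH` which is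
"semilinear on constants" (`hconst`).

* `dvd_sub_of_places` : every order function `o` on `A` which is constant on `k`-proportional
  pairs is a multiple of a place of `F / k`; hence `m ∣ div (a / b)` at all places of `F / k`
  implies `m ∣ o a - o b`.
* `dvd_ordZ_sub`      : point form, `m ∣ ord_τ (θ a) - ord_τ (θ b)` for every `τ ∈ ℍ`.
* `exists_root`       : a holomorphic `m`-th root `H` of `θ a * θ b ^ (m - 1)` exists on `ℍ`.
* `root_of_places`    : the brick `K.Root m` of `Glue1.Model`, whenever `K.Div m f` implies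
  divisibility of the divisor of `f` at all places of `F / k`.
-/
import Mathlib
import Fermat.Agent.S48.G1.Glue1
import Fermat.Agent.Lib.HolRootH

set_option autoImplicit false
set_option linter.dupNamespace false

noncomputable section

open scoped MatrixGroups
open AlgebraicCurve UpperHalfPlane
open Fermat.Agent.S24.FibreCount Fermat.Agent.S24.Generic.G3Adapter Fermat.Agent.S24.HolH
open Fermat.Agent.S30 Fermat.Agent.S30.KummerChar Fermat.Agent.Lib

namespace Fermat.Agent.S48.G1.RootGen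

section Abstract

variable {k F A : Type*} [Field k] [Field F] [Algebra k F] [CommRing A]

/-- **Order functions are multiples of places** (unbundled form of
`S30.KummerChar.exists_eq_mul_of_dvd_ord`).  If `o` is an order function on `A`, equal on
pairs `x, y` with `ιA x = c • ιA y` (`c` a constant), and the divisor of `a / b` is divisible by
`m` at every place of `F / k`, then `m ∣ o a - o b`. -/
theorem dvd_sub_of_places (ιA : A →+* F) (hιA : Function.Injective ιA)
    (hfrac : ∀ f : F, ∃ a b : A, b ≠ 0 ∧ f * ιA b = ιA a)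
    (o : A → ℤ)
    (hmul : ∀ x y : A, x ≠ 0 → y ≠ 0 → o (x * y) = o x + o y)
    (hadd : ∀ x y : A, x ≠ 0 → y ≠ 0 → x + y ≠ 0 → min (o x) (o y) ≤ o (x + y))
    (hconst : ∀ (c : k) (x y : A), x ≠ 0 → y ≠ 0 → algebraMap k F c * ιA y = ιA x → o x = o y)
    (m : ℕ) (a b : A) (ha : a ≠ 0) (hb : b ≠ 0)
    (hdiv : ∀ v : Place k F, (m : ℤ) ∣ v.ord (ιA a) - v.ord (ιA b)) :
    (m : ℤ) ∣ o a - o b := by
  letI : Algebra A F := ιA.toAlgebra
  have halg : ∀ x : A, algebraMap A F x = ιA x := fun _ => rfl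
  haveI : IsDomain A := hιA.isDomain ιA
  haveI : FaithfulSMul A F := (faithfulSMul_iff_algebraMap_injective A F).mpr hιA
  have hne : ∀ x : A, x ≠ 0 → ιA x ≠ 0 := fun x hx => (map_ne_zero_iff _ hιA).mpr hx
  haveI : IsFractionRing A F := IsFractionRing.of_field (R := A) (K := F) (fun z => by
    obtain ⟨x, y, hy, e⟩ := hfrac z
    exact ⟨x, y, by rw [halg, halg, eq_div_iff (hne y hy), e]⟩)
  let e : F →+* FractionRing A := ((FractionRing.algEquiv A F).symm : F →+* FractionRing A)
  have he : ∀ x : A, e (ιA x) = algebraMap A (FractionRing A) x := fun x =>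
    (FractionRing.algEquiv A F).symm.commutes x
  let u : F → ℤ := fun f => ordFrac o (e f)
  have hu : IsOrd u := (isOrd_ordFrac hmul hadd).comp e
  have hux : ∀ x : A, x ≠ 0 → u (ιA x) = o x := by
    intro x hx
    show ordFrac o (e (ιA x)) = o x
    rw [he, ordFrac_algebraMap hmul hx]
  have huK : ∀ c : k, c ≠ 0 → u (algebraMap k F c) = 0 := by
    intro c hc
    have hc' : algebraMap k F c ≠ 0 := (map_ne_zero_iff _ (algebraMap k F).injective).mpr hc
    obtain ⟨x, y, hy, e1⟩ := hfrac (algebraMap k F c)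
    have hx : x ≠ 0 := by
      rintro rfl
      rw [map_zero] at e1
      exact mul_ne_zero hc' (hne y hy) e1
    have h1 : algebraMap k F c = ιA x / ιA y := by rw [eq_div_iff (hne y hy), e1]
    rw [h1, hu.map_div (hne x hx) (hne y hy), hux x hx, hux y hy, hconst c x y hx hy e1, sub_self]
  have hab : o a - o b = u (ιA a / ιA b) := by
    rw [hu.map_div (hne a ha) (hne b hb), hux a ha, hux b hb]
  by_cases hnt : ∃ f : F, f ≠ 0 ∧ u f < 0
  · obtain ⟨κ, -, -, hκ⟩ := exists_placeOfOrd_ord u hu huK hnt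
    obtain ⟨s, hs⟩ := hdiv (placeOfOrd u hu huK hnt)
    refine ⟨κ * s, ?_⟩
    rw [hab, hκ _ (div_ne_zero (hne a ha) (hne b hb)),
      (isOrd_place (placeOfOrd u hu huK hnt)).map_div (hne a ha) (hne b hb), hs]
    ring
  · have hnn : ∀ f : F, f ≠ 0 → 0 ≤ u f := by
      intro f hf
      by_contra hlt
      exact hnt ⟨f, hf, not_le.mp hlt⟩
    have hf0 : ιA a / ιA b ≠ 0 := div_ne_zero (hne a ha) (hne b hb)
    have h1 := hnn _ hf0
    have h2 := hnn _ (inv_ne_zero hf0)
    rw [hu.map_inv hf0] at h2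
    have h3 : o a - o b = 0 := by
      rw [hab]
      omega
    rw [h3]
    exact dvd_zero _

/-- Point form of the divisibility of the divisor: `m ∣ ord_τ (θ a) - ord_τ (θ b)`. -/
theorem dvd_ordZ_sub (ιA : A →+* F) (hιA : Function.Injective ιA)
    (hfrac : ∀ f : F, ∃ a b : A, b ≠ 0 ∧ f * ιA b = ιA a)
    (ι : k →+* ℂ) (θ : A →+* HolH) (hθ : Function.Injective θ)
    (hconst : ∀ (c : k) (x y : A), algebraMap k F c * ιA y = ιA x →
      θ x = algebraMap ℂ HolH (ι c) * θ y)
    {m : ℕ} {a b : A} (ha : a ≠ 0) (hb : b ≠ 0)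
    (hdiv : ∀ v : Place k F, (m : ℤ) ∣ v.ord (ιA a) - v.ord (ιA b)) (τ : ℍ) :
    (m : ℤ) ∣ ordZ τ (θ a) - ordZ τ (θ b) := by
  haveI : IsDomain A := hιA.isDomain ιA
  have hθne : ∀ x : A, x ≠ 0 → θ x ≠ 0 := fun x hx => (map_ne_zero_iff _ hθ).mpr hx
  refine dvd_sub_of_places ιA hιA hfrac (fun x => ordZ τ (θ x)) ?_ ?_ ?_ m a b ha hb hdiv
  · intro x y hx hy
    show ordZ τ (θ (x * y)) = _
    rw [map_mul, ordZ_mul τ (hθne x hx) (hθne y hy)]
  · intro x y hx hy hxy
    show _ ≤ ordZ τ (θ (x + y))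
    rw [map_add]
    refine min_le_ordZ_add τ (hθne x hx) (hθne y hy) ?_
    rw [← map_add]
    exact hθne _ hxy
  · intro c x y hx hy e1
    show ordZ τ (θ x) = ordZ τ (θ y)
    have h1 := hconst c x y e1
    have hc : ι c ≠ 0 := by
      intro h0
      rw [h0, map_zero, zero_mul] at h1
      exact hθne x hx h1
    have hc' : algebraMap ℂ HolH (ι c) ≠ 0 :=
      (map_ne_zero_iff _ (algebraMap ℂ HolH).injective).mpr hc
    rw [h1, ordZ_mul τ hc' (hθne y hy), ordZ_algebraMap hc, zero_add]

/-- **Existence of the holomorphic root**: if the divisor of `a / b` is divisible by `m` at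
every place of `F / k`, then `θ a * θ b ^ (m - 1)` has a holomorphic `m`-th root on `ℍ`. -/
theorem exists_root (ιA : A →+* F) (hιA : Function.Injective ιA)
    (hfrac : ∀ f : F, ∃ a b : A, b ≠ 0 ∧ f * ιA b = ιA a)
    (ι : k →+* ℂ) (θ : A →+* HolH) (hθ : Function.Injective θ)
    (hconst : ∀ (c : k) (x y : A), algebraMap k F c * ιA y = ιA x →
      θ x = algebraMap ℂ HolH (ι c) * θ y)
    {m : ℕ} (hm : 0 < m) {a b : A} (ha : a ≠ 0) (hb : b ≠ 0)
    (hdiv : ∀ v : Place k F, (m : ℤ) ∣ v.ord (ιA a) - v.ord (ιA b)) :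
    ∃ H : HolH, H ^ m = θ a * θ b ^ (m - 1) := by
  obtain ⟨H, -, hH, -⟩ := HolRootH.exists_root_frac m hm.ne' (θ a) (θ b)
    ((map_ne_zero_iff _ hθ).mpr ha) ((map_ne_zero_iff _ hθ).mpr hb)
    (dvd_ordZ_sub ιA hιA hfrac ι θ hθ hconst ha hb hdiv)
  exact ⟨H, hH⟩

/-- The hypothesis `hconst` when `A` is a `k`-algebra, `ιA` is `k`-linear and `θ` is
`ι`-semilinear on constants. -/
theorem hconst_of_algebra [Algebra k A] (ιA : A →+* F) (hιA : Function.Injective ιA)
    (hιk : ∀ c : k, ιA (algebraMap k A c) = algebraMap k F c)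
    (ι : k →+* ℂ) (θ : A →+* HolH)
    (hθk : ∀ c : k, θ (algebraMap k A c) = algebraMap ℂ HolH (ι c))
    (c : k) (x y : A) (h : algebraMap k F c * ιA y = ιA x) :
    θ x = algebraMap ℂ HolH (ι c) * θ y := by
  have h1 : x = algebraMap k A c * y := by
    apply hιA
    rw [map_mul, hιk, h]
  rw [h1, map_mul, hθk]

end Abstract

/-! ### The brick `Root` of a model -/

open Fermat.Agent.S48.G1.Glue1

/-- **The brick `K.Root m`** for an analytic model whose divisibility predicate implies
divisibility of the divisor at all places of `F / k`. -/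
theorem root_of_places {Γ : Subgroup SL(2, ℤ)} {F : Type} [Field F] {gal : GQ → F ≃+* F}
    (K : Model Γ F gal) {k : Type*} [Field k] [Algebra k F] (ι : k →+* ℂ)
    (hconst : ∀ (c : k) (x y : K.A0), algebraMap k F c * K.ι y = K.ι x →
      K.θ x = algebraMap ℂ HolH (ι c) * K.θ y)
    (m : ℕ) (hm : 0 < m)
    (hDiv : ∀ f : F, f ≠ 0 → K.Div m f → ∀ v : Place k F, (m : ℤ) ∣ v.ord f) :
    K.Root m := by
  intro f hf hd
  obtain ⟨a, b, ha, hb, e⟩ := K.exists_frac hf
  have hdiv : ∀ v : Place k F, (m : ℤ) ∣ v.ord (K.ι a) - v.ord (K.ι b) := by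
    intro v
    have h1 := v.ord_mul hf (K.iota_ne_zero hb)
    rw [e] at h1
    rw [h1, add_sub_cancel_right]
    exact hDiv f hf hd v
  obtain ⟨H, hH⟩ := exists_root K.ι K.ι_inj K.frac ι K.θ K.θ_inj hconst hm ha hb hdiv
  exact ⟨a, b, H, ha, hb, e, hH⟩

end Fermat.Agent.S48.G1.RootGen
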