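/-
PROGRAM DS (S48) / G1 (helper78): the SEAM between the abstract producer exit
(`G1/ToES1Quot.nonempty_es1Data`) and brick B (`S48/Hecke1`, operators `Ops.Top`, `Ops.Dop`).

* `diamond_neg_one` : `⟨-1⟩ = 1` on `S₂(Γ₁(M))`.
* `nonempty_es1Data_DS` : `Nonempty (ES1Data M p (Ops.Top M) (Ops.Dop M))` from
  - an abstract Kummer pairing `K` over a field `F` with a `G_ℚ`-action,
  - operator pairs `(heckeF ℓ, tau ℓ)`, `(diaF u, dia u)` commuting with the Galois action,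
  - (unr) and (ES with diamond) on Kummer functions,
  - an injective additive period map `P : S₂(Γ₁(M)) → (K.A → ℂ)` with
    `P (T_ℓ f) x = P f (tau ℓ x)`, `P (⟨u⟩ f) x = P f (dia u x)`
    (`T_ℓ = Hecke1.heckeT1`, `⟨u⟩ = Hecke1.diamond`).
  All relations between the operators on `S₂(Γ₁(M))` are supplied here from brick B
  (`heckeT1_comm`, `diamond_heckeT1`, `diamond_mul`, `diamond_one`, `diamond_neg_one`);
  NO relation between `tau`, `dia` on `K.A` is needed.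
* `G1Input M p` : the same hypotheses as ONE structure;
  `producerExitDS_of_input : (∀ M p, Nonempty (G1Input M p)) → Ops.ProducerExitDS`.
-/
import Mathlib
import Fermat.Agent.S48.G1.ToES1Quot
import Fermat.Agent.S48.G1.Ops
import Fermat.Agent.S48.Hecke1.Comm

set_option autoImplicit false

namespace Fermat.Agent.S48.G1.ToES1DS

open CongruenceSubgroup UpperHalfPlane ModularForm
open scoped MatrixGroups ModularForm
open Fermat.Agent.S30 Fermat.Agent.S48.G1.ToES1Quot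

/-- The weight-2 slash action of `-1` is trivial. -/
theorem slash_two_neg_one (f : ℍ → ℂ) : f ∣[(2 : ℤ)] (-1 : SL(2, ℤ)) = f := by
  funext z
  rw [SL_slash_apply]
  have h1 : (-1 : SL(2, ℤ)) • z = z := by simp
  have h2 : denom ((-1 : SL(2, ℤ)) : GL (Fin 2) ℝ) z = -1 := by simp [denom]
  rw [h1, h2]
  norm_num

/-- `⟨-1⟩ = 1` on `S₂(Γ₁(M))`. -/
theorem diamond_neg_one (M : ℕ) [NeZero M] (f : CuspForm (Gamma1 M) 2) :
    Hecke1.diamond M 2 (-1) f = f := by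
  have hmem : (-1 : SL(2, ℤ)) ∈ Gamma0 M := by
    rw [Gamma0_mem]
    simp
  have hd : ((((-1 : SL(2, ℤ)) 1 1 : ℤ)) : ZMod M) = ((-1 : (ZMod M)ˣ) : ZMod M) := by
    simp
  have h := Hecke1.slash_eq_diamond f (-1) hmem hd
  rw [slash_two_neg_one] at h
  exact (DFunLike.coe_injective h).symm

section Main

variable {M p : ℕ} [NeZero M] [hp : Fact p.Prime] {F : Type} [Field F] {gal : GQ → F ≃+* F}

/-- **Producer exit for `S₂(Γ₁(M))` with the operators of brick B**, from an abstract Kummer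
pairing, operator pairs, (unr), (ES) and an injective adjoint period map. -/
theorem nonempty_es1Data_DS (K : KummerPairing p F gal)
    (heckeF : ℕ → F → F) (diaF : (ZMod M)ˣ → F → F)
    (tau : ℕ → K.A →+ K.A) (dia : (ZMod M)ˣ → K.A →+ K.A)
    (hecke : ∀ ℓ, Good M p ℓ → ∀ (n : ℕ) {f : F} {c : K.A →+ ZMod (p ^ n)},
      K.R n f c → K.R n (heckeF ℓ f) (c.comp (tau ℓ)))
    (diam : ∀ (u : (ZMod M)ˣ) (n : ℕ) {f : F} {c : K.A →+ ZMod (p ^ n)},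
      K.R n f c → K.R n (diaF u f) (c.comp (dia u)))
    (hecke_gal : ∀ ℓ, Good M p ℓ → ∀ (σ : GQ) (n : ℕ) {f : F} {c : K.A →+ ZMod (p ^ n)},
      K.R n f c → heckeF ℓ (gal σ f) = gal σ (heckeF ℓ f))
    (dia_gal : ∀ (u : (ZMod M)ˣ) (σ : GQ) (n : ℕ) {f : F} {c : K.A →+ ZMod (p ^ n)},
      K.R n f c → diaF u (gal σ f) = gal σ (diaF u f))
    (unr : ∀ q : ℕ, q.Prime → ¬ q ∣ M → q ≠ p →
      ∀ Pv : ValuationSubring (AlgebraicClosure ℚ), Pv.LiesOverPrime q →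
        ∀ σ ∈ Pv.inertiaSubgroupIn ℚ, ∀ (n : ℕ) {f : F} {c : K.A →+ ZMod (p ^ n)},
          K.R n f c → ∃ g : F, gal σ f = f * g ^ (p ^ n))
    (es : ∀ ℓ : ℕ, Good M p ℓ → ∀ u : (ZMod M)ˣ, (u : ZMod M) = (ℓ : ZMod M) →
      ∀ B : ValuationSubring (AlgebraicClosure ℚ), B.LiesOverPrime ℓ →
        ∀ σ : GQ, B.IsFrobeniusAt σ ℓ → ∀ (n : ℕ) {f : F} {c : K.A →+ ZMod (p ^ n)},
          K.R n f c → ∃ g : F,
            gal σ (gal σ f) * diaF u f ^ ℓ = heckeF ℓ (gal σ f) * g ^ (p ^ n))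
    (P : CuspForm (Gamma1 M) 2 →ₗ[ℂ] (K.A → ℂ))
    (hadd : ∀ f a b, P f (a + b) = P f a + P f b) (hinj : Function.Injective P)
    (P_T : ∀ (ℓ : ℕ) (hℓ : ℓ.Prime) (hM : ¬ ℓ ∣ M), ℓ ≠ p →
      ∀ f x, P (Hecke1.heckeT1 M 2 hℓ hM f) x = P f (tau ℓ x))
    (P_D : ∀ (u : (ZMod M)ˣ) f x, P (Hecke1.diamond M 2 u f) x = P f (dia u x)) :
    Nonempty (ES1Data M p (Ops.Top M) (Ops.Dop M)) := by
  refine nonempty_es1Data (Ops.Top M) (Ops.Dop M) K heckeF diaF tau dia hecke diam hecke_gal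
    dia_gal unr es P hadd hinj ?_ ?_ ?_ ?_ ?_ ?_ ?_
  · intro ℓ hℓ f x
    rw [Ops.Top_apply M hℓ.1 hℓ.2.1]
    exact P_T ℓ hℓ.1 hℓ.2.1 hℓ.2.2 f x
  · intro u f x
    rw [Ops.Dop_apply]
    exact P_D u f x
  · intro ℓ ℓ' hℓ hℓ' f
    rw [Ops.Top_apply M hℓ.1 hℓ.2.1, Ops.Top_apply M hℓ'.1 hℓ'.2.1,
      Ops.Top_apply M hℓ.1 hℓ.2.1, Ops.Top_apply M hℓ'.1 hℓ'.2.1]
    exact Hecke1.heckeT1_comm M 2 hℓ.1 hℓ.2.1 hℓ'.1 hℓ'.2.1 f
  · intro ℓ u hℓ f
    rw [Ops.Top_apply M hℓ.1 hℓ.2.1, Ops.Top_apply M hℓ.1 hℓ.2.1, Ops.Dop_apply, Ops.Dop_apply]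
    exact (Hecke1.diamond_heckeT1 M 2 hℓ.1 hℓ.2.1 u f).symm
  · intro u v f
    rw [Ops.Dop_apply, Ops.Dop_apply, Ops.Dop_apply]
    exact (Hecke1.diamond_mul M 2 u v f).symm
  · intro f
    rw [Ops.Dop_apply]
    exact Hecke1.diamond_one M 2 f
  · intro f
    rw [Ops.Dop_apply]
    exact diamond_neg_one M f

end Main

/-- The inputs of the G1 producer for level `M` and the prime `p`, as one structure. -/
structure G1Input (M p : ℕ) [NeZero M] [Fact p.Prime] where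
  /-- the function field -/
  F : Type
  [instF : Field F]
  /-- the Galois action on the function field -/
  gal : GQ → F ≃+* F
  /-- the Kummer pairing -/
  K : KummerPairing p F gal
  /-- the multiplicative Hecke operators on functions -/
  heckeF : ℕ → F → F
  /-- the diamond automorphisms on functions -/
  diaF : (ZMod M)ˣ → F → F
  /-- the Hecke correspondences on the Betti group -/
  tau : ℕ → K.A →+ K.A
  /-- the diamond maps on the Betti group -/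
  dia : (ZMod M)ˣ → K.A →+ K.A
  hecke : ∀ ℓ, Good M p ℓ → ∀ (n : ℕ) {f : F} {c : K.A →+ ZMod (p ^ n)},
    K.R n f c → K.R n (heckeF ℓ f) (c.comp (tau ℓ))
  diam : ∀ (u : (ZMod M)ˣ) (n : ℕ) {f : F} {c : K.A →+ ZMod (p ^ n)},
    K.R n f c → K.R n (diaF u f) (c.comp (dia u))
  hecke_gal : ∀ ℓ, Good M p ℓ → ∀ (σ : GQ) (n : ℕ) {f : F} {c : K.A →+ ZMod (p ^ n)},
    K.R n f c → heckeF ℓ (gal σ f) = gal σ (heckeF ℓ f)
  dia_gal : ∀ (u : (ZMod M)ˣ) (σ : GQ) (n : ℕ) {f : F} {c : K.A →+ ZMod (p ^ n)},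
    K.R n f c → diaF u (gal σ f) = gal σ (diaF u f)
  unr : ∀ q : ℕ, q.Prime → ¬ q ∣ M → q ≠ p →
    ∀ Pv : ValuationSubring (AlgebraicClosure ℚ), Pv.LiesOverPrime q →
      ∀ σ ∈ Pv.inertiaSubgroupIn ℚ, ∀ (n : ℕ) {f : F} {c : K.A →+ ZMod (p ^ n)},
        K.R n f c → ∃ g : F, gal σ f = f * g ^ (p ^ n)
  es : ∀ ℓ : ℕ, Good M p ℓ → ∀ u : (ZMod M)ˣ, (u : ZMod M) = (ℓ : ZMod M) →
    ∀ B : ValuationSubring (AlgebraicClosure ℚ), B.LiesOverPrime ℓ →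
      ∀ σ : GQ, B.IsFrobeniusAt σ ℓ → ∀ (n : ℕ) {f : F} {c : K.A →+ ZMod (p ^ n)},
        K.R n f c → ∃ g : F,
          gal σ (gal σ f) * diaF u f ^ ℓ = heckeF ℓ (gal σ f) * g ^ (p ^ n)
  /-- the period map -/
  P : CuspForm (Gamma1 M) 2 →ₗ[ℂ] (K.A → ℂ)
  P_add : ∀ f a b, P f (a + b) = P f a + P f b
  P_inj : Function.Injective P
  P_T : ∀ (ℓ : ℕ) (hℓ : ℓ.Prime) (hM : ¬ ℓ ∣ M), ℓ ≠ p →
    ∀ f x, P (Hecke1.heckeT1 M 2 hℓ hM f) x = P f (tau ℓ x)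
  P_D : ∀ (u : (ZMod M)ˣ) f x, P (Hecke1.diamond M 2 u f) x = P f (dia u x)

attribute [instance] G1Input.instF

theorem G1Input.nonempty_es1Data {M p : ℕ} [NeZero M] [Fact p.Prime] (I : G1Input M p) :
    Nonempty (ES1Data M p (Ops.Top M) (Ops.Dop M)) :=
  nonempty_es1Data_DS I.K I.heckeF I.diaF I.tau I.dia I.hecke I.diam I.hecke_gal I.dia_gal
    I.unr I.es I.P I.P_add I.P_inj I.P_T I.P_D

/-- **The G1 producer exit from the input structures.** -/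
theorem producerExitDS_of_input
    (h : ∀ (M p : ℕ) [NeZero M] [Fact p.Prime], Nonempty (G1Input M p)) :
    Ops.ProducerExitDS := by
  intro M p _ _
  obtain ⟨I⟩ := h M p
  exact I.nonempty_es1Data

end Fermat.Agent.S48.G1.ToES1DS
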