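import Mathlib
import Fermat.Agent.S30.Model.Main
import Fermat.Agent.S30.Model.ChartProv
import Fermat.Agent.S34.DiscTower

set_option autoImplicit false

open Polynomial IntermediateField

namespace Fermat.Agent.S48.G1.TowerUnram

open Fermat.Agent.S30 Fermat.Agent.S30.Model

section Core

attribute [local instance] FractionRing.liftAlgebra FractionRing.isScalarTower_liftAlgebra

variable {A B : Type*} [CommRing A] [IsDomain A] [IsIntegrallyClosed A]
  [CommRing B] [IsDomain B] [IsIntegrallyClosed B] [Algebra A B] [Module.Finite A B]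
  [Module.IsTorsionFree A B]

/-- The integral norm of a constant. -/
theorem intNorm_algebraMap_eq_pow (a : A) :
    Algebra.intNorm A B (algebraMap A B a) =
      a ^ Module.finrank (FractionRing A) (FractionRing B) := by
  apply IsFractionRing.injective A (FractionRing A)
  rw [Algebra.algebraMap_intNorm_fractionRing, map_pow,
    ← IsScalarTower.algebraMap_apply A B (FractionRing B),
    IsScalarTower.algebraMap_apply A (FractionRing A) (FractionRing B), Algebra.norm_algebraMap]

/-- **Descent.** `A ⊆ B` integrally closed domains, `B` finite over `A`, `π` prime in `A` AND in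
`B`, `A` `π`-adically separated.  If `π ∤ x` in `B` then `π ∤ N_{B/A}(x)` in `A`. -/
theorem not_dvd_intNorm {π : A} (hπ : Prime π)
    (hsep : ∀ a : A, a ≠ 0 → ∃ n : ℕ, ¬ π ^ n ∣ a)
    (hπB : Prime (algebraMap A B π)) (x : B) (hx : ¬ algebraMap A B π ∣ x) :
    ¬ π ∣ Algebra.intNorm A B x := by
  intro hdvd
  have hx0 : x ≠ 0 := fun h => hx (h ▸ dvd_zero _)
  have hfd : FiniteDimensional (FractionRing A) (FractionRing B) :=
    Module.Finite.of_isLocalization A B (nonZeroDivisors A)
  have hN0 : Algebra.intNorm A B x ≠ 0 := Algebra.intNorm_ne_zero.mpr hx0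
  obtain ⟨y, hy⟩ := Algebra.dvd_algebraMap_intNorm_self A B x
  obtain ⟨N, hN⟩ : ∃ N : A, N = Algebra.intNorm A B x := ⟨_, rfl⟩
  rw [← hN] at hdvd hN0 hy
  obtain ⟨n, hn⟩ : ∃ n : ℕ, n = Module.finrank (FractionRing A) (FractionRing B) := ⟨_, rfl⟩
  have hnpos : 0 < n := by rw [hn]; exact Module.finrank_pos
  -- the induction
  have key : ∀ k : ℕ, 1 ≤ k → π ^ k ∣ N → π ^ (k + 1) ∣ N := by
    intro k hk ⟨c, hc⟩
    have hc0 : c ≠ 0 := by
      rintro rfl
      exact hN0 (by rw [hc, mul_zero])
    -- `π ^ k ∣ y` in `B`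
    have h1 : algebraMap A B π ^ k ∣ x * y := by
      rw [← hy, hc, map_mul, map_pow]
      exact dvd_mul_right _ _
    obtain ⟨e, he⟩ := hπB.pow_dvd_of_dvd_mul_left k hx h1
    -- `x * e = c`
    have h2 : x * e = algebraMap A B c := by
      have h3 : algebraMap A B π ^ k * (x * e) = algebraMap A B π ^ k * algebraMap A B c := by
        have h3' : algebraMap A B π ^ k * algebraMap A B c = x * y := by
          rw [← hy, hc, map_mul, map_pow]
        rw [h3', he]
        ring
      exact mul_left_cancel₀ (pow_ne_zero _ hπB.ne_zero) h3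
    -- norms
    have h4 : N * Algebra.intNorm A B e = c ^ n := by
      rw [hN, ← map_mul, h2, intNorm_algebraMap_eq_pow, hn]
    have h5 : π ^ k * Algebra.intNorm A B e = c ^ (n - 1) := by
      have h6 : c * (π ^ k * Algebra.intNorm A B e) = c * c ^ (n - 1) := by
        rw [← pow_succ', Nat.sub_add_cancel hnpos, ← h4, hc]
        ring
      exact mul_left_cancel₀ hc0 h6
    have h7 : π ∣ c ^ (n - 1) := by
      rw [← h5]
      exact Dvd.dvd.mul_right (dvd_pow_self π (by omega)) _
    have h8 : π ∣ c := hπ.dvd_of_dvd_pow h7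
    obtain ⟨c', rfl⟩ := h8
    exact ⟨c', by rw [hc, pow_succ]; ring⟩
  have hall : ∀ k : ℕ, π ^ (k + 1) ∣ N := by
    intro k
    induction k with
    | zero => simpa using hdvd
    | succ k ih => exact key (k + 1) (by omega) ih
  obtain ⟨k, hk⟩ := hsep N hN0
  rcases k with _ | k
  · exact hk (by simp)
  · exact hk (hall k)

end Core

section Norm

variable {E F : Type*} [Field E] [CharZero E] [Field F] [Algebra E F]
  {O : Type*} [CommRing O] [IsDomain O] [IsDiscreteValuationRing O] [Algebra O E]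
  [IsFractionRing O E] [Algebra O F] [IsScalarTower O E F]

/-- **Norm descent on the chart.**  If `π` is prime in the integral closure of `O[t]` in `F`
and `x` is integral over `O[t]` and not divisible by `π` there, then `N_{F/E(t)}(x)` lies in
`O[t]` and is not divisible by `π` in `O[t]`. -/
theorem exists_norm_mem_not_dvd (π : O) (hπ : Irreducible π) (t : F) (ht : Transcendental E t)
    [FiniteDimensional E⟮t⟯ F]
    (hprime : Prime (algebraMap (Algebra.adjoin O {t}) (integralClosure (Algebra.adjoin O {t}) F)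
      (algebraMap O (Algebra.adjoin O {t}) π)))
    (x : F) (hx : IsIntegral (Algebra.adjoin O {t}) x)
    (hxπ : ∀ z : F, IsIntegral (Algebra.adjoin O {t}) z → x ≠ algebraMap O F π * z) :
    ∃ N : Algebra.adjoin O {t}, ((Algebra.norm E⟮t⟯ x : E⟮t⟯) : F) = (N : F) ∧
      ¬ algebraMap O (Algebra.adjoin O {t}) π ∣ N := by
  have htO : Transcendental O t := ChartProv.transcendental_base t ht
  have hwK : t ∈ E⟮t⟯ := IntermediateField.mem_adjoin_simple_self E t
  let _ := (ChartInst.incl O t E⟮t⟯ hwK).toAlgebra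
  have := ChartInst.isScalarTower_incl O t E⟮t⟯ hwK
  have := ChartInst.isFractionRing_incl O t E⟮t⟯ hwK le_rfl
  have := ChartInst.isIntegrallyClosed_adjoin O t htO
  have := ChartInst.isNoetherianRing_adjoin O t htO
  have := ChartInst.uniqueFactorizationMonoid_adjoin O t htO
  have : Module.Finite (Algebra.adjoin O {t}) (integralClosure (Algebra.adjoin O {t}) F) :=
    ChartProv.chart_finite t ht
  have : IsIntegrallyClosed (integralClosure (Algebra.adjoin O {t}) F) :=
    integralClosure.isIntegrallyClosedOfFiniteExtension E⟮t⟯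
  have hπA : Prime (algebraMap O (Algebra.adjoin O {t}) π) :=
    ChartInst.prime_algebraMap_adjoin O t htO hπ.prime
  have hsep : ∀ a : Algebra.adjoin O {t}, a ≠ 0 →
      ∃ n : ℕ, ¬ algebraMap O (Algebra.adjoin O {t}) π ^ n ∣ a := by
    intro a ha
    obtain ⟨n, hn⟩ := FiniteMultiplicity.of_not_isUnit hπA.not_isUnit ha
    exact ⟨n + 1, hn⟩
  have hxB : ¬ algebraMap (Algebra.adjoin O {t}) (integralClosure (Algebra.adjoin O {t}) F)
      (algebraMap O (Algebra.adjoin O {t}) π) ∣ (⟨x, hx⟩ : integralClosure (Algebra.adjoin O {t}) F) := by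
    rintro ⟨y, hy⟩
    refine hxπ (y : F) y.2 ?_
    have := congrArg (fun z : integralClosure (Algebra.adjoin O {t}) F => (z : F)) hy
    exact this
  have h1 := not_dvd_intNorm hπA hsep hprime _ hxB
  refine ⟨_, ?_, h1⟩
  have h2 := Algebra.algebraMap_intNorm (A := Algebra.adjoin O {t}) (K := E⟮t⟯) (L := F)
    (B := integralClosure (Algebra.adjoin O {t}) F) ⟨x, hx⟩
  have h3 := congrArg (fun z : E⟮t⟯ => (z : F)) h2
  exact h3.symm

end Norm

section Tower

open Module

variable {E F L : Type*} [Field E] [CharZero E] [Field F] [Field L] [Algebra E F] [Algebra E L]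
  {O : Type*} [CommRing O] [IsDomain O] [IsDiscreteValuationRing O] [Algebra O E]
  [IsFractionRing O E] [Algebra O F] [IsScalarTower O E F] [Algebra O L] [IsScalarTower O E L]

omit [CharZero E] [IsDomain O] [IsDiscreteValuationRing O] [IsFractionRing O E] in
/-- `φ` commutes with the structure maps of `O`. -/
theorem algHom_algebraMap_base (φ : F →ₐ[E] L) (a : O) :
    φ (algebraMap O F a) = algebraMap O L a := by
  rw [IsScalarTower.algebraMap_apply O E F, φ.commutes, ← IsScalarTower.algebraMap_apply]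

omit [CharZero E] [IsDomain O] [IsDiscreteValuationRing O] [IsFractionRing O E] in
/-- `φ` maps `O[t]` into `O[φ t]`. -/
theorem map_mem_adjoin (φ : F →ₐ[E] L) (t : F) {a : F} (ha : a ∈ Algebra.adjoin O {t}) :
    φ a ∈ Algebra.adjoin O {φ t} := by
  rw [Algebra.adjoin_singleton_eq_range_aeval] at ha ⊢
  obtain ⟨P, rfl⟩ := ha
  exact ⟨P, aeval_algHom_apply (φ.restrictScalars O) t P⟩

omit [CharZero E] [IsDomain O] [IsDiscreteValuationRing O] [IsFractionRing O E] in
/-- Every element of `O[φ t]` is the image of an element of `O[t]`. -/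
theorem exists_map_eq_of_mem_adjoin (φ : F →ₐ[E] L) (t : F) {y : L}
    (hy : y ∈ Algebra.adjoin O {φ t}) : ∃ a ∈ Algebra.adjoin O {t}, φ a = y := by
  rw [Algebra.adjoin_singleton_eq_range_aeval] at hy
  obtain ⟨P, rfl⟩ := hy
  refine ⟨aeval t P, ?_, (aeval_algHom_apply (φ.restrictScalars O) t P).symm⟩
  rw [Algebra.adjoin_singleton_eq_range_aeval]
  exact ⟨P, rfl⟩

/-- The ring homomorphism `O[t] → O[φ t]` induced by `φ`. -/
def adjoinMap (φ : F →ₐ[E] L) (t : F) :
    Algebra.adjoin O {t} →+* Algebra.adjoin O {φ t} where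
  toFun a := ⟨φ a, map_mem_adjoin φ t a.2⟩
  map_one' := Subtype.ext (map_one φ)
  map_mul' a b := Subtype.ext (map_mul φ (a : F) (b : F))
  map_zero' := Subtype.ext (map_zero φ)
  map_add' a b := Subtype.ext (map_add φ (a : F) (b : F))

omit [CharZero E] [IsDomain O] [IsDiscreteValuationRing O] [IsFractionRing O E] in
theorem adjoinMap_surjective (φ : F →ₐ[E] L) (t : F) :
    Function.Surjective (adjoinMap (O := O) φ t) := by
  rintro ⟨y, hy⟩
  obtain ⟨a, ha, rfl⟩ := exists_map_eq_of_mem_adjoin φ t hy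
  exact ⟨⟨a, ha⟩, rfl⟩

omit [CharZero E] [IsDomain O] [IsDiscreteValuationRing O] [IsFractionRing O E] in
/-- Integrality over `O[t]` is carried by `φ` to integrality over `O[φ t]`. -/
theorem isIntegral_map (φ : F →ₐ[E] L) (t : F) {x : F}
    (hx : IsIntegral (Algebra.adjoin O {t}) x) : IsIntegral (Algebra.adjoin O {φ t}) (φ x) := by
  obtain ⟨P, hP, hPx⟩ := hx
  refine ⟨P.map (adjoinMap φ t), hP.map _, ?_⟩
  rw [eval₂_map]
  have h1 := Polynomial.hom_eval₂ P (algebraMap (Algebra.adjoin O {t}) F) (φ : F →+* L) x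
  rw [hPx, map_zero] at h1
  exact h1.symm

omit [CharZero E] [IsDomain O] [IsDiscreteValuationRing O] [IsFractionRing O E] in
/-- Integrality over `O[φ t]` lifts to integrality over `O[t]` acting through `φ`. -/
theorem isIntegralElem_of_isIntegral (φ : F →ₐ[E] L) (t : F) {y : L}
    (hy : IsIntegral (Algebra.adjoin O {φ t}) y) :
    ((φ : F →+* L).comp (algebraMap (Algebra.adjoin O {t}) F)).IsIntegralElem y := by
  obtain ⟨P, hP, hPy⟩ := hy
  obtain ⟨Q, hQ, -, hQm⟩ := Polynomial.lifts_and_degree_eq_and_monic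
    (Polynomial.mem_lifts_of_surjective (adjoinMap_surjective (O := O) φ t) P) hP
  refine ⟨Q, hQm, ?_⟩
  rw [← hQ, eval₂_map] at hPy
  exact hPy

/-- **Tower lemma for `GaussUnram`.**  `φ : F → L` an `E`-embedding of function fields,
`F / E(t)` unramified at the Gauss valuation (`hi`) with `π` prime in the integral closure of
`O[t]` in `F` (`hprime`), and `L / φ(F)` having an `F`-basis `c` of elements integral over
`O[φ t]` whose discriminant `d₂ ∈ F` is not divisible by `π` in the integral closure.  Then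
`L / E(φ t)` is unramified at the Gauss valuation. -/
theorem gaussUnram_of_tower (φ : F →ₐ[E] L) (π : O) (hπ : Irreducible π) (t : F)
    (ht : Transcendental E t) [FiniteDimensional E⟮t⟯ F]
    (hi : Model.GaussUnram (E := E) π t)
    (hprime : Prime (algebraMap (Algebra.adjoin O {t}) (integralClosure (Algebra.adjoin O {t}) F)
      (algebraMap O (Algebra.adjoin O {t}) π)))
    {m : ℕ} (c : Fin m → L)
    (hli : letI := φ.toRingHom.toAlgebra; LinearIndependent F c)
    (hsp : letI := φ.toRingHom.toAlgebra; ⊤ ≤ Submodule.span F (Set.range c))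
    (hcint : ∀ k, IsIntegral (Algebra.adjoin O {φ t}) (c k))
    (d₂ : F) (hd₂ : letI := φ.toRingHom.toAlgebra; (Algebra.traceMatrix F c).det = d₂)
    (hd₂π : ∀ z : F, IsIntegral (Algebra.adjoin O {t}) z → d₂ ≠ algebraMap O F π * z) :
    Model.GaussUnram (E := E) π (φ t) := by
  classical
  let _ : Algebra F L := φ.toRingHom.toAlgebra
  have hφ : ∀ x : F, algebraMap F L x = φ x := fun _ => rfl
  have htO : Transcendental O t := ChartProv.transcendental_base t ht
  have hπA : Prime (algebraMap O (Algebra.adjoin O {t}) π) :=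
    ChartInst.prime_algebraMap_adjoin O t htO hπ.prime
  obtain ⟨b, hbint, d₁, hd₁mem, hd₁, hd₁π⟩ := hi
  -- `b` is a basis of `F / E(t)`
  have hd₁0 : d₁ ≠ 0 := fun h => hd₁π 0 (zero_mem _) (by rw [h, mul_zero])
  have hbli : LinearIndependent E⟮t⟯ b := by
    by_contra hcon
    have h0 := Algebra.discr_zero_of_not_linearIndependent E⟮t⟯ hcon
    rw [Algebra.discr_def] at h0
    rw [h0] at hd₁
    exact hd₁0 hd₁.symm
  let bB : Basis (Fin (finrank E⟮t⟯ F)) E⟮t⟯ F :=
    basisOfLinearIndependentOfCardEqFinrank' b hbli (by simp)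
  have hbB : ⇑bB = b := coe_basisOfLinearIndependentOfCardEqFinrank' _ _ _
  -- `c` is a basis of `L / F`
  let cB : Basis (Fin m) F L := Basis.mk hli hsp
  have hcB : ⇑cB = c := Basis.coe_mk hli hsp
  have hfin : FiniteDimensional F L := Module.Finite.of_basis cB
  -- the product basis
  let BB : Basis (Fin (finrank E⟮t⟯ F) × Fin m) E⟮t⟯ L := bB.smulTower cB
  have hBB : ∀ ij, BB ij = φ (b ij.1) * c ij.2 := by
    intro ij
    rw [Basis.smulTower_apply, hbB, hcB, Algebra.smul_def]
    rfl
  have hdisc : Algebra.discr E⟮t⟯ BB =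
      Algebra.discr E⟮t⟯ bB ^ Fintype.card (Fin m) * Algebra.norm E⟮t⟯ (Algebra.discr F cB) :=
    S34.DiscTower.discr_smulTower bB cB
  -- the relative discriminant is integral
  have hd₂int : IsIntegral (Algebra.adjoin O {t}) d₂ := by
    rw [← hd₂]
    refine IsIntegral.det fun k l => ?_
    rw [Algebra.traceMatrix_apply, Algebra.traceForm_apply]
    refine Algebra.isIntegral_trace ?_
    exact IsIntegral.mul (isIntegralElem_of_isIntegral φ t (hcint k))
      (isIntegralElem_of_isIntegral φ t (hcint l))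
  obtain ⟨N, hN, hNπ⟩ := exists_norm_mem_not_dvd π hπ t ht hprime d₂ hd₂int hd₂π
  -- the identification `E(t) ≃ E(φ t)`
  have hmap : (E⟮t⟯).map φ = E⟮φ t⟯ := by
    rw [IntermediateField.adjoin_map, Set.image_singleton]
  let e : E⟮t⟯ ≃+* E⟮φ t⟯ :=
    (((E⟮t⟯).equivMap φ).trans (IntermediateField.equivOfEq hmap)).toRingEquiv
  have he : ∀ x : E⟮t⟯, ((e x : E⟮φ t⟯) : L) = φ (x : F) := fun x => rfl
  have hcomp : (algebraMap E⟮φ t⟯ L).comp (e : E⟮t⟯ →+* E⟮φ t⟯) = algebraMap E⟮t⟯ L :=
    RingHom.ext fun x => rfl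
  have hrank : finrank E⟮φ t⟯ L = finrank E⟮t⟯ F * m := by
    have h1 : finrank E⟮t⟯ L = finrank E⟮φ t⟯ L :=
      Algebra.finrank_eq_of_equiv_equiv e (RingEquiv.refl L) (RingHom.ext fun x => rfl)
    rw [← h1, Module.finrank_eq_card_basis BB, Fintype.card_prod, Fintype.card_fin,
      Fintype.card_fin]
  let eqv : Fin (finrank E⟮φ t⟯ L) ≃ Fin (finrank E⟮t⟯ F) × Fin m :=
    Fintype.equivOfCardEq (by
      rw [Fintype.card_fin, Fintype.card_prod, Fintype.card_fin, Fintype.card_fin, hrank])
  -- the trace matrix over `E(φ t)`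
  have htm : Algebra.traceMatrix E⟮φ t⟯ (fun i => BB (eqv i)) =
      ((Algebra.traceMatrix E⟮t⟯ BB).map e).submatrix eqv eqv := by
    refine Matrix.ext fun i j => ?_
    rw [Matrix.submatrix_apply, Matrix.map_apply, Algebra.traceMatrix_apply,
      Algebra.traceMatrix_apply, Algebra.traceForm_apply, Algebra.traceForm_apply]
    exact (Algebra.trace_eq_of_ringEquiv e hcomp _).symm
  have hdet : (Algebra.traceMatrix E⟮φ t⟯ (fun i => BB (eqv i))).det =
      e (Algebra.discr E⟮t⟯ BB) := by
    rw [htm, Matrix.det_submatrix_equiv_self, Algebra.discr_def]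
    exact (RingHom.map_det (e : E⟮t⟯ →+* E⟮φ t⟯) _).symm
  have hval : ((Algebra.discr E⟮t⟯ BB : E⟮t⟯) : F) = d₁ ^ m * (N : F) := by
    rw [hdisc, Fintype.card_fin, Algebra.discr_def, Algebra.discr_def, hbB, hcB, hd₂]
    push_cast
    rw [hd₁, hN]
  refine ⟨fun i => BB (eqv i), fun i => ?_, φ (d₁ ^ m * (N : F)), ?_, ?_, ?_⟩
  · change IsIntegral _ (BB (eqv i))
    rw [hBB]
    exact IsIntegral.mul (isIntegral_map φ t (hbint _)) (hcint _)
  · exact map_mem_adjoin φ t (mul_mem (pow_mem hd₁mem m) N.2)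
  · rw [hdet, he, hval]
  · intro y hy heq
    obtain ⟨a, ha, rfl⟩ := exists_map_eq_of_mem_adjoin φ t hy
    rw [← algHom_algebraMap_base φ, ← map_mul] at heq
    have h1 : d₁ ^ m * (N : F) = algebraMap O F π * a := φ.toRingHom.injective heq
    have h2 : (⟨d₁, hd₁mem⟩ : Algebra.adjoin O {t}) ^ m * N =
        algebraMap O (Algebra.adjoin O {t}) π * ⟨a, ha⟩ := Subtype.ext h1
    have h3 : algebraMap O (Algebra.adjoin O {t}) π ∣
        (⟨d₁, hd₁mem⟩ : Algebra.adjoin O {t}) ^ m * N := ⟨_, h2⟩
    rcases hπA.dvd_or_dvd h3 with h4 | h4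
    · obtain ⟨w, hw⟩ := hπA.dvd_of_dvd_pow h4
      exact hd₁π (w : F) w.2 (congrArg (fun z : Algebra.adjoin O {t} => (z : F)) hw)
    · exact hNπ h4

end Tower

end Fermat.Agent.S48.G1.TowerUnram
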