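import Mathlib
import Fermat.Agent.S30.Model.Main
import Fermat.Agent.S30.Model.ChartInst
import Fermat.Agent.S30.Model.UnramTSD

/-!
# S48 / G1, area K (helper151): the TOWER LEMMA for `Model.GaussUnram`

Level-free commutative algebra, no `q`-series.  Intended use: hypothesis (i) of the Model theorem
for the function field `F1(M)E` of `Γ1(M)` over `E(j)`, through the tower
`E(j) ⊆ F0(M)E ⊆ F1(M)E`: the lower layer is the landed `E2.G` + `Model.main_a` for `Γ0(M)`, the
upper layer is a family (e.g. the powers of a partial Eisenstein generator) whose RELATIVE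
discriminant (e.g. the squared Vandermonde of its diamond-conjugates) is a unit at `π` — which
only needs the `q`-expansion at the ONE cusp `∞`.

* `det_smul_eq_sum`, `dvd_det_mul_of_sum_eq_smul` : Cramer's rule for the trace form of a basis
  whose trace matrix is defined over an integrally closed domain.
* `exists_det_not_dvd` : the tower lemma in abstract form (`A` integrally closed, `K = Frac A`,
  `K ⊆ L0 ⊆ L`, `π ∈ A` prime and still prime in the integral closure of `A` in `L0`): if the
  lower family has discriminant prime to `π` and the relative discriminant of the upper family is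
  not divisible by `π` in the integral closure of `A` in `L0`, then the product family has
  discriminant in `A` prime to `π`.  Proof: a kernel vector of the trace matrix modulo `π`,
  Cramer on both layers, primality of `π` downstairs (no block determinants, no valuations).
* `gaussUnram_tower_core`, `gaussUnram_tower`, `gaussUnram_tower_at` : the same in the vocabulary
  of `Model/Main.lean` (`Model.GaussUnram`, `Model.IsIntegralAt`), for `[Algebra L0 L]`,
  `u = algebraMap L0 L u0`; the hypothesis `hprime` is verbatim the conclusion of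
  `Model.Assembly.main_a` for `(L0, u0)`.
-/

set_option autoImplicit false

namespace Fermat.Agent.S48.G1.UnramTower

open Matrix

section Cramer

variable {A K L : Type*} [CommRing A] [Field K] [Field L] [Algebra A K]
  [Algebra K L] [Algebra A L] [IsScalarTower A K L]
  {ι : Type*} [Fintype ι] [DecidableEq ι]

/-- **Cramer's rule for the trace form.**  `B` a `K`-basis of `L` whose trace matrix is the image
of the matrix `M` over `A`; if the traces `Tr (x * B k)` are the images of `r k ∈ A`, then
`det M • x = ∑ i, (∑ k, r k * adj(M) k i) • B i`. -/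
theorem det_smul_eq_sum (B : Module.Basis ι K L) (M : Matrix ι ι A)
    (hM : M.map (algebraMap A K) = Algebra.traceMatrix K B) (x : L) (r : ι → A)
    (hr : ∀ k, Algebra.trace K L (x * B k) = algebraMap A K (r k)) :
    M.det • x = ∑ i, (∑ k, r k * M.adjugate k i) • B i := by
  classical
  have hxsum : x = ∑ i, B.equivFun x i • B i := (B.sum_equivFun x).symm
  have hcT : B.equivFun x ᵥ* Algebra.traceMatrix K B = fun k => algebraMap A K (r k) := by
    funext k
    rw [← hr k]
    conv_rhs => rw [hxsum]
    rw [Finset.sum_mul, map_sum]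
    simp only [Matrix.vecMul, dotProduct, Algebra.traceMatrix_apply, Algebra.traceForm_apply]
    apply Finset.sum_congr rfl
    intro i _
    rw [smul_mul_assoc, map_smul, smul_eq_mul]
  have hcramer : ∀ i, algebraMap A K M.det * B.equivFun x i =
      algebraMap A K (∑ k, r k * M.adjugate k i) := by
    intro i
    have h1 : (fun k => algebraMap A K (r k)) ᵥ* (Algebra.traceMatrix K B).adjugate =
        (Algebra.traceMatrix K B).det • B.equivFun x := by
      rw [← hcT, Matrix.vecMul_vecMul, Matrix.mul_adjugate, Matrix.vecMul_smul,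
        Matrix.vecMul_one]
    have h2 := congrFun h1 i
    rw [Pi.smul_apply, smul_eq_mul, ← hM, ← RingHom.mapMatrix_apply, ← RingHom.map_det,
      ← RingHom.map_adjugate] at h2
    rw [← h2]
    simp only [Matrix.vecMul, dotProduct, RingHom.mapMatrix_apply, Matrix.map_apply]
    rw [map_sum]
    apply Finset.sum_congr rfl
    intro k _
    rw [map_mul]
  conv_lhs => rw [hxsum]
  rw [Finset.smul_sum]
  apply Finset.sum_congr rfl
  intro i _
  rw [← IsScalarTower.algebraMap_smul K M.det (B.equivFun x i • B i), smul_smul, hcramer i,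
    IsScalarTower.algebraMap_smul]

/-- If `∑ i, v i • B i = π • t` with `t` integral, then `π ∣ det M * v i` for all `i`. -/
theorem dvd_det_mul_of_sum_eq_smul [IsDomain A] [IsIntegrallyClosed A] [IsFractionRing A K]
    [FiniteDimensional K L] (B : Module.Basis ι K L) (M : Matrix ι ι A)
    (hM : M.map (algebraMap A K) = Algebra.traceMatrix K B) (hB : ∀ i, IsIntegral A (B i))
    (π : A) (v : ι → A) (t : L) (ht : IsIntegral A t) (h : ∑ i, v i • B i = π • t) (i : ι) :
    π ∣ M.det * v i := by
  classical
  have hs : ∀ k, ∃ s : A, algebraMap A K s = Algebra.trace K L (t * B k) := fun k =>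
    IsIntegrallyClosed.isIntegral_iff.1 (Algebra.isIntegral_trace (ht.mul (hB k)))
  choose s hs using hs
  have h1 := det_smul_eq_sum B M hM t s (fun k => (hs k).symm)
  have h2 : ∑ i, (algebraMap A K (M.det * v i)) • B i =
      ∑ i, (algebraMap A K (π * ∑ k, s k * M.adjugate k i)) • B i := by
    calc ∑ i, (algebraMap A K (M.det * v i)) • B i = M.det • ∑ i, v i • B i := by
          rw [Finset.smul_sum]
          apply Finset.sum_congr rfl
          intro i _
          rw [IsScalarTower.algebraMap_smul, mul_smul]
      _ = π • (M.det • t) := by rw [h, smul_comm]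
      _ = _ := by
          rw [h1, Finset.smul_sum]
          apply Finset.sum_congr rfl
          intro i _
          rw [IsScalarTower.algebraMap_smul, mul_smul]
  have h3 : (fun i => algebraMap A K (M.det * v i)) =
      fun i => algebraMap A K (π * ∑ k, s k * M.adjugate k i) := by
    apply B.equivFun.symm.injective
    rw [Module.Basis.equivFun_symm_apply, Module.Basis.equivFun_symm_apply]
    exact h2
  have h4 := IsFractionRing.injective A K (congrFun h3 i)
  exact ⟨_, h4⟩

end Cramer

section Tower

variable {A K L0 L : Type*} [CommRing A] [IsDomain A] [IsIntegrallyClosed A]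
  [Field K] [Field L0] [Field L] [Algebra A K] [IsFractionRing A K]
  [Algebra K L0] [Algebra L0 L] [Algebra K L] [IsScalarTower K L0 L]
  [Algebra A L0] [IsScalarTower A K L0] [Algebra A L] [IsScalarTower A L0 L]
  [FiniteDimensional K L0] [FiniteDimensional L0 L]
  {ι κ : Type*} [Fintype ι] [DecidableEq ι] [Fintype κ] [DecidableEq κ]

/-- **The tower lemma, abstract form.**  `A` an integrally closed domain, `K = Frac A`,
`K ⊆ L0 ⊆ L` finite, `π` a prime element of `A` which stays prime in the integral closure of `A`
in `L0`.  Lower layer: `b`, a family of `[L0 : K]` integral elements whose trace discriminant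
`d0 ∈ A` is not divisible by `π`.  Upper layer: `c`, a family of integral elements of `L` whose
relative trace discriminant `det (Tr_{L/L0} (c j * c j'))` is not divisible by `π` in the integral
closure of `A` in `L0`.  Then the trace discriminant over `K` of the product family `b i * c j`
is an element of `A` not divisible by `π`. -/
theorem exists_det_not_dvd {π : A} (hπ : Prime π)
    (hπ0 : Prime (algebraMap A (integralClosure A L0) π))
    (b : ι → L0) (hb : ∀ i, IsIntegral A (b i)) (hcard : Fintype.card ι = Module.finrank K L0)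
    (d0 : A) (hd0 : (Algebra.traceMatrix K b).det = algebraMap A K d0) (hπd0 : ¬ π ∣ d0)
    (c : κ → L) (hc : ∀ j, IsIntegral A (c j))
    (hδ : ∀ z : L0, IsIntegral A z →
      (Algebra.traceMatrix L0 c).det ≠ algebraMap A L0 π * z) :
    ∃ d : A, (Algebra.traceMatrix K
        (fun p : ι × κ => algebraMap L0 L (b p.1) * c p.2)).det = algebraMap A K d ∧
      ¬ π ∣ d := by
  classical
  have : IsScalarTower A K L := IsScalarTower.of_algebraMap_eq (fun a => by
    rw [IsScalarTower.algebraMap_apply A L0 L, IsScalarTower.algebraMap_apply A K L0,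
      ← IsScalarTower.algebraMap_apply K L0 L])
  have : FiniteDimensional K L := Module.Finite.trans L0 L
  have hinj : Function.Injective (algebraMap A K) := IsFractionRing.injective A K
  -- the lower basis
  have hd0ne : d0 ≠ 0 := fun h0 => hπd0 (h0 ▸ dvd_zero π)
  have hdet0 : (Algebra.traceMatrix K b).det ≠ 0 := by
    rw [hd0]; exact (map_ne_zero_iff _ hinj).2 hd0ne
  have hli : LinearIndependent K b := by
    by_contra hli
    exact hdet0 (Algebra.discr_zero_of_not_linearIndependent K hli)
  let B0 : Module.Basis ι K L0 := basisOfLinearIndependentOfCardEqFinrank' b hli hcard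
  have hB0 : ⇑B0 = b := coe_basisOfLinearIndependentOfCardEqFinrank' b hli hcard
  have hT0 : ∀ i j, ∃ t : A, algebraMap A K t = Algebra.traceMatrix K b i j := fun i j => by
    rw [Algebra.traceMatrix_apply, Algebra.traceForm_apply]
    exact IsIntegrallyClosed.isIntegral_iff.1 (Algebra.isIntegral_trace ((hb i).mul (hb j)))
  choose t0 ht0 using hT0
  let M0 : Matrix ι ι A := Matrix.of t0
  have hM0 : M0.map (algebraMap A K) = Algebra.traceMatrix K b := by
    ext i j; simp [M0, ht0]
  have hM0det : M0.det = d0 := by
    apply hinj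
    rw [← hd0, ← hM0, ← RingHom.mapMatrix_apply, ← RingHom.map_det]
  have hB0M : M0.map (algebraMap A K) = Algebra.traceMatrix K B0 := by rw [hB0]; exact hM0
  -- the upper trace matrix, over the integral closure
  have hT : ∀ j j', IsIntegral A (Algebra.traceMatrix L0 c j j') := fun j j' => by
    rw [Algebra.traceMatrix_apply, Algebra.traceForm_apply]
    exact Algebra.isIntegral_trace ((hc j).mul (hc j'))
  let T' : Matrix κ κ (integralClosure A L0) :=
    Matrix.of fun j j' => ⟨Algebra.traceMatrix L0 c j j', hT j j'⟩
  have hT' : T'.map (algebraMap (integralClosure A L0) L0) = Algebra.traceMatrix L0 c := by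
    ext j j'; rfl
  -- the big trace matrix, over `A`
  set e : ι × κ → L := fun p => algebraMap L0 L (b p.1) * c p.2 with he
  have he_int : ∀ p, IsIntegral A (e p) := fun p => ((hb p.1).algebraMap).mul (hc p.2)
  have hG : ∀ p q, ∃ g : A, algebraMap A K g = Algebra.traceMatrix K e p q := fun p q => by
    rw [Algebra.traceMatrix_apply, Algebra.traceForm_apply]
    exact IsIntegrallyClosed.isIntegral_iff.1
      (Algebra.isIntegral_trace ((he_int p).mul (he_int q)))
  choose g hg using hG
  let G : Matrix (ι × κ) (ι × κ) A := Matrix.of g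
  have hGmap : G.map (algebraMap A K) = Algebra.traceMatrix K e := by
    ext p q; simp [G, hg]
  refine ⟨G.det, ?_, ?_⟩
  · rw [← hGmap, ← RingHom.mapMatrix_apply, ← RingHom.map_det]
  intro hdvd
  -- a kernel vector modulo `π`
  have hIprime : (Ideal.span {π}).IsPrime := (Ideal.span_singleton_prime hπ.ne_zero).2 hπ
  have hdetbar : (G.map (Ideal.Quotient.mk (Ideal.span {π}))).det = 0 := by
    rw [← RingHom.mapMatrix_apply, ← RingHom.map_det]
    exact Ideal.Quotient.eq_zero_iff_mem.2 (Ideal.mem_span_singleton.2 hdvd)
  obtain ⟨vbar, hvbar0, hvbar⟩ := Matrix.exists_vecMul_eq_zero_iff.2 hdetbar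
  have hlift : ∀ p, ∃ a : A, Ideal.Quotient.mk (Ideal.span {π}) a = vbar p := fun p =>
    Ideal.Quotient.mk_surjective (vbar p)
  choose v hv using hlift
  have hvG : ∀ q, ∃ r : A, (v ᵥ* G) q = π * r := by
    intro q
    have h1 : Ideal.Quotient.mk (Ideal.span {π}) ((v ᵥ* G) q) = 0 := by
      rw [RingHom.map_vecMul]
      have h2 : (Ideal.Quotient.mk (Ideal.span {π}) ∘ v) = vbar := funext hv
      rw [h2, hvbar]
      rfl
    exact Ideal.mem_span_singleton.1 (Ideal.Quotient.eq_zero_iff_mem.1 h1)
  choose r hr using hvG
  obtain ⟨p0, hp0⟩ : ∃ p0, ¬ π ∣ v p0 := by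
    by_contra hall
    push Not at hall
    apply hvbar0
    funext p
    rw [← hv p]
    exact Ideal.Quotient.eq_zero_iff_mem.2 (Ideal.mem_span_singleton.2 (hall p))
  -- the elements `x_j ∈ L0` and `x ∈ L`
  let xj : κ → L0 := fun j => ∑ i, v (i, j) • b i
  have hxj : ∀ j, IsIntegral A (xj j) := fun j => IsIntegral.sum _ fun i _ => (hb i).smul _
  let x : L := ∑ j, algebraMap L0 L (xj j) * c j
  have hx_int : IsIntegral A x :=
    IsIntegral.sum _ fun j _ => ((hxj j).algebraMap).mul (hc j)
  have hx : x = ∑ p : ι × κ, v p • e p := by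
    rw [Fintype.sum_prod_type_right]
    apply Finset.sum_congr rfl
    intro j _
    simp only [xj, map_sum, Finset.sum_mul, he]
    apply Finset.sum_congr rfl
    intro i _
    rw [Algebra.smul_def, map_mul, ← IsScalarTower.algebraMap_apply A L0 L, Algebra.smul_def,
      mul_assoc]
  have htr : ∀ q, Algebra.trace K L (x * e q) = algebraMap A K (π * r q) := by
    intro q
    rw [← hr q, hx, Finset.sum_mul, map_sum]
    simp only [Matrix.vecMul, dotProduct, map_sum, map_mul]
    apply Finset.sum_congr rfl
    intro p _
    rw [smul_mul_assoc, ← IsScalarTower.algebraMap_smul K (v p) (e p * e q), map_smul,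
      smul_eq_mul]
    congr 1
    have h1 := hg p q
    rw [Algebra.traceMatrix_apply, Algebra.traceForm_apply] at h1
    exact h1.symm
  -- the relative traces `y_j' = Tr_{L/L0} (x * c j')`
  let y : κ → L0 := fun j' => Algebra.trace L0 L (x * c j')
  have hytr : ∀ j' i', Algebra.trace K L0 (y j' * b i') = algebraMap A K (π * r (i', j')) := by
    intro j' i'
    rw [← htr (i', j')]
    have h1 : y j' * b i' = Algebra.trace L0 L (x * e (i', j')) := by
      show Algebra.trace L0 L (x * c j') * b i' = _
      rw [mul_comm, ← smul_eq_mul, ← map_smul]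
      congr 1
      rw [Algebra.smul_def, he]
      ring
    rw [h1, Algebra.trace_trace]
  have hlow : ∀ j', ∃ z : L0, IsIntegral A z ∧ d0 • y j' = π • z := by
    intro j'
    have h1 := det_smul_eq_sum B0 M0 hB0M (y j') (fun k => π * r (k, j'))
      (fun k => by rw [hB0]; exact hytr j' k)
    refine ⟨∑ i, (∑ k, r (k, j') * M0.adjugate k i) • b i,
      IsIntegral.sum _ fun i _ => (hb i).smul _, ?_⟩
    rw [← hM0det, h1, Finset.smul_sum]
    apply Finset.sum_congr rfl
    intro i _
    rw [hB0, smul_smul, Finset.mul_sum]
    congr 1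
    apply Finset.sum_congr rfl
    intro k _
    ring
  choose z hz_int hz using hlow
  have hyT : ∀ j', y j' = ∑ j, xj j * Algebra.traceMatrix L0 c j j' := by
    intro j'
    show Algebra.trace L0 L (x * c j') = _
    simp only [x, Finset.sum_mul, map_sum]
    apply Finset.sum_congr rfl
    intro j _
    rw [mul_assoc, ← Algebra.smul_def, map_smul, smul_eq_mul, Algebra.traceMatrix_apply,
      Algebra.traceForm_apply]
  have hadj : ∀ j, (Algebra.traceMatrix L0 c).det * xj j =
      ∑ j', y j' * (Algebra.traceMatrix L0 c).adjugate j' j := by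
    intro j
    have h1 : y = xj ᵥ* Algebra.traceMatrix L0 c := funext fun j' => by rw [hyT j']; rfl
    have h2 : y ᵥ* (Algebra.traceMatrix L0 c).adjugate =
        (Algebra.traceMatrix L0 c).det • xj := by
      rw [h1, Matrix.vecMul_vecMul, Matrix.mul_adjugate, Matrix.vecMul_smul, Matrix.vecMul_one]
    have h3 := congrFun h2 j
    rw [Pi.smul_apply, smul_eq_mul] at h3
    rw [← h3]
    rfl
  -- divisibility in the integral closure of `A` in `L0`
  have hdetT' : ((T'.det : integralClosure A L0) : L0) = (Algebra.traceMatrix L0 c).det := by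
    rw [← hT']
    exact RingHom.map_det (algebraMap (integralClosure A L0) L0) T'
  have hadjT' : ∀ j' j, ((T'.adjugate j' j : integralClosure A L0) : L0) =
      (Algebra.traceMatrix L0 c).adjugate j' j := by
    intro j' j
    rw [← hT', ← RingHom.mapMatrix_apply, ← RingHom.map_adjugate]
    rfl
  have hkey : ∀ j, algebraMap A (integralClosure A L0) π ∣
      algebraMap A (integralClosure A L0) d0 * (T'.det * ⟨xj j, hxj j⟩) := by
    intro j
    refine ⟨∑ j', ⟨z j', hz_int j'⟩ * T'.adjugate j' j, ?_⟩
    apply Subtype.ext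
    have e1 : ((algebraMap A (integralClosure A L0) d0 * (T'.det * ⟨xj j, hxj j⟩) :
        integralClosure A L0) : L0) = d0 • ((Algebra.traceMatrix L0 c).det * xj j) := by
      rw [Algebra.smul_def, ← hdetT']
      rfl
    have e2 : ((algebraMap A (integralClosure A L0) π * ∑ j', ⟨z j', hz_int j'⟩ *
        T'.adjugate j' j : integralClosure A L0) : L0) =
        π • ∑ j', z j' * (Algebra.traceMatrix L0 c).adjugate j' j := by
      rw [Algebra.smul_def]
      show algebraMap A L0 π * ((∑ j', ⟨z j', hz_int j'⟩ * T'.adjugate j' j :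
        integralClosure A L0) : L0) = _
      congr 1
      rw [AddSubmonoidClass.coe_finsetSum]
      apply Finset.sum_congr rfl
      intro j' _
      rw [← hadjT']
      rfl
    rw [e1, e2, hadj j, Finset.smul_sum, Finset.smul_sum]
    apply Finset.sum_congr rfl
    intro j' _
    rw [← smul_mul_assoc, hz j', smul_mul_assoc]
  have hnd0 : ¬ algebraMap A (integralClosure A L0) π ∣ algebraMap A (integralClosure A L0) d0 := by
    rintro ⟨t, ht⟩
    have h1 : algebraMap A L0 d0 = algebraMap A L0 π * (t : L0) :=
      congrArg (fun w : integralClosure A L0 => (w : L0)) ht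
    have hπK : algebraMap A K π ≠ 0 := (map_ne_zero_iff _ hinj).2 hπ.ne_zero
    have hπL0 : algebraMap A L0 π ≠ 0 := by
      rw [IsScalarTower.algebraMap_apply A K L0]
      exact (map_ne_zero_iff _ (algebraMap K L0).injective).2 hπK
    have h2 : (t : L0) = algebraMap K L0 (algebraMap A K d0 / algebraMap A K π) := by
      rw [map_div₀, ← IsScalarTower.algebraMap_apply, ← IsScalarTower.algebraMap_apply, h1,
        mul_div_cancel_left₀ _ hπL0]
    have h3 : IsIntegral A (algebraMap A K d0 / algebraMap A K π) := by
      have h4 : IsIntegral A (t : L0) := t.2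
      rw [h2] at h4
      exact (isIntegral_algebraMap_iff (algebraMap K L0).injective).1 h4
    obtain ⟨a, ha⟩ := IsIntegrallyClosed.isIntegral_iff.1 h3
    apply hπd0
    refine ⟨a, hinj ?_⟩
    rw [map_mul, ha, mul_div_cancel₀ _ hπK]
  have hnδ : ¬ algebraMap A (integralClosure A L0) π ∣ T'.det := by
    rintro ⟨t, ht⟩
    apply hδ (t : L0) t.2
    rw [← hdetT', ht]
    rfl
  have hX : ∀ j, algebraMap A (integralClosure A L0) π ∣ (⟨xj j, hxj j⟩ : integralClosure A L0) := by
    intro j
    rcases hπ0.dvd_or_dvd (hkey j) with h | h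
    · exact absurd h hnd0
    · rcases hπ0.dvd_or_dvd h with h | h
      · exact absurd h hnδ
      · exact h
  -- contradiction at `p0`
  obtain ⟨t, ht⟩ := hX p0.2
  have h1 : ∑ i, v (i, p0.2) • B0 i = π • (t : L0) := by
    rw [hB0, Algebra.smul_def]
    exact congrArg (fun w : integralClosure A L0 => (w : L0)) ht
  have h2 := dvd_det_mul_of_sum_eq_smul B0 M0 hB0M (fun i => by rw [hB0]; exact hb i) π
    (fun i => v (i, p0.2)) (t : L0) t.2 h1 p0.1
  rw [hM0det] at h2
  rcases hπ.dvd_or_dvd h2 with h | h
  · exact hπd0 h
  · exact hp0 h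

end Tower

section Model

open Fermat.Agent.S30 Fermat.Agent.S30.Model

variable {O E L0 L : Type*} [CommRing O] [IsDomain O] [IsDiscreteValuationRing O]
  [Field E] [Algebra O E] [IsFractionRing O E]
  [Field L0] [Algebra E L0] [Algebra O L0] [IsScalarTower O E L0]
  [Field L] [Algebra E L] [Algebra O L] [IsScalarTower O E L]
  [Algebra L0 L] [IsScalarTower E L0 L] [IsScalarTower O L0 L]

omit [IsDomain O] [IsDiscreteValuationRing O] [IsFractionRing O E] [IsScalarTower O E L0]
  [IsScalarTower O E L] [IsScalarTower E L0 L] in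
/-- The image of `O[u0]` in `L` lies in `O[u]`, `u = algebraMap L0 L u0`. -/
theorem algebraMap_mem_adjoin (u0 : L0) (a : Algebra.adjoin O {u0}) :
    algebraMap (Algebra.adjoin O {u0}) L a ∈ Algebra.adjoin O {algebraMap L0 L u0} := by
  have h := AlgHom.map_adjoin_singleton (IsScalarTower.toAlgHom O L0 L) u0
  have h1 : IsScalarTower.toAlgHom O L0 L (a : L0) ∈
      Subalgebra.map (IsScalarTower.toAlgHom O L0 L) (Algebra.adjoin O {u0}) :=
    Subalgebra.mem_map.2 ⟨a, a.2, rfl⟩
  rw [h] at h1
  exact h1

omit [IsDomain O] [IsDiscreteValuationRing O] [IsFractionRing O E] [IsScalarTower O E L0]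
  [IsScalarTower O E L] [IsScalarTower E L0 L] in
/-- Every element of `O[u]` is the image of an element of `O[u0]`. -/
theorem exists_of_mem_adjoin (u0 : L0) {z : L} (hz : z ∈ Algebra.adjoin O {algebraMap L0 L u0}) :
    ∃ a : Algebra.adjoin O {u0}, algebraMap (Algebra.adjoin O {u0}) L a = z := by
  have h := AlgHom.map_adjoin_singleton (IsScalarTower.toAlgHom O L0 L) u0
  have h1 : z ∈ Subalgebra.map (IsScalarTower.toAlgHom O L0 L) (Algebra.adjoin O {u0}) := by
    rw [h]; exact hz
  obtain ⟨a, ha, rfl⟩ := Subalgebra.mem_map.1 h1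
  exact ⟨⟨a, ha⟩, rfl⟩

omit [IsDomain O] [IsDiscreteValuationRing O] [IsFractionRing O E] [IsScalarTower O E L0]
  [IsScalarTower O E L] [IsScalarTower E L0 L] in
/-- Integral over `O[u0]` (acting on `L` through `L0`) implies integral over `O[u] ⊆ L`. -/
theorem isIntegral_adjoin_of_isIntegral (u0 : L0) {x : L}
    (hx : IsIntegral (Algebra.adjoin O {u0}) x) :
    IsIntegral (Algebra.adjoin O {algebraMap L0 L u0}) x := by
  have h := IsIntegral.map_of_comp_eq
    ((algebraMap (Algebra.adjoin O {u0}) L).codRestrict (Algebra.adjoin O {algebraMap L0 L u0})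
      (algebraMap_mem_adjoin u0)) (RingHom.id L)
    (RingHom.ext fun a => rfl) hx
  exact h

omit [IsDomain O] [IsDiscreteValuationRing O] [IsFractionRing O E] [IsScalarTower O E L0]
  [IsScalarTower O E L] [IsScalarTower E L0 L] in
/-- Integral over `O[u] ⊆ L` implies integral over `O[u0]` (acting on `L` through `L0`). -/
theorem isIntegral_of_isIntegral_adjoin (u0 : L0) {x : L}
    (hx : IsIntegral (Algebra.adjoin O {algebraMap L0 L u0}) x) :
    IsIntegral (Algebra.adjoin O {u0}) x :=
  UnramTSD.isIntegral_of_isIntegral_subalgebra (Algebra.adjoin O {algebraMap L0 L u0})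
    (fun _ hz => exists_of_mem_adjoin u0 hz) hx

omit [IsScalarTower O E L] in
/-- **The tower lemma for `Model.GaussUnram`, core form** (upper family integral over `O[u0]`,
acting on `L` through `L0`). -/
theorem gaussUnram_tower_core (π : O) (hπ : Irreducible π) (u0 : L0) (hu0 : Transcendental E u0)
    [FiniteDimensional (IntermediateField.adjoin E {u0}) L0] [FiniteDimensional L0 L]
    (hi : GaussUnram (E := E) π u0)
    (hprime : Prime (algebraMap (Algebra.adjoin O {u0})
      (integralClosure (Algebra.adjoin O {u0}) L0) (algebraMap O (Algebra.adjoin O {u0}) π)))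
    (c : Fin (Module.finrank L0 L) → L) (hc : ∀ j, IsIntegral (Algebra.adjoin O {u0}) (c j))
    (hδ : ∀ z : L0, IsIntegral (Algebra.adjoin O {u0}) z →
      (Algebra.traceMatrix L0 c).det ≠ algebraMap O L0 π * z) :
    FiniteDimensional (IntermediateField.adjoin E {algebraMap L0 L u0}) L ∧
      GaussUnram (E := E) π (algebraMap L0 L u0) := by
  classical
  have hu0O : Transcendental O u0 := hu0.restrictScalars (IsFractionRing.injective O E)
  have hu0K : u0 ∈ IntermediateField.adjoin E {u0} :=
    IntermediateField.mem_adjoin_simple_self E u0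
  let algAK : Algebra (Algebra.adjoin O {u0}) (IntermediateField.adjoin E {u0}) :=
    (ChartInst.incl O u0 (IntermediateField.adjoin E {u0}) hu0K).toAlgebra
  have towerAKL0 : IsScalarTower (Algebra.adjoin O {u0}) (IntermediateField.adjoin E {u0}) L0 :=
    ChartInst.isScalarTower_incl O u0 _ hu0K
  have fracAK : IsFractionRing (Algebra.adjoin O {u0}) (IntermediateField.adjoin E {u0}) :=
    ChartInst.isFractionRing_incl O u0 _ hu0K le_rfl
  have icA : IsIntegrallyClosed (Algebra.adjoin O {u0}) :=
    ChartInst.isIntegrallyClosed_adjoin O u0 hu0O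
  have hπA : Prime (algebraMap O (Algebra.adjoin O {u0}) π) :=
    ChartInst.prime_algebraMap_adjoin O u0 hu0O hπ.prime
  obtain ⟨b, hb, d, hdD, hdet, hnd⟩ := hi
  have hd0 : (Algebra.traceMatrix (IntermediateField.adjoin E {u0}) b).det =
      algebraMap (Algebra.adjoin O {u0}) (IntermediateField.adjoin E {u0}) ⟨d, hdD⟩ :=
    Subtype.ext hdet
  have hπd0 : ¬ algebraMap O (Algebra.adjoin O {u0}) π ∣ (⟨d, hdD⟩ : Algebra.adjoin O {u0}) := by
    rintro ⟨a, ha⟩
    exact hnd (a : L0) a.2 (congrArg (fun w : Algebra.adjoin O {u0} => (w : L0)) ha)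
  obtain ⟨dA, hdA, hπdA⟩ := exists_det_not_dvd (K := IntermediateField.adjoin E {u0}) hπA hprime
    b hb (by simp) ⟨d, hdD⟩ hd0 hπd0 c hc (fun z hz => hδ z hz)
  -- transfer to `E(u) ⊆ L`
  have hK : IntermediateField.adjoin E {algebraMap L0 L u0} =
      (IntermediateField.adjoin E {u0}).map (IsScalarTower.toAlgHom E L0 L) := by
    rw [IntermediateField.adjoin_map, Set.image_singleton]
    rfl
  unfold GaussUnram UnramAt
  rw [hK]
  let e₁ : IntermediateField.adjoin E {u0} ≃+*
      (IntermediateField.adjoin E {u0}).map (IsScalarTower.toAlgHom E L0 L) :=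
    ((IntermediateField.adjoin E {u0}).equivMap (IsScalarTower.toAlgHom E L0 L)).toRingEquiv
  have he : (algebraMap ((IntermediateField.adjoin E {u0}).map (IsScalarTower.toAlgHom E L0 L))
      L).comp (e₁ : IntermediateField.adjoin E {u0} →+* _) =
      algebraMap (IntermediateField.adjoin E {u0}) L :=
    RingHom.ext fun k => rfl
  have hfin : FiniteDimensional (IntermediateField.adjoin E {u0}) L := Module.Finite.trans L0 L
  have hfin1 : FiniteDimensional
      ((IntermediateField.adjoin E {u0}).map (IsScalarTower.toAlgHom E L0 L)) L :=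
    Module.Finite.of_equiv_equiv e₁ (RingEquiv.refl L) (by rw [he]; rfl)
  have hrank : Module.finrank
      ((IntermediateField.adjoin E {u0}).map (IsScalarTower.toAlgHom E L0 L)) L =
      Module.finrank (IntermediateField.adjoin E {u0}) L0 * Module.finrank L0 L := by
    rw [Module.finrank_mul_finrank (IntermediateField.adjoin E {u0}) L0 L]
    exact (Algebra.finrank_eq_of_equiv_equiv e₁ (RingEquiv.refl L)
      (RingHom.ext fun k => rfl)).symm
  refine ⟨hfin1, ?_⟩
  let eq : Fin (Module.finrank
      ((IntermediateField.adjoin E {u0}).map (IsScalarTower.toAlgHom E L0 L)) L) ≃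
      Fin (Module.finrank (IntermediateField.adjoin E {u0}) L0) × Fin (Module.finrank L0 L) :=
    Fintype.equivOfCardEq (by simp [hrank])
  have hfam_int : ∀ p : Fin (Module.finrank (IntermediateField.adjoin E {u0}) L0) ×
      Fin (Module.finrank L0 L),
      IsIntegral (Algebra.adjoin O {u0}) (algebraMap L0 L (b p.1) * c p.2) := fun p =>
    ((hb p.1).algebraMap).mul (hc p.2)
  refine ⟨(fun p : Fin (Module.finrank (IntermediateField.adjoin E {u0}) L0) ×
      Fin (Module.finrank L0 L) => algebraMap L0 L (b p.1) * c p.2) ∘ eq,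
    fun i => isIntegral_adjoin_of_isIntegral u0 (hfam_int (eq i)),
    algebraMap L0 L (dA : L0), algebraMap_mem_adjoin u0 dA, ?_, ?_⟩
  · have h1 : Algebra.traceMatrix
        ((IntermediateField.adjoin E {u0}).map (IsScalarTower.toAlgHom E L0 L))
        ((fun p : Fin (Module.finrank (IntermediateField.adjoin E {u0}) L0) ×
          Fin (Module.finrank L0 L) => algebraMap L0 L (b p.1) * c p.2) ∘ eq) =
        (Algebra.traceMatrix
          ((IntermediateField.adjoin E {u0}).map (IsScalarTower.toAlgHom E L0 L))
          (fun p : Fin (Module.finrank (IntermediateField.adjoin E {u0}) L0) ×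
            Fin (Module.finrank L0 L) => algebraMap L0 L (b p.1) * c p.2)).submatrix eq eq :=
      Matrix.ext fun i j => rfl
    have h2 : Algebra.traceMatrix
        ((IntermediateField.adjoin E {u0}).map (IsScalarTower.toAlgHom E L0 L))
        (fun p : Fin (Module.finrank (IntermediateField.adjoin E {u0}) L0) ×
          Fin (Module.finrank L0 L) => algebraMap L0 L (b p.1) * c p.2) =
        (Algebra.traceMatrix (IntermediateField.adjoin E {u0})
          (fun p : Fin (Module.finrank (IntermediateField.adjoin E {u0}) L0) ×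
            Fin (Module.finrank L0 L) => algebraMap L0 L (b p.1) * c p.2)).map
          (e₁ : IntermediateField.adjoin E {u0} →+* _) := by
      refine Matrix.ext fun p q => ?_
      rw [Matrix.map_apply, Algebra.traceMatrix_apply, Algebra.traceMatrix_apply,
        Algebra.traceForm_apply, Algebra.traceForm_apply]
      exact (Algebra.trace_eq_of_ringEquiv e₁ he _).symm
    rw [h1, Matrix.det_submatrix_equiv_self, h2, ← RingHom.mapMatrix_apply, ← RingHom.map_det,
      hdA]
    rfl
  · intro c' hc' hcon
    obtain ⟨c0, rfl⟩ := exists_of_mem_adjoin u0 hc'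
    apply hπdA
    refine ⟨c0, Subtype.ext ?_⟩
    apply (algebraMap L0 L).injective
    show algebraMap L0 L (dA : L0) = algebraMap L0 L (algebraMap O L0 π * (c0 : L0))
    rw [map_mul, ← IsScalarTower.algebraMap_apply O L0 L]
    exact hcon

omit [IsScalarTower O E L] in
/-- **THE TOWER LEMMA for `Model.GaussUnram`.**  `E ⊆ L0 ⊆ L` fields, `O` a discrete valuation
ring with fraction field `E` and uniformiser `π`, `u0 ∈ L0` transcendental over `E`,
`[L0 : E(u0)]` and `[L : L0]` finite.  Assume

* (lower layer) hypothesis (i) of the Model theorem for `(L0, u0)` and the conclusion of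
  `Model.main_a` for `(L0, u0)`: `π` is a prime element of the integral closure of `O[u0]`
  in `L0`;
* (upper layer) a family `c` of `[L : L0]` elements of `L`, integral over `O[u]`
  (`u = algebraMap L0 L u0`), whose relative trace discriminant
  `det (Tr_{L/L0} (c j * c j'))` is not divisible by `π` in the integral closure of `O[u0]`
  in `L0`.

Then `L / E(u)` is finite and hypothesis (i) of the Model theorem holds for `(L, u)`. -/
theorem gaussUnram_tower (π : O) (hπ : Irreducible π) (u0 : L0) (hu0 : Transcendental E u0)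
    [FiniteDimensional (IntermediateField.adjoin E {u0}) L0] [FiniteDimensional L0 L]
    (hi : GaussUnram (E := E) π u0)
    (hprime : Prime (algebraMap (Algebra.adjoin O {u0})
      (integralClosure (Algebra.adjoin O {u0}) L0) (algebraMap O (Algebra.adjoin O {u0}) π)))
    (c : Fin (Module.finrank L0 L) → L)
    (hc : ∀ j, IsIntegral (Algebra.adjoin O {algebraMap L0 L u0}) (c j))
    (hδ : ∀ z : L0, IsIntegral (Algebra.adjoin O {u0}) z →
      (Algebra.traceMatrix L0 c).det ≠ algebraMap O L0 π * z) :
    FiniteDimensional (IntermediateField.adjoin E {algebraMap L0 L u0}) L ∧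
      GaussUnram (E := E) π (algebraMap L0 L u0) :=
  gaussUnram_tower_core π hπ u0 hu0 hi hprime c
    (fun j => isIntegral_of_isIntegral_adjoin u0 (hc j)) hδ

omit [IsScalarTower O E L] in
/-- **The tower lemma, "integral at `π`" form.**  Same as `gaussUnram_tower`, but the upper
family is only required to be integral at `π` (`Model.IsIntegralAt`: integral over `O[u]` after
multiplication by an element of `O[u]` not divisible by `π`), and the relative discriminant
`δ = det (Tr_{L/L0} (c j * c j'))` is required to be a unit at `π`: `s * δ ≠ π * z` for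
`s ∈ O[u0]` not divisible by `π` and `z` integral over `O[u0]`. -/
theorem gaussUnram_tower_at (π : O) (hπ : Irreducible π) (u0 : L0) (hu0 : Transcendental E u0)
    [FiniteDimensional (IntermediateField.adjoin E {u0}) L0] [FiniteDimensional L0 L]
    (hi : GaussUnram (E := E) π u0)
    (hprime : Prime (algebraMap (Algebra.adjoin O {u0})
      (integralClosure (Algebra.adjoin O {u0}) L0) (algebraMap O (Algebra.adjoin O {u0}) π)))
    (c : Fin (Module.finrank L0 L) → L)
    (hc : ∀ j, IsIntegralAt (Algebra.adjoin O {algebraMap L0 L u0}) (algebraMap O L π) (c j))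
    (hδ : ∀ s z : L0, s ∈ Algebra.adjoin O {u0} →
      (∀ a : L0, a ∈ Algebra.adjoin O {u0} → s ≠ algebraMap O L0 π * a) →
      IsIntegral (Algebra.adjoin O {u0}) z →
      s * (Algebra.traceMatrix L0 c).det ≠ algebraMap O L0 π * z) :
    FiniteDimensional (IntermediateField.adjoin E {algebraMap L0 L u0}) L ∧
      GaussUnram (E := E) π (algebraMap L0 L u0) := by
  classical
  have hu0O : Transcendental O u0 := hu0.restrictScalars (IsFractionRing.injective O E)
  have hπA : Prime (algebraMap O (Algebra.adjoin O {u0}) π) :=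
    ChartInst.prime_algebraMap_adjoin O u0 hu0O hπ.prime
  -- the multipliers, as elements of `O[u0]`
  have hmul : ∀ j, ∃ a : Algebra.adjoin O {u0}, ¬ algebraMap O (Algebra.adjoin O {u0}) π ∣ a ∧
      IsIntegral (Algebra.adjoin O {u0}) (algebraMap L0 L (a : L0) * c j) := by
    intro j
    obtain ⟨s, hsD, hsnd, hsint⟩ := hc j
    obtain ⟨a, rfl⟩ := exists_of_mem_adjoin u0 hsD
    refine ⟨a, ?_, isIntegral_of_isIntegral_adjoin u0 hsint⟩
    rintro ⟨a', rfl⟩
    apply hsnd (algebraMap (Algebra.adjoin O {u0}) L a') (algebraMap_mem_adjoin u0 a')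
    show algebraMap L0 L (algebraMap O L0 π * (a' : L0)) = _
    rw [map_mul, ← IsScalarTower.algebraMap_apply O L0 L]
    rfl
  choose a ha haint using hmul
  have hT : Algebra.traceMatrix L0 (fun j => algebraMap L0 L (a j : L0) * c j) =
      Matrix.of fun j j' => (a j : L0) * ((a j' : L0) * Algebra.traceMatrix L0 c j j') := by
    refine Matrix.ext fun j j' => ?_
    rw [Matrix.of_apply, Algebra.traceMatrix_apply, Algebra.traceMatrix_apply,
      Algebra.traceForm_apply, Algebra.traceForm_apply]
    have h1 : algebraMap L0 L (a j : L0) * c j * (algebraMap L0 L (a j' : L0) * c j') =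
        ((a j : L0) * (a j' : L0)) • (c j * c j') := by
      rw [Algebra.smul_def, map_mul]
      ring
    rw [h1, map_smul, smul_eq_mul, mul_assoc]
  have hdet : (Algebra.traceMatrix L0 (fun j => algebraMap L0 L (a j : L0) * c j)).det =
      ((∏ j, a j : Algebra.adjoin O {u0}) : L0) * ((∏ j, a j : Algebra.adjoin O {u0}) : L0) *
        (Algebra.traceMatrix L0 c).det := by
    have e1 : (Matrix.of fun j j' => (a j : L0) * ((a j' : L0) * Algebra.traceMatrix L0 c j j')) =
        Matrix.of fun j j' => (a j : L0) *
          (Matrix.of fun j j' => (a j' : L0) * Algebra.traceMatrix L0 c j j') j j' := rfl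
    have hP : ((∏ j, a j : Algebra.adjoin O {u0}) : L0) = ∏ j, (a j : L0) :=
      map_prod (Algebra.adjoin O {u0}).val a Finset.univ
    rw [hT, e1, Matrix.det_mul_column, Matrix.det_mul_row, hP, mul_assoc]
  refine gaussUnram_tower_core π hπ u0 hu0 hi hprime
    (fun j => algebraMap L0 L (a j : L0) * c j) haint (fun z hz hcon => ?_)
  rw [hdet] at hcon
  refine hδ _ z (Subalgebra.mul_mem _ (∏ j, a j : Algebra.adjoin O {u0}).2
    (∏ j, a j : Algebra.adjoin O {u0}).2) (fun a' ha' hcon' => ?_) hz hcon
  have h1 : algebraMap O (Algebra.adjoin O {u0}) π ∣ (∏ j, a j) * (∏ j, a j) :=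
    ⟨⟨a', ha'⟩, Subtype.ext hcon'⟩
  have h2 : algebraMap O (Algebra.adjoin O {u0}) π ∣ ∏ j, a j := (hπA.dvd_or_dvd h1).elim id id
  obtain ⟨j, -, hj⟩ := (Prime.dvd_finsetProd_iff hπA _).1 h2
  exact ha j hj

end Model

end Fermat.Agent.S48.G1.UnramTower
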