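import Mathlib

/-!
# Weierstrass `℘` for the lattice `ℤ τ + ℤ`: the `ℤ²`-form and `SL₂(ℤ)`-covariance

`pp τ` is the period pair `(τ, 1)`.  We rewrite Mathlib's `℘[pp τ]` as an (absolutely
convergent) sum over `ℤ × ℤ` and deduce, by reindexing, the weight `2` covariance
`℘[pp (γ • τ)] (z / (c τ + d)) = (c τ + d) ^ 2 * ℘[pp τ] z`.
-/

namespace Fermat.Agent.S48.G1.WP

open Complex UpperHalfPlane PeriodPair
open scoped Real MatrixGroups

noncomputable section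

/-- The period pair `(τ, 1)`: its lattice is `ℤ τ + ℤ`. -/
def pp (τ : ℍ) : PeriodPair where
  ω₁ := τ
  ω₂ := 1
  indep := by
    rw [LinearIndependent.pair_iff]
    intro s t h
    have him := congrArg Complex.im h
    simp only [Complex.add_im, Complex.real_smul, Complex.mul_im, Complex.ofReal_re,
      Complex.ofReal_im, zero_mul, add_zero, Complex.one_im, mul_zero, Complex.zero_im,
      UpperHalfPlane.coe_im] at him
    have hs : s = 0 := by
      rcases mul_eq_zero.mp him with h0 | h0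
      · exact h0
      · exact absurd h0 τ.im_ne_zero
    have hre := congrArg Complex.re h
    simp only [hs, zero_smul, zero_add, Complex.real_smul, Complex.ofReal_re, mul_one,
      Complex.zero_re] at hre
    exact ⟨hs, hre⟩

@[simp] theorem pp_ω₁ (τ : ℍ) : (pp τ).ω₁ = τ := rfl
@[simp] theorem pp_ω₂ (τ : ℍ) : (pp τ).ω₂ = 1 := rfl

/-- The lattice point `m τ + n`. -/
def lat (τ : ℍ) (p : ℤ × ℤ) : ℂ := p.1 * τ + p.2

/-- The summand of `℘` at the lattice point `m τ + n`. -/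
def wpTerm (τ : ℍ) (z : ℂ) (p : ℤ × ℤ) : ℂ := 1 / (z - lat τ p) ^ 2 - 1 / lat τ p ^ 2

theorem mem_lattice_iff (τ : ℍ) (x : ℂ) : x ∈ (pp τ).lattice ↔ ∃ p : ℤ × ℤ, lat τ p = x := by
  rw [PeriodPair.mem_lattice]
  constructor
  · rintro ⟨m, n, h⟩
    exact ⟨(m, n), by simpa [lat] using h⟩
  · rintro ⟨p, h⟩
    exact ⟨p.1, p.2, by simpa [lat] using h⟩

/-- **(W1)** The `ℤ²`-form of `℘` for the lattice `ℤ τ + ℤ`. -/
theorem hasSum_wp (τ : ℍ) (z : ℂ) : HasSum (wpTerm τ z) (℘[pp τ] z) := by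
  have h := (pp τ).hasSum_weierstrassP z
  have h2 := ((pp τ).latticeEquivProd.symm.toEquiv.hasSum_iff).mpr h
  have he : (fun l : (pp τ).lattice => 1 / (z - (l : ℂ)) ^ 2 - 1 / (l : ℂ) ^ 2) ∘
      ⇑(pp τ).latticeEquivProd.symm.toEquiv = wpTerm τ z := by
    funext p
    have := (pp τ).latticeEquiv_symm_apply p
    simp only [Function.comp_apply, LinearEquiv.coe_toEquiv, wpTerm, lat]
    rw [this]
    simp
  rwa [he] at h2

/-- The reindexing `(m, n) ↦ (m, n) γ` of `ℤ × ℤ`. -/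
def rowEquiv (γ : SL(2, ℤ)) : ℤ × ℤ ≃ ℤ × ℤ where
  toFun p := (p.1 * γ 0 0 + p.2 * γ 1 0, p.1 * γ 0 1 + p.2 * γ 1 1)
  invFun p := (p.1 * γ 1 1 - p.2 * γ 1 0, -p.1 * γ 0 1 + p.2 * γ 0 0)
  left_inv p := by
    have hdet : γ 0 0 * γ 1 1 - γ 0 1 * γ 1 0 = 1 := by
      have := γ.det_coe
      rwa [Matrix.det_fin_two] at this
    ext
    · simp only
      linear_combination p.1 * hdet
    · simp only
      linear_combination p.2 * hdet
  right_inv p := by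
    have hdet : γ 0 0 * γ 1 1 - γ 0 1 * γ 1 0 = 1 := by
      have := γ.det_coe
      rwa [Matrix.det_fin_two] at this
    ext
    · simp only
      linear_combination p.1 * hdet
    · simp only
      linear_combination p.2 * hdet

theorem rowEquiv_apply (γ : SL(2, ℤ)) (p : ℤ × ℤ) :
    rowEquiv γ p = (p.1 * γ 0 0 + p.2 * γ 1 0, p.1 * γ 0 1 + p.2 * γ 1 1) := rfl

/-- The denominator `c τ + d`. -/
def den (γ : SL(2, ℤ)) (τ : ℍ) : ℂ := (γ 1 0 : ℂ) * τ + γ 1 1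

theorem den_eq_denom (γ : SL(2, ℤ)) (τ : ℍ) : den γ τ = denom γ τ := by
  simp [den, ModularGroup.denom_apply]

theorem den_ne_zero (γ : SL(2, ℤ)) (τ : ℍ) : den γ τ ≠ 0 := by
  rw [den_eq_denom]
  exact denom_ne_zero _ τ

theorem coe_smul_eq (γ : SL(2, ℤ)) (τ : ℍ) :
    ((γ • τ : ℍ) : ℂ) = ((γ 0 0 : ℂ) * τ + γ 0 1) / den γ τ := by
  rw [UpperHalfPlane.coe_specialLinearGroup_apply]
  simp [den]

theorem lat_smul (γ : SL(2, ℤ)) (τ : ℍ) (p : ℤ × ℤ) :
    lat (γ • τ) p = lat τ (rowEquiv γ p) / den γ τ := by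
  have hd := den_ne_zero γ τ
  rw [lat, coe_smul_eq, rowEquiv_apply, lat]
  field_simp
  simp only [den]
  push_cast
  ring

theorem wpTerm_smul (γ : SL(2, ℤ)) (τ : ℍ) (z : ℂ) (p : ℤ × ℤ) :
    wpTerm (γ • τ) (z / den γ τ) p = den γ τ ^ 2 * wpTerm τ z (rowEquiv γ p) := by
  have hd := den_ne_zero γ τ
  rw [wpTerm, wpTerm, lat_smul, ← sub_div, div_pow, div_pow, one_div_div, one_div_div]
  ring

/-- **(W0)** Weight `2` covariance of `℘` under `SL₂(ℤ)`. -/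
theorem wp_smul (γ : SL(2, ℤ)) (τ : ℍ) (z : ℂ) :
    ℘[pp (γ • τ)] (z / den γ τ) = den γ τ ^ 2 * ℘[pp τ] z := by
  have h1 := hasSum_wp (γ • τ) (z / den γ τ)
  have h2 := ((rowEquiv γ).hasSum_iff).mpr (hasSum_wp τ z)
  have h3 := h2.mul_left (den γ τ ^ 2)
  have he : (fun p => den γ τ ^ 2 * (wpTerm τ z ∘ ⇑(rowEquiv γ)) p) =
      wpTerm (γ • τ) (z / den γ τ) := by
    funext p
    rw [wpTerm_smul]
    rfl
  rw [he] at h3
  exact h1.unique h3

/-- `(W0)` with Mathlib's `denom`. -/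
theorem wp_smul_denom (γ : SL(2, ℤ)) (τ : ℍ) (z : ℂ) :
    ℘[pp (γ • τ)] (z / denom γ τ) = denom γ τ ^ 2 * ℘[pp τ] z := by
  rw [← den_eq_denom]
  exact wp_smul γ τ z

end

end Fermat.Agent.S48.G1.WP
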