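import Fermat.Agent.S48.G1.WP.Strip

/-!
# S48 / G1: Weierstrass `℘` at the `M`-division points — expansions at all cusps

For `τ ∈ ℍ`, `pp τ` the period pair `(τ, 1)` of `S48/G1/WP.lean`, and integers `a, b` not both
divisible by `M`, the normalised division value `℘[pp τ]((a τ + b)/M) / (2πi)²` has the
`Q = e^{2πiτ/M}`-expansion `∑ₙ divCoeff M ζ a b n · Qⁿ` with `ζ = e^{2πi/M}`:

* `invSq_eq_lam` : `∑_{n ∈ ℤ} 1/(x+n)² = (2πi)² · w/(1-w)²`, `w = e^{2πix}`, for every non-integer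
  `x` (real `x` included) — the row `m = 0` of `℘`;
* `hasSum_wp_strip_lam` : the strip formula of `WP/Strip.lean` with the row `m = 0` in closed form;
* `hasSum_wp_div` : the expansion at the division points;
* `divCoeff_eq_intCast`, `exists_aeval_divCoeff` : integrality of the coefficients;
* `divCoeff_injective` : the coefficient families of `(a, b)` and `(a', b')` agree only if
  `(a', b') ≡ ±(a, b) mod M`.
-/

set_option autoImplicit false

open Complex Filter Topology PeriodPair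
open scoped Real UpperHalfPlane

noncomputable section

namespace Fermat.Agent.S48.G1.WPDiv

open Fermat.Agent.S48.G1.WP

/-! ### The function `X / (1 - X)²` -/

/-- The function `lam X = X / (1 - X)^2` (`= ∑ k X^k` for `‖X‖ < 1`). -/
def lam {K : Type*} [Field K] (X : K) : K := X / (1 - X) ^ 2

theorem lam_inv {K : Type*} [Field K] {X : K} (hX : X ≠ 0) : lam X⁻¹ = lam X := by
  unfold lam
  by_cases h1 : X = 1
  · subst h1; simp
  have h1' : (1 : K) - X ≠ 0 := sub_ne_zero.mpr (Ne.symm h1)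
  have h2 : (1 : K) - X⁻¹ ≠ 0 := by
    intro h
    apply h1
    have : X⁻¹ = 1 := by linear_combination -h
    rw [inv_eq_one] at this
    exact this
  field_simp
  ring

/-- `lam x = lam y` iff `x = y` or `x y = 1` (for `x, y ≠ 1`). -/
theorem lam_eq_lam_iff {K : Type*} [Field K] {x y : K} (hx : x ≠ 1) (hy : y ≠ 1) :
    lam x = lam y ↔ x = y ∨ x * y = 1 := by
  unfold lam
  have hx' : (1 : K) - x ≠ 0 := sub_ne_zero.mpr (Ne.symm hx)
  have hy' : (1 : K) - y ≠ 0 := sub_ne_zero.mpr (Ne.symm hy)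
  rw [div_eq_div_iff (pow_ne_zero 2 hx') (pow_ne_zero 2 hy')]
  constructor
  · intro h
    have h2 : (x - y) * (1 - x * y) = 0 := by linear_combination h
    rcases mul_eq_zero.mp h2 with h3 | h3
    · exact Or.inl (sub_eq_zero.mp h3)
    · exact Or.inr (by linear_combination -h3)
  · rintro (h | h)
    · rw [h]
    · linear_combination (y - x) * h

theorem geomD_eq_lam {r : ℂ} (hr : ‖r‖ < 1) : geomD r = lam r := geomD_eq hr

/-! ### The row `m = 0`: closed form of `∑ 1/(x+n)²` -/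

/-- The exponential `e(x) = exp(2πi x)`. -/
def ex (x : ℂ) : ℂ := cexp (2 * π * I * x)

theorem ex_ne_zero (x : ℂ) : ex x ≠ 0 := Complex.exp_ne_zero _

theorem ex_add (u v : ℂ) : ex (u + v) = ex u * ex v := by
  unfold ex; rw [mul_add, Complex.exp_add]

theorem ex_neg (u : ℂ) : ex (-u) = (ex u)⁻¹ := by
  unfold ex; rw [mul_neg, Complex.exp_neg]

theorem ex_intCast (n : ℤ) : ex n = 1 := by
  unfold ex
  have : (2 * π * I * (n : ℂ)) = n * (2 * π * I) := by ring
  rw [this]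
  exact Complex.exp_int_mul_two_pi_mul_I n

theorem ex_natCast_mul (n : ℕ) (u : ℂ) : ex (n * u) = ex u ^ n := by
  unfold ex
  rw [← Complex.exp_nat_mul]
  congr 1
  ring

theorem ex_intCast_mul (n : ℤ) (u : ℂ) : ex (n * u) = ex u ^ n := by
  unfold ex
  rw [← Complex.exp_int_mul]
  congr 1
  ring

theorem norm_ex (u : ℂ) : ‖ex u‖ = Real.exp (-2 * π * u.im) :=
  norm_cexp_two_pi_I_mul u

theorem norm_ex_lt_one {u : ℂ} (hu : 0 < u.im) : ‖ex u‖ < 1 := norm_cexp_lt_one hu

theorem norm_ex_of_im_eq_zero {u : ℂ} (hu : u.im = 0) : ‖ex u‖ = 1 := by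
  rw [norm_ex, hu]; simp

theorem ex_eq_one_iff {u : ℂ} : ex u = 1 ↔ ∃ n : ℤ, u = n := by
  unfold ex
  rw [Complex.exp_eq_one_iff]
  constructor
  · rintro ⟨n, hn⟩
    refine ⟨n, ?_⟩
    have h2 : (2 * π * I : ℂ) ≠ 0 := by
      simp [Real.pi_ne_zero]
    have : (2 * π * I) * u = (2 * π * I) * n := by rw [hn]; ring
    exact mul_left_cancel₀ h2 this
  · rintro ⟨n, rfl⟩
    exact ⟨n, by ring⟩

theorem invSq_of_im_pos {x : ℂ} (hx : 0 < x.im) :
    invSq x = (2 * π * I) ^ 2 * lam (ex x) := by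
  rw [invSq_eq_geomD hx, geomD_eq (norm_cexp_lt_one hx)]
  rfl

theorem invSq_of_im_neg {x : ℂ} (hx : x.im < 0) :
    invSq x = (2 * π * I) ^ 2 * lam (ex x) := by
  rw [← invSq_neg, invSq_of_im_pos (x := -x) (by simpa using hx), ex_neg, lam_inv (ex_ne_zero x)]

/-- Continuity of `invSq` at non-integers. -/
theorem continuousAt_invSq {u : ℂ} (hu : ∀ n : ℤ, u ≠ n) : ContinuousAt invSq u := by
  have hopen : IsOpen (Set.range (fun n : ℤ => (n : ℂ)))ᶜ := Complex.isOpen_compl_range_intCast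
  have hmem : u ∈ (Set.range (fun n : ℤ => (n : ℂ)))ᶜ := by
    rintro ⟨n, hn⟩
    exact hu n hn.symm
  obtain ⟨δ, hδ, hball⟩ := Metric.isOpen_iff.mp hopen u hmem
  have hlow : ∀ n : ℤ, δ ≤ ‖u + n‖ := by
    intro n
    by_contra hlt
    rw [not_le] at hlt
    have : ((-n : ℤ) : ℂ) ∈ Metric.ball u δ := by
      rw [Metric.mem_ball, dist_comm, dist_eq_norm]
      have : u - ((-n : ℤ) : ℂ) = u + n := by push_cast; ring
      rw [this]; exact hlt
    exact hball this ⟨-n, rfl⟩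
  have hcont : ContinuousOn (fun v : ℂ => ∑' n : ℤ, 1 / (v + n) ^ 2) (Metric.ball u (δ / 2)) := by
    refine continuousOn_tsum (u := fun n : ℤ => 4 * ‖1 / (u + n) ^ 2‖) ?_ ?_ ?_
    · intro n
      refine ContinuousOn.div continuousOn_const (by fun_prop) ?_
      intro v hv
      have h1 : ‖v - u‖ < δ / 2 := by
        rw [← dist_eq_norm]; exact hv
      have h2 : ‖u + n‖ ≤ ‖v + n‖ + ‖v - u‖ := by
        have : u + n = (v + n) - (v - u) := by ring
        rw [this]; exact norm_sub_le _ _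
      have h3 : 0 < ‖v + n‖ := by
        have := hlow n
        linarith
      exact pow_ne_zero 2 (norm_pos_iff.mp h3)
    · exact ((summable_invSq u).norm).mul_left 4
    · intro n v hv
      have h1 : ‖v - u‖ < δ / 2 := by
        rw [← dist_eq_norm]; exact hv
      have h2 : ‖u + n‖ ≤ ‖v + n‖ + ‖v - u‖ := by
        have : u + n = (v + n) - (v - u) := by ring
        rw [this]; exact norm_sub_le _ _
      have h4 := hlow n
      have h3 : ‖u + n‖ / 2 ≤ ‖v + n‖ := by linarith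
      have hpos : 0 < ‖u + n‖ := by linarith
      rw [norm_div, norm_div, norm_one, norm_pow, norm_pow]
      rw [show 4 * (1 / ‖u + n‖ ^ 2) = 1 / (‖u + n‖ / 2) ^ 2 by field_simp; ring]
      apply one_div_le_one_div_of_le (by positivity)
      exact pow_le_pow_left₀ (by positivity) h3 2
  exact hcont.continuousAt (Metric.ball_mem_nhds u (by positivity))

theorem continuousAt_lam_ex {u : ℂ} (hu : ∀ n : ℤ, u ≠ n) :
    ContinuousAt (fun v : ℂ => (2 * π * I) ^ 2 * lam (ex v)) u := by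
  unfold lam
  have h1 : (1 : ℂ) - ex u ≠ 0 := by
    intro h
    have : ex u = 1 := by linear_combination -h
    obtain ⟨n, hn⟩ := ex_eq_one_iff.mp this
    exact hu n hn
  have hex : ContinuousAt ex u := by
    unfold ex; fun_prop
  refine ContinuousAt.mul continuousAt_const (ContinuousAt.div hex ?_ (pow_ne_zero 2 h1))
  exact (continuousAt_const.sub hex).pow 2

/-- **The row `m = 0` in closed form**: `∑_{n ∈ ℤ} 1/(x+n)² = (2πi)² w/(1-w)²`, `w = e^{2πix}`,
for every non-integer `x` (real `x` included). -/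
theorem invSq_eq_lam {x : ℂ} (hx : ∀ n : ℤ, x ≠ n) :
    invSq x = (2 * π * I) ^ 2 * lam (ex x) := by
  rcases lt_trichotomy x.im 0 with h | h | h
  · exact invSq_of_im_neg h
  · -- real, non-integer: continuity from the upper half plane
    have hpath : Tendsto (fun t : ℝ => x + t * I) (𝓝[>] 0) (𝓝 x) := by
      have : Tendsto (fun t : ℝ => x + t * I) (𝓝 0) (𝓝 (x + (0 : ℝ) * I)) := by
        apply Continuous.tendsto; fun_prop
      simp only [ofReal_zero, zero_mul, add_zero] at this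
      exact this.mono_left nhdsWithin_le_nhds
    have h1 := (continuousAt_invSq hx).tendsto.comp hpath
    have h2 := (continuousAt_lam_ex hx).tendsto.comp hpath
    refine tendsto_nhds_unique h1 (h2.congr' ?_)
    filter_upwards [self_mem_nhdsWithin] with t ht
    have him : 0 < (x + t * I).im := by
      simp only [add_im, mul_im, ofReal_re, I_im, mul_one, ofReal_im, I_re, mul_zero, add_zero]
      rw [h]; simpa using ht
    exact (invSq_of_im_pos him).symm
  · exact invSq_of_im_pos h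

/-- The same for the sum `∑ 1/(x-n)²`. -/
theorem tsum_inv_sq_sub {x : ℂ} (hx : ∀ n : ℤ, x ≠ n) :
    ∑' n : ℤ, 1 / (x - n) ^ 2 = (2 * π * I) ^ 2 * lam (ex x) := by
  rw [← invSq_eq_tsum_sub, invSq_eq_lam hx]

/-- **(D1)** The strip formula of `WP/Strip.lean` with the row `m = 0` in closed form:
for `|Im z| < Im τ`, `z ∉ ℤ`,
`℘(z)/(2πi)² = 1/12 + w/(1-w)² + ∑_{m ≥ 1} (E(qᵐ/w) + E(qᵐ w) - 2 E(qᵐ))`. -/
theorem hasSum_wp_strip_lam (τ : ℍ) (z : ℂ) (hz : |z.im| < τ.im) (hz' : ∀ n : ℤ, z ≠ n) :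
    HasSum (fun m : ℕ =>
        geomD (ex τ ^ (m + 1) * (ex z)⁻¹) + geomD (ex τ ^ (m + 1) * ex z)
          - 2 * geomD (ex τ ^ (m + 1)))
      (℘[pp τ] z / (2 * π * I) ^ 2 - 1 / 12 - lam (ex z)) := by
  have h := hasSum_wp_strip τ z hz
  have h2 := h.mul_left ((2 * π * I) ^ 2)⁻¹
  have hc := two_pi_I_sq_ne_zero
  have hπ : (π : ℂ) ≠ 0 := by exact_mod_cast Real.pi_ne_zero
  simp only [inv_mul_cancel_left₀ hc] at h2
  have key : ((2 * π * I) ^ 2)⁻¹ * (℘[pp τ] z - invSq z + (π : ℂ) ^ 2 / 3) =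
      ℘[pp τ] z / (2 * π * I) ^ 2 - 1 / 12 - lam (ex z) := by
    rw [invSq_eq_lam hz']
    have h4 : ((2 * π * I) ^ 2)⁻¹ * ((π : ℂ) ^ 2 / 3) = -(1 / 12) := by
      rw [two_pi_I_sq]
      field_simp
      ring
    rw [mul_add, h4, mul_sub, inv_mul_cancel_left₀ hc]
    ring
  rw [key] at h2
  exact h2

/-! ### Regrouping a Lambert-type double series -/

/-- The double family `k ε^k r^{dk}` over the pairs `(d, k)` with `0 < d`, `P d`. -/
def lamFam (P : ℕ → Prop) [DecidablePred P] (ε r : ℂ) (p : ℕ × ℕ) : ℂ :=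
  if 0 < p.1 ∧ P p.1 then (p.2 : ℂ) * ε ^ p.2 * r ^ (p.1 * p.2) else 0

/-- The coefficient of `r^n` after regrouping. -/
def lamCoeff (P : ℕ → Prop) [DecidablePred P] (ε : ℂ) (n : ℕ) : ℂ :=
  ∑ p ∈ n.divisorsAntidiagonal, if P p.1 then (p.2 : ℂ) * ε ^ p.2 else 0

theorem summable_lamFam (P : ℕ → Prop) [DecidablePred P] {ε r : ℂ} (hε : ‖ε‖ ≤ 1)
    (hr : ‖r‖ < 1) : Summable (lamFam P ε r) := by
  have hG : Summable (fun p : ℕ × ℕ =>
      if 0 < p.1 ∧ 0 < p.2 then (p.2 : ℝ) * ‖r‖ ^ (p.1 * p.2) else 0) := by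
    have h := summable_prod_mul_pow (𝕜 := ℝ) 1 (r := ‖r‖) (by simpa using hr)
    have hinj : Function.Injective (fun c : ℕ+ × ℕ+ => ((c.1 : ℕ), (c.2 : ℕ))) := by
      rintro ⟨a, b⟩ ⟨c, d⟩ h
      simp only [Prod.mk.injEq, PNat.coe_inj] at h
      rw [h.1, h.2]
    refine (hinj.summable_iff ?_).mp ?_
    · rintro ⟨d, k⟩ hx
      rw [if_neg]
      rintro ⟨hd, hk⟩
      exact hx ⟨(⟨d, hd⟩, ⟨k, hk⟩), rfl⟩
    · refine h.congr fun c => ?_
      simp [c.1.pos, c.2.pos]
  refine Summable.of_norm_bounded hG fun p => ?_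
  unfold lamFam
  by_cases h1 : 0 < p.1 ∧ P p.1
  · rw [if_pos h1]
    by_cases h2 : 0 < p.2
    · rw [if_pos ⟨h1.1, h2⟩, norm_mul, norm_mul, norm_pow, norm_pow]
      have h4 : ‖(p.2 : ℂ)‖ = p.2 := by simp
      rw [h4]
      have h3 : ‖ε‖ ^ p.2 ≤ 1 := pow_le_one₀ (norm_nonneg _) hε
      calc (p.2 : ℝ) * ‖ε‖ ^ p.2 * ‖r‖ ^ (p.1 * p.2)
          ≤ (p.2 : ℝ) * 1 * ‖r‖ ^ (p.1 * p.2) := by gcongr
        _ = (p.2 : ℝ) * ‖r‖ ^ (p.1 * p.2) := by ring
    · have h5 : p.2 = 0 := by omega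
      simp [h5]
  · rw [if_neg h1, norm_zero]
    split_ifs
    · positivity
    · exact le_rfl

theorem hasSum_lamFam_fiber (P : ℕ → Prop) [DecidablePred P] (ε r : ℂ) (n : ℕ) :
    HasSum (fun p : {p : ℕ × ℕ // p.1 * p.2 = n} => lamFam P ε r p) (lamCoeff P ε n * r ^ n) := by
  refine (hasSum_subtype_iff_indicator (s := {p : ℕ × ℕ | p.1 * p.2 = n})
    (f := lamFam P ε r)).mpr ?_
  have h := hasSum_sum_of_ne_finset_zero (L := SummationFilter.unconditional (ℕ × ℕ))
    (f := Set.indicator {p : ℕ × ℕ | p.1 * p.2 = n} (lamFam P ε r))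
    (s := n.divisorsAntidiagonal) ?_
  · convert h using 1
    unfold lamCoeff
    rw [Finset.sum_mul]
    refine Finset.sum_congr rfl fun p hp => ?_
    obtain ⟨h1, h2⟩ := Nat.mem_divisorsAntidiagonal.mp hp
    rw [Set.indicator_of_mem (show p ∈ {p : ℕ × ℕ | p.1 * p.2 = n} from h1)]
    unfold lamFam
    have hp1 : 0 < p.1 := by
      rcases Nat.eq_zero_or_pos p.1 with h0 | h0
      · rw [h0, zero_mul] at h1; exact absurd h1.symm h2
      · exact h0
    by_cases hP : P p.1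
    · rw [if_pos (show 0 < p.1 ∧ P p.1 from ⟨hp1, hP⟩), if_pos hP, h1]
    · rw [if_neg (show ¬ (0 < p.1 ∧ P p.1) from fun h => hP h.2), if_neg hP, zero_mul]
  · intro p hp
    by_cases hmem : p ∈ {p : ℕ × ℕ | p.1 * p.2 = n}
    · rw [Set.indicator_of_mem hmem]
      have hmem' : p.1 * p.2 = n := hmem
      have hn : n = 0 := by
        by_contra hn
        exact hp (Nat.mem_divisorsAntidiagonal.mpr ⟨hmem', hn⟩)
      unfold lamFam
      have h0 : p.1 * p.2 = 0 := by rw [hmem', hn]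
      rcases Nat.mul_eq_zero.mp h0 with h1 | h2
      · rw [if_neg (by omega)]
      · split_ifs
        · rw [h2]; simp
        · rfl
    · rw [Set.indicator_of_notMem hmem]

/-- Regrouping by `n = d k`. -/
theorem hasSum_lamCoeff (P : ℕ → Prop) [DecidablePred P] {ε r : ℂ} (hε : ‖ε‖ ≤ 1)
    (hr : ‖r‖ < 1) :
    HasSum (fun n : ℕ => lamCoeff P ε n * r ^ n) (∑' p : ℕ × ℕ, lamFam P ε r p) := by
  have h := (summable_lamFam P hε hr).hasSum
  have h2 := (Equiv.sigmaFiberEquiv (fun p : ℕ × ℕ => p.1 * p.2)).hasSum_iff.mpr h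
  exact h2.sigma (fun n => hasSum_lamFam_fiber P ε r n)

/-- Summing the rows `d`. -/
theorem hasSum_lamFam_rows (P : ℕ → Prop) [DecidablePred P] {ε r : ℂ} (hε : ‖ε‖ ≤ 1)
    (hr : ‖r‖ < 1) :
    HasSum (fun d : ℕ => if 0 < d ∧ P d then geomD (r ^ d * ε) else 0)
      (∑' p : ℕ × ℕ, lamFam P ε r p) := by
  have h := (summable_lamFam P hε hr).hasSum
  refine h.prod_fiberwise fun d => ?_
  unfold lamFam
  by_cases hd : 0 < d ∧ P d
  · simp only [if_pos hd]
    have hn : ‖r ^ d * ε‖ < 1 := by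
      rw [norm_mul, norm_pow]
      have h1 : ‖r‖ ^ d ≤ ‖r‖ := pow_le_of_le_one (norm_nonneg _) hr.le (by omega)
      calc ‖r‖ ^ d * ‖ε‖ ≤ ‖r‖ * 1 := by gcongr
        _ < 1 := by linarith
    refine (hasSum_geomD hn).congr_fun fun k => ?_
    rw [mul_pow, ← pow_mul]
    ring
  · simp only [if_neg hd]
    exact hasSum_zero

/-- The rows along an injective enumeration `d` of `{x | 0 < x ∧ P x}`. -/
theorem hasSum_lamFam_reindex (P : ℕ → Prop) [DecidablePred P] {ε r : ℂ} (hε : ‖ε‖ ≤ 1)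
    (hr : ‖r‖ < 1) (d : ℕ → ℕ) (hd : Function.Injective d)
    (hrange : ∀ x, (0 < x ∧ P x) ↔ x ∈ Set.range d) :
    HasSum (fun m : ℕ => geomD (r ^ d m * ε)) (∑' p : ℕ × ℕ, lamFam P ε r p) := by
  have h := hasSum_lamFam_rows P hε hr
  have h2 := (hd.hasSum_iff
    (f := fun x : ℕ => if 0 < x ∧ P x then geomD (r ^ x * ε) else 0) ?_).mpr h
  · refine h2.congr_fun fun m => ?_
    simp only [Function.comp]
    rw [if_pos ((hrange _).mpr ⟨m, rfl⟩)]
  · intro x hx
    rw [if_neg (fun h => hx ((hrange x).mp h))]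

/-! ### The coefficients of the division values -/

section Coeff

variable {K : Type*} [Field K]

/-- The coefficient of `Q^n`, `n ≥ 1`, of the division value at `(a τ + b)/M`:
`∑_{d k = n} k ([d ≡ a] ζ^{bk} + [d ≡ -a] ζ^{-bk} - 2 [d ≡ 0])` (congruences mod `M`). -/
def divCoeffPos (M : ℕ) (ζ : K) (a b : ℤ) (n : ℕ) : K :=
  ∑ p ∈ n.divisorsAntidiagonal,
    (p.2 : K) * ((if (M : ℤ) ∣ (p.1 : ℤ) - a then (ζ ^ b) ^ p.2 else 0)
      + (if (M : ℤ) ∣ (p.1 : ℤ) + a then (ζ ^ (-b)) ^ p.2 else 0)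
      - (if (M : ℤ) ∣ (p.1 : ℤ) then 2 else 0))

/-- The coefficients of the division value at `(a τ + b)/M`; the constant term is
`1/12 + [a ≡ 0] ζ^b/(1-ζ^b)²`. -/
def divCoeff (M : ℕ) (ζ : K) (a b : ℤ) (n : ℕ) : K :=
  (if n = 0 then 1 / 12 + (if (M : ℤ) ∣ a then lam (ζ ^ b) else 0) else 0)
    + divCoeffPos M ζ a b n

@[simp] theorem divCoeffPos_zero (M : ℕ) (ζ : K) (a b : ℤ) : divCoeffPos M ζ a b 0 = 0 := by
  simp [divCoeffPos]

theorem divCoeff_zero (M : ℕ) (ζ : K) (a b : ℤ) :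
    divCoeff M ζ a b 0 = 1 / 12 + (if (M : ℤ) ∣ a then lam (ζ ^ b) else 0) := by
  simp [divCoeff]

theorem divCoeff_of_ne_zero (M : ℕ) (ζ : K) (a b : ℤ) {n : ℕ} (hn : n ≠ 0) :
    divCoeff M ζ a b n = divCoeffPos M ζ a b n := by
  simp [divCoeff, hn]

theorem divCoeffPos_congr (M : ℕ) (ζ : K) {a a' : ℤ} (h : (M : ℤ) ∣ a - a') (b : ℤ) (n : ℕ) :
    divCoeffPos M ζ a b n = divCoeffPos M ζ a' b n := by
  unfold divCoeffPos
  refine Finset.sum_congr rfl fun p _ => ?_
  have h1 : (M : ℤ) ∣ (p.1 : ℤ) - a ↔ (M : ℤ) ∣ (p.1 : ℤ) - a' := by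
    constructor
    · intro h2
      have h3 := dvd_add h2 h
      rwa [show (p.1 : ℤ) - a + (a - a') = (p.1 : ℤ) - a' by ring] at h3
    · intro h2
      have h3 := dvd_sub h2 h
      rwa [show (p.1 : ℤ) - a' - (a - a') = (p.1 : ℤ) - a by ring] at h3
  have h2 : (M : ℤ) ∣ (p.1 : ℤ) + a ↔ (M : ℤ) ∣ (p.1 : ℤ) + a' := by
    constructor
    · intro h2
      have h3 := dvd_sub h2 h
      rwa [show (p.1 : ℤ) + a - (a - a') = (p.1 : ℤ) + a' by ring] at h3
    · intro h2
      have h3 := dvd_add h2 h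
      rwa [show (p.1 : ℤ) + a' + (a - a') = (p.1 : ℤ) + a by ring] at h3
  simp only [h1, h2]

theorem divCoeff_congr (M : ℕ) (ζ : K) {a a' : ℤ} (h : (M : ℤ) ∣ a - a') (b : ℤ) (n : ℕ) :
    divCoeff M ζ a b n = divCoeff M ζ a' b n := by
  unfold divCoeff
  have h1 : (M : ℤ) ∣ a ↔ (M : ℤ) ∣ a' := by
    constructor
    · intro h2
      have := Int.dvd_sub h2 h
      simpa using this
    · intro h2
      have := Int.dvd_add h h2
      simpa using this
  rw [divCoeffPos_congr M ζ h b n]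
  simp only [h1]

end Coeff

theorem divCoeffPos_eq_lamCoeff (M : ℕ) (ζ : ℂ) (a b : ℤ) (n : ℕ) :
    divCoeffPos M ζ a b n =
      lamCoeff (fun x : ℕ => (M : ℤ) ∣ (x : ℤ) - a) (ζ ^ b) n
        + lamCoeff (fun x : ℕ => (M : ℤ) ∣ (x : ℤ) + a) (ζ ^ (-b)) n
        - 2 * lamCoeff (fun x : ℕ => (M : ℤ) ∣ (x : ℤ)) 1 n := by
  unfold divCoeffPos lamCoeff
  rw [Finset.mul_sum, ← Finset.sum_add_distrib, ← Finset.sum_sub_distrib]
  refine Finset.sum_congr rfl fun p _ => ?_
  split_ifs <;> simp <;> ring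

/-! ### The expansion at the division points -/

/-- Core case `0 ≤ a < M` of `hasSum_wp_div`. -/
theorem hasSum_wp_div_aux (M : ℕ) [NeZero M] (τ : ℍ) (a : ℕ) (ha : a < M) (b : ℤ)
    (hab : ¬ ((M : ℤ) ∣ (a : ℤ) ∧ (M : ℤ) ∣ b)) :
    HasSum (fun n : ℕ => divCoeff M (ex (1 / M)) (a : ℤ) b n * ex ((τ : ℂ) / M) ^ n)
      (℘[pp τ] ((a * τ + b) / M) / (2 * π * I) ^ 2) := by
  have hM : (M : ℂ) ≠ 0 := Nat.cast_ne_zero.mpr (NeZero.ne M)
  have hMpos : 0 < M := Nat.pos_of_ne_zero (NeZero.ne M)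
  have hMR : (0 : ℝ) < M := by exact_mod_cast hMpos
  obtain ⟨Q, hQ⟩ : ∃ Q : ℂ, Q = ex ((τ : ℂ) / M) := ⟨_, rfl⟩
  obtain ⟨ζ, hζ⟩ : ∃ ζ : ℂ, ζ = ex (1 / (M : ℂ)) := ⟨_, rfl⟩
  obtain ⟨z, hz⟩ : ∃ z : ℂ, z = (a * τ + b) / M := ⟨_, rfl⟩
  rw [← hQ, ← hζ, ← hz]
  have hQ0 : Q ≠ 0 := hQ ▸ ex_ne_zero _
  have hζ0 : ζ ≠ 0 := hζ ▸ ex_ne_zero _
  have hQn : ‖Q‖ < 1 := by
    rw [hQ]
    apply norm_ex_lt_one
    rw [Complex.div_natCast_im]
    exact div_pos τ.im_pos hMR
  have hζn : ‖ζ‖ = 1 := by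
    rw [hζ]
    apply norm_ex_of_im_eq_zero
    rw [Complex.div_natCast_im]
    simp
  have hζb : ∀ c : ℤ, ‖ζ ^ c‖ ≤ 1 := by
    intro c
    rw [norm_zpow, hζn, one_zpow]
  have hQM : ex τ = Q ^ M := by
    rw [hQ, ← ex_natCast_mul]
    congr 1
    field_simp
  have hexz : ex z = Q ^ a * ζ ^ b := by
    rw [hQ, hζ, ← ex_natCast_mul, ← ex_intCast_mul, ← ex_add]
    congr 1
    rw [hz]
    field_simp
  have hzim : z.im = a * τ.im / M := by
    rw [hz, Complex.div_natCast_im]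
    simp
  have hstrip : |z.im| < τ.im := by
    rw [hzim, abs_of_nonneg (by have := τ.im_pos; positivity), div_lt_iff₀ hMR, mul_comm]
    have h1 : (a : ℝ) < M := by exact_mod_cast ha
    exact mul_lt_mul_of_pos_left h1 τ.im_pos
  have ha0 : (M : ℤ) ∣ (a : ℤ) ↔ a = 0 := by
    constructor
    · intro h
      by_contra hne
      have h1 := Int.le_of_dvd (by omega) h
      omega
    · rintro rfl
      simp
  have hzint : ∀ n : ℤ, z ≠ n := by
    intro n hn
    have h1 : z.im = 0 := by rw [hn]; simp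
    rw [hzim] at h1
    have h2 : (a : ℝ) = 0 := by
      have h3 := τ.im_pos
      rcases div_eq_zero_iff.mp h1 with h4 | h4
      · rcases mul_eq_zero.mp h4 with h5 | h5
        · exact h5
        · exact absurd h5 h3.ne'
      · exact absurd h4 hMR.ne'
    have h3 : a = 0 := by exact_mod_cast h2
    apply hab
    refine ⟨ha0.mpr h3, ?_⟩
    rw [h3] at hz
    have h4 : (b : ℂ) = (n : ℂ) * M := by
      rw [← hn, hz]
      field_simp
      simp
    refine ⟨n, ?_⟩
    have h5 : (b : ℂ) = ((M * n : ℤ) : ℂ) := by rw [h4]; push_cast; ring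
    exact_mod_cast h5
  -- the three families
  have hle : ∀ m : ℕ, M ≤ (m + 1) * M := fun m => Nat.le_mul_of_pos_left M (Nat.succ_pos m)
  have hS1 := hasSum_lamFam_reindex (fun x : ℕ => (M : ℤ) ∣ (x : ℤ) + a) (hζb (-b)) hQn
    (fun m : ℕ => (m + 1) * M - a)
    (by
      intro m m' h
      have h1 := hle m
      have h2 := hle m'
      have h3 : (m + 1) * M = (m' + 1) * M := by
        simp only at h
        omega
      have h4 := Nat.eq_of_mul_eq_mul_right hMpos h3
      omega)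
    (by
      intro x
      constructor
      · rintro ⟨hx, t, ht⟩
        have ht1 : 0 < t := by
          by_contra hneg
          have h1 : (M : ℤ) * t ≤ 0 :=
            mul_nonpos_of_nonneg_of_nonpos (by positivity) (by omega)
          omega
        obtain ⟨m, rfl⟩ : ∃ m : ℕ, t = m + 1 := ⟨(t - 1).toNat, by omega⟩
        refine ⟨m, ?_⟩
        have h1 : x + a = (m + 1) * M := by
          have : ((x + a : ℕ) : ℤ) = (((m + 1) * M : ℕ) : ℤ) := by
            push_cast; rw [ht]; ring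
          exact_mod_cast this
        simp only
        omega
      · rintro ⟨m, rfl⟩
        have h1 := hle m
        refine ⟨?_, m + 1, ?_⟩
        · show 0 < (m + 1) * M - a
          omega
        · show (((m + 1) * M - a : ℕ) : ℤ) + (a : ℤ) = (M : ℤ) * ((m : ℤ) + 1)
          rw [Nat.cast_sub (by omega)]
          push_cast
          ring)
  have hS3 := hasSum_lamFam_reindex (fun x : ℕ => (M : ℤ) ∣ (x : ℤ)) (ε := 1) (by simp) hQn
    (fun m : ℕ => (m + 1) * M)
    (by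
      intro m m' h
      have h4 := Nat.eq_of_mul_eq_mul_right hMpos h
      omega)
    (by
      intro x
      constructor
      · rintro ⟨hx, t, ht⟩
        have ht1 : 0 < t := by
          by_contra hneg
          have h1 : (M : ℤ) * t ≤ 0 :=
            mul_nonpos_of_nonneg_of_nonpos (by positivity) (by omega)
          omega
        obtain ⟨m, rfl⟩ : ∃ m : ℕ, t = m + 1 := ⟨(t - 1).toNat, by omega⟩
        refine ⟨m, ?_⟩
        have : (((m + 1) * M : ℕ) : ℤ) = (x : ℤ) := by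
          push_cast; rw [ht]; ring
        exact_mod_cast this
      · rintro ⟨m, rfl⟩
        have h1 := hle m
        refine ⟨?_, m + 1, ?_⟩
        · show 0 < (m + 1) * M
          omega
        · show (((m + 1) * M : ℕ) : ℤ) = (M : ℤ) * ((m : ℤ) + 1)
          push_cast
          ring)
  have hS2 : HasSum (fun m : ℕ => geomD (Q ^ ((m + 1) * M + a) * ζ ^ b))
      ((∑' p : ℕ × ℕ, lamFam (fun x : ℕ => (M : ℤ) ∣ (x : ℤ) - a) (ζ ^ b) Q p)
        - (if a = 0 then 0 else lam (ex z))) := by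
    by_cases ha' : a = 0
    · rw [if_pos ha', sub_zero]
      have h := hasSum_lamFam_reindex (fun x : ℕ => (M : ℤ) ∣ (x : ℤ) - a) (hζb b) hQn
        (fun m : ℕ => (m + 1) * M)
        (by
          intro m m' h
          have h4 := Nat.eq_of_mul_eq_mul_right hMpos h
          omega)
        (by
          intro x
          rw [ha']
          constructor
          · rintro ⟨hx, t, ht⟩
            have ht1 : 0 < t := by
              by_contra hneg
              have h1 : (M : ℤ) * t ≤ 0 :=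
                mul_nonpos_of_nonneg_of_nonpos (by positivity) (by omega)
              simp only [Nat.cast_zero, sub_zero] at ht
              omega
            obtain ⟨m, rfl⟩ : ∃ m : ℕ, t = m + 1 := ⟨(t - 1).toNat, by omega⟩
            refine ⟨m, ?_⟩
            have : (((m + 1) * M : ℕ) : ℤ) = (x : ℤ) := by
              simp only [Nat.cast_zero, sub_zero] at ht
              push_cast; rw [ht]; ring
            exact_mod_cast this
          · rintro ⟨m, rfl⟩
            have h1 := hle m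
            refine ⟨?_, m + 1, ?_⟩
            · show 0 < (m + 1) * M
              omega
            · show (((m + 1) * M : ℕ) : ℤ) - ((0 : ℕ) : ℤ) = (M : ℤ) * ((m : ℤ) + 1)
              push_cast
              ring)
      refine h.congr_fun fun m => ?_
      rw [ha', add_zero]
    · rw [if_neg ha']
      have h := hasSum_lamFam_reindex (fun x : ℕ => (M : ℤ) ∣ (x : ℤ) - a) (hζb b) hQn
        (fun m : ℕ => m * M + a)
        (by
          intro m m' h
          have h3 : m * M = m' * M := by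
            simp only at h
            omega
          exact Nat.eq_of_mul_eq_mul_right hMpos h3)
        (by
          intro x
          constructor
          · rintro ⟨hx, t, ht⟩
            have ht1 : 0 ≤ t := by
              by_contra hneg
              have h1 : (M : ℤ) * t ≤ (M : ℤ) * (-1) :=
                mul_le_mul_of_nonneg_left (by omega) (by positivity)
              omega
            obtain ⟨m, rfl⟩ : ∃ m : ℕ, t = m := ⟨t.toNat, by omega⟩
            refine ⟨m, ?_⟩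
            have : ((m * M + a : ℕ) : ℤ) = (x : ℤ) := by
              push_cast
              have : (x : ℤ) = M * m + a := by omega
              rw [this]; ring
            exact_mod_cast this
          · rintro ⟨m, rfl⟩
            refine ⟨?_, m, ?_⟩
            · show 0 < m * M + a
              omega
            · show ((m * M + a : ℕ) : ℤ) - (a : ℤ) = (M : ℤ) * (m : ℤ)
              push_cast
              ring)
      have h' := (hasSum_nat_add_iff' 1).mpr h
      simp only [Finset.range_one, Finset.sum_singleton, zero_mul, zero_add] at h'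
      have hn : ‖Q ^ a * ζ ^ b‖ < 1 := by
        rw [norm_mul, norm_pow, norm_zpow, hζn, one_zpow, mul_one]
        exact pow_lt_one₀ (norm_nonneg _) hQn ha'
      rw [geomD_eq_lam hn, ← hexz] at h'
      exact h'
  -- the strip formula
  have hD1 := hasSum_wp_strip_lam τ z hstrip hzint
  have hcomb := (hS1.add hS2).sub (hS3.mul_left 2)
  have heq := hD1.unique (hcomb.congr_fun fun m => by
    have h1 := hle m
    have e1 : ex τ ^ (m + 1) * (ex z)⁻¹ = Q ^ ((m + 1) * M - a) * ζ ^ (-b) := by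
      rw [hQM, hexz, ← pow_mul, mul_comm M (m + 1)]
      have h2 : Q ^ ((m + 1) * M) = Q ^ ((m + 1) * M - a) * Q ^ a := by
        rw [← pow_add, Nat.sub_add_cancel (by omega)]
      rw [h2, zpow_neg, mul_inv]
      field_simp
    have e2 : ex τ ^ (m + 1) * ex z = Q ^ ((m + 1) * M + a) * ζ ^ b := by
      rw [hQM, hexz, ← pow_mul, mul_comm M (m + 1), pow_add]
      ring
    have e3 : ex τ ^ (m + 1) = Q ^ ((m + 1) * M) * 1 := by
      rw [hQM, ← pow_mul, mul_comm M (m + 1), mul_one]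
    rw [e1, e2, ← e3])
  -- the coefficients
  have hA1 := hasSum_lamCoeff (fun x : ℕ => (M : ℤ) ∣ (x : ℤ) + a) (hζb (-b)) hQn
  have hA2 := hasSum_lamCoeff (fun x : ℕ => (M : ℤ) ∣ (x : ℤ) - a) (hζb b) hQn
  have hA3 := hasSum_lamCoeff (fun x : ℕ => (M : ℤ) ∣ (x : ℤ)) (ε := 1) (by simp) hQn
  have hc := hasSum_ite_eq (0 : ℕ) ((1 : ℂ) / 12 + (if (M : ℤ) ∣ (a : ℤ) then lam (ζ ^ b) else 0))
  have htot := hc.add ((hA2.add hA1).sub (hA3.mul_left 2))
  have hval : ℘[pp τ] z / (2 * π * I) ^ 2 =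
      (1 : ℂ) / 12 + (if (M : ℤ) ∣ (a : ℤ) then lam (ζ ^ b) else 0)
        + ((∑' p : ℕ × ℕ, lamFam (fun x : ℕ => (M : ℤ) ∣ (x : ℤ) - a) (ζ ^ b) Q p)
          + (∑' p : ℕ × ℕ, lamFam (fun x : ℕ => (M : ℤ) ∣ (x : ℤ) + a) (ζ ^ (-b)) Q p)
          - 2 * (∑' p : ℕ × ℕ, lamFam (fun x : ℕ => (M : ℤ) ∣ (x : ℤ)) 1 Q p)) := by
    have hE : (if (M : ℤ) ∣ (a : ℤ) then lam (ζ ^ b) else 0) =
        lam (ex z) - (if a = 0 then 0 else lam (ex z)) := by
      by_cases ha' : a = 0
      · rw [if_pos (ha0.mpr ha'), if_pos ha', sub_zero, hexz, ha', pow_zero, one_mul]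
      · rw [if_neg (fun h => ha' (ha0.mp h)), if_neg ha', sub_self]
    rw [hE]
    linear_combination heq
  rw [hval]
  refine htot.congr_fun fun n => ?_
  rw [divCoeff, divCoeffPos_eq_lamCoeff]
  by_cases hn : n = 0
  · subst hn
    simp [lamCoeff]
  · simp only [if_neg hn]
    ring

/-- **(D2) The expansion of `℘` at the `M`-division points.** For integers `a, b` not both
divisible by `M`, with `Q = e^{2πiτ/M}` and `ζ = e^{2πi/M}`:
`℘[pp τ]((a τ + b)/M) / (2πi)² = ∑_{n ≥ 0} divCoeff M ζ a b n · Qⁿ`. -/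
theorem hasSum_wp_div (M : ℕ) [NeZero M] (τ : ℍ) (a b : ℤ)
    (hab : ¬ ((M : ℤ) ∣ a ∧ (M : ℤ) ∣ b)) :
    HasSum (fun n : ℕ => divCoeff M (cexp (2 * π * I / M)) a b n * cexp (2 * π * I * τ / M) ^ n)
      (℘[pp τ] ((a * τ + b) / M) / (2 * π * I) ^ 2) := by
  have hM : (M : ℂ) ≠ 0 := Nat.cast_ne_zero.mpr (NeZero.ne M)
  have hMZ : (M : ℤ) ≠ 0 := Int.natCast_ne_zero.mpr (NeZero.ne M)
  have hMpos : (0 : ℤ) < M := Int.natCast_pos.mpr (Nat.pos_of_ne_zero (NeZero.ne M))
  obtain ⟨a0, ha0⟩ : ∃ a0 : ℕ, (a0 : ℤ) = a % M :=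
    ⟨(a % M).toNat, Int.toNat_of_nonneg (Int.emod_nonneg a hMZ)⟩
  have ha0lt : a0 < M := by
    have h1 := Int.emod_lt_of_pos a hMpos
    omega
  have hdvd : (M : ℤ) ∣ a - a0 := by
    refine ⟨a / M, ?_⟩
    have h1 := Int.emod_add_mul_ediv a (M : ℤ)
    linarith
  have hab0 : ¬ ((M : ℤ) ∣ (a0 : ℤ) ∧ (M : ℤ) ∣ b) := by
    rintro ⟨h1, h2⟩
    apply hab
    refine ⟨?_, h2⟩
    have h3 := dvd_add hdvd h1
    simpa using h3
  have h := hasSum_wp_div_aux M τ a0 ha0lt b hab0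
  have e1 : ex (1 / (M : ℂ)) = cexp (2 * π * I / M) := by
    unfold ex; congr 1; ring
  have e2 : ex ((τ : ℂ) / M) = cexp (2 * π * I * τ / M) := by
    unfold ex; congr 1; ring
  rw [e1, e2] at h
  obtain ⟨t, ht⟩ := hdvd
  have hz : ((a : ℂ) * τ + b) / M = ((a0 : ℂ) * τ + b) / M + (t : ℂ) * τ := by
    have h1 : a = a0 + M * t := by linarith
    have h2 : (a : ℂ) = (a0 : ℂ) + M * t := by
      rw [h1]; push_cast; ring
    rw [h2]
    field_simp
    ring
  have hl : (t : ℂ) * τ ∈ (pp τ).lattice := (mem_lattice_iff τ _).mpr ⟨(t, 0), by simp [lat]⟩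
  rw [hz, show (t : ℂ) * τ = ((⟨(t : ℂ) * τ, hl⟩ : (pp τ).lattice) : ℂ) from rfl,
    weierstrassP_add_coe]
  refine h.congr_fun fun n => ?_
  rw [divCoeff_congr M _ (show (M : ℤ) ∣ a - a0 from ⟨t, ht⟩) b n]

end Fermat.Agent.S48.G1.WPDiv
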